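import Mathlib
import Fermat.Prelude.Def_ModularCurve_HeckeModule

/-!
# Statement S36' of the S36 blueprint
-/

set_option autoImplicit false

noncomputable section

open AlgebraicCurve ModularCurve

namespace Fermat.Agent.DR.S36

section

variable {K F F' : Type*} [Field K] [Field F] [Field F'] [Algebra K F] [Algebra K F']

/-- The push-forward of the class `x` along `φ` vanishes. -/
def PushZero (φ : F →ₐ[K] F') (x : Pic0 K F') : Prop :=
  ∀ (hφ : φ.toRingHom.IsIntegral) (D : Divisor.degZero (K := K) (F := F')), Pic0.mk D = x →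
    (Divisor.pushforwardAlong φ hφ (D : Divisor K F')).IsPrincipal

end

/-- **S36'**: classes of `J₀(q²N)[m]`, `q ∤ m`, which are fixed by an inertia group at `q` and
new at `q²` (killed by the two push-forwards to level `qN`) are of bounded order. -/
def S36Prime (N q : ℕ) [NeZero N] [NeZero q] : Prop :=
  ∃ C : ℕ, 0 < C ∧ ∀ A : ValuationSubring (AlgebraicClosure ℚ), A.LiesOverPrime q →
    ∀ m : ℕ, Nat.Coprime m q → ∀ x : JZero (N * q * q), m • x = 0 →
      (∀ τ ∈ A.inertiaSubgroupIn ℚ, τ • x = x) →
      PushZero (heckeAlphaBar (AlgebraicClosure ℚ) (N * q) q) x →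
      PushZero (heckeBetaBar (AlgebraicClosure ℚ) (N * q) q) x →
      C • x = 0

end Fermat.Agent.DR.S36
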