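import Fermat.Agent.DR.S36.LFun
import Fermat.Agent.RR.Corollaries

/-!
# Fixed divisors in fixed divisor classes
-/

set_option autoImplicit false

noncomputable section

open ModularCurve AlgebraicCurve

namespace Fermat.Agent.DR.S36.L

open Fermat.Agent.MFF Fermat.Agent.RR

section Abstract

variable {K F : Type*} [Field K] [Field F] [Algebra K F]

theorem smul_divOf [HasPrincipalDivisors K F] (g : SemilinearAut K F) (f : F) :
    g • (divOf f : Divisor K F) = divOf (g • f) := by
  ext v
  rw [SemilinearAut.divisor_smul_apply, divOf_apply, divOf_apply]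
  have h := SemilinearAut.ord_smul g (g⁻¹ • v) f
  rw [smul_inv_smul] at h
  exact h.symm

theorem semi_smul_ne_zero (g : SemilinearAut K F) {f : F} (hf : f ≠ 0) : g • f ≠ 0 := by
  rw [SemilinearAut.smul_def]
  exact (map_ne_zero_iff _ (SemilinearAut.toRingAut g).injective).mpr hf

variable [IsAlgClosed K] [FunctionField K F]

theorem exists_nsmul_finrank_eq_one (D : Divisor K F) (hD : Divisor.degree D = 0)
    (P : Place K F) : ∃ n : ℕ, Module.finrank K (riemannRochSpace
      (D + Finsupp.single P (n : ℤ) : Divisor K F)) = 1 := by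
  have hex : ∃ n : ℕ, 0 < Module.finrank K (riemannRochSpace
      (D + Finsupp.single P (n : ℤ) : Divisor K F)) := by
    refine ⟨genusFF K F, ?_⟩
    have h1 := finrank_riemannRochSpace_ge (D + Finsupp.single P ((genusFF K F : ℕ) : ℤ))
    rw [map_add, hD, degree_single_one] at h1
    omega
  classical
  have h1 := Nat.find_spec hex
  refine ⟨Nat.find hex, le_antisymm ?_ h1⟩
  set n := Nat.find hex with hn
  have h2 : Module.finrank K (riemannRochSpace
      (D + Finsupp.single P ((n : ℤ) - 1) : Divisor K F)) = 0 := by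
    rcases Nat.eq_zero_or_pos n with h0 | hpos
    · have hdeg : Divisor.degree (D + Finsupp.single P ((n : ℤ) - 1) : Divisor K F) < 0 := by
        rw [map_add, hD, degree_single_one]; omega
      rw [riemannRochSpace_eq_bot hdeg, finrank_bot]
    · have h3 := Nat.find_min hex (m := n - 1) (by omega)
      have h4 : ((n - 1 : ℕ) : ℤ) = (n : ℤ) - 1 := by omega
      rw [h4] at h3
      omega
  have h5 := finrank_add_single_le (D + Finsupp.single P ((n : ℤ) - 1) : Divisor K F) P
  rw [h2] at h5
  have h6 : (D + Finsupp.single P ((n : ℤ) - 1) + Finsupp.single P 1 : Divisor K F) =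
      D + Finsupp.single P (n : ℤ) := by
    rw [add_assoc, ← Finsupp.single_add, sub_add_cancel]
  rw [h6] at h5
  simpa using h5

/-- **A divisor class of degree zero fixed by a set `G` of semilinear automorphisms contains a
divisor fixed by `G`**, provided there is a place fixed by `G`. -/
theorem exists_fixed (G : Set (SemilinearAut K F)) (P : Place K F) (hP : ∀ g ∈ G, g • P = P)
    {D : Divisor K F} (hdeg : Divisor.degree D = 0)
    (hD : ∀ g ∈ G, ∃ h : F, h ≠ 0 ∧ g • D = D + divOf h) :
    ∃ f : F, f ≠ 0 ∧ ∀ g ∈ G, g • (D + divOf f) = D + divOf f := by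
  obtain ⟨n, hn⟩ := exists_nsmul_finrank_eq_one D hdeg P
  set E : Divisor K F := D + Finsupp.single P (n : ℤ) with hE
  obtain ⟨⟨f, hfE⟩, hf0, hspan⟩ := finrank_eq_one_iff'.mp hn
  have hf : f ≠ 0 := fun h => hf0 (Subtype.ext h)
  refine ⟨f, hf, fun g hg => ?_⟩
  obtain ⟨h, hh, hgD⟩ := hD g hg
  have hgf := semi_smul_ne_zero g hf
  have hgE : g • E = E + divOf h := by
    rw [hE, smul_add, hgD, SemilinearAut.smul_single, hP g hg]
    abel
  have heff : 0 ≤ E + divOf f := (mem_riemannRochSpace_of_ne_zero hf).mp hfE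
  have h1 : g • (E + divOf f) = E + divOf (h * (g • f)) := by
    rw [smul_add, hgE, smul_divOf, divOf_mul hh hgf]
    abel
  have h2 : 0 ≤ g • (E + divOf f) := by
    intro v
    rw [SemilinearAut.divisor_smul_apply]
    exact heff _
  have hmem : h * (g • f) ∈ riemannRochSpace E :=
    (mem_riemannRochSpace_of_ne_zero (mul_ne_zero hh hgf)).mpr (h1 ▸ h2)
  obtain ⟨c, hc⟩ := hspan ⟨_, hmem⟩
  have hc' : c • f = h * (g • f) := congrArg Subtype.val hc
  have hc0 : c ≠ 0 := by
    rintro rfl
    rw [zero_smul] at hc'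
    exact mul_ne_zero hh hgf hc'.symm
  have h3 : (divOf (h * (g • f)) : Divisor K F) = divOf f := by
    ext v
    rw [divOf_apply, divOf_apply, ← hc', ord_smul v hc0]
  rw [h3] at h1
  have h4 : D + divOf f = (E + divOf f) - Finsupp.single P (n : ℤ) := by
    rw [hE]; abel
  rw [h4, smul_sub, h1, SemilinearAut.smul_single, hP g hg]

/-- **Fixed classes contain fixed divisors.** -/
theorem exists_fixed_mk (G : Set (SemilinearAut K F)) (P : Place K F)
    (hP : ∀ g ∈ G, g • P = P) (x : Pic0 K F) (hx : ∀ g ∈ G, g • x = x) :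
    ∃ D : Divisor.degZero (K := K) (F := F), Pic0.mk D = x ∧
      ∀ g ∈ G, g • (D : Divisor K F) = D := by
  obtain ⟨D₀, rfl⟩ := Pic0.mk_surjective x
  obtain ⟨f, hf, hfix⟩ := exists_fixed G P hP (D := (D₀ : Divisor K F))
    (Divisor.mem_degZero.mp D₀.2)
    (by
      intro g hg
      have h1 := hx g hg
      rw [SemilinearAut.pic0_smul_mk] at h1
      have h2 := (QuotientAddGroup.eq (s := (Divisor.principal (K := K) (F := F)).addSubgroupOf
        (Divisor.degZero (K := K) (F := F)))).mp h1.symm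
      rw [AddSubgroup.mem_addSubgroupOf] at h2
      obtain ⟨h, hh, hdiv⟩ := h2
      refine ⟨h, hh, ?_⟩
      ext v
      have h4 := hdiv v
      simp only [AddSubgroup.coe_add, AddSubgroup.coe_neg, SemilinearAut.coe_degZeroSMulHom,
        Finsupp.coe_add, Finsupp.coe_neg, Pi.add_apply, Pi.neg_apply] at h4
      simp only [Finsupp.coe_add, Pi.add_apply, divOf_apply]
      linarith)
  have hdeg : (D₀ : Divisor K F) + divOf f ∈ Divisor.degZero (K := K) (F := F) := by
    apply add_mem D₀.2
    rw [Divisor.mem_degZero, degree_divOf]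
  refine ⟨⟨_, hdeg⟩, ?_, hfix⟩
  symm
  apply (QuotientAddGroup.eq (s := (Divisor.principal (K := K) (F := F)).addSubgroupOf
        (Divisor.degZero (K := K) (F := F)))).mpr
  rw [AddSubgroup.mem_addSubgroupOf]
  refine ⟨f, hf, fun v => ?_⟩
  simp only [AddSubgroup.coe_add, AddSubgroup.coe_neg,
        Finsupp.coe_add, Finsupp.coe_neg, Pi.add_apply, Pi.neg_apply, divOf_apply]
  ring

/-- A normalised function with a fixed divisor is fixed. -/
theorem smul_eq_of_fixed {X : Type*} (cf : X → F →ₗ[K] K) (g : SemilinearAut K F)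
    (hcf : ∀ n f, cf n (g • f) = SemilinearAut.baseAut g (cf n f)) {D : Divisor K F}
    (hg : g • D = D) {h : F} (hh : h ≠ 0) (hdiv : ∀ v : Place K F, D v = v.ord h) {n : X}
    (hn : cf n h = 1) : g • h = h := by
  have hD : D = divOf h := by ext v; rw [divOf_apply, hdiv]
  have h1 : (divOf (g • h) : Divisor K F) = divOf h := by
    rw [← smul_divOf, ← hD, hg]
  rw [divOf_eq_iff (semi_smul_ne_zero _ hh) hh] at h1
  obtain ⟨c, hc, h2⟩ := h1
  have h3 := congrArg (cf n) h2
  rw [hcf, map_smul, hn, map_one, smul_eq_mul, mul_one] at h3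
  rw [h2, ← h3, one_smul]

end Abstract

section Modular

variable {A : ValuationSubring (AlgebraicClosure ℚ)} {N : ℕ} [NeZero N]

/-- **Fixed divisors in classes fixed by inertia.** -/
theorem exists_fixed_divisor {x : JZero N}
    (hx : ∀ σ ∈ A.inertiaSubgroupIn ℚ, σ • x = x) :
    ∃ D : Divisor.degZero (K := AlgebraicClosure ℚ) (F := modularFunctionFieldBar N),
      Pic0.mk D = x ∧ ∀ σ ∈ A.inertiaSubgroupIn ℚ,
        arithmeticGalois (modularFunctionFieldFull N) σ •
          (D : Divisor (AlgebraicClosure ℚ) (modularFunctionFieldBar N)) = D := by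
  obtain ⟨D, hD, hfix⟩ := exists_fixed_mk
    ((fun σ => arithmeticGalois (modularFunctionFieldFull N) σ) ''
      (A.inertiaSubgroupIn ℚ : Set _)) (cuspPlace N)
    (by
      rintro _ ⟨σ, -, rfl⟩
      exact arithmeticGalois_smul_cuspPlace N σ) x
    (by
      rintro _ ⟨σ, hσ, rfl⟩
      exact hx σ hσ)
  exact ⟨D, hD, fun σ hσ => hfix _ ⟨σ, hσ, rfl⟩⟩

variable {L : Type*} [Field L] [Algebra L (AlgebraicClosure ℚ)] [IsInertiaField A L]

omit [NeZero N] in
theorem cfn_galois (σ : AlgebraicClosure ℚ ≃ₐ[ℚ] AlgebraicClosure ℚ) (n : ℤ)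
    (f : modularFunctionFieldBar N) :
    cfn (modularFunctionFieldBar N) n (arithmeticGalois (modularFunctionFieldFull N) σ • f) =
      SemilinearAut.baseAut (arithmeticGalois (modularFunctionFieldFull N) σ)
        (cfn (modularFunctionFieldBar N) n f) :=
  coeff_arithmeticGalois_smul σ f n

/-- **An inertia-fixed principal divisor is the divisor of a function over the inertia field**
(with leading coefficient `1` at the cusp `∞`). -/
theorem exists_function {D : Divisor (AlgebraicClosure ℚ) (modularFunctionFieldBar N)}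
    (hD : ∀ σ ∈ A.inertiaSubgroupIn ℚ,
      arithmeticGalois (modularFunctionFieldFull N) σ • D = D) (hprin : D.IsPrincipal) :
    ∃ f : modularFunctionFieldFullC L N, f ≠ 0 ∧
      (f : LaurentSeries L).coeff (f : LaurentSeries L).order = 1 ∧
      ∀ v : Place (AlgebraicClosure ℚ) (modularFunctionFieldBar N), D v = v.ord (inc L N f) := by
  obtain ⟨h, hh, hdiv⟩ := hprin
  have hh' : (h : LaurentSeries (AlgebraicClosure ℚ)) ≠ 0 := fun h0 => hh (Subtype.ext h0)
  obtain ⟨n, hn⟩ : ∃ n : ℤ, n = (h : LaurentSeries (AlgebraicClosure ℚ)).order := ⟨_, rfl⟩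
  obtain ⟨c, hc⟩ : ∃ c, c = cfn (modularFunctionFieldBar N) n h := ⟨_, rfl⟩
  have hc0 : c ≠ 0 := by
    rw [hc, hn, cfn_apply, Ne, HahnSeries.coeff_order_eq_zero]
    exact hh'
  obtain ⟨h₁, hh₁⟩ : ∃ h₁ : modularFunctionFieldBar N, h₁ = c⁻¹ • h := ⟨_, rfl⟩
  have hdiv₁ : ∀ v : Place (AlgebraicClosure ℚ) (modularFunctionFieldBar N), D v = v.ord h₁ :=
    fun v => by rw [hh₁, hdiv, ord_smul v (inv_ne_zero hc0)]
  have hlead : cfn (modularFunctionFieldBar N) n h₁ = 1 := by
    rw [hh₁, map_smul, ← hc, smul_eq_mul, inv_mul_cancel₀ hc0]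
  have hh₁0 : h₁ ≠ 0 := by
    rintro rfl
    rw [map_zero] at hlead
    exact zero_ne_one hlead
  have hord : (h₁ : LaurentSeries (AlgebraicClosure ℚ)).order = n := by
    rw [← ord_cuspPlace, ← hdiv₁, hdiv, ord_cuspPlace, hn]
  obtain ⟨f, hf⟩ := (exists_inc_eq_iff (A := A) (L := L) (x := h₁)).mpr (fun σ hσ =>
    smul_eq_of_fixed (cfn (modularFunctionFieldBar N)) _ (cfn_galois σ) (hD σ hσ) hh₁0 hdiv₁
      hlead)
  have hf0 : f ≠ 0 := by
    rintro rfl
    rw [map_zero] at hf
    exact hh₁0 hf.symm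
  refine ⟨f, hf0, ?_, fun v => by rw [hf, hdiv₁]⟩
  apply (algebraMap L (AlgebraicClosure ℚ)).injective
  rw [← coeff_inc, ← order_inc, hf, hord, map_one]
  exact hlead

end Modular

end Fermat.Agent.DR.S36.L
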