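import Fermat.Agent.DR.S36.LRed
import Fermat.Agent.DR.S36.LClass
import Fermat.Agent.DR.Mod2.Lift
import Fermat.Agent.DR.Nodes.Datum

/-!
# Lifting over the inertia field

The reduction of `X₀(N)` at a place `A` of good reduction, restricted to the functions over the
inertia field `L`: orthonormal bases, and lifting of functions regular off the poles of `x̄`.
-/

set_option autoImplicit false

noncomputable section

open ModularCurve AlgebraicCurve IntermediateField

namespace Fermat.Agent.DR.S36.L

open Fermat.Agent.MFF Fermat.Agent.RR Fermat.Agent.JRED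

section RedL

variable {A : ValuationSubring (AlgebraicClosure ℚ)} {L : Type} [Field L]
  [Algebra L (AlgebraicClosure ℚ)] {k : Type} [Field k] {π : A →+* k} {N : ℕ}

variable (L) in
/-- The reduction datum of `F_N(L)`. -/
def redFL (h : DegreeInput N k) (hπ : Function.Surjective π) :
    RedDatum L (modularFunctionFieldFullC L N) k (modularFunctionFieldFullC k N) (A0 A L)
      (π0 L π) where
  Red f u := (h.redDatum hπ).Red (inc L N f) u
  add h1 h2 := by rw [map_add]; exact (h.redDatum hπ).add h1 h2
  mul h1 h2 := by rw [map_mul]; exact (h.redDatum hπ).mul h1 h2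
  const a := by
    rw [inc_algebraMap]
    exact (h.redDatum hπ).const (incl A L a)
  unique h1 h2 := (h.redDatum hπ).unique h1 h2
  normalize f hf := by
    have hf0 : (f : LaurentSeries L) ≠ 0 := fun h0 => hf (Subtype.ext h0)
    obtain ⟨c, hc, u, hu, hr⟩ := exists_GRed π f.2 hf0
    have h1 : (Fermat.Agent.JRED.redL π N).Red
        (inc L N (algebraMap L (modularFunctionFieldFullC L N) c * f)) u :=
      inc_GRed π (f := algebraMap L (modularFunctionFieldFullC L N) c * f) hr
    exact ⟨c, hc, ⟨u, h.mem_full hπ h1⟩, fun h0 => hu (congrArg Subtype.val h0), h1⟩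

theorem redFL_red {h : DegreeInput N k} {hπ : Function.Surjective π}
    {f : modularFunctionFieldFullC L N} {u : modularFunctionFieldFullC k N} :
    (redFL L h hπ).Red f u ↔ (h.redDatum hπ).Red (inc L N f) u := Iff.rfl

theorem inc_jRed : inc L N (jRed L N) = jBar N := by
  apply Subtype.ext
  rw [coe_inc, coe_jBar]
  exact coeffMap_jqModC _

variable [IsInertiaField A L] {q : ℕ}

theorem redFL_surjective (hq : q.Prime) (hA : A.LiesOverPrime q) (h : DegreeInput N k)
    (hπ : Function.Surjective π) (u : modularFunctionFieldFullC k N) :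
    ∃ f, (redFL L h hπ).Red f u := by
  have := charZero_of_algebra L
  obtain ⟨f, hf⟩ := exists_red_of_mem_full (π := π0 L π) N (π0_surjective π hq hA hπ) u.2
  have hfm : (f : LaurentSeries L) ∈ modularFunctionFieldFullC L N := by
    rw [← laurentBaseChange_full]
    exact f.2
  exact ⟨⟨f, hfm⟩, GRed_emb hf⟩

theorem redFL_hasOrtho [NeZero N] (hq : q.Prime) (hA : A.LiesOverPrime q) (h : DegreeInput N k)
    (hπ : Function.Surjective π) (W : Submodule L (modularFunctionFieldFullC L N))
    [FiniteDimensional L W] : (redFL L h hπ).HasOrtho W := by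
  have hN : (N : L) ≠ 0 := by
    intro h
    have h1 := congrArg (algebraMap L (AlgebraicClosure ℚ)) h
    rw [map_natCast, map_zero] at h1
    exact NeZero.ne N (by exact_mod_cast h1)
  have hff := functionField_L L N
  have hfin : FiniteDimensional L⟮jRed L N⟯ (modularFunctionFieldFullC L N) :=
    Fermat.Agent.JRED.Descent.finiteDimensional_of_transcendental (K := L)
      (Fermat.Agent.JRED.transcendental_jRed L N)
  apply RedDatum.hasOrtho_of_finrank (R := redFL L h hπ) (x := jRed L N) (xbar := jRed k N)
    (π0_surjective π hq hA hπ) (redFL_surjective hq hA h hπ) _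
    (Fermat.Agent.JRED.transcendental_jRed k N)
  · rw [finrank_full_jRed hN, ← (finrank_bar N).2]
    exact h.2
  · rw [redFL_red, inc_jRed]
    exact redL_j π N

/-- **Lifting of reductions to functions over the inertia field.** -/
theorem exists_lift_desc [NeZero N] (hq : q.Prime) (hA : A.LiesOverPrime q) (h : DegreeInput N k)
    (hπ : Function.Surjective π) {W : Submodule (AlgebraicClosure ℚ) (modularFunctionFieldBar N)}
    [FiniteDimensional (AlgebraicClosure ℚ) W]
    (hW : ∀ σ ∈ A.inertiaSubgroupIn ℚ, ∀ w ∈ W,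
      arithmeticGalois (modularFunctionFieldFull N) σ • w ∈ W)
    {w : modularFunctionFieldBar N} (hw : w ∈ W) {u : modularFunctionFieldFullC k N}
    (hwu : (h.redDatum hπ).Red w u) :
    ∃ f : modularFunctionFieldFullC L N, inc L N f ∈ W ∧ (h.redDatum hπ).Red (inc L N f) u := by
  obtain ⟨n, m, b, -, hbW, -, -, -, hspan, hspanL⟩ := exists_basis_desc (A := A) (L := L) W hW
  have hfin : FiniteDimensional L (desc W : Submodule L (modularFunctionFieldFullC L N)) := by
    rw [← hspanL]
    exact FiniteDimensional.span_of_finite L (Set.finite_range b)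
  obtain ⟨n', b', ubar, hortho, hspan'⟩ := redFL_hasOrtho (L := L) hq hA h hπ
    (desc W : Submodule L (modularFunctionFieldFullC L N))
  have hb'W : ∀ i, inc L N (b' i) ∈ W := by
    intro i
    have h1 : b' i ∈ (desc W : Submodule L (modularFunctionFieldFullC L N)) := by
      rw [← hspan']
      exact Submodule.subset_span ⟨i, rfl⟩
    exact h1
  -- the orthonormal basis generates `W`
  have hgen : W ≤ Submodule.span (AlgebraicClosure ℚ) (Set.range fun i => inc L N (b' i)) := by
    rw [← hspan, Submodule.span_le]
    rintro _ ⟨i, rfl⟩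
    have h1 : b i ∈ Submodule.span L (Set.range b') := by
      rw [hspan']
      exact hbW i
    obtain ⟨c, hc⟩ := (Submodule.mem_span_range_iff_exists_fun L).mp h1
    show inc L N (b i) ∈ _
    rw [← hc, map_sum]
    refine Submodule.sum_mem _ fun j _ => ?_
    rw [inc_smul]
    exact Submodule.smul_mem _ _ (Submodule.subset_span ⟨j, rfl⟩)
  obtain ⟨c, hc⟩ := (Submodule.mem_span_range_iff_exists_fun _).mp (hgen hw)
  have horthoK : (h.redDatum hπ).IsOrtho (fun i => inc L N (b' i)) ubar :=
    ⟨hortho.red, hortho.li⟩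
  have hcA : ∀ i, c i ∈ A := fun i =>
    horthoK.coeff_mem hπ (s := Finset.univ) (c := c) (u := u) (by rw [hc]; exact hwu) i
      (Finset.mem_univ i)
  have hu : u = ∑ i, π ⟨c i, hcA i⟩ • ubar i := by
    have h1 := horthoK.red_sum Finset.univ c hcA
    rw [hc] at h1
    exact (h.redDatum hπ).unique hwu h1
  choose a ha using fun i => π0_surjective (L := L) π hq hA hπ (π ⟨c i, hcA i⟩)
  refine ⟨∑ i, ((a i : A0 A L) : L) • b' i, ?_, ?_⟩
  · rw [map_sum]
    refine Submodule.sum_mem _ fun i _ => ?_
    rw [inc_smul]
    exact W.smul_mem _ (hb'W i)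
  · have h1 := hortho.red_sum Finset.univ (fun i => ((a i : A0 A L) : L)) (fun i => (a i).2)
    rw [redFL_red] at h1
    rw [hu]
    convert h1 using 1
    exact Finset.sum_congr rfl fun i _ => by rw [← ha i]

end RedL

section Stable

variable {K F : Type*} [Field K] [Field F] [Algebra K F]

theorem smul_mem_riemannRochSpace (g : SemilinearAut K F) {D : Divisor K F} (hD : g • D = D)
    {f : F} (hf : f ∈ riemannRochSpace D) : g • f ∈ riemannRochSpace D := by
  rw [mem_riemannRochSpace_iff] at hf ⊢
  intro v
  rcases hf (g⁻¹ • v) with h | h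
  · left
    rw [h, smul_zero]
  · right
    have h1 := SemilinearAut.ord_smul g (g⁻¹ • v) f
    rw [smul_inv_smul] at h1
    rw [h1]
    have h2 := SemilinearAut.divisor_smul_apply g D v
    rw [hD] at h2
    rw [h2]
    exact h

theorem smul_polesOf [HasPrincipalDivisors K F] (g : SemilinearAut K F) (x : F) :
    g • (polesOf (K := K) x) = polesOf (g • x) := by
  ext v
  rw [SemilinearAut.divisor_smul_apply, polesOf_apply, polesOf_apply]
  have h1 := SemilinearAut.ord_smul g (g⁻¹ • v) x
  rw [smul_inv_smul] at h1
  rw [h1]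

theorem smul_nsmul_polesOf [HasPrincipalDivisors K F] (g : SemilinearAut K F) {x : F}
    (hx : g • x = x) (n : ℕ) : g • (n • polesOf (K := K) x) = n • polesOf (K := K) x := by
  rw [smul_comm g n, smul_polesOf, hx]

end Stable

section Lifts

open Fermat.Agent.DR.Nodes

variable {A : ValuationSubring (AlgebraicClosure ℚ)} {L : Type} [Field L]
  [Algebra L (AlgebraicClosure ℚ)] [IsInertiaField A L] {k : Type} [Field k] {π : A →+* k} {N : ℕ}
  [NeZero N] {q : ℕ}

theorem transcendental_of_red {K F k' Fk : Type*} [Field K] [Field F] [Algebra K F] [Field k']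
    [Field Fk] [Algebra k' Fk] {B : ValuationSubring K} {ρ : B →+* k'} [IsAlgClosed K]
    {R : RedDatum K F k' Fk B ρ} (hρ : Function.Surjective ρ) {x : F} {xb : Fk} (hx : R.Red x xb)
    (htr : Transcendental k' xb) : Transcendental K x := by
  intro halg
  have h1 : (minpoly K x).degree = 1 :=
    IsAlgClosed.degree_eq_one_of_irreducible K (minpoly.irreducible halg.isIntegral)
  obtain ⟨c, rfl⟩ := minpoly.mem_range_of_degree_eq_one K x h1
  have hc : c ∈ B := RedDatum.mem_of_red_const hρ hx
  have h2 : xb = algebraMap k' Fk (ρ ⟨c, hc⟩) := R.unique hx (R.const ⟨c, hc⟩)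
  exact htr (h2 ▸ isAlgebraic_algebraMap _)

/-- **Lifting over the inertia field**: at a place of good reduction, every function on `X₀(N)_k`
regular off the poles of `x̄` is the reduction of a function over `L` regular off the poles
of `x`. -/
theorem exists_lift_regAlg (hq : q.Prime) (hA : A.LiesOverPrime q) (h : DegreeInput N k)
    (hπ : Function.Surjective π) (hgood : GoodReduction N k)
    {x : modularFunctionFieldFullC L N} {xb : modularFunctionFieldFullC k N}
    (hx : (h.redDatum hπ).Red (inc L N x) xb) (htr : Transcendental k xb)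
    {u : modularFunctionFieldFullC k N} (hu : u ∈ Nodes.regAlg k xb) :
    ∃ f : modularFunctionFieldFullC L N,
      inc L N f ∈ Nodes.regAlg (AlgebraicClosure ℚ) (inc L N x) ∧
        (h.redDatum hπ).Red (inc L N f) u := by
  have := isAlgClosed_of_surjective hπ
  have := h.functionField
  have := h.functionField'
  have htrK := transcendental_of_red hπ hx htr
  have hxb : xb ≠ 0 := fun h0 => htr (h0 ▸ isAlgebraic_zero)
  obtain ⟨n₁, hn₁⟩ := Mod2.exists_lift_poles (Mod2.deuringHyp_modular hπ h hgood) hx hxb htrK
  obtain ⟨n, hn⟩ := Nodes.exists_mem_of_mem_regAlg hu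
  obtain ⟨w, hw, hwu⟩ := hn₁ (max n n₁) (le_max_right _ _) u (Mod2.rr_mono (le_max_left _ _) hn)
  obtain ⟨f, hf, hfu⟩ := exists_lift_desc (L := L) hq hA h hπ
    (W := riemannRochSpace (max n n₁ • polesOf (K := AlgebraicClosure ℚ) (inc L N x)))
    (fun σ hσ w hw => smul_mem_riemannRochSpace _
      (smul_nsmul_polesOf _ (arithmeticGalois_smul_inc hσ x) _) hw) hw hwu
  exact ⟨f, Nodes.mem_regAlg_of_mem hf, hfu⟩

end Lifts

end Fermat.Agent.DR.S36.L
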