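import Fermat.Agent.DR.S36.UnitInt
import Fermat.Agent.Q2.OrdPlace
import Fermat.Agent.FF.GenPrincipal

/-!
# The two reductions of the modular unit, and its divisor in characteristic `q`
-/

set_option autoImplicit false

noncomputable section

open IntermediateField AlgebraicCurve ModularCurve Module Polynomial
open Fermat.Agent.FunField Fermat.Agent.S28 Fermat.Agent.S28.ModPoly Fermat.Agent.JRED
open Fermat.Agent.DR.Mod Fermat.Agent.Q2.Ord

namespace Fermat.Agent.DR.S36.Unit

section GRed

variable {K k : Type*} [Field K] [Field k] {A : ValuationSubring K} {π : A →+* k}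

theorem gred_deltaL : GRed π (deltaL K) (deltaL k) := by
  have h := GRed.of_int (π := π) (deltaL ℤ)
  rw [coeffMap_deltaL, coeffMap_deltaL] at h
  exact h

theorem gred_uL (q : ℕ) [NeZero q] : GRed π (uL K q) (uL k q) := by
  have h1 := gred_deltaL (π := π)
  have h2 := GRed.qExpand h1 q
  have h3 := h1.mul (h2.inv (qExpand_deltaL_ne_zero k q))
  rw [← div_eq_mul_inv, ← div_eq_mul_inv] at h3
  exact h3

theorem gred_uL_inv (q : ℕ) [NeZero q] : GRed π (uL K q)⁻¹ (uL k q)⁻¹ :=
  (gred_uL q).inv (uL_ne_zero k q)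

end GRed

section CharQ

variable (k : Type) [Field k] (q : ℕ) [hq : Fact q.Prime] [CharP k q]

/-- in characteristic `q`, `Δ(t)/Δ(t^q) = Δ(t)^{1-q}` -/
theorem uL_charP : uL k q = dInv k ^ (q - 1) := by
  rw [uL_eq, qExpand_dInv_eq_pow]
  obtain ⟨n, hn⟩ : ∃ n, q = n + 1 := ⟨q - 1, (Nat.succ_pred_eq_of_pos hq.out.pos).symm⟩
  rw [hn, Nat.add_sub_cancel, pow_succ', ← mul_assoc, L_dz_mul_dInv, one_mul]

theorem uL_eq_ssj (M : ℕ) : uL k q = (ssj k q M : LaurentSeries k) := by
  rw [coe_ssj, uL_charP]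

end CharQ

section Red

variable {L : Type} [Field L] [Algebra ℚ L] {k : Type} [Field k] {A : ValuationSubring L}
  {π : A →+* k} {M q : ℕ} [NeZero M] [hq : Fact q.Prime] [ExpChar k q] [CharP k q]
  {w : laurentBaseChange L (modularFunctionFieldFull (M * q)) ≃ₐ[L]
      laurentBaseChange L (modularFunctionFieldFull (M * q))}

/-- **First reduction of `u`**: `u ↦ ū = P_ss(j)`. -/
theorem redOne_uF (S : Setup π w) : (redOne S).Red (uF L M q) (ssj k q M) := by
  rw [redOne_red, coe_uF, ← uL_eq_ssj k q M]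
  exact gred_uL q

omit hq [ExpChar k q] [CharP k q] in
theorem w_uF_inv [NeZero q] (hw : IsAL w) :
    w ((uF L M q)⁻¹ * (q : laurentBaseChange L (modularFunctionFieldFull (M * q))) ^ 12) =
      uF L M q := by
  have h0 : CharZero L := algebraRat.charZero L
  have h1 := uF_mul_w hw
  have h2 : w (uF L M q) ≠ 0 := (map_ne_zero w).mpr (uF_ne_zero L M q)
  rw [map_mul, map_inv₀, map_pow, map_natCast]
  rw [inv_mul_eq_iff_eq_mul₀ h2]
  exact h1.symm.trans (mul_comm _ _)

omit hq [ExpChar k q] [CharP k q] in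
theorem natCast_F_ne_zero [NeZero q] :
    (q : laurentBaseChange L (modularFunctionFieldFull (M * q))) ≠ 0 := by
  have h0 : CharZero L := algebraRat.charZero L
  have : (q : laurentBaseChange L (modularFunctionFieldFull (M * q))) =
      algebraMap L _ (q : L) := (map_natCast _ _).symm
  rw [this, Ne, map_eq_zero]
  exact Nat.cast_ne_zero.mpr (NeZero.ne q)

/-- **Second reduction of `u`**: `q^12 / u ↦ P_ss(j)`. -/
theorem redTwo_uF_inv (S : Setup π w) : (redTwo S).Red ((uF L M q)⁻¹ *
    (q : laurentBaseChange L (modularFunctionFieldFull (M * q))) ^ 12) (ssj k q M) := by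
  rw [redTwo_iff_redOne, w_uF_inv S.al]
  exact redOne_uF S

/-- **Second reduction of `u`**: `u / q^12 ↦ P_ss(j)⁻¹`. -/
theorem redTwo_uF (S : Setup π w) : (redTwo S).Red (uF L M q *
    ((q : laurentBaseChange L (modularFunctionFieldFull (M * q))) ^ 12)⁻¹) (ssj k q M)⁻¹ := by
  have h := redTwo_uF_inv S
  rw [redTwo_red] at h ⊢
  have h2 := h.inv (fun h0 => ssj_ne_zero (k := k) (q := q) (N := M) (Subtype.ext h0))
  have : uF L M q * ((q : laurentBaseChange L (modularFunctionFieldFull (M * q))) ^ 12)⁻¹ =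
      ((uF L M q)⁻¹ * (q : laurentBaseChange L (modularFunctionFieldFull (M * q))) ^ 12)⁻¹ := by
    rw [mul_inv, inv_inv]
  rw [this, map_inv₀]
  exact h2

end Red

section Places

variable {k : Type} [Field k] {q : ℕ} [hq : Fact q.Prime] [CharP k q] {N : ℕ} 

theorem ord_ssj_of_pole (v : Place k (modularFunctionFieldFullC k N))
    (hj : v.ord (jRed k N) < 0) :
    v.ord (ssj k q N) = ((q - 1 : ℕ) : ℤ) * v.ord (jRed k N) := by
  rw [ssj, Fermat.Agent.RH.ord_aeval hj (ssPolyK_ne_zero k q), ssPolyK_natDegree]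

theorem ord_ssj_nonneg (v : Place k (modularFunctionFieldFullC k N))
    (hj : 0 ≤ v.ord (jRed k N)) : 0 ≤ v.ord (ssj k q N) := by
  apply Fermat.FF.ord_nonneg_of_mem
  have h1 : jRed k N ∈ v.toValuationSubring :=
    (Fermat.FF.mem_iff_ord v jRed_ne_zero).mpr hj
  rw [ssj, aeval_eq_sum_range]
  refine sum_mem fun i _ => ?_
  rw [Algebra.smul_def]
  exact mul_mem (v.algebraMap_mem' _) (pow_mem h1 i)

theorem transcendental_ssj : Transcendental k (ssj k q N) := by
  refine (transcendental_jRed k N).aeval (ssPolyK k q) ?_ ?_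
  · rw [ssPolyK_natDegree]
    have := hq.out.one_lt
    omega
  · rw [mem_nonZeroDivisors_iff_ne_zero, Polynomial.leadingCoeff_ne_zero]
    exact ssPolyK_ne_zero k q

end Places

section Sum

/-- Degree of the zero divisor of a polynomial in `x`. -/
theorem sum_zeros_aeval {k F : Type*} [Field k] [Field F] [Algebra k F] [Fermat.FF.IsFF1 k F]
    {x : F} (hx : Transcendental k x) {P : k[X]} (hP : P.natDegree ≠ 0)
    (hfin : {v : Place k F | 0 < v.ord (aeval x P)}.Finite) :
    ∑ v ∈ hfin.toFinset, v.ord (aeval x P) * (v.deg : ℤ) =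
      P.natDegree * Module.finrank k⟮x⟯ F := by
  have hP0 : P ≠ 0 := fun h => hP (by rw [h, natDegree_zero])
  have hyt : Transcendental k (aeval x P) := hx.aeval P hP (by
    rw [mem_nonZeroDivisors_iff_ne_zero, Polynomial.leadingCoeff_ne_zero]; exact hP0)
  have h1 := Fermat.FF.Gen.sum_pos_ord_mul_deg hyt
  have h2 := Fermat.FF.Gen.sum_pos_ord_mul_deg (Fermat.FF.transcendental_inv hyt)
  have h3 := Fermat.FF.Gen.sum_pos_ord_mul_deg (Fermat.FF.transcendental_inv hx)
  rw [RR.adjoin_inv] at h2 h3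
  rw [h1, ← h2, ← h3, Finset.mul_sum]
  have key : ∀ v : Place k F, 0 < v.ord (aeval x P)⁻¹ ↔ 0 < v.ord x⁻¹ := by
    intro v
    rw [v.ord_inv, v.ord_inv]
    constructor
    · intro h
      by_contra hcon
      push Not at hcon
      have h4 : x ∈ v.toValuationSubring := by
        rcases eq_or_ne x 0 with h0 | h0
        · rw [h0]; exact zero_mem _
        · exact (Fermat.FF.mem_iff_ord v h0).mpr (by omega)
      have h5 : aeval x P ∈ v.toValuationSubring := by
        rw [aeval_eq_sum_range]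
        refine sum_mem fun i _ => ?_
        rw [Algebra.smul_def]
        exact mul_mem (v.algebraMap_mem' _) (pow_mem h4 i)
      have := Fermat.FF.ord_nonneg_of_mem v h5
      omega
    · intro h
      rw [Fermat.Agent.RH.ord_aeval (by omega) hP0]
      have : 0 < (P.natDegree : ℤ) := by exact_mod_cast Nat.pos_of_ne_zero hP
      nlinarith
  refine Finset.sum_congr ?_ fun v hv => ?_
  · ext v
    rw [Set.Finite.mem_toFinset, Set.Finite.mem_toFinset]
    exact key v
  · rw [Set.Finite.mem_toFinset] at hv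
    have h4 : 0 < v.ord x⁻¹ := hv
    rw [v.ord_inv] at h4
    rw [v.ord_inv, v.ord_inv, Fermat.Agent.RH.ord_aeval (by omega) hP0]
    ring

variable {k : Type} [Field k] {q : ℕ} [hq : Fact q.Prime] [CharP k q] {N : ℕ} [NeZero N]

theorem isFF1_full (hN : (N : k) ≠ 0) : Fermat.FF.IsFF1 k (modularFunctionFieldFullC k N) :=
  ⟨jRed k N, transcendental_jRed k N, finite_full_jRed hN⟩

theorem finite_zeros_ssj (hN : (N : k) ≠ 0) :
    {v : Place k (modularFunctionFieldFullC k N) | 0 < v.ord (ssj k q N)}.Finite := by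
  have := isFF1_full hN
  exact Fermat.FF.Gen.setOf_ord_pos_finite transcendental_ssj

/-- **The zeros of `P_ss(j)` on `X₀(N)` in characteristic `q`: their number is `(q-1) ψ(N)`.** -/
theorem sum_zeros_ssj (hN : (N : k) ≠ 0) :
    ∑ v ∈ (finite_zeros_ssj (q := q) hN).toFinset, v.ord (ssj k q N) * (v.deg : ℤ) =
      ((q - 1 : ℕ) : ℤ) * dedekindPsi N := by
  have := isFF1_full hN
  have h := sum_zeros_aeval (transcendental_jRed k N) (P := ssPolyK k q) (by
    rw [ssPolyK_natDegree]
    have := hq.out.one_lt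
    omega) (finite_zeros_ssj (q := q) hN)
  rw [ssPolyK_natDegree, finrank_full_jRed hN] at h
  exact h

theorem ord_j_nonneg_of_zero_ssj (v : Place k (modularFunctionFieldFullC k N))
    (hv : 0 < v.ord (ssj k q N)) : 0 ≤ v.ord (jRed k N) := by
  by_contra hcon
  push Not at hcon
  rw [ord_ssj_of_pole v hcon] at hv
  have : 0 ≤ ((q - 1 : ℕ) : ℤ) := Int.natCast_nonneg _
  nlinarith

end Sum

end Fermat.Agent.DR.S36.Unit
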