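import Fermat.Agent.DR.Mod.GenusIneq
import Fermat.Agent.JRED.CharZeroGenus

/-!
# Numerics at rigid levels: `12 (g(qN) + 1 - 2 g(N)) = (q - 1) ψ(N)` if `4 ∣ N` or `9 ∣ N`
-/

set_option autoImplicit false

noncomputable section

open ModularCurve AlgebraicCurve

namespace Fermat.Agent.DR.S36

theorem nuTwo_eq_zero_of {n m : ℕ} [NeZero n] (h : n ∣ m)
    (hn : ∀ x : ZMod n, x ^ 2 + 1 ≠ 0) : nuTwo m = 0 := by
  rw [nuTwo, Nat.card_eq_zero]
  left
  constructor
  rintro ⟨x, hx⟩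
  refine hn (ZMod.castHom h (ZMod n) x) ?_
  rw [← map_pow, ← map_one (ZMod.castHom h (ZMod n)), ← map_add, hx, map_zero]

theorem nuThree_eq_zero_of {n m : ℕ} [NeZero n] (h : n ∣ m)
    (hn : ∀ x : ZMod n, x ^ 2 + x + 1 ≠ 0) : nuThree m = 0 := by
  rw [nuThree, Nat.card_eq_zero]
  left
  constructor
  rintro ⟨x, hx⟩
  refine hn (ZMod.castHom h (ZMod n) x) ?_
  rw [← map_pow, ← map_one (ZMod.castHom h (ZMod n)), ← map_add, ← map_add, hx, map_zero]

/-- Rigid levels: no elliptic points. -/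
def Rigid (N : ℕ) : Prop := nuTwo N = 0 ∧ nuThree N = 0

theorem rigid_of_four {N : ℕ} (h : 4 ∣ N) : Rigid N :=
  ⟨nuTwo_eq_zero_of h (by decide), nuThree_eq_zero_of h (by decide)⟩

theorem rigid_of_nine {N : ℕ} (h : 9 ∣ N) : Rigid N :=
  ⟨nuTwo_eq_zero_of h (by decide), nuThree_eq_zero_of h (by decide)⟩

theorem Rigid.mul {N : ℕ} (h : Rigid N) (r : ℕ) [NeZero N] : Rigid (N * r) := by
  constructor
  · refine nuTwo_eq_zero_of (n := N) (dvd_mul_right N r) fun x hx => ?_
    have h1 := h.1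
    rw [nuTwo, Nat.card_eq_zero] at h1
    rcases h1 with h1 | h1
    · exact h1.false ⟨x, hx⟩
    · exact absurd (inferInstance : Finite _) (not_finite_iff_infinite.mpr h1)
  · refine nuThree_eq_zero_of (n := N) (dvd_mul_right N r) fun x hx => ?_
    have h1 := h.2
    rw [nuThree, Nat.card_eq_zero] at h1
    rcases h1 with h1 | h1
    · exact h1.false ⟨x, hx⟩
    · exact absurd (inferInstance : Finite _) (not_finite_iff_infinite.mpr h1)

theorem genusFormula_rigid {N : ℕ} (h : Rigid N) :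
    genusFormula N = 1 + (dedekindPsi N : ℚ) / 12 - (cuspCount N : ℚ) / 2 := by
  rw [genusFormula, h.1, h.2]
  simp

/-- `g(qN) + 1 - 2 g(N) = (q - 1) ψ(N) / 12`, for `N` rigid, `q ∤ N`. -/
theorem genusFormula_node_count {N q : ℕ} [NeZero N] (hr : Rigid N) (hq : q.Prime)
    (hqN : ¬ q ∣ N) :
    12 * (genusFormula (N * q) + 1 - 2 * genusFormula N) = (q - 1) * dedekindPsi N := by
  have h1 := Fermat.Agent.Jan.HeckeCommute.dedekindPsi_mul_prime N q (NeZero.ne N) hq
  rw [if_neg hqN] at h1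
  have h4 := Fermat.Agent.DR.Mod.cuspCount_mul_prime (NeZero.ne N) hq hqN
  rw [genusFormula_rigid hr, genusFormula_rigid (hr.mul q), h1, h4]
  push_cast
  ring

/-- `12 (g(qN) + 1 - 2 g(N)) = (q - 1) ψ(N)`: the number of nodes is `(q - 1) ψ(N) / 12`. -/
theorem node_count_bar {N q : ℕ} [NeZero N] [NeZero q] (hr : Rigid N) (hq : q.Prime)
    (hqN : ¬ q ∣ N) :
    12 * (genusFF (AlgebraicClosure ℚ) (modularFunctionFieldBar (N * q)) + 1) =
      24 * genusFF (AlgebraicClosure ℚ) (modularFunctionFieldBar N) +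
        (q - 1) * dedekindPsi N := by
  have h := genusFormula_node_count hr hq hqN
  rw [← Fermat.Agent.JRED.genusFF_bar_eq_genusFormula,
    ← Fermat.Agent.JRED.genusFF_bar_eq_genusFormula] at h
  have h1 : (1 : ℕ) ≤ q := hq.one_le
  have h2 : ((12 * (genusFF (AlgebraicClosure ℚ) (modularFunctionFieldBar (N * q)) + 1) : ℕ) : ℚ) =
      ((24 * genusFF (AlgebraicClosure ℚ) (modularFunctionFieldBar N) +
        (q - 1) * dedekindPsi N : ℕ) : ℚ) := by
    push_cast [Nat.cast_sub h1]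
    linarith
  exact_mod_cast h2

end Fermat.Agent.DR.S36
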