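import Fermat.Agent.DR.S36.Count
import Fermat.Agent.DR.S36.Numerics
import Fermat.Agent.DR.Mod.Final

/-!
# S36: the number of nodes of `X₀(qN)` for rigid `N`
-/

set_option autoImplicit false
set_option linter.unusedSectionVars false

noncomputable section

open AlgebraicCurve ModularCurve Fermat.Agent.RR Fermat.Agent.JRED

namespace Fermat.Agent.DR.S36

open Fermat.Agent.DR Fermat.Agent.DR.Mod

variable {A : ValuationSubring (AlgebraicClosure ℚ)} {k : Type} [Field k] {π : A →+* k}
  {M q : ℕ} [NeZero M] [hq : Fact q.Prime]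
  {w : laurentBaseChange (AlgebraicClosure ℚ) (modularFunctionFieldFull (M * q)) ≃ₐ[AlgebraicClosure ℚ]
      laurentBaseChange (AlgebraicClosure ℚ) (modularFunctionFieldFull (M * q))}
  [FunctionField (AlgebraicClosure ℚ) (modularFunctionFieldBar (M * q))]
  [FunctionField (AlgebraicClosure ℚ) (modularFunctionFieldBar M)]
  [FunctionField k (modularFunctionFieldFullC k M)] [IsAlgClosed k] [CharP k q]

/-- **The number of nodes** of `X₀(Mq)` in characteristic `q ∤ M` is `(q - 1) ψ(M) / 12` for `M`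
rigid. -/
theorem twelve_mul_card_nodes {S : Setup π w} (hqM : ¬ q ∣ M) (hgood : GoodReduction M k)
    (hr : Rigid M)
    {X : NodalDatum (AlgebraicClosure ℚ) (modularFunctionFieldBar (M * q)) k
      (modularFunctionFieldFullC k M) (modularFunctionFieldFullC k M) A π}
    (hX : IsModularNodal S X) :
    (12 * X.nodes.card : ℤ) = (q - 1) * dedekindPsi M := by
  have h1 := node_count_bar (N := M) (q := q) hr hq.out hqM
  have h2 := hX.card
  have h3 : genusFF k (modularFunctionFieldFullC k M) =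
    genusFF (AlgebraicClosure ℚ) (modularFunctionFieldBar M) := hgood.symm
  rw [h3] at h2
  have h4 : (1 : ℕ) ≤ q := hq.out.one_le
  have h5 : ((12 * (genusFF (AlgebraicClosure ℚ) (modularFunctionFieldBar (M * q)) + 1) : ℕ) : ℤ) =
      ((24 * genusFF (AlgebraicClosure ℚ) (modularFunctionFieldBar M) +
        (q - 1) * dedekindPsi M : ℕ) : ℤ) := by
    rw [h1]
  push_cast [Nat.cast_sub h4] at h5
  rw [h2]
  linarith

/-- **All widths are one.** `m s` is the order of the reduction of `Δ(z)/Δ(qz)` at the node `s`. -/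
theorem width_eq_one {S : Setup π w} (hqM : ¬ q ∣ M) (hgood : GoodReduction M k)
    (hr : Rigid M) (hπ : Function.Surjective π) (hA : Mono.Arch π)
    {X : NodalDatum (AlgebraicClosure ℚ) (modularFunctionFieldBar (M * q)) k
      (modularFunctionFieldFullC k M) (modularFunctionFieldFullC k M) A π}
    (hX : IsModularNodal S X) {u : modularFunctionFieldBar (M * q)}
    {u₁ u₂ : modularFunctionFieldFullC k M}
    (hu : u ∈ Nodes.regAlg (AlgebraicClosure ℚ) X.x)
    (hu' : u⁻¹ ∈ Nodes.regAlg (AlgebraicClosure ℚ) X.x) (h1 : X.R₁.Red u u₁)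
    (h2 : X.R₂.Red u u₂) (hu1 : u₁ ≠ 0)
    (hpole : ∀ P : Place k (modularFunctionFieldFullC k M), P.ord X.x₁ < 0 → P.ord u₁ ≤ 0)
    (hdeg : Divisor.degree (polesOf (K := k) u₁) = (q - 1) * dedekindPsi M)
    (wd : Place k (modularFunctionFieldFullC k M) × Place k (modularFunctionFieldFullC k M) → ℕ)
    (hwd : ∀ s ∈ X.nodes, 0 < wd s) (hmw : ∀ s ∈ X.nodes, s.1.ord u₁ * wd s = 12) :
    ∀ s ∈ X.nodes, wd s = 1 ∧ s.1.ord u₁ = 12 := by
  refine width_one X.nodes (fun s => s.1.ord u₁) wd hwd hmw ?_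
  rw [sum_node_ord hX.complete hπ hA hu hu' h1 h2 hu1 hpole, hdeg]
  exact (twelve_mul_card_nodes hqM hgood hr hX).symm

end Fermat.Agent.DR.S36
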