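import Fermat.Agent.DR.S36.UnitRed
import Fermat.Agent.DR.S36.CountMod

/-!
# The modular unit in the form needed for the count of the nodes
-/

set_option autoImplicit false
set_option linter.unusedSectionVars false

noncomputable section

open AlgebraicCurve ModularCurve Fermat.Agent.RR Fermat.Agent.JRED
open Fermat.Agent.DR Fermat.Agent.DR.Mod Fermat.Agent.Q2.Ord
open Fermat.Agent.DR.Nodes (regAlg mem_regAlg)

namespace Fermat.Agent.DR.S36.Unit

section Abstract

variable {K F : Type*} [Field K] [Field F] [Algebra K F]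

theorem mem_sub_const_iff (P : Place K F) (x : F) (c : K) :
    x - algebraMap K F c ∈ P.toValuationSubring ↔ x ∈ P.toValuationSubring := by
  constructor
  · intro h
    have := add_mem h (P.algebraMap_mem' c)
    rwa [sub_add_cancel] at this
  · intro h
    exact sub_mem h (P.algebraMap_mem' c)

theorem regAlg_sub_const (x : F) (c : K) : regAlg K (x - algebraMap K F c) = regAlg K x := by
  ext f
  rw [mem_regAlg, mem_regAlg]
  exact forall_congr' fun P => by rw [mem_sub_const_iff]

end Abstract

section Reg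

variable (L : Type) [Field L] [Algebra ℚ L] (M q : ℕ) [NeZero M] [hq : Fact q.Prime]

theorem mem_of_ord_eq_zero {K F : Type*} [Field K] [Field F] [Algebra K F] (P : Place K F)
    {f : F} (hf : f ≠ 0) (h : P.ord f = 0) : f ∈ P.toValuationSubring :=
  (Fermat.FF.mem_iff_ord P hf).mpr h.ge

theorem uF_mem_regAlg : uF L M q ∈ regAlg L (Fermat.Agent.JRED.jL L (M * q)) := fun P hP =>
  mem_of_ord_eq_zero P (uF_ne_zero L M q) (ord_uF L M q P hP)

theorem uF_inv_mem_regAlg : (uF L M q)⁻¹ ∈ regAlg L (Fermat.Agent.JRED.jL L (M * q)) :=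
  fun P hP => mem_of_ord_eq_zero P (inv_ne_zero (uF_ne_zero L M q)) (by
    rw [P.ord_inv, ord_uF L M q P hP, neg_zero])

end Reg

section Red2

variable {L : Type} [Field L] [Algebra ℚ L] {k : Type} [Field k] {A : ValuationSubring L}
  {π : A →+* k} {M q : ℕ} [NeZero M] [hq : Fact q.Prime] [ExpChar k q] [CharP k q]
  {w : laurentBaseChange L (modularFunctionFieldFull (M * q)) ≃ₐ[L]
      laurentBaseChange L (modularFunctionFieldFull (M * q))}

/-- The second reduction of `u` is zero. -/
theorem redTwo_uF_zero (S : Setup π w) : (redTwo S).Red (uF L M q) 0 := by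
  have h1 := redTwo_uF S
  have h0 : π ((q : A) ^ 12) = 0 := by
    rw [map_pow, map_natCast, CharP.cast_eq_zero, zero_pow (by norm_num)]
  have h2 := (redTwo S).const ((q : A) ^ 12)
  rw [h0, map_zero] at h2
  have h3 := (redTwo S).mul h1 h2
  rw [mul_zero] at h3
  convert h3 using 1
  have : algebraMap L (laurentBaseChange L (modularFunctionFieldFull (M * q)))
      (((q : A) ^ 12 : A) : L) =
      (q : laurentBaseChange L (modularFunctionFieldFull (M * q))) ^ 12 := by
    rw [show (((q : A) ^ 12 : A) : L) = (q : L) ^ 12 by push_cast; rfl, map_pow, map_natCast]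
  rw [this, inv_mul_cancel_right₀ (pow_ne_zero _ natCast_F_ne_zero)]

end Red2

section Degree

variable {k : Type} [Field k] {q : ℕ} [hq : Fact q.Prime] [CharP k q] {N : ℕ} [NeZero N]
  [IsAlgClosed k] [FunctionField k (modularFunctionFieldFullC k N)]

theorem polesOf_ssj : polesOf (K := k) (ssj k q N) = (q - 1) • polesOf (K := k) (jRed k N) := by
  ext v
  rw [Finsupp.smul_apply, polesOf_apply, polesOf_apply, nsmul_eq_mul]
  rcases lt_or_ge (v.ord (jRed k N)) 0 with h | h
  · have h0 : 0 ≤ ((q - 1 : ℕ) : ℤ) := Int.natCast_nonneg _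
    rw [ord_ssj_of_pole v h, max_eq_left (by nlinarith), max_eq_left (by omega)]
    ring
  · have := ord_ssj_nonneg (q := q) v h
    rw [max_eq_right (by omega), max_eq_right (by omega), mul_zero]

theorem degree_polesOf_ssj (hN : (N : k) ≠ 0) :
    Divisor.degree (polesOf (K := k) (ssj k q N)) = (q - 1) * dedekindPsi N := by
  have := hq.out.one_lt
  have := finite_full_jRed hN
  rw [polesOf_ssj, map_nsmul, RR.degree_polesOf (transcendental_jRed k N), nsmul_eq_mul,
    finrank_full_jRed hN, Nat.cast_sub hq.out.one_le, Nat.cast_one]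

end Degree

section Nodal

variable {A : ValuationSubring (AlgebraicClosure ℚ)} {k : Type} [Field k] {π : A →+* k}
  {M q : ℕ} [NeZero M] [hq : Fact q.Prime]
  {w : laurentBaseChange (AlgebraicClosure ℚ) (modularFunctionFieldFull (M * q)) ≃ₐ[AlgebraicClosure ℚ]
      laurentBaseChange (AlgebraicClosure ℚ) (modularFunctionFieldFull (M * q))}
  [FunctionField (AlgebraicClosure ℚ) (modularFunctionFieldBar (M * q))]
  [FunctionField (AlgebraicClosure ℚ) (modularFunctionFieldBar M)]
  [FunctionField k (modularFunctionFieldFullC k M)] [IsAlgClosed k] [CharP k q]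

/-- **All widths are one**, for the modular unit. -/
theorem width_modular {S : Setup π w} (hqM : ¬ q ∣ M) (hgood : GoodReduction M k)
    (hr : Rigid M) (hπ : Function.Surjective π) (hA : Mono.Arch π)
    {X : NodalDatum (AlgebraicClosure ℚ) (modularFunctionFieldBar (M * q)) k
      (modularFunctionFieldFullC k M) (modularFunctionFieldFullC k M) A π}
    (hX : IsModularNodal S X)
    (wd : Place k (modularFunctionFieldFullC k M) × Place k (modularFunctionFieldFullC k M) → ℕ)
    (hwd : ∀ s ∈ X.nodes, 0 < wd s) (hmw : ∀ s ∈ X.nodes, s.1.ord (ssj k q M) * wd s = 12) :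
    ∀ s ∈ X.nodes, wd s = 1 ∧ s.1.ord (ssj k q M) = 12 := by
  have hMk : (M : k) ≠ 0 := natCast_ne_zero_of_not_dvd k q M hqM
  obtain ⟨a, ha, ha1, ha2⟩ := hX.shift
  refine width_eq_one hqM hgood hr hπ hA hX (u := uF (AlgebraicClosure ℚ) M q)
    (u₁ := ssj k q M) (u₂ := 0) ?_ ?_ ?_ ?_ ssj_ne_zero ?_ (degree_polesOf_ssj hMk) wd hwd hmw
  · rw [ha, regAlg_sub_const]
    exact uF_mem_regAlg _ M q
  · rw [ha, regAlg_sub_const]
    exact uF_inv_mem_regAlg _ M q
  · rw [hX.eq₁]; exact redOne_uF S
  · rw [hX.eq₂]; exact redTwo_uF_zero S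
  · intro P hP
    have h1 : P.ord (jRed k M) < 0 := by
      by_contra hcon
      push Not at hcon
      have h2 : jRed k M ∈ P.toValuationSubring :=
        (Fermat.FF.mem_iff_ord P jRed_ne_zero).mpr hcon
      have h3 := Fermat.FF.ord_nonneg_of_mem P ((mem_sub_const_iff P _ (π a)).mpr h2)
      rw [← ha1] at h3
      omega
    rw [ord_ssj_of_pole P h1]
    have : 0 ≤ ((q - 1 : ℕ) : ℤ) := Int.natCast_nonneg _
    nlinarith

end Nodal

end Fermat.Agent.DR.S36.Unit
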