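import Fermat.Agent.DR.S36.UnitRed
import Fermat.Agent.S28.JqpNotMem
import Fermat.Agent.DR.Mod.HeckeSpec
import Fermat.Agent.JRED.AtkinLehnerInput

/-!
# The modular unit is an eigenfunction: `T_ℓ u = ± u^{ℓ+1}`
-/

set_option autoImplicit false
set_option linter.unusedSectionVars false

noncomputable section

open AlgebraicCurve ModularCurve
open Fermat.Agent.FunField Fermat.Agent.S28 Fermat.Agent.S28.ModPoly Fermat.Agent.JRED
open Fermat.Agent.DR Fermat.Agent.DR.Mod Fermat.Agent.Q2.Ord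
open Fermat.Agent.JRED.AL (alphaC betaC)
open Fermat.Agent.JRED.ES (inclL inclL_apply)
open Fermat.Agent.Jan.HeckeNorm (normAlong)

namespace Fermat.Agent.DR.S36.Unit

section Series

variable {K : Type*} [Field K] (ℓ : ℕ) [hℓ : Fact ℓ.Prime]

omit hℓ in
theorem qExpand_congr {a b : ℕ} [ha : NeZero a] [hb : NeZero b] (h : a = b)
    (f : LaurentSeries K) : qExpand K a f = qExpand K b f := by
  subst h
  rfl

omit hℓ in
theorem qExpand_comm (a b : ℕ) [NeZero a] [NeZero b] (f : LaurentSeries K) :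
    qExpand K a (qExpand K b f) = qExpand K b (qExpand K a f) := by
  rw [qExpand_qExpand, qExpand_qExpand]
  exact qExpand_congr (mul_comm a b) f

/-- `f(t^{ℓ²}) ∏_b f(ζ^b t)` -/
def normS (ζ : Kˣ) (f : LaurentSeries K) : LaurentSeries K :=
  qExpand K ℓ (qExpand K ℓ f) * ∏ b : Fin ℓ, twist (ζ ^ (b : ℕ)) f

theorem normS_mul (ζ : Kˣ) (f g : LaurentSeries K) :
    normS ℓ ζ (f * g) = normS ℓ ζ f * normS ℓ ζ g := by
  simp only [normS, map_mul, Finset.prod_mul_distrib]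
  ring

theorem normS_inv (ζ : Kˣ) (f : LaurentSeries K) : normS ℓ ζ f⁻¹ = (normS ℓ ζ f)⁻¹ := by
  simp only [normS, map_inv₀, Finset.prod_inv_distrib, mul_inv]

theorem normS_qExpand (ζ : Kˣ) (q : ℕ) [NeZero q] (f : LaurentSeries K) :
    normS ℓ ζ (qExpand K q f) = qExpand K q (normS ℓ (ζ ^ q) f) := by
  rw [normS, normS, map_mul, map_prod, qExpand_comm ℓ q, qExpand_comm ℓ q]
  congr 1
  refine Finset.prod_congr rfl fun b _ => ?_
  rw [twist_qExpand, ← pow_mul, ← pow_mul, mul_comm]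

variable {ℓ}

/-- **The product formula** `Δ(t^{ℓ²}) ∏_b Δ(ζ^b t) = ± Δ(t^ℓ)^{ℓ+1}`. -/
theorem normS_delta [CharZero K] {ζ : Kˣ} (hζ : IsPrimitiveRoot ζ ℓ) :
    ∃ ε : K, (ε = 1 ∨ ε = -1) ∧ normS ℓ ζ (deltaL K) =
      algebraMap K (LaurentSeries K) ε * qExpand K ℓ (deltaL K) ^ (ℓ + 1) := by
  have hℓ0 : (ℓ : LaurentSeries K) ≠ 0 := by
    rw [← map_natCast (algebraMap K (LaurentSeries K)), Ne, map_eq_zero]
    exact Nat.cast_ne_zero.mpr hℓ.out.ne_zero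
  have hD := qExpand_deltaL_ne_zero K ℓ
  have h1 : ∏ i, uu K ℓ ζ i = (ℓ : LaurentSeries K) ^ 12 * (normS ℓ ζ (deltaL K) *
      (qExpand K ℓ (deltaL K))⁻¹ ^ (ℓ + 1)) := by
    rw [Fintype.prod_option]
    have e1 : uu K ℓ ζ none = (ℓ : LaurentSeries K) ^ 12 *
        qExpand K ℓ (qExpand K ℓ (deltaL K)) * (qExpand K ℓ (deltaL K))⁻¹ := by
      rw [uu, dInv_eq, map_inv₀, ← L_dz_eq, qExpand_qExpand]
      rfl
    have e2 : ∀ b : Fin ℓ, uu K ℓ ζ (some b) = twist (ζ ^ (b : ℕ)) (deltaL K) *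
        (qExpand K ℓ (deltaL K))⁻¹ := by
      intro b
      rw [uu, dInv_eq, map_inv₀, ← L_dz_eq]
      change ((1 : ℕ) : LaurentSeries K) ^ 12 * twist (ζ ^ (b : ℕ)) (ModPoly.L K dz) * _ = _
      rw [Nat.cast_one, one_pow, one_mul]
    rw [e1, Finset.prod_congr rfl fun b _ => e2 b, Finset.prod_mul_distrib, Finset.prod_const,
      Finset.card_univ, Fintype.card_fin, normS, pow_succ]
    ring
  have key : ∀ ε : K, ∏ i, uu K ℓ ζ i = algebraMap K (LaurentSeries K) ε *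
      (ℓ : LaurentSeries K) ^ 12 → normS ℓ ζ (deltaL K) =
      algebraMap K (LaurentSeries K) ε * qExpand K ℓ (deltaL K) ^ (ℓ + 1) := by
    intro ε hε
    rw [h1, mul_comm, mul_left_inj' (pow_ne_zero _ hℓ0), inv_pow,
      mul_inv_eq_iff_eq_mul₀ (pow_ne_zero _ hD)] at hε
    exact hε
  rcases prod_uu_K K ℓ ζ hζ with h | h
  · exact ⟨1, Or.inl rfl, key 1 (by rw [h, map_one, one_mul])⟩
  · exact ⟨-1, Or.inr rfl, key (-1) (by rw [h, map_neg, map_one, neg_one_mul])⟩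

theorem normS_uL [CharZero K] {ζ : Kˣ} (hζ : IsPrimitiveRoot ζ ℓ) (q : ℕ) [NeZero q]
    (hq : Nat.Coprime q ℓ) :
    ∃ ε : K, (ε = 1 ∨ ε = -1) ∧ normS ℓ ζ (uL K q) =
      algebraMap K (LaurentSeries K) ε * qExpand K ℓ (uL K q) ^ (ℓ + 1) := by
  obtain ⟨ε₁, h1, e1⟩ := normS_delta hζ
  obtain ⟨ε₂, h2, e2⟩ := normS_delta (hζ.pow_of_coprime q hq)
  have hc : ∀ (a : ℕ) [NeZero a] (c : K), qExpand K a (algebraMap K (LaurentSeries K) c) =
      algebraMap K (LaurentSeries K) c := by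
    intro a _ c
    rw [algebraMap_laurentSeries_eq_single, qExpand_single, mul_zero]
  have h3 : normS ℓ ζ (uL K q) = algebraMap K (LaurentSeries K) (ε₁ * ε₂⁻¹) *
      qExpand K ℓ (uL K q) ^ (ℓ + 1) := by
    rw [uL, div_eq_mul_inv, normS_mul, normS_inv, normS_qExpand, e1, e2, map_mul, map_mul, map_inv₀,
      map_mul, hc, map_inv₀, map_pow, mul_inv, mul_pow, inv_pow]
    rw [qExpand_comm q ℓ]
    ring
  refine ⟨ε₁ * ε₂⁻¹, ?_, h3⟩
  rcases h1 with rfl | rfl <;> rcases h2 with rfl | rfl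
  · left; simp
  · right; norm_num
  · right; norm_num
  · left; norm_num

end Series

section Norm

variable {L : Type} [Field L] [Algebra ℚ L] [IsAlgClosed L] {M q : ℕ} [NeZero M]
  [hq : Fact q.Prime]

/-- **`T_ℓ u = ± u^{ℓ+1}`**, `ℓ ∤ M q`. -/
theorem norm_hecke_uF {ℓ : ℕ} [hℓ : Fact ℓ.Prime] (h : ¬ ℓ ∣ M * q) :
    ∃ ε : ℤ, (ε = 1 ∨ ε = -1) ∧
      normAlong (heckeAlphaBar L (M * q) ℓ) (heckeBetaBar L (M * q) ℓ (uF L M q)) =
        algebraMap L _ (ε : L) * uF L M q ^ (ℓ + 1) := by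
  have h0 : CharZero L := algebraRat.charZero L
  have hℓL : (ℓ : L) ≠ 0 := Nat.cast_ne_zero.mpr hℓ.out.ne_zero
  obtain ⟨ζ, hζ⟩ := exists_unit_primitiveRoot (K := L) (n := ℓ) hℓL
  obtain ⟨w, -, hw1, hw2⟩ := Fermat.Agent.JRED.AL.exists_wBar L (M * q) ℓ h
  have hdeg := Fermat.Agent.JRED.AL.finrankAlong_alpha_of_not_dvd L (M * q) ℓ hℓ.out h
  have key := ES.qExpand_normAlong L Fermat.Agent.Jan.DegreeWiring.jAlg (M * q) ℓ hℓ.out
    (w : _ →+* _) hw1 hw2 hdeg hζ (uF L M q)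
  have hcop : Nat.Coprime q ℓ := by
    rw [Nat.coprime_primes hq.out hℓ.out]
    rintro rfl
    exact h (dvd_mul_left _ _)
  obtain ⟨ε, hε, e1⟩ := normS_uL hζ q hcop
  have hε' : ∃ ε' : ℤ, (ε' = 1 ∨ ε' = -1) ∧ (ε' : L) = ε := by
    rcases hε with rfl | rfl
    · exact ⟨1, Or.inl rfl, by simp⟩
    · exact ⟨-1, Or.inr rfl, by simp⟩
  obtain ⟨ε', h1, h2⟩ := hε'
  refine ⟨ε', h1, ?_⟩
  apply Subtype.ext
  apply qExpand_injective ℓ
  have h3 : qExpand L ℓ (inclL L (M * q)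
      (normAlong (heckeAlphaBar L (M * q) ℓ) (heckeBetaBar L (M * q) ℓ (uF L M q)))) =
      normS ℓ ζ (uL L q) := key
  have h4 : ((algebraMap L (laurentBaseChange L (modularFunctionFieldFull (M * q))) (ε' : L) *
      uF L M q ^ (ℓ + 1) : laurentBaseChange L (modularFunctionFieldFull (M * q))) :
      LaurentSeries L) = algebraMap L (LaurentSeries L) ε * uL L q ^ (ℓ + 1) := by
    rw [← h2]; rfl
  rw [h4]
  refine h3.trans (e1.trans ?_)
  rw [map_mul, map_pow, algebraMap_laurentSeries_eq_single, qExpand_single, mul_zero]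

variable {k : Type} [Field k] {A : ValuationSubring L} {π : A →+* k} [ExpChar k q] [CharP k q]
  {w : laurentBaseChange L (modularFunctionFieldFull (M * q)) ≃ₐ[L]
      laurentBaseChange L (modularFunctionFieldFull (M * q))}

/-- `T_ℓ ū = ± ū^{ℓ+1}` in characteristic `q`. -/
theorem norm_hecke_ssj (S : Setup π w) {ℓ : ℕ} [hℓ : Fact ℓ.Prime] (hℓM : ¬ ℓ ∣ M * q)
    (h : ((M * ℓ : ℕ) : k) ≠ 0) :
    ∃ ε : k, (ε = 1 ∨ ε = -1) ∧
      normAlong (alphaC k M ℓ) (betaC k M ℓ (ssj k q M)) =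
        algebraMap k _ ε * ssj k q M ^ (ℓ + 1) := by
  obtain ⟨ε, hε, e1⟩ := norm_hecke_uF (L := L) (M := M) (q := q) (ℓ := ℓ) hℓM
  have hqM : ¬ q ∣ M * ℓ := fun hd => h ((CharP.cast_eq_zero_iff k q _).mpr hd)
  have h1 := redOne_norm_hecke hq.out hqM h S (redOne_uF S)
  rw [e1] at h1
  have h2 : (redOne S).Red (algebraMap L _ (((ε : A) : A) : L) * uF L M q ^ (ℓ + 1))
      (algebraMap k _ (π (ε : A)) * ssj k q M ^ (ℓ + 1)) :=
    (redOne S).mul ((redOne S).const _) (RedDatum.pow (redOne_uF S) (ℓ + 1))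
  have h3 : (((ε : A) : A) : L) = (ε : L) := by push_cast; rfl
  rw [h3] at h2
  refine ⟨π (ε : A), ?_, (redOne S).unique h1 h2⟩
  rw [map_intCast]
  rcases hε with rfl | rfl
  · left; simp
  · right; simp

/-- **The divisor of `ū` is an eigenvector of `T_ℓ`** with eigenvalue `ℓ + 1`. -/
theorem heckeDivC_ssj_of (S : Setup π w) {ℓ : ℕ} [hℓ : Fact ℓ.Prime] (hℓM : ¬ ℓ ∣ M * q)
    (h : ((M * ℓ : ℕ) : k) ≠ 0)
    {D : Divisor k (modularFunctionFieldFullC k M)} (hD : ∀ P, D P = P.ord (ssj k q M))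
    (P : Place k (modularFunctionFieldFullC k M)) :
    heckeDivC k M ℓ h D P = (ℓ + 1) * P.ord (ssj k q M) := by
  obtain ⟨ε, hε, e1⟩ := norm_hecke_ssj S hℓM h
  have hε0 : ε ≠ 0 := by
    rcases hε with rfl | rfl
    · exact one_ne_zero
    · exact neg_ne_zero.mpr one_ne_zero
  rw [heckeDivC_eq_ord h ssj_ne_zero hD, e1, P.ord_mul ((_root_.map_ne_zero _).mpr hε0)
    (pow_ne_zero _ ssj_ne_zero), Fermat.FF.ord_algebraMap, Fermat.FF.ord_pow]
  push_cast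
  ring

end Norm

end Fermat.Agent.DR.S36.Unit
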