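import Mathlib
import Fermat.Agent.DR.Nodal.Basic

/-!
# The core of the proof of S36' (piece P of the S36 blueprint)

`Core` collects the geometric facts about the arithmetic surface `X₀(q²N)` over the maximal
unramified extension: three valuations `w 0, w 1, w 2` (the components `C₁`, the middle one of
multiplicity `q - 1`, `C₃`) of the field `FL` of functions rational over `L = ℚ̄^I`, with residues
in `κ = k(X₀(N))`.
-/

set_option autoImplicit false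

noncomputable section

open AlgebraicCurve Fermat.Agent.RR Fermat.Agent.JRED

namespace Fermat.Agent.DR.S36

open Fermat.Agent.DR

/-- Three valuations with residues. Index `0 ↔ C₁`, `1 ↔` the middle component, `2 ↔ C₃`.
`w i` is only meaningful on nonzero functions. -/
structure ResVals (FL κ : Type*) [Field FL] [Field κ] where
  w : Fin 3 → FL → ℤ
  Res : Fin 3 → FL → κ → Prop
  w_mul : ∀ i, ∀ f g : FL, f ≠ 0 → g ≠ 0 → w i (f * g) = w i f + w i g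
  res_one : ∀ i, Res i 1 1
  res_mul : ∀ i, ∀ f g u v, Res i f u → Res i g v → Res i (f * g) (u * v)
  res_unique : ∀ i, ∀ f u v, Res i f u → Res i f v → u = v
  exists_res : ∀ i, ∀ f : FL, f ≠ 0 → w i f = 0 → ∃ u : κ, u ≠ 0 ∧ Res i f u
  w_eq_zero : ∀ i, ∀ f u, Res i f u → u ≠ 0 → f ≠ 0 ∧ w i f = 0

namespace ResVals

variable {FL κ : Type*} [Field FL] [Field κ] (V : ResVals FL κ)

theorem w_one (i : Fin 3) : V.w i 1 = 0 := (V.w_eq_zero i 1 1 (V.res_one i) one_ne_zero).2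

theorem w_inv (i : Fin 3) {f : FL} (hf : f ≠ 0) : V.w i f⁻¹ = -V.w i f := by
  have h := V.w_mul i f f⁻¹ hf (inv_ne_zero hf)
  rw [mul_inv_cancel₀ hf, V.w_one] at h
  linarith

theorem w_pow (i : Fin 3) {f : FL} (hf : f ≠ 0) (n : ℕ) : V.w i (f ^ n) = n * V.w i f := by
  induction n with
  | zero => simp [V.w_one]
  | succ n ih => rw [pow_succ, V.w_mul i _ _ (pow_ne_zero n hf) hf, ih]; push_cast; ring

theorem w_zpow (i : Fin 3) {f : FL} (hf : f ≠ 0) (n : ℤ) : V.w i (f ^ n) = n * V.w i f := by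
  rcases n with n | n
  · simpa using V.w_pow i hf n
  · rw [zpow_negSucc, V.w_inv i (pow_ne_zero _ hf), V.w_pow i hf, Int.negSucc_eq]
    push_cast; ring

theorem w_div (i : Fin 3) {f g : FL} (hf : f ≠ 0) (hg : g ≠ 0) :
    V.w i (f / g) = V.w i f - V.w i g := by
  rw [div_eq_mul_inv, V.w_mul i _ _ hf (inv_ne_zero hg), V.w_inv i hg]; ring

theorem res_inv (i : Fin 3) {f : FL} {u : κ} (h : V.Res i f u) (hu : u ≠ 0) :
    V.Res i f⁻¹ u⁻¹ := by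
  obtain ⟨hf, hw⟩ := V.w_eq_zero i f u h hu
  obtain ⟨v, -, hv⟩ := V.exists_res i f⁻¹ (inv_ne_zero hf) (by rw [V.w_inv i hf, hw, neg_zero])
  have h1 := V.res_mul i _ _ _ _ h hv
  rw [mul_inv_cancel₀ hf] at h1
  have h2 := V.res_unique i _ _ _ h1 (V.res_one i)
  rwa [eq_inv_of_mul_eq_one_right h2] at hv

theorem res_pow (i : Fin 3) {f : FL} {u : κ} (h : V.Res i f u) (n : ℕ) :
    V.Res i (f ^ n) (u ^ n) := by
  induction n with
  | zero => simpa using V.res_one i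
  | succ n ih => rw [pow_succ, pow_succ]; exact V.res_mul i _ _ _ _ ih h

theorem res_div (i : Fin 3) {f g : FL} {u v : κ} (h : V.Res i f u) (h' : V.Res i g v)
    (hv : v ≠ 0) : V.Res i (f / g) (u / v) := by
  rw [div_eq_mul_inv, div_eq_mul_inv]
  exact V.res_mul i _ _ _ _ h (V.res_inv i h' hv)

end ResVals

/-- The geometric facts used in the proof of S36'. -/
structure Core (K F F1 FL k κ : Type*) [Field K] [Field F] [Field F1] [Field FL] [Field k]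
    [Field κ] [Algebra K F] [Algebra K F1] [Algebra k κ] [Algebra FL F]
    (A : ValuationSubring K) (π : A →+* k) (q : ℕ) extends ResVals FL κ where
  hq : 2 ≤ q
  w_q : (q : FL) ≠ 0 ∧ w 0 q = 1 ∧ w 1 q = q - 1 ∧ w 2 q = 1
  /-- weak approximation -/
  approx : ∀ g : Fin 3 → κ, (∀ i, g i ≠ 0) → ∃ e : FL, ∀ i, Res i e (g i)
  /-- level `qN` -/
  R1 : RedDatum K F1 k κ A π
  R2 : RedDatum K F1 k κ A π
  Nα : FL →*₀ F1
  Nβ : FL →*₀ F1
  pα : Place K F → Place K F1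
  pβ : Place K F → Place K F1
  normα_ord : ∀ (f : FL), f ≠ 0 → ∀ E : Divisor K F, (∀ P, E P = P.ord (algebraMap FL F f)) →
    ∀ P' : Place K F1, Finsupp.mapDomain pα E P' = P'.ord (Nα f)
  normβ_ord : ∀ (f : FL), f ≠ 0 → ∀ E : Divisor K F, (∀ P, E P = P.ord (algebraMap FL F f)) →
    ∀ P' : Place K F1, Finsupp.mapDomain pβ E P' = P'.ord (Nβ f)
  /-- coefficientwise `q`-power -/
  φ : κ ≃+* κ
  φk : k ≃+* k
  φ_algebraMap : ∀ c, φ (algebraMap k κ c) = algebraMap k κ (φk c)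
  normα_q : Nα (q : FL) = (q : F1) ^ q
  normβ_q : Nβ (q : FL) = (q : F1) ^ q
  /-- norm reductions (graded) -/
  normα₁ : ∀ (f : FL) (a b : ℤ) (u v : κ), Res 0 ((q : FL) ^ a * f) u → Res 1 ((q : FL) ^ b * f) v →
    R1.Red ((q : F1) ^ (a + (q - 1) * b) * Nα f) (u * v ^ (q - 1))
  normα₂ : ∀ (f : FL) (a : ℤ) (u : κ), Res 2 ((q : FL) ^ a * f) u →
    R2.Red ((q : F1) ^ (q * a) * Nα f) (φ u)
  normβ₂ : ∀ (f : FL) (a b : ℤ) (u v : κ), Res 2 ((q : FL) ^ a * f) u → Res 1 ((q : FL) ^ b * f) v →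
    R2.Red ((q : F1) ^ (a + (q - 1) * b) * Nβ f) (u * v ^ (q - 1))
  normβ₁ : ∀ (f : FL) (a : ℤ) (u : κ), Res 0 ((q : FL) ^ a * f) u →
    R1.Red ((q : F1) ^ (q * a) * Nβ f) (φ u)
  /-- supersingular points -/
  S : Type
  nonempty_S : Nonempty S
  U : S → Set (Place K F)
  Aα : S → Set (Place K F1)
  Aβ : S → Set (Place K F1)
  U_α : ∀ s P, P ∈ U s ↔ pα P ∈ Aα s
  U_β : ∀ s P, P ∈ U s ↔ pβ P ∈ Aβ s
  /-- the place `s` and its Frobenius twist -/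
  sp : S → Place k κ
  sq : S → Place k κ
  sq_φ : ∀ s (g : κ) (c : k), Val (sp s) g c → Val (sq s) (φ g) (c ^ q)
  /-- gluing at level `qN` -/
  glueα : ∀ s (ε : F1) (u₁ u₂ : κ), R1.Red ε u₁ → R2.Red ε u₂ → u₁ ≠ 0 → u₂ ≠ 0 →
    (∀ P' ∈ Aα s, P'.ord ε = 0) → ∃ c : k, c ≠ 0 ∧ Val (sp s) u₁ c ∧ Val (sq s) u₂ c
  glueβ : ∀ s (ε : F1) (u₁ u₂ : κ), R1.Red ε u₁ → R2.Red ε u₂ → u₁ ≠ 0 → u₂ ≠ 0 →
    (∀ P' ∈ Aβ s, P'.ord ε = 0) → ∃ c : k, c ≠ 0 ∧ Val (sq s) u₁ c ∧ Val (sp s) u₂ c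
  /-- gluing at level `q²N` -/
  glue : ∀ s (u : FL) (r : Fin 3 → κ), (∀ i, Res i u (r i)) → (∀ i, r i ≠ 0) →
    (∀ P ∈ U s, P.ord (algebraMap FL F u) = 0) → ∃ c : k, c ≠ 0 ∧ ∀ i, Val (sp s) (r i) c
  /-- slopes -/
  slope : ∀ s (u : FL) (a b : ℤ) (r₀ r₂ : κ), u ≠ 0 →
    (∀ P ∈ U s, P.ord (algebraMap FL F u) = 0) → w 0 u = 0 → w 1 u = (q - 1) * a → w 2 u = b →
    Res 0 u r₀ → Res 2 ((q : FL) ^ (-b) * u) r₂ →
    (sp s).ord r₀ = b + (q - 1) * a ∧ (sp s).ord r₂ = -q * b + (q - 1) * a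
  /-- local generators -/
  localgen : ∀ s (m : ℕ) (f : FL) (D : Divisor K F), m ≠ 0 → f ≠ 0 →
    (∀ P, P.ord (algebraMap FL F f) = m * D P) →
    ∃ h : FL, h ≠ 0 ∧ (∀ i, w i h = 0) ∧ ∀ P ∈ U s, P.ord (algebraMap FL F h) = D P
  /-- modular units -/
  uα : FL
  uβ : FL
  uα_ne : uα ≠ 0
  uβ_ne : uβ ≠ 0
  w_uα : w 0 uα = 0 ∧ w 1 uα = 0 ∧ w 2 uα = 12
  w_uβ : w 0 uβ = 0 ∧ w 1 uβ = 12 * (q - 1) ∧ w 2 uβ = 12
  /-- rigidity -/
  rigid : ∀ (m : ℕ) (f : FL) (D : Divisor K F), (m : k) ≠ 0 → Divisor.degree D = 0 →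
    (∀ P, P.ord (algebraMap FL F f) = m * D P) → (∀ i, Res i f 1) →
    (∀ s, ∃ (h : FL) (r : Fin 3 → κ) (γ : k), γ ≠ 0 ∧ (∀ i, Res i h (r i)) ∧
      (∀ i, Val (sp s) (r i) γ) ∧ ∀ P ∈ U s, P.ord (algebraMap FL F h) = D P) →
    D.IsPrincipal

end Fermat.Agent.DR.S36
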