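import Mathlib
import Fermat.Agent.DR.S36.Core

/-!
# The core of the proof of S36': the argument
-/

set_option autoImplicit false
set_option linter.unusedSectionVars false

noncomputable section

open AlgebraicCurve Fermat.Agent.RR Fermat.Agent.JRED

namespace Fermat.Agent.DR.S36

open Fermat.Agent.DR

section RedLemmas

variable {K E k κ : Type*} [Field K] [Field E] [Field k] [Field κ] [Algebra K E] [Algebra k κ]
  {A : ValuationSubring K} {π : A →+* k} (R : RedDatum K E k κ A π)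

/-- If a constant reduces to `v ≠ 0`, then `v` is a nonzero constant. -/
theorem exists_const_of_red (hπ : Function.Surjective π) {c : K} {v : κ}
    (h : R.Red (algebraMap K E c) v) (hv : v ≠ 0) :
    ∃ (hc : c ∈ A), π ⟨c, hc⟩ ≠ 0 ∧ v = algebraMap k κ (π ⟨c, hc⟩) := by
  have hc := RedDatum.mem_of_red_const hπ h
  have h1 := R.unique h (R.const ⟨c, hc⟩)
  refine ⟨hc, ?_, h1⟩
  intro h0
  rw [h0, map_zero] at h1
  exact hv h1

theorem exists_algebraMap_root [IsAlgClosed k] {m : ℕ} (hm : m ≠ 0) {c : k} (hc : c ≠ 0) :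
    ∃ d : k, d ≠ 0 ∧ algebraMap k κ c = algebraMap k κ d ^ m := by
  obtain ⟨d, hd⟩ := IsAlgClosed.exists_pow_nat_eq c (Nat.pos_of_ne_zero hm)
  refine ⟨d, ?_, by rw [← map_pow, hd]⟩
  rintro rfl
  rw [zero_pow hm] at hd
  exact hc hd.symm

/-- If `c e^m` reduces to `u ≠ 0`, then `u` is an `m`-th power. -/
theorem exists_root_of_red [IsAlgClosed k] (hπ : Function.Surjective π) {m : ℕ} (hm : m ≠ 0)
    {c : K} {e g : E} (he : e ≠ 0) (hg : g = algebraMap K E c * e ^ m) {u : κ}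
    (h : R.Red g u) (hu : u ≠ 0) : ∃ t : κ, t ≠ 0 ∧ u = t ^ m := by
  obtain ⟨d, hd, v, hv, hdv⟩ := R.normalize e he
  have h1 := RedDatum.pow hdv m
  have h2 := RedDatum.div hπ h h1 (pow_ne_zero m hv)
  have h3 : g / (algebraMap K E d * e) ^ m = algebraMap K E (c / d ^ m) := by
    rw [hg, map_div₀, map_pow, mul_pow, mul_div_mul_right _ _ (pow_ne_zero m he)]
  rw [h3] at h2
  obtain ⟨hc, hc0, hc1⟩ := exists_const_of_red R hπ h2 (div_ne_zero hu (pow_ne_zero m hv))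
  obtain ⟨a, ha, ha'⟩ := exists_algebraMap_root (κ := κ) hm hc0
  rw [ha', div_eq_iff (pow_ne_zero m hv)] at hc1
  exact ⟨algebraMap k κ a * v, mul_ne_zero ((map_ne_zero _).mpr ha) hv, by rw [hc1, mul_pow]⟩

/-- If `e^m` reduces to `u ≠ 0`, then `e` reduces to an `m`-th root of `u`. -/
theorem exists_red_of_pow (hπ : Function.Surjective π) {m : ℕ} (hm : m ≠ 0)
    {e : E} {u : κ} (h : R.Red (e ^ m) u) (hu : u ≠ 0) : ∃ v : κ, R.Red e v ∧ v ^ m = u := by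
  have he : e ≠ 0 := by
    rintro rfl
    rw [zero_pow hm] at h
    exact hu (R.unique h R.zero)
  obtain ⟨d, hd, v, hv, hdv⟩ := R.normalize e he
  have h1 := RedDatum.pow hdv m
  have h2 := RedDatum.div hπ h1 h hu
  have h3 : (algebraMap K E d * e) ^ m / e ^ m = algebraMap K E (d ^ m) := by
    rw [map_pow, mul_pow, mul_div_cancel_right₀ _ (pow_ne_zero m he)]
  rw [h3] at h2
  obtain ⟨hc, hc0, hc1⟩ := exists_const_of_red R hπ h2 (div_ne_zero (pow_ne_zero m hv) hu)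
  -- `d` is a unit of `A`
  have hdA : d ∈ A := by
    rcases A.mem_or_inv_mem d with h | h
    · exact h
    · by_contra hcon
      have h4 : d ^ m ∉ A := by
        intro h5
        apply hcon
        have h6 : d = d ^ m * (d⁻¹) ^ (m - 1) := by
          obtain ⟨n, rfl⟩ := Nat.exists_eq_succ_of_ne_zero hm
          rw [Nat.succ_sub_one, pow_succ, inv_pow]
          field_simp
        rw [h6]
        exact mul_mem h5 (pow_mem h _)
      exact h4 hc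
  have hpow : π ⟨d ^ m, hc⟩ = π ⟨d, hdA⟩ ^ m := by
    rw [← map_pow]; rfl
  have hd0 : π ⟨d, hdA⟩ ≠ 0 := by
    intro h0
    rw [hpow, h0, zero_pow hm] at hc0
    exact hc0 rfl
  have h7 := RedDatum.div hπ hdv (R.const ⟨d, hdA⟩) ((map_ne_zero (algebraMap k κ)).mpr hd0)
  have h8 : algebraMap K E d * e / algebraMap K E d = e := by
    rw [mul_div_cancel_left₀ _ ((map_ne_zero (algebraMap K E)).mpr hd)]
  refine ⟨v / algebraMap k κ (π ⟨d, hdA⟩), ?_, ?_⟩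
  · have h9 := h7
    simp only at h9
    rwa [h8] at h9
  · rw [div_pow, ← map_pow, ← hpow, ← hc1]
    field_simp

end RedLemmas

section Roots

variable {k κ : Type*} [Field k] [Field κ] [Algebra k κ]

/-- roots of unity in `κ` are constant. -/
theorem exists_const_of_pow_eq_one [IsAlgClosed k] {m : ℕ} (hm : m ≠ 0) {ξ : κ}
    (h : ξ ^ m = 1) : ∃ ζ : k, ζ ^ m = 1 ∧ ξ = algebraMap k κ ζ := by
  have hroot : (Polynomial.X ^ m - Polynomial.C (1 : k)).aeval ξ = 0 := by simp [h]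
  have hne : (Polynomial.X ^ m - Polynomial.C (1 : k)) ≠ 0 :=
    Polynomial.X_pow_sub_C_ne_zero (Nat.pos_of_ne_zero hm) (1 : k)
  have halg : IsAlgebraic k ξ := ⟨_, hne, hroot⟩
  obtain ⟨ζ, hζ⟩ := minpoly.mem_range_of_degree_eq_one k ξ
    (IsAlgClosed.degree_eq_one_of_irreducible k (minpoly.irreducible halg.isIntegral))
  refine ⟨ζ, ?_, hζ.symm⟩
  apply (algebraMap k κ).injective
  rw [map_pow, hζ, h, map_one]

end Roots


section Fibre

variable {α β : Type*}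

theorem mapDomain_apply_congr {p : α → β} {D E : α →₀ ℤ} {b : β}
    (h : ∀ a, p a = b → D a = E a) : Finsupp.mapDomain p D b = Finsupp.mapDomain p E b := by
  classical
  rw [← sub_eq_zero, ← Finsupp.sub_apply, ← Finsupp.mapDomain_sub]
  rw [Finsupp.mapDomain, Finsupp.sum, Finsupp.finsetSum_apply]
  apply Finset.sum_eq_zero
  intro a ha
  rw [Finsupp.single_apply]
  split_ifs with hab
  · rw [Finsupp.sub_apply, h a hab, sub_self]
  · rfl

end Fibre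

section Arith

/-- elimination of the gluing constants. -/
theorem glue_elim {k : Type*} [Field k] {q : ℕ} (hq : 2 ≤ q) {ζ₁ ζ₂ η₁ η₂ γ₀ γ₁ γ₂ : k}
    (hζ₁ : ζ₁ ≠ 0) (hζ₂ : ζ₂ ≠ 0) (hη₁ : η₁ ≠ 0) (h₀ : γ₀ ≠ 0) (h₁ : γ₁ ≠ 0)
    (h₂ : γ₂ ≠ 0) (hα : ζ₁ * γ₂ ^ q = ζ₂ * (γ₀ * γ₁ ^ (q - 1)))
    (hβ : η₁ * (γ₂ * γ₁ ^ (q - 1)) = η₂ * γ₀ ^ q) :
    γ₂ ^ (q ^ 2 - 1) = (ζ₂ * η₂ / (ζ₁ * η₁)) ^ (q - 1) * γ₀ ^ (q ^ 2 - 1) ∧
    γ₁ ^ (q ^ 2 - 1) = ((ζ₁ / ζ₂) ^ (q + 1) * (ζ₂ * η₂ / (ζ₁ * η₁)) ^ q) * γ₀ ^ (q ^ 2 - 1) := by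
  obtain ⟨n, rfl⟩ := Nat.exists_eq_add_of_le hq
  have e1 : 2 + n - 1 = n + 1 := by omega
  have e2 : (2 + n) ^ 2 - 1 = (n + 1) * (n + 3) := by
    have : (2 + n) ^ 2 = (n + 1) * (n + 3) + 1 := by ring
    omega
  rw [e1] at hα hβ ⊢
  rw [e2]
  set Λ : k := ζ₂ * η₂ / (ζ₁ * η₁) with hΛ
  set r : k := γ₂ / γ₀ with hr
  set t : k := γ₁ / γ₀ with ht
  have hγ₂ : γ₂ = r * γ₀ := by rw [hr]; field_simp
  have hγ₁ : γ₁ = t * γ₀ := by rw [ht]; field_simp
  have hr0 : r ≠ 0 := div_ne_zero h₂ h₀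
  have ht0 : t ≠ 0 := div_ne_zero h₁ h₀
  have hA : ζ₁ * r ^ (n + 2) = ζ₂ * t ^ (n + 1) := by
    have h3 : γ₀ ^ (n + 2) ≠ 0 := pow_ne_zero _ h₀
    apply mul_right_cancel₀ h3
    rw [hγ₂, hγ₁, mul_pow, mul_pow] at hα
    have e3 : 2 + n = n + 2 := by ring
    rw [e3] at hα
    linear_combination hα
  have hB : η₁ * (r * t ^ (n + 1)) = η₂ := by
    have h3 : γ₀ ^ (n + 2) ≠ 0 := pow_ne_zero _ h₀
    apply mul_right_cancel₀ h3
    rw [hγ₂, hγ₁, mul_pow] at hβ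
    have e3 : 2 + n = n + 2 := by ring
    rw [e3] at hβ
    linear_combination hβ
  have hR : r ^ (n + 3) = Λ := by
    rw [hΛ, eq_div_iff (mul_ne_zero hζ₁ hη₁)]
    have : r ^ (n + 3) * (ζ₁ * η₁) = (ζ₁ * r ^ (n + 2)) * (η₁ * r) := by ring
    rw [this, hA]
    linear_combination ζ₂ * hB
  have hT : t ^ (n + 1) = ζ₁ / ζ₂ * r ^ (n + 2) := by
    field_simp
    linear_combination -hA
  constructor
  · rw [hγ₂, mul_pow, mul_comm (n + 1) (n + 3), pow_mul r, hR]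
  · rw [hγ₁, mul_pow, pow_mul t, hT, mul_pow, ← pow_mul r, mul_comm (n + 2) (n + 3), pow_mul r, hR]
    have e4 : n + 3 = 2 + n + 1 := by ring
    have e5 : n + 2 = 2 + n := by ring
    rw [e4, e5]

end Arith


section Main

variable {K F F1 FL k κ : Type*} [Field K] [Field F] [Field F1] [Field FL] [Field k]
    [Field κ] [Algebra K F] [Algebra K F1] [Algebra k κ] [Algebra FL F]
    {A : ValuationSubring K} {π : A →+* k} {q : ℕ} (X : Core K F F1 FL k κ A π q)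

/-- The pair `(f, D)`: `div f = m D`, `f` is `L`-rational, and the push-forwards of `D` to
level `qN` are principal. -/
structure RootPair (m : ℕ) (f : FL) (D : Divisor K F) : Prop where
  ne : f ≠ 0
  ord : ∀ P, P.ord (algebraMap FL F f) = m * D P
  deg : Divisor.degree D = 0
  α : ∃ (c : K) (e : F1), c ≠ 0 ∧ e ≠ 0 ∧ X.Nα f = algebraMap K F1 c * e ^ m
  β : ∃ (c : K) (e : F1), c ≠ 0 ∧ e ≠ 0 ∧ X.Nβ f = algebraMap K F1 c * e ^ m

namespace RootPair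

variable {X} {m : ℕ} {f : FL} {D : Divisor K F}

theorem pow (H : RootPair X m f D) (n : ℕ) : RootPair X m (f ^ n) (n • D) := by
  obtain ⟨c, e, hc, he, h⟩ := H.α
  obtain ⟨c', e', hc', he', h'⟩ := H.β
  refine ⟨pow_ne_zero n H.ne, fun P => ?_, ?_, ⟨c ^ n, e ^ n, pow_ne_zero n hc,
    pow_ne_zero n he, ?_⟩, ⟨c' ^ n, e' ^ n, pow_ne_zero n hc', pow_ne_zero n he', ?_⟩⟩
  · rw [map_pow, ← zpow_natCast, Place.ord_zpow, H.ord]
    simp only [Finsupp.smul_apply, nsmul_eq_mul]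
    ring
  · rw [map_nsmul, H.deg, smul_zero]
  · rw [map_pow, h, mul_pow, map_pow, ← pow_mul, ← pow_mul, mul_comm m n]
  · rw [map_pow, h', mul_pow, map_pow, ← pow_mul, ← pow_mul, mul_comm m n]

/-- multiplication by a power of `q` -/
theorem smul (H : RootPair X m f D) (n : ℤ) : RootPair X m ((q : FL) ^ n * f) D := by
  obtain ⟨c, e, hc, he, h⟩ := H.α
  obtain ⟨c', e', hc', he', h'⟩ := H.β
  have hq0 := X.w_q.1
  have hqF : (q : F1) ≠ 0 := by
    intro h0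
    have h1 := X.normα_q
    rw [h0, zero_pow (by have := X.hq; omega)] at h1
    have h2 : (X.Nα (q : FL)) ≠ 0 := (_root_.map_ne_zero X.Nα).mpr hq0
    exact h2 h1
  have hqK : (q : K) ≠ 0 := by
    intro h0
    apply hqF
    rw [← map_natCast (algebraMap K F1), h0, map_zero]
  refine ⟨mul_ne_zero (zpow_ne_zero n hq0) H.ne, fun P => ?_, H.deg,
    ⟨((q : K) ^ q) ^ n * c, e, mul_ne_zero (zpow_ne_zero n (pow_ne_zero q hqK)) hc, he, ?_⟩,
    ⟨((q : K) ^ q) ^ n * c', e', mul_ne_zero (zpow_ne_zero n (pow_ne_zero q hqK)) hc', he', ?_⟩⟩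
  · have h1 : algebraMap FL F (q : FL) = algebraMap K F (q : K) := by simp
    have h2 : algebraMap K F (q : K) ≠ 0 := (_root_.map_ne_zero (algebraMap K F)).mpr hqK
    rw [map_mul, map_zpow₀, h1, Place.ord_mul _ (zpow_ne_zero n h2)
      ((_root_.map_ne_zero (algebraMap FL F)).mpr H.ne), Place.ord_zpow, ord_algebraMap, H.ord]
    ring
  · rw [map_mul, map_zpow₀, X.normα_q, h, map_mul, map_zpow₀, map_pow, map_natCast]
    ring
  · rw [map_mul, map_zpow₀, X.normβ_q, h', map_mul, map_zpow₀, map_pow, map_natCast]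
    ring

theorem div [HasPrincipalDivisors K F] (H : RootPair X m f D) {e : FL} (he : e ≠ 0) :
    ∃ E : Divisor K F, (∀ P, E P = P.ord (algebraMap FL F e)) ∧ E.IsPrincipal ∧
      RootPair X m (f / e ^ m) (D - E) := by
  have he' : algebraMap FL F e ≠ 0 := (_root_.map_ne_zero (algebraMap FL F)).mpr he
  obtain ⟨E, hE, hdeg⟩ := HasPrincipalDivisors.exists_divisor (K := K) _ he'
  obtain ⟨c, e₁, hc, he₁, h⟩ := H.α
  obtain ⟨c', e₂, hc', he₂, h'⟩ := H.β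
  refine ⟨E, hE, ⟨_, he', hE⟩, div_ne_zero H.ne (pow_ne_zero m he), fun P => ?_, ?_,
    ⟨c, e₁ / X.Nα e, hc, div_ne_zero he₁ ((_root_.map_ne_zero X.Nα).mpr he), ?_⟩,
    ⟨c', e₂ / X.Nβ e, hc', div_ne_zero he₂ ((_root_.map_ne_zero X.Nβ).mpr he), ?_⟩⟩
  · rw [map_div₀, map_pow, div_eq_mul_inv, Place.ord_mul _
      ((_root_.map_ne_zero (algebraMap FL F)).mpr H.ne) (inv_ne_zero (pow_ne_zero m he')),
      Place.ord_inv, ← zpow_natCast, Place.ord_zpow, H.ord, Finsupp.sub_apply, hE]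
    ring
  · rw [map_sub, H.deg, hdeg, sub_zero]
  · rw [map_div₀, map_pow, h, div_pow, mul_div_assoc]
  · rw [map_div₀, map_pow, h', div_pow, mul_div_assoc]

/-- the push-forward of `D` is the divisor of the root -/
theorem ord_e (H : RootPair X m f D) (hm : m ≠ 0) {c : K} {e : F1} (hc : c ≠ 0) (he : e ≠ 0)
    (h : X.Nα f = algebraMap K F1 c * e ^ m) (P' : Place K F1) :
    P'.ord e = Finsupp.mapDomain X.pα D P' := by
  have h1 := X.normα_ord f H.ne (m • D) (fun P => by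
    rw [H.ord]; simp) P'
  rw [h, Place.ord_mul _ ((_root_.map_ne_zero (algebraMap K F1)).mpr hc) (pow_ne_zero m he),
    ord_algebraMap, ← zpow_natCast, Place.ord_zpow, zero_add, Finsupp.mapDomain_smul,
    Finsupp.smul_apply, nsmul_eq_mul] at h1
  have h2 : (m : ℤ) ≠ 0 := by exact_mod_cast hm
  exact (mul_left_cancel₀ h2 h1).symm

theorem ord_e' (H : RootPair X m f D) (hm : m ≠ 0) {c : K} {e : F1} (hc : c ≠ 0) (he : e ≠ 0)
    (h : X.Nβ f = algebraMap K F1 c * e ^ m) (P' : Place K F1) :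
    P'.ord e = Finsupp.mapDomain X.pβ D P' := by
  have h1 := X.normβ_ord f H.ne (m • D) (fun P => by
    rw [H.ord]; simp) P'
  rw [h, Place.ord_mul _ ((_root_.map_ne_zero (algebraMap K F1)).mpr hc) (pow_ne_zero m he),
    ord_algebraMap, ← zpow_natCast, Place.ord_zpow, zero_add, Finsupp.mapDomain_smul,
    Finsupp.smul_apply, nsmul_eq_mul] at h1
  have h2 : (m : ℤ) ≠ 0 := by exact_mod_cast hm
  exact (mul_left_cancel₀ h2 h1).symm

end RootPair

/-- normalised residues which are `m`-th powers: `w 0 f = a 0`, `w 1 f = (q-1) a 1`,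
`w 2 f = a 2`. -/
def NormRes (m : ℕ) (f : FL) (a : Fin 3 → ℤ) (t : Fin 3 → κ) : Prop :=
  (∀ i, t i ≠ 0) ∧ ∀ i, X.Res i ((q : FL) ^ (-(a i)) * f) (t i ^ m)

variable {X}

theorem w_qz (i : Fin 3) (n : ℤ) : X.w i ((q : FL) ^ n) = n * X.w i (q : FL) :=
  X.toResVals.w_zpow i X.w_q.1 n

/-- Step 1. -/
theorem RootPair.step1 [IsAlgClosed k] (hπ : Function.Surjective π) {m : ℕ} (hm : m ≠ 0)
    {f : FL} {D : Divisor K F} (H : RootPair X m f D) :
    ∃ (a : Fin 3 → ℤ) (t : Fin 3 → κ), NormRes X m (f ^ ((q - 1) * (q - 1))) a t := by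
  have hq2 := X.hq
  have hq1 : ((q - 1 : ℕ) : ℤ) = (q : ℤ) - 1 := by omega
  obtain ⟨hq0, hw0, hw1, hw2⟩ := X.w_q
  set g : FL := f ^ (q - 1) with hg
  have hgne : g ≠ 0 := pow_ne_zero _ H.ne
  have Hg : RootPair X m g ((q - 1) • D) := H.pow (q - 1)
  set a : Fin 3 → ℤ := ![(q - 1) * X.w 0 f, X.w 1 f, (q - 1) * X.w 2 f] with ha
  have hwg : ∀ i, X.w i ((q : FL) ^ (-(a i)) * g) = 0 := by
    intro i
    rw [X.w_mul i _ _ (zpow_ne_zero _ hq0) hgne, w_qz, hg, X.toResVals.w_pow i H.ne]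
    fin_cases i
    · simp [ha, hw0, hq1]
    · simp [ha, hw1, hq1]; ring
    · simp [ha, hw2, hq1]
  have hex : ∀ i, ∃ u : κ, u ≠ 0 ∧ X.Res i ((q : FL) ^ (-(a i)) * g) u := fun i =>
    X.exists_res i _ (mul_ne_zero (zpow_ne_zero _ hq0) hgne) (hwg i)
  choose u hu hres using hex
  -- norm reductions
  obtain ⟨c, e, hc, he, hce⟩ := Hg.α
  obtain ⟨c', e', hc', he', hce'⟩ := Hg.β
  have hqF : ∀ n : ℤ, (q : F1) ^ n = algebraMap K F1 ((q : K) ^ n) := fun n => by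
    rw [map_zpow₀, map_natCast]
  have hα₂ := X.normα₂ g _ _ (hres 2)
  have hβ₁ := X.normβ₁ g _ _ (hres 0)
  have hα₁ := X.normα₁ g _ _ _ _ (hres 0) (hres 1)
  obtain ⟨t₂, ht₂, h2⟩ : ∃ t : κ, t ≠ 0 ∧ X.φ (u 2) = t ^ m :=
    exists_root_of_red X.R2 hπ hm he (c := (q : K) ^ (q * -(a 2)) * c)
      (by rw [hce, hqF, map_mul, mul_assoc]) hα₂ ((_root_.map_ne_zero X.φ).mpr (hu 2))
  obtain ⟨t₀, ht₀, h0⟩ : ∃ t : κ, t ≠ 0 ∧ X.φ (u 0) = t ^ m :=
    exists_root_of_red X.R1 hπ hm he' (c := (q : K) ^ (q * -(a 0)) * c')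
      (by rw [hce', hqF, map_mul, mul_assoc]) hβ₁ ((_root_.map_ne_zero X.φ).mpr (hu 0))
  obtain ⟨t₁, ht₁, h1⟩ : ∃ t : κ, t ≠ 0 ∧ u 0 * u 1 ^ (q - 1) = t ^ m :=
    exists_root_of_red X.R1 hπ hm he (c := (q : K) ^ (-(a 0) + (q - 1) * -(a 1)) * c)
      (by rw [hce, hqF, map_mul, mul_assoc]) hα₁
      (mul_ne_zero (hu 0) (pow_ne_zero _ (hu 1)))
  have h0' : u 0 = (X.φ.symm t₀) ^ m := by rw [← map_pow, ← h0, RingEquiv.symm_apply_apply]
  have h2' : u 2 = (X.φ.symm t₂) ^ m := by rw [← map_pow, ← h2, RingEquiv.symm_apply_apply]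
  have hs0 : X.φ.symm t₀ ≠ 0 := (_root_.map_ne_zero _).mpr ht₀
  have hs2 : X.φ.symm t₂ ≠ 0 := (_root_.map_ne_zero _).mpr ht₂
  have h1' : u 1 ^ (q - 1) = (t₁ / X.φ.symm t₀) ^ m := by
    rw [div_pow, ← h0', eq_div_iff (hu 0), mul_comm]; exact h1
  refine ⟨fun i => (q - 1) * a i, ![(X.φ.symm t₀) ^ (q - 1), t₁ / X.φ.symm t₀,
    (X.φ.symm t₂) ^ (q - 1)], ?_, ?_⟩
  · intro i
    fin_cases i
    · exact pow_ne_zero _ hs0
    · exact div_ne_zero ht₁ hs0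
    · exact pow_ne_zero _ hs2
  · intro i
    have h3 : (q : FL) ^ (-((q - 1) * a i)) * f ^ ((q - 1) * (q - 1)) =
        ((q : FL) ^ (-(a i)) * g) ^ (q - 1) := by
      rw [mul_pow, hg, ← pow_mul, ← zpow_natCast ((q : FL) ^ (-(a i))), ← zpow_mul, hq1]
      congr 2
      ring
    have h4 := X.toResVals.res_pow i (hres i) (q - 1)
    rw [← h3] at h4
    have h5 : u i ^ (q - 1) = (![(X.φ.symm t₀) ^ (q - 1), t₁ / X.φ.symm t₀,
        (X.φ.symm t₂) ^ (q - 1)] : Fin 3 → κ) i ^ m := by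
      fin_cases i
      · simp only [Fin.zero_eta, Matrix.cons_val_zero]
        rw [h0', ← pow_mul, ← pow_mul, mul_comm]
      · simpa using h1'
      · simp only [Fin.reduceFinMk, Matrix.cons_val]
        rw [h2', ← pow_mul, ← pow_mul, mul_comm]
    rw [← h5]
    exact h4


/-- residues of `f / e^m`. -/
theorem NormRes.div_pow_mem {m : ℕ} {f e : FL} {a b : Fin 3 → ℤ} {t v : Fin 3 → κ}
    (H : NormRes X m f a t) (hv : ∀ i, v i ≠ 0)
    (hev : ∀ i, X.Res i ((q : FL) ^ (-(b i)) * e) (v i)) (hab : ∀ i, a i = m * b i) (i : Fin 3) :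
    X.Res i (f / e ^ m) ((t i / v i) ^ m) := by
  have h1 := X.toResVals.res_div i (H.2 i) (X.toResVals.res_pow i (hev i) m)
    (pow_ne_zero m (hv i))
  have hq0 := X.w_q.1
  have h2 : (q : FL) ^ (-(a i)) * f / ((q : FL) ^ (-(b i)) * e) ^ m = f / e ^ m := by
    have h3 : ((q : FL) ^ (-(b i))) ^ m = (q : FL) ^ (-(a i)) := by
      rw [← zpow_natCast, ← zpow_mul, hab]
      congr 1; ring
    rw [mul_pow, h3, mul_div_mul_left _ _ (zpow_ne_zero _ hq0)]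
  rw [h2, ← div_pow] at h1
  exact h1

theorem NormRes.w_eq {m : ℕ} {f : FL} {a : Fin 3 → ℤ} {t : Fin 3 → κ}
    (H : NormRes X m f a t) (hf : f ≠ 0) (i : Fin 3) : X.w i f = a i * X.w i (q : FL) := by
  have h1 := (X.w_eq_zero i _ _ (H.2 i) (pow_ne_zero m (H.1 i))).2
  rw [X.w_mul i _ _ (zpow_ne_zero _ X.w_q.1) hf, w_qz] at h1
  linarith

theorem NormRes.pow {m : ℕ} {f : FL} {a : Fin 3 → ℤ} {t : Fin 3 → κ}
    (H : NormRes X m f a t) (n : ℕ) :
    NormRes X m (f ^ n) (fun i => n * a i) (fun i => t i ^ n) := by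
  refine ⟨fun i => pow_ne_zero n (H.1 i), fun i => ?_⟩
  have h1 := X.toResVals.res_pow i (H.2 i) n
  have h2 : ((q : FL) ^ (-(a i)) * f) ^ n = (q : FL) ^ (-(n * a i)) * f ^ n := by
    rw [mul_pow, ← zpow_natCast ((q : FL) ^ (-(a i))), ← zpow_mul]
    congr 2; ring
  rw [h2, ← pow_mul, mul_comm m n, pow_mul] at h1
  exact h1

theorem NormRes.smul {m : ℕ} {f : FL} {a : Fin 3 → ℤ} {t : Fin 3 → κ}
    (H : NormRes X m f a t) (n : ℤ) :
    NormRes X m ((q : FL) ^ n * f) (fun i => a i + n) t := by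
  refine ⟨H.1, fun i => ?_⟩
  have h2 : (q : FL) ^ (-(a i + n)) * ((q : FL) ^ n * f) = (q : FL) ^ (-(a i)) * f := by
    rw [← mul_assoc, ← zpow_add₀ X.w_q.1]
    congr 2; ring
  rw [h2]
  exact H.2 i

/-- Step 2: the vertical multiplicities are divisible by `m` up to `q² - 1`. -/
theorem RootPair.step2 {m : ℕ} (hm : m ≠ 0) {f : FL} {D : Divisor K F} (H : RootPair X m f D)
    {a : Fin 3 → ℤ} {t : Fin 3 → κ} (hR : NormRes X m f a t) (ha : a 0 = 0) :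
    (m : ℤ) ∣ (q ^ 2 - 1) * a 1 ∧ (m : ℤ) ∣ (q ^ 2 - 1) * a 2 := by
  obtain ⟨s⟩ := X.nonempty_S
  obtain ⟨hq0, hw0, hw1, hw2⟩ := X.w_q
  obtain ⟨h, hh, hwh, hord⟩ := X.localgen s m f D hm H.ne H.ord
  have hres : ∀ i, ∃ r : κ, r ≠ 0 ∧ X.Res i h r := fun i => X.exists_res i h hh (hwh i)
  choose r hr hrh using hres
  have hres' : ∀ i, X.Res i ((q : FL) ^ (-(a i)) * (f / h ^ m)) ((t i / r i) ^ m) := by
    intro i
    have h1 := X.toResVals.res_div i (hR.2 i) (X.toResVals.res_pow i (hrh i) m)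
      (pow_ne_zero m (hr i))
    rwa [mul_div_assoc, ← div_pow] at h1
  have hne : f / h ^ m ≠ 0 := div_ne_zero H.ne (pow_ne_zero m hh)
  have hU : ∀ P ∈ X.U s, P.ord (algebraMap FL F (f / h ^ m)) = 0 := by
    intro P hP
    have h1 : algebraMap FL F h ≠ 0 := (_root_.map_ne_zero (algebraMap FL F)).mpr hh
    rw [map_div₀, map_pow, div_eq_mul_inv, Place.ord_mul _
      ((_root_.map_ne_zero (algebraMap FL F)).mpr H.ne) (inv_ne_zero (pow_ne_zero m h1)),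
      Place.ord_inv, ← zpow_natCast, Place.ord_zpow, H.ord, hord P hP]
    ring
  have hw : ∀ i, X.w i (f / h ^ m) = X.w i f := by
    intro i
    rw [X.toResVals.w_div i H.ne (pow_ne_zero m hh), X.toResVals.w_pow i hh, hwh]
    ring
  have h0 := hres' 0
  rw [ha, neg_zero, zpow_zero, one_mul] at h0
  have hsl := X.slope s (f / h ^ m) (a 1) (a 2) _ _ hne hU
    (by rw [hw, hR.w_eq H.ne, ha, zero_mul])
    (by rw [hw, hR.w_eq H.ne, hw1, mul_comm]) (by rw [hw, hR.w_eq H.ne, hw2, mul_one]) h0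
    (hres' 2)
  rw [← zpow_natCast, ← zpow_natCast, Place.ord_zpow, Place.ord_zpow] at hsl
  obtain ⟨hs1, hs2⟩ := hsl
  set x : ℤ := (X.sp s).ord (t 0 / r 0)
  set y : ℤ := (X.sp s).ord (t 2 / r 2)
  have e1 : (m : ℤ) * (x - y) = (q + 1) * a 2 := by linear_combination hs1 - hs2
  have e2 : (m : ℤ) * (q * x + y) = (q ^ 2 - 1) * a 1 := by linear_combination q * hs1 + hs2
  refine ⟨⟨_, e2.symm⟩, ⟨(q - 1) * (x - y), ?_⟩⟩
  linear_combination -(q - 1) * e1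

/-- Step 3: after raising to the power `12 (q² - 1)` and dividing by an `m`-th power, all
residues are `1`. -/
theorem RootPair.step3 [HasPrincipalDivisors K F] {m : ℕ} (hm : m ≠ 0) {f : FL}
    {D : Divisor K F} (H : RootPair X m f D)
    {a : Fin 3 → ℤ} {t : Fin 3 → κ} (hR : NormRes X m f a t) :
    ∃ (f' : FL) (D' : Divisor K F), RootPair X m f' D' ∧ (∀ i, X.Res i f' 1) ∧
      ((12 * (q ^ 2 - 1)) • D - D').IsPrincipal := by
  have hq2 := X.hq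
  have hqq : 1 ≤ q ^ 2 := Nat.one_le_pow _ _ (by omega)
  obtain ⟨hq0, hw0, hw1, hw2⟩ := X.w_q
  -- normalise `a 0 = 0`
  have H1 := H.smul (-(a 0))
  have hR1 := hR.smul (-(a 0))
  set f1 : FL := (q : FL) ^ (-(a 0)) * f with hf1
  set b : Fin 3 → ℤ := fun i => a i + -(a 0) with hb
  obtain ⟨⟨a1, ha1⟩, ⟨b1, hb1⟩⟩ := H1.step2 hm hR1 (by simp [hb])
  set n : ℕ := 12 * (q ^ 2 - 1) with hn
  have H2 := H1.pow n
  have hR2 := hR1.pow n
  -- the modular unit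
  set e : FL := X.uα ^ (b1 - a1) * X.uβ ^ a1 with he
  have hene : e ≠ 0 := mul_ne_zero (zpow_ne_zero _ X.uα_ne) (zpow_ne_zero _ X.uβ_ne)
  obtain ⟨hα0, hα1, hα2⟩ := X.w_uα
  obtain ⟨hβ0, hβ1, hβ2⟩ := X.w_uβ
  set c : Fin 3 → ℤ := ![0, 12 * a1, 12 * b1] with hc
  have hwe : ∀ i, X.w i e = c i * X.w i (q : FL) := by
    intro i
    rw [he, X.w_mul i _ _ (zpow_ne_zero _ X.uα_ne) (zpow_ne_zero _ X.uβ_ne),
      X.toResVals.w_zpow i X.uα_ne, X.toResVals.w_zpow i X.uβ_ne]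
    fin_cases i
    · simp [hc, hα0, hβ0]
    · simp [hc, hα1, hβ1, hw1]; ring
    · simp [hc, hα2, hβ2, hw2]; ring
  have hve : ∀ i, ∃ v : κ, v ≠ 0 ∧ X.Res i ((q : FL) ^ (-(c i)) * e) v := by
    intro i
    apply X.exists_res i _ (mul_ne_zero (zpow_ne_zero _ hq0) hene)
    rw [X.w_mul i _ _ (zpow_ne_zero _ hq0) hene, w_qz, hwe]
    ring
  choose v hv hve using hve
  have hcast : ((q ^ 2 - 1 : ℕ) : ℤ) = (q : ℤ) ^ 2 - 1 := by
    rw [Nat.cast_sub hqq]; push_cast; ring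
  have hab : ∀ i, (n : ℤ) * b i = m * c i := by
    intro i
    rw [hn, Nat.cast_mul, hcast]
    fin_cases i
    · simp [hb, hc]
    · simp only [Fin.mk_one, Nat.cast_ofNat, hc, Matrix.cons_val_one, Matrix.cons_val_zero]
      linear_combination 12 * ha1
    · simp only [Fin.reduceFinMk, Nat.cast_ofNat, hc, Matrix.cons_val]
      linear_combination 12 * hb1
  have hres3 := fun i => hR2.div_pow_mem hv hve hab i
  obtain ⟨E, hE, hEp, H3⟩ := H2.div hene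
  -- approximation
  have hg0 : ∀ i, t i ^ n / v i ≠ 0 := fun i => div_ne_zero (pow_ne_zero n (hR1.1 i)) (hv i)
  obtain ⟨g, hg⟩ := X.approx (fun i => t i ^ n / v i) hg0
  have hgne : g ≠ 0 := (X.w_eq_zero 0 _ _ (hg 0) (hg0 0)).1
  obtain ⟨G, hG, hGp, H4⟩ := H3.div hgne
  refine ⟨_, _, H4, fun i => ?_, ?_⟩
  · have h1 := X.toResVals.res_div i (hres3 i) (X.toResVals.res_pow i (hg i) m)
      (pow_ne_zero m (hg0 i))
    rwa [div_self (pow_ne_zero m (hg0 i))] at h1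
  · have h1 : n • D - (n • D - E - G) = E + G := by abel
    rw [h1]
    exact Divisor.principal.add_mem hEp hGp


/-- local data at a supersingular point for a function with residues `1`. -/
theorem RootPair.local_values [IsAlgClosed k] [FunctionField k κ] {m : ℕ} (hm : m ≠ 0)
    {f : FL} {D : Divisor K F} (H : RootPair X m f D) (h1 : ∀ i, X.Res i f 1) (s : X.S) :
    ∃ (h : FL) (r : Fin 3 → κ) (γ : Fin 3 → k), h ≠ 0 ∧ (∀ i, r i ≠ 0) ∧ (∀ i, γ i ≠ 0) ∧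
      (∀ i, X.Res i h (r i)) ∧ (∀ i, Val (X.sp s) (r i) (γ i)) ∧
      ∀ P ∈ X.U s, P.ord (algebraMap FL F h) = D P := by
  obtain ⟨h, hh, hwh, hord⟩ := X.localgen s m f D hm H.ne H.ord
  have hres : ∀ i, ∃ r : κ, r ≠ 0 ∧ X.Res i h r := fun i => X.exists_res i h hh (hwh i)
  choose r hr hrh using hres
  have hU : ∀ P ∈ X.U s, P.ord (algebraMap FL F (f / h ^ m)) = 0 := by
    intro P hP
    have h1 : algebraMap FL F h ≠ 0 := (_root_.map_ne_zero (algebraMap FL F)).mpr hh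
    rw [map_div₀, map_pow, div_eq_mul_inv, Place.ord_mul _
      ((_root_.map_ne_zero (algebraMap FL F)).mpr H.ne) (inv_ne_zero (pow_ne_zero m h1)),
      Place.ord_inv, ← zpow_natCast, Place.ord_zpow, H.ord, hord P hP]
    ring
  obtain ⟨c, hc, hcv⟩ := X.glue s (f / h ^ m) (fun i => 1 / r i ^ m)
    (fun i => X.toResVals.res_div i (h1 i) (X.toResVals.res_pow i (hrh i) m)
      (pow_ne_zero m (hr i))) (fun i => one_div_ne_zero (pow_ne_zero m (hr i))) hU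
  have hord0 : ∀ i, (X.sp s).ord (r i) = 0 := by
    intro i
    have h2 := ((hcv i).ord_eq_zero hc).2
    rw [one_div, Place.ord_inv, ← zpow_natCast, Place.ord_zpow, neg_eq_zero] at h2
    have h3 : (m : ℤ) ≠ 0 := by exact_mod_cast hm
    exact (mul_eq_zero.mp h2).resolve_left h3
  have hγ : ∀ i, ∃ γ : k, Val (X.sp s) (r i) γ := fun i => Val.exists_of_ord (hord0 i).ge
  choose γ hγ using hγ
  refine ⟨h, r, γ, hh, hr, fun i h0 => ?_, hrh, hγ, hord⟩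
  have h2 := hγ i
  rw [h0, Val.zero_iff] at h2
  rcases h2 with h2 | h2
  · exact hr i h2
  · rw [hord0 i] at h2; exact lt_irrefl _ h2

theorem ord_normα_eq {h : FL} (hh : h ≠ 0) [HasPrincipalDivisors K F] {D : Divisor K F} {s : X.S}
    (hord : ∀ P ∈ X.U s, P.ord (algebraMap FL F h) = D P) {P' : Place K F1} (hP' : P' ∈ X.Aα s) :
    P'.ord (X.Nα h) = Finsupp.mapDomain X.pα D P' := by
  obtain ⟨E, hE, -⟩ := HasPrincipalDivisors.exists_divisor (K := K) (algebraMap FL F h)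
    ((_root_.map_ne_zero (algebraMap FL F)).mpr hh)
  rw [← X.normα_ord h hh E hE P']
  apply mapDomain_apply_congr
  intro P hP
  rw [hE, hord P ((X.U_α s P).mpr (hP ▸ hP'))]

theorem ord_normβ_eq {h : FL} (hh : h ≠ 0) [HasPrincipalDivisors K F] {D : Divisor K F} {s : X.S}
    (hord : ∀ P ∈ X.U s, P.ord (algebraMap FL F h) = D P) {P' : Place K F1} (hP' : P' ∈ X.Aβ s) :
    P'.ord (X.Nβ h) = Finsupp.mapDomain X.pβ D P' := by
  obtain ⟨E, hE, -⟩ := HasPrincipalDivisors.exists_divisor (K := K) (algebraMap FL F h)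
    ((_root_.map_ne_zero (algebraMap FL F)).mpr hh)
  rw [← X.normβ_ord h hh E hE P']
  apply mapDomain_apply_congr
  intro P hP
  rw [hE, hord P ((X.U_β s P).mpr (hP ▸ hP'))]

theorem val_const_div [IsAlgClosed k] {s : Place k κ} {ζ γ : k} {r : κ} (hr : Val s r γ)
    (hγ : γ ≠ 0) (h0 : r ≠ 0) : Val s (algebraMap k κ ζ / r) (ζ / γ) := by
  have h1 := hr.ord_eq_zero hγ
  have h2 : Val s r⁻¹ γ⁻¹ := by
    unfold Val
    have h3 : r⁻¹ - algebraMap k κ γ⁻¹ = (-(algebraMap k κ γ⁻¹) * r⁻¹) *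
        (r - algebraMap k κ γ) := by
      have h4 : algebraMap k κ γ ≠ 0 := (_root_.map_ne_zero _).mpr hγ
      rw [map_inv₀]
      field_simp
      ring
    rw [h3, map_mul]
    have h5 : s.adicValuation (-(algebraMap k κ γ⁻¹) * r⁻¹) ≤ 1 := by
      rw [adicValuation_le_one_iff']
      right
      rw [neg_mul, ← neg_one_mul, ← map_one (algebraMap k κ), ← map_neg, ← mul_assoc, ← map_mul]
      rw [Place.ord_mul _ ((_root_.map_ne_zero _).mpr (mul_ne_zero (neg_ne_zero.mpr one_ne_zero)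
        (inv_ne_zero hγ))) (inv_ne_zero h0), ord_algebraMap, Place.ord_inv, h1.2]
      simp
    calc _ ≤ 1 * s.adicValuation (r - algebraMap k κ γ) := mul_le_mul' h5 le_rfl
      _ < 1 := by rw [one_mul]; exact hr
  rw [div_eq_mul_inv, div_eq_mul_inv]
  exact (Val.const ζ).mul h2

/-- Step 4: gluing. -/
theorem RootPair.step4 [IsAlgClosed k] [IsAlgClosed K] [FunctionField k κ]
    [HasPrincipalDivisors K F]
    (hπ : Function.Surjective π) {m : ℕ} (hm : m ≠ 0) (hmk : (m : k) ≠ 0)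
    {f : FL} {D : Divisor K F} (H : RootPair X m f D) (hres : ∀ i, X.Res i f 1) :
    ((q ^ 2 - 1) • D).IsPrincipal := by
  have hq2 := X.hq
  have hq0 := X.w_q.1
  obtain ⟨c, e₁, hc, he₁, hα⟩ := H.α
  obtain ⟨c', e₂, hc', he₂, hβ⟩ := H.β
  -- absorb the constants
  obtain ⟨d, hd⟩ := IsAlgClosed.exists_pow_nat_eq c (Nat.pos_of_ne_zero hm)
  obtain ⟨d', hd'⟩ := IsAlgClosed.exists_pow_nat_eq c' (Nat.pos_of_ne_zero hm)
  have hd0 : d ≠ 0 := by rintro rfl; rw [zero_pow hm] at hd; exact hc hd.symm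
  have hd0' : d' ≠ 0 := by rintro rfl; rw [zero_pow hm] at hd'; exact hc' hd'.symm
  set g₁ : F1 := algebraMap K F1 d * e₁ with hg₁
  set g₂ : F1 := algebraMap K F1 d' * e₂ with hg₂
  have hg₁0 : g₁ ≠ 0 := mul_ne_zero ((_root_.map_ne_zero _).mpr hd0) he₁
  have hg₂0 : g₂ ≠ 0 := mul_ne_zero ((_root_.map_ne_zero _).mpr hd0') he₂
  have hα' : X.Nα f = g₁ ^ m := by rw [hα, hg₁, mul_pow, ← map_pow, hd]
  have hβ' : X.Nβ f = g₂ ^ m := by rw [hβ, hg₂, mul_pow, ← map_pow, hd']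
  have hα'' : X.Nα f = algebraMap K F1 1 * g₁ ^ m := by rw [hα', map_one, one_mul]
  have hβ'' : X.Nβ f = algebraMap K F1 1 * g₂ ^ m := by rw [hβ', map_one, one_mul]
  -- residues of the roots
  have hres' : ∀ i, X.Res i ((q : FL) ^ (0 : ℤ) * f) 1 := fun i => by simpa using hres i
  have hA1 : X.R1.Red (g₁ ^ m) 1 := by
    have := X.normα₁ f 0 0 1 1 (hres' 0) (hres' 1)
    simpa [hα'] using this
  have hA2 : X.R2.Red (g₁ ^ m) 1 := by
    have := X.normα₂ f 0 1 (hres' 2)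
    simpa [hα'] using this
  have hB2 : X.R2.Red (g₂ ^ m) 1 := by
    have := X.normβ₂ f 0 0 1 1 (hres' 2) (hres' 1)
    simpa [hβ'] using this
  have hB1 : X.R1.Red (g₂ ^ m) 1 := by
    have := X.normβ₁ f 0 1 (hres' 0)
    simpa [hβ'] using this
  obtain ⟨ξ₁, hξ₁, hξ₁'⟩ := exists_red_of_pow X.R1 hπ hm hA1 one_ne_zero
  obtain ⟨ξ₂, hξ₂, hξ₂'⟩ := exists_red_of_pow X.R2 hπ hm hA2 one_ne_zero
  obtain ⟨ω₁, hω₁, hω₁'⟩ := exists_red_of_pow X.R1 hπ hm hB1 one_ne_zero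
  obtain ⟨ω₂, hω₂, hω₂'⟩ := exists_red_of_pow X.R2 hπ hm hB2 one_ne_zero
  obtain ⟨ζ₁, hζ₁, rfl⟩ := exists_const_of_pow_eq_one (k := k) hm hξ₁'
  obtain ⟨ζ₂, hζ₂, rfl⟩ := exists_const_of_pow_eq_one (k := k) hm hξ₂'
  obtain ⟨η₁, hη₁, rfl⟩ := exists_const_of_pow_eq_one (k := k) hm hω₁'
  obtain ⟨η₂, hη₂, rfl⟩ := exists_const_of_pow_eq_one (k := k) hm hω₂'
  have hne : ∀ {ζ : k}, ζ ^ m = 1 → ζ ≠ 0 := by
    rintro ζ h rfl
    rw [zero_pow hm] at h
    exact zero_ne_one h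
  -- the local relations
  have hrel : ∀ (s : X.S) (h : FL) (r : Fin 3 → κ) (γ : Fin 3 → k), h ≠ 0 → (∀ i, r i ≠ 0) →
      (∀ i, γ i ≠ 0) → (∀ i, X.Res i h (r i)) → (∀ i, Val (X.sp s) (r i) (γ i)) →
      (∀ P ∈ X.U s, P.ord (algebraMap FL F h) = D P) →
      ζ₁ * γ 2 ^ q = ζ₂ * (γ 0 * γ 1 ^ (q - 1)) ∧ η₁ * (γ 2 * γ 1 ^ (q - 1)) = η₂ * γ 0 ^ q := by
    intro s h r γ hh hr hγ hrh hv hord
    have hrh' : ∀ i, X.Res i ((q : FL) ^ (0 : ℤ) * h) (r i) := fun i => by simpa using hrh i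
    have hNα : X.Nα h ≠ 0 := (_root_.map_ne_zero X.Nα).mpr hh
    have hNβ : X.Nβ h ≠ 0 := (_root_.map_ne_zero X.Nβ).mpr hh
    have n1 : X.R1.Red (X.Nα h) (r 0 * r 1 ^ (q - 1)) := by
      simpa using X.normα₁ h 0 0 _ _ (hrh' 0) (hrh' 1)
    have n2 : X.R2.Red (X.Nα h) (X.φ (r 2)) := by simpa using X.normα₂ h 0 _ (hrh' 2)
    have n3 : X.R2.Red (X.Nβ h) (r 2 * r 1 ^ (q - 1)) := by
      simpa using X.normβ₂ h 0 0 _ _ (hrh' 2) (hrh' 1)
    have n4 : X.R1.Red (X.Nβ h) (X.φ (r 0)) := by simpa using X.normβ₁ h 0 _ (hrh' 0)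
    have m1 : r 0 * r 1 ^ (q - 1) ≠ 0 := mul_ne_zero (hr 0) (pow_ne_zero _ (hr 1))
    have m2 : X.φ (r 2) ≠ 0 := (_root_.map_ne_zero _).mpr (hr 2)
    have m3 : r 2 * r 1 ^ (q - 1) ≠ 0 := mul_ne_zero (hr 2) (pow_ne_zero _ (hr 1))
    have m4 : X.φ (r 0) ≠ 0 := (_root_.map_ne_zero _).mpr (hr 0)
    have v1 : Val (X.sp s) (r 0 * r 1 ^ (q - 1)) (γ 0 * γ 1 ^ (q - 1)) :=
      (hv 0).mul ((hv 1).pow _)
    have v2 : Val (X.sq s) (X.φ (r 2)) (γ 2 ^ q) := X.sq_φ s _ _ (hv 2)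
    have v3 : Val (X.sp s) (r 2 * r 1 ^ (q - 1)) (γ 2 * γ 1 ^ (q - 1)) :=
      (hv 2).mul ((hv 1).pow _)
    have v4 : Val (X.sq s) (X.φ (r 0)) (γ 0 ^ q) := X.sq_φ s _ _ (hv 0)
    have g1 : γ 0 * γ 1 ^ (q - 1) ≠ 0 := mul_ne_zero (hγ 0) (pow_ne_zero _ (hγ 1))
    have g2 : γ 2 ^ q ≠ 0 := pow_ne_zero _ (hγ 2)
    have g3 : γ 2 * γ 1 ^ (q - 1) ≠ 0 := mul_ne_zero (hγ 2) (pow_ne_zero _ (hγ 1))
    have g4 : γ 0 ^ q ≠ 0 := pow_ne_zero _ (hγ 0)
    have c0 : ∀ {ζ : k}, ζ ≠ 0 → algebraMap k κ ζ ≠ 0 := fun h =>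
      (_root_.map_ne_zero (algebraMap k κ)).mpr h
    constructor
    · obtain ⟨a, ha, ha1, ha2⟩ := X.glueα s (g₁ / X.Nα h) _ _ (RedDatum.div hπ hξ₁ n1 m1)
        (RedDatum.div hπ hξ₂ n2 m2) (div_ne_zero (c0 (hne hζ₁)) m1)
        (div_ne_zero (c0 (hne hζ₂)) m2) (fun P' hP' => by
          rw [div_eq_mul_inv, Place.ord_mul _ hg₁0 (inv_ne_zero hNα), Place.ord_inv,
            ord_normα_eq hh hord hP', H.ord_e hm one_ne_zero hg₁0 hα'' P']
          ring)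
      have b1 := ha1.unique (val_const_div v1 g1 m1)
      have b2 := ha2.unique (val_const_div v2 g2 m2)
      rw [b1] at b2
      rw [div_eq_div_iff g1 g2] at b2
      exact b2
    · obtain ⟨a, ha, ha1, ha2⟩ := X.glueβ s (g₂ / X.Nβ h) _ _ (RedDatum.div hπ hω₁ n4 m4)
        (RedDatum.div hπ hω₂ n3 m3) (div_ne_zero (c0 (hne hη₁)) m4)
        (div_ne_zero (c0 (hne hη₂)) m3) (fun P' hP' => by
          rw [div_eq_mul_inv, Place.ord_mul _ hg₂0 (inv_ne_zero hNβ), Place.ord_inv,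
            ord_normβ_eq hh hord hP', H.ord_e' hm one_ne_zero hg₂0 hβ'' P']
          ring)
      have b1 := ha1.unique (val_const_div v4 g4 m4)
      have b2 := ha2.unique (val_const_div v3 g3 m3)
      rw [b1] at b2
      rw [div_eq_div_iff g4 g3] at b2
      exact b2
  -- the constants
  set Λ : k := (ζ₂ * η₂ / (ζ₁ * η₁)) ^ (q - 1) with hΛ
  set Θ : k := (ζ₁ / ζ₂) ^ (q + 1) * (ζ₂ * η₂ / (ζ₁ * η₁)) ^ q with hΘ
  have hx1 : (ζ₂ * η₂ / (ζ₁ * η₁)) ^ m = 1 := by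
    rw [div_pow, mul_pow, mul_pow, hζ₁, hζ₂, hη₁, hη₂]
    simp
  have hx2 : (ζ₁ / ζ₂) ^ m = 1 := by
    rw [div_pow, hζ₁, hζ₂]
    simp
  have hΛm : Λ ^ m = 1 := by
    rw [hΛ, pow_right_comm, hx1, one_pow]
  have hΘm : Θ ^ m = 1 := by
    rw [hΘ, mul_pow, pow_right_comm, pow_right_comm _ q m, hx1, hx2, one_pow, one_pow, one_mul]
  set n : ℕ := q ^ 2 - 1 with hn
  have H1 := H.pow n
  set ρ : Fin 3 → κ := ![1, algebraMap k κ Θ, algebraMap k κ Λ] with hρ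
  have hρ0 : ∀ i, ρ i ≠ 0 := by
    intro i
    fin_cases i
    · exact one_ne_zero
    · exact (_root_.map_ne_zero (algebraMap k κ)).mpr (hne hΘm)
    · exact (_root_.map_ne_zero (algebraMap k κ)).mpr (hne hΛm)
  have hρm : ∀ i, ρ i ^ m = 1 := by
    intro i
    fin_cases i
    · exact one_pow m
    · show algebraMap k κ Θ ^ m = 1
      rw [← map_pow, hΘm, map_one]
    · show algebraMap k κ Λ ^ m = 1
      rw [← map_pow, hΛm, map_one]
  obtain ⟨g, hg⟩ := X.approx ρ hρ0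
  have hg0 : g ≠ 0 := (X.w_eq_zero 0 _ _ (hg 0) (hρ0 0)).1
  obtain ⟨G, hG, hGp, H2⟩ := H1.div hg0
  have hres2 : ∀ i, X.Res i (f ^ n / g ^ m) 1 := by
    intro i
    have h1 := X.toResVals.res_div i (X.toResVals.res_pow i (hres i) n)
      (X.toResVals.res_pow i (hg i) m) (pow_ne_zero m (hρ0 i))
    rwa [hρm, one_pow, div_one] at h1
  have hfin := X.rigid m (f ^ n / g ^ m) (n • D - G) hmk H2.deg H2.ord hres2 (by
    intro s
    obtain ⟨h, r, γ, hh, hr, hγ, hrh, hv, hord⟩ := H.local_values hm hres s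
    obtain ⟨rel1, rel2⟩ := hrel s h r γ hh hr hγ hrh hv hord
    obtain ⟨el1, el2⟩ := glue_elim hq2 (hne hζ₁) (hne hζ₂) (hne hη₁) (hγ 0) (hγ 1)
      (hγ 2) rel1 rel2
    rw [← hn, ← hΛ] at el1
    rw [← hn, ← hΘ] at el2
    refine ⟨h ^ n / g, fun i => r i ^ n / ρ i, γ 0 ^ n, pow_ne_zero n (hγ 0), fun i =>
      X.toResVals.res_div i (X.toResVals.res_pow i (hrh i) n) (hg i) (hρ0 i), ?_, ?_⟩
    · intro i
      have hv' := (hv i).pow n
      have key : ∀ (θ : k), θ ≠ 0 → γ i ^ n = θ * γ 0 ^ n → ρ i = algebraMap k κ θ →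
          Val (X.sp s) (r i ^ n / ρ i) (γ 0 ^ n) := by
        intro θ hθ h1 h2
        have h3 := hv'.mul (Val.const (P := X.sp s) θ⁻¹)
        rw [h1, map_inv₀, ← h2] at h3
        have h4 : θ * γ 0 ^ n * θ⁻¹ = γ 0 ^ n := by field_simp
        rw [h4] at h3
        rw [div_eq_mul_inv]
        exact h3
      fin_cases i
      · exact key 1 one_ne_zero (by simp) (by simp [hρ])
      · exact key Θ (hne hΘm) el2 rfl
      · exact key Λ (hne hΛm) el1 rfl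
    · intro P hP
      rw [map_div₀, map_pow, div_eq_mul_inv, Place.ord_mul _
        (pow_ne_zero n ((_root_.map_ne_zero (algebraMap FL F)).mpr hh))
        (inv_ne_zero ((_root_.map_ne_zero (algebraMap FL F)).mpr hg0)), Place.ord_inv,
        ← zpow_natCast, Place.ord_zpow, hord P hP, Finsupp.sub_apply, hG,
        Finsupp.smul_apply, nsmul_eq_mul]
      ring)
  have h1 : n • D = (n • D - G) + G := by abel
  rw [h1]
  exact Divisor.principal.add_mem hfin hGp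

/-- **The core of S36'.** -/
theorem RootPair.main [IsAlgClosed k] [IsAlgClosed K] [FunctionField k κ]
    [HasPrincipalDivisors K F]
    (hπ : Function.Surjective π) {m : ℕ} (hm : m ≠ 0) (hmk : (m : k) ≠ 0)
    {f : FL} {D : Divisor K F} (H : RootPair X m f D) :
    (((q ^ 2 - 1) * (12 * (q ^ 2 - 1)) * ((q - 1) * (q - 1))) • D).IsPrincipal := by
  obtain ⟨a, t, hR⟩ := H.step1 hπ hm
  obtain ⟨f', D', H', hres, hD'⟩ := (H.pow ((q - 1) * (q - 1))).step3 hm hR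
  have h1 := H'.step4 hπ hm hmk hres
  have h2 : ((q ^ 2 - 1) * (12 * (q ^ 2 - 1)) * ((q - 1) * (q - 1))) • D =
      (q ^ 2 - 1) • ((12 * (q ^ 2 - 1)) • ((q - 1) * (q - 1)) • D - D') + (q ^ 2 - 1) • D' := by
    rw [smul_sub, ← mul_smul, ← mul_smul, sub_add_cancel, mul_assoc]
  rw [h2]
  exact Divisor.principal.add_mem (Divisor.principal.nsmul_mem hD' _) h1

end Main

end Fermat.Agent.DR.S36
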