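import Mathlib
import Fermat.Agent.DR.S36.Statement
import Fermat.Agent.DR.S36.CoreMain
import Fermat.Agent.Jan.PushPull
import Fermat.Agent.Jan.HeckeInputs
import Fermat.Agent.Jan.JAlgProof
import Fermat.Agent.RR.Corollaries
import Fermat.Agent.RR.HoloModular

/-!
# S36' from a `Core` at every place over `q`
-/

set_option autoImplicit false

noncomputable section

open AlgebraicCurve ModularCurve Fermat.Agent.RR Fermat.Agent.JRED

namespace Fermat.Agent.DR.S36

open Fermat.Agent.DR

section Push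

variable {K F1 F : Type*} [Field K] [Field F1] [Field F] [Algebra K F1] [Algebra K F]

/-- Over an algebraically closed field the push-forward of divisors is `Finsupp.mapDomain`. -/
theorem pushforwardAlong_eq_mapDomain [IsAlgClosed K] [FunctionField K F] (α : F1 →ₐ[K] F)
    (hα : α.toRingHom.IsIntegral) (D : Divisor K F) :
    Divisor.pushforwardAlong α hα D =
      Finsupp.mapDomain (fun P : Place K F => P.restrictAlong α hα) D := by
  induction D using Finsupp.induction with
  | zero => simp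
  | single_add w n D _ _ ih =>
    rw [map_add, ih, Divisor.pushforwardAlong_single,
      Fermat.Agent.Jan.PushPull.inertiaDegAlong_eq_one _ _ (deg_eq_one w), Finsupp.mapDomain_add,
      Finsupp.mapDomain_single]
    simp

variable {FL : Type*} [Field FL] [Algebra FL F]

theorem exists_root_of_push [IsAlgClosed K] [FunctionField K F] [FunctionField K F1]
    (α : F1 →ₐ[K] F) (hα : α.toRingHom.IsIntegral) (Nα : FL →*₀ F1)
    (normα_ord : ∀ (f : FL), f ≠ 0 → ∀ E : Divisor K F,
      (∀ P, E P = P.ord (algebraMap FL F f)) →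
      ∀ P' : Place K F1,
        Finsupp.mapDomain (fun P : Place K F => P.restrictAlong α hα) E P' = P'.ord (Nα f))
    {m : ℕ} {f : FL} (hf : f ≠ 0) {D : Divisor K F}
    (hD : ∀ P, P.ord (algebraMap FL F f) = m * D P)
    (hP : (Divisor.pushforwardAlong α hα D).IsPrincipal) :
    ∃ (c : K) (e : F1), c ≠ 0 ∧ e ≠ 0 ∧ Nα f = algebraMap K F1 c * e ^ m := by
  obtain ⟨e, he, hDe⟩ := hP
  have hN : Nα f ≠ 0 := (_root_.map_ne_zero Nα).mpr hf
  have h1 : ∀ P' : Place K F1, P'.ord (Nα f) = m * P'.ord e := by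
    intro P'
    rw [← hDe P', ← normα_ord f hf (m • D) (fun P => by rw [hD]; simp) P',
      pushforwardAlong_eq_mapDomain, Finsupp.mapDomain_smul, Finsupp.smul_apply, nsmul_eq_mul]
  obtain ⟨c, hc⟩ := exists_const_of_forall_ord_nonneg (K := K) (f := Nα f / e ^ m) (fun v => by
    rw [div_eq_mul_inv, v.ord_mul hN (inv_ne_zero (pow_ne_zero m he)), v.ord_inv, h1,
      ← zpow_natCast, v.ord_zpow]
    simp)
  have hem : e ^ m ≠ 0 := pow_ne_zero m he
  refine ⟨c, e, ?_, he, ?_⟩
  · rintro rfl
    rw [map_zero, div_eq_zero_iff] at hc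
    rcases hc with hc | hc
    · exact hN hc
    · exact hem hc
  · rw [← hc, div_mul_cancel₀ _ hem]

end Push

/-- The input from descent of classes and functions to `L = ℚ̄^I` (piece L). -/
def ClassInput (M q : ℕ) [NeZero M] (A : ValuationSubring (AlgebraicClosure ℚ)) (FL : Type)
    [Field FL] [Algebra FL (modularFunctionFieldBar M)] : Prop :=
  ∀ m : ℕ, Nat.Coprime m q → ∀ x : JZero M, m • x = 0 →
    (∀ τ ∈ A.inertiaSubgroupIn ℚ, τ • x = x) →
    ∃ D : Divisor.degZero (K := AlgebraicClosure ℚ) (F := modularFunctionFieldBar M),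
      Pic0.mk D = x ∧ ∃ f : FL, f ≠ 0 ∧
        ∀ P, P.ord (algebraMap FL (modularFunctionFieldBar M) f) =
          m * (D : Divisor (AlgebraicClosure ℚ) (modularFunctionFieldBar M)) P

variable {N q : ℕ} [NeZero N] [NeZero q]

/-- The data needed at one place over `q`. -/
structure CoreAt (N q : ℕ) [NeZero N] [NeZero q] (A : ValuationSubring (AlgebraicClosure ℚ))
    (FL k κ : Type) [Field FL] [Field k] [Field κ] [Algebra k κ]
    [Algebra FL (modularFunctionFieldBar (N * q * q))] where
  π : A →+* k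
  surj : Function.Surjective π
  charP : CharP k q
  algClosed : IsAlgClosed k
  ff : FunctionField k κ
  X : Core (AlgebraicClosure ℚ) (modularFunctionFieldBar (N * q * q))
    (modularFunctionFieldBar (N * q)) FL k κ A π q
  hα : (heckeAlphaBar (AlgebraicClosure ℚ) (N * q) q).toRingHom.IsIntegral
  hβ : (heckeBetaBar (AlgebraicClosure ℚ) (N * q) q).toRingHom.IsIntegral
  pα_eq : X.pα = fun P => P.restrictAlong (heckeAlphaBar (AlgebraicClosure ℚ) (N * q) q) hα
  pβ_eq : X.pβ = fun P => P.restrictAlong (heckeBetaBar (AlgebraicClosure ℚ) (N * q) q) hβ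
  classInput : ClassInput (N * q * q) q A FL

theorem CoreAt.bound {A : ValuationSubring (AlgebraicClosure ℚ)}
    {FL k κ : Type} [Field FL] [Field k] [Field κ] [Algebra k κ]
    [Algebra FL (modularFunctionFieldBar (N * q * q))] (Y : CoreAt N q A FL k κ)
    {m : ℕ} (hmq : Nat.Coprime m q) {x : JZero (N * q * q)} (hx : m • x = 0)
    (hfix : ∀ τ ∈ A.inertiaSubgroupIn ℚ, τ • x = x)
    (hαx : PushZero (heckeAlphaBar (AlgebraicClosure ℚ) (N * q) q) x)
    (hβx : PushZero (heckeBetaBar (AlgebraicClosure ℚ) (N * q) q) x) :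
    ((q ^ 2 - 1) * (12 * (q ^ 2 - 1)) * ((q - 1) * (q - 1))) • x = 0 := by
  have := Y.charP
  have := Y.algClosed
  have := Y.ff
  have hPD : HasPrincipalDivisors (AlgebraicClosure ℚ) (modularFunctionFieldBar (N * q * q)) :=
    Fermat.Agent.Jan.HeckeInputs.hasPrincipalDivisors_modular _
      Fermat.Agent.Jan.HeckeInputs.jAlg _
  obtain ⟨D, rfl, f, hf, hord⟩ := Y.classInput m hmq x hx hfix
  have hm : m ≠ 0 := by
    rintro rfl
    have h2 := Y.X.hq
    rw [Nat.coprime_zero_left] at hmq
    omega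
  have hmk : (m : k) ≠ 0 := by
    intro h0
    rw [CharP.cast_eq_zero_iff k q] at h0
    have h2 := Y.X.hq
    have h3 := Nat.Coprime.eq_one_of_dvd (Nat.coprime_comm.mp hmq) h0
    omega
  have H : RootPair Y.X m f (D : Divisor (AlgebraicClosure ℚ) _) :=
    { ne := hf
      ord := hord
      deg := Divisor.mem_degZero.mp D.2
      α := exists_root_of_push _ Y.hα Y.X.Nα (by
        have h := Y.X.normα_ord
        rw [Y.pα_eq] at h
        exact h) hf hord (hαx Y.hα D rfl)
      β := exists_root_of_push _ Y.hβ Y.X.Nβ (by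
        have h := Y.X.normβ_ord
        rw [Y.pβ_eq] at h
        exact h) hf hord (hβx Y.hβ D rfl) }
  have h1 := H.main Y.surj hm hmk
  have h2 : ∀ n : ℕ, n • (Pic0.mk D : JZero (N * q * q)) = Pic0.mk (n • D) := fun n =>
    (map_nsmul (QuotientAddGroup.mk' _) n D).symm
  rw [h2]
  exact (QuotientAddGroup.eq_zero_iff _).mpr (by
    rw [AddSubgroup.mem_addSubgroupOf]
    exact h1)

theorem s36Prime_of_core
    (h : ∀ A : ValuationSubring (AlgebraicClosure ℚ), A.LiesOverPrime q →
      ∃ (FL k κ : Type) (_ : Field FL) (_ : Field k) (_ : Field κ) (_ : Algebra k κ)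
        (_ : Algebra FL (modularFunctionFieldBar (N * q * q))), Nonempty (CoreAt N q A FL k κ)) :
    S36Prime N q := by
  rcases Nat.lt_or_ge q 2 with hq | hq
  · -- there is no place over `q`
    refine ⟨1, one_pos, fun A hA => ?_⟩
    obtain ⟨FL, k, κ, _, _, _, _, _, ⟨Y⟩⟩ := h A hA
    exact absurd Y.X.hq (by omega)
  · refine ⟨(q ^ 2 - 1) * (12 * (q ^ 2 - 1)) * ((q - 1) * (q - 1)), ?_, ?_⟩
    · have h1 : 0 < q - 1 := by omega
      have h2 : 0 < q ^ 2 - 1 := by
        have : 2 ^ 2 ≤ q ^ 2 := Nat.pow_le_pow_left hq 2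
        omega
      positivity
    · intro A hA m hmq x hx hfix hαx hβx
      obtain ⟨FL, k, κ, _, _, _, _, _, ⟨Y⟩⟩ := h A hA
      exact Y.bound hmq hx hfix hαx hβx

end Fermat.Agent.DR.S36
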