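import Fermat.Agent.DR.S36.LClass
import Fermat.Agent.DR.S36.Assemble

/-!
# The class input of the S36 assembly
-/

set_option autoImplicit false

noncomputable section

open ModularCurve AlgebraicCurve

namespace Fermat.Agent.DR.S36.L

/-- `F_N(ℚ̄)` as an algebra over `F_N(L)`. -/
@[reducible] def algInc (L : Type*) [Field L] [Algebra L (AlgebraicClosure ℚ)] (N : ℕ) :
    Algebra (modularFunctionFieldFullC L N) (modularFunctionFieldBar N) := (inc L N).toAlgebra

theorem algebraMap_algInc (L : Type*) [Field L] [Algebra L (AlgebraicClosure ℚ)] (N : ℕ)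
    (f : modularFunctionFieldFullC L N) :
    letI := algInc L N
    algebraMap (modularFunctionFieldFullC L N) (modularFunctionFieldBar N) f = inc L N f := rfl

variable {A : ValuationSubring (AlgebraicClosure ℚ)} {L : Type} [Field L]
  [Algebra L (AlgebraicClosure ℚ)]

/-- **The class input**: an `m`-torsion class fixed by inertia is the class of a divisor `D` with
`m D` the divisor of a function over the inertia field. -/
theorem classInput [IsInertiaField A L] (M q : ℕ) [NeZero M] :
    letI := algInc L M
    ClassInput M q A (modularFunctionFieldFullC L M) := by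
  intro m _ x hmx hx
  obtain ⟨D, hD, hfix⟩ := exists_fixed_divisor hx
  refine ⟨D, hD, ?_⟩
  have h1 : Pic0.mk (m • D) = 0 := by
    have h2 : Pic0.mk (m • D) = m • Pic0.mk D := rfl
    rw [h2, hD, hmx]
  have h3 := (QuotientAddGroup.eq_zero_iff (m • D)).mp h1
  rw [AddSubgroup.mem_addSubgroupOf] at h3
  have h4 : ∀ σ ∈ A.inertiaSubgroupIn ℚ, arithmeticGalois (modularFunctionFieldFull M) σ •
      ((m • D : Divisor.degZero (K := AlgebraicClosure ℚ) (F := modularFunctionFieldBar M)) :
        Divisor (AlgebraicClosure ℚ) (modularFunctionFieldBar M)) =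
      ((m • D : Divisor.degZero (K := AlgebraicClosure ℚ) (F := modularFunctionFieldBar M)) :
        Divisor (AlgebraicClosure ℚ) (modularFunctionFieldBar M)) := by
    intro σ hσ
    rw [AddSubgroup.coe_nsmul, smul_comm, hfix σ hσ]
  obtain ⟨f, hf, -, hord⟩ := exists_function (L := L) h4 h3
  refine ⟨f, hf, fun P => ?_⟩
  have h5 := hord P
  rw [AddSubgroup.coe_nsmul, Finsupp.smul_apply, nsmul_eq_mul] at h5
  exact h5.symm

end Fermat.Agent.DR.S36.L
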