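import Fermat.Agent.DR.S36.LLift
import Fermat.Agent.DR.S36.LInput
import Fermat.Agent.DR.Nodal.Basic

/-!
# Constant field extensions are unramified

* `algebraic`: `Q̄ / L` is algebraic.
* `exists_unif_regAlg`: uniformizers regular off the poles of a given function.
* `unram`: every place of `X₀(N)` over `Q̄` has a uniformizer defined over the inertia field `L`.
-/

set_option autoImplicit false

noncomputable section

open ModularCurve AlgebraicCurve IntermediateField Polynomial

namespace Fermat.Agent.DR.S36.L

open Fermat.Agent.MFF Fermat.Agent.RR Fermat.Agent.JRED Fermat.Agent.DR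

theorem algebraic (L : Type*) [Field L] [Algebra L (AlgebraicClosure ℚ)] :
    Algebra.IsAlgebraic L (AlgebraicClosure ℚ) := by
  have := charZero_of_algebra L
  exact Algebra.IsAlgebraic.tower_top (K := ℚ) L

section Generic

variable {K F : Type*} [Field K] [Field F] [Algebra K F]

theorem val_aeval {P : Place K F} {f : F} {c : K} (h : Val P f c) (g : K[X]) :
    Val P (aeval f g) (g.eval c) := by
  induction g using Polynomial.induction_on' with
  | add p q hp hq =>
    rw [map_add, eval_add]
    exact hp.add hq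
  | monomial n a =>
    rw [aeval_monomial, eval_monomial]
    exact (Val.const a).mul (h.pow n)

theorem val_sum {P : Place K F} {ι : Type*} (s : Finset ι) {f : ι → F} {c : ι → K}
    (h : ∀ i ∈ s, Val P (f i) (c i)) : Val P (∑ i ∈ s, f i) (∑ i ∈ s, c i) := by
  classical
  induction s using Finset.induction_on with
  | empty => simpa using Val.zero (P := P)
  | insert a s ha ih =>
    rw [Finset.sum_insert ha, Finset.sum_insert ha]
    exact (h a (Finset.mem_insert_self a s)).add
      (ih fun i hi => h i (Finset.mem_insert_of_mem hi))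

/-- If `f − c` is a uniformizer and `c` is a simple root of `p`, then `p(f)` is a uniformizer. -/
theorem ord_aeval_eq_one {P : Place K F} {f : F} {c : K} (h : P.ord (f - algebraMap K F c) = 1)
    {p : K[X]} (hp : p.eval c = 0) (hp' : p.derivative.eval c ≠ 0) : P.ord (aeval f p) = 1 := by
  obtain ⟨g, rfl⟩ := dvd_iff_isRoot.mpr hp
  have hg : g.eval c ≠ 0 := by
    intro h0
    apply hp'
    simp [h0]
  have h0 : f - algebraMap K F c ≠ 0 := by
    intro h0
    rw [h0] at h
    simp at h
  have hval : Val P f c := adicValuation_lt_one_iff.mpr (Or.inr (by omega))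
  obtain ⟨h1, h2⟩ := (val_aeval hval g).ord_eq_zero hg
  rw [map_mul, map_sub, aeval_X, aeval_C, P.ord_mul h0 h1, h, h2, add_zero]

omit [Algebra K F] in
theorem map_aeval_of_comm {L E : Type*} [Field L] [Field E] [Algebra L E] [Algebra L K]
    [Algebra K F] (i : E →+* F)
    (hi : ∀ a, i (algebraMap L E a) = algebraMap K F (algebraMap L K a)) (f : E) (p : L[X]) :
    i (aeval f p) = aeval (i f) (p.map (algebraMap L K)) := by
  rw [aeval_def, aeval_def, hom_eval₂, eval₂_map]
  congr 1
  ext a
  exact hi a

variable [IsAlgClosed K] [FunctionField K F]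

theorem exists_pole {x : F} (hx : Transcendental K x) : ∃ P : Place K F, P.ord x < 0 := by
  by_contra hcon
  push Not at hcon
  obtain ⟨c, hc⟩ := exists_const_of_forall_ord_nonneg hcon
  exact hx (hc ▸ isAlgebraic_algebraMap c)

theorem exists_unif_regAlg {x : F} (hx : Transcendental K x) {P : Place K F} (hP : 0 ≤ P.ord x) :
    ∃ y ∈ Nodes.regAlg K x, P.ord y = 1 := by
  classical
  obtain ⟨P₀, hP₀⟩ := exists_pole hx
  have hne : P₀ ∉ ({P} : Finset (Place K F)) := by
    rw [Finset.mem_singleton]
    rintro rfl
    omega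
  obtain ⟨t, ht⟩ := Fermat.FF.exists_ord_eq_one P
  obtain ⟨y, hy1, hy2⟩ := strong_approximation P₀ {P} hne (fun _ => t) 2
  have ht0 : t ≠ 0 := by
    rintro rfl
    simp at ht
  have hy : P.ord y = 1 := by
    have h1 := hy1 P (Finset.mem_singleton_self P)
    have h2 := ord_add_eq_of_lt P ht0 (g := y - t) (h1.imp id fun h => by omega)
    rwa [add_sub_cancel, ht] at h2
  refine ⟨y, fun Q hQ => ?_, hy⟩
  have hy0 : y ≠ 0 := by
    rintro rfl
    simp at hy
  rw [Fermat.FF.mem_iff_ord Q hy0]
  by_cases hQP : Q = P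
  · rw [hQP, hy]; exact zero_le_one
  · refine hy2 Q (by rwa [Finset.mem_singleton]) ?_
    rintro rfl
    have := Fermat.FF.ord_nonneg_of_mem Q hQ
    omega

/-- A uniformizer at `P` in a span gives a generator with a simple value at `P`. -/
theorem exists_ord_sub_eq_one {P : Place K F} {ι : Type*} {s : Finset ι} {b : ι → F} {c : ι → K}
    (hb : ∀ i ∈ s, 0 ≤ P.ord (b i)) (h : P.ord (∑ i ∈ s, c i • b i) = 1) :
    ∃ i ∈ s, ∃ β : K, P.ord (b i - algebraMap K F β) = 1 := by
  classical
  choose! β hβ using fun i hi => Val.exists_of_ord (hb i hi)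
  by_contra hcon
  push Not at hcon
  set y := ∑ i ∈ s, c i • b i with hy
  have hy0 : y ≠ 0 := by
    intro h0
    rw [h0] at h
    simp at h
  have h1 : Val P y 0 := Val.zero_iff.mpr (Or.inr (by omega))
  have h2 : Val P y (∑ i ∈ s, c i * β i) := val_sum s fun i hi => (hβ i hi).smul (c i)
  have h3 : (∑ i ∈ s, c i * β i) = 0 := h2.unique h1
  have h4 : y = ∑ i ∈ s, c i • (b i - algebraMap K F (β i)) := by
    have h5 : (∑ i ∈ s, c i • algebraMap K F (β i)) = 0 := by
      rw [← map_zero (algebraMap K F), ← h3, map_sum]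
      exact Finset.sum_congr rfl fun i _ => by rw [Algebra.smul_def, map_mul]
    rw [hy]
    simp only [smul_sub, Finset.sum_sub_distrib]
    rw [h5, sub_zero]
  have h6 : ∀ i ∈ s, c i • (b i - algebraMap K F (β i)) = 0 ∨
      2 ≤ P.ord (c i • (b i - algebraMap K F (β i))) := by
    intro i hi
    rcases eq_or_ne (c i) 0 with h0 | h0
    · left; rw [h0, zero_smul]
    rcases eq_or_ne (b i - algebraMap K F (β i)) 0 with h0' | h0'
    · left; rw [h0', smul_zero]
    right
    have h7 : 0 < P.ord (b i - algebraMap K F (β i)) :=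
      (adicValuation_lt_one_iff.mp (hβ i hi)).resolve_left h0'
    have h8 := hcon i hi (β i)
    rw [Algebra.smul_def, P.ord_mul (by simpa using h0) h0', ord_algebraMap]
    omega
  rcases ord_sum_ge P s _ 2 h6 with h9 | h9
  · exact hy0 (h4.trans h9)
  · rw [← h4, h] at h9
    omega

end Generic

section Modular

variable {A : ValuationSubring (AlgebraicClosure ℚ)} {L : Type} [Field L]
  [Algebra L (AlgebraicClosure ℚ)] {N : ℕ} [NeZero N]

omit [NeZero N] in
theorem inc_aeval (f : modularFunctionFieldFullC L N) (p : L[X]) :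
    inc L N (aeval f p) =
      aeval (inc L N f) (p.map (algebraMap L (AlgebraicClosure ℚ))) :=
  map_aeval_of_comm (inc L N) inc_algebraMap f p

variable (A) in
theorem exists_unif_aux [IsInertiaField A L] {x : modularFunctionFieldFullC L N}
    (hx : Transcendental (AlgebraicClosure ℚ) (inc L N x))
    {P : Place (AlgebraicClosure ℚ) (modularFunctionFieldBar N)} (hP : 0 ≤ P.ord (inc L N x)) :
    ∃ t : modularFunctionFieldFullC L N, P.ord (inc L N t) = 1 := by
  have hff : FunctionField (AlgebraicClosure ℚ) (modularFunctionFieldBar N) :=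
    Fermat.Agent.JRED.functionField_of_finite (Fermat.Agent.JRED.transcendental_jBar N)
      (Fermat.Agent.JRED.finrank_bar N).1
  obtain ⟨y, hy, hyP⟩ := exists_unif_regAlg hx hP
  obtain ⟨n, hn⟩ := Nodes.exists_mem_of_mem_regAlg hy
  obtain ⟨r, m, b, -, hbW, -, -, -, hspan, -⟩ := exists_basis_desc (A := A) (L := L)
    (riemannRochSpace (n • polesOf (K := AlgebraicClosure ℚ) (inc L N x)))
    (fun σ hσ w hw => smul_mem_riemannRochSpace _
      (smul_nsmul_polesOf _ (arithmeticGalois_smul_inc hσ x) _) hw)
  rw [← hspan] at hn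
  obtain ⟨c, hc⟩ := (Submodule.mem_span_range_iff_exists_fun _).mp hn
  have hb : ∀ i ∈ Finset.univ, 0 ≤ P.ord (inc L N (b i)) := by
    intro i _
    rcases eq_or_ne (inc L N (b i)) 0 with h0 | h0
    · rw [h0]; simp
    · have hx0 : inc L N x ≠ 0 := fun h => hx (h ▸ isAlgebraic_zero)
      exact (Fermat.FF.mem_iff_ord P h0).mp (Nodes.mem_regAlg_of_mem (hbW i) P
        ((Fermat.FF.mem_iff_ord P hx0).mpr hP))
  obtain ⟨i, -, β, hβ⟩ := exists_ord_sub_eq_one (s := Finset.univ) (c := c) hb (by rw [hc, hyP])
  have halg := (algebraic L).isAlgebraic β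
  have hchar := charZero_of_algebra L
  have hsep : (minpoly L β).Separable := (minpoly.irreducible halg.isIntegral).separable
  refine ⟨aeval (b i) (minpoly L β), ?_⟩
  rw [inc_aeval]
  refine ord_aeval_eq_one hβ ?_ ?_
  · rw [eval_map_algebraMap, minpoly.aeval]
  · rw [derivative_map, eval_map_algebraMap]
    exact hsep.aeval_derivative_ne_zero (minpoly.aeval L β)

variable (A) in
/-- **Constant field extensions are unramified**: every place has a uniformizer over `L`. -/
theorem unram [IsInertiaField A L] (P : Place (AlgebraicClosure ℚ) (modularFunctionFieldBar N)) :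
    ∃ t : modularFunctionFieldFullC L N, P.ord (inc L N t) = 1 := by
  have hj : Transcendental (AlgebraicClosure ℚ) (inc L N (jRed L N)) :=
    transcendental_inc (Fermat.Agent.JRED.transcendental_jRed L N)
  rcases le_or_gt 0 (P.ord (inc L N (jRed L N))) with h | h
  · exact exists_unif_aux A hj h
  · refine exists_unif_aux A (x := (jRed L N)⁻¹) ?_ ?_
    · rw [map_inv₀]
      exact fun h => hj (by simpa using h.inv)
    · rw [map_inv₀, P.ord_inv]
      omega

end Modular

end Fermat.Agent.DR.S36.L
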