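import Fermat.Agent.DR.S36.LUnram
import Fermat.Agent.DR.Mod.ModMono
import Fermat.Agent.DR.ModGal.Galois

/-!
# The inertia field: inputs for `Mono` and for `Surf`

* `lifts_modMono`: `F0 L M` satisfies `MonoPair.Lifts` for the modular `MonoPair`.
* `exists_lift_j`, `exists_lift_j_inv`: lifting to functions over `L`, chart by chart.
* `comm`, `disj`, `unram'`, `π0_eq_zero_dvd`, ...: the fields of `Surf`.
-/

set_option autoImplicit false

noncomputable section

open ModularCurve AlgebraicCurve IntermediateField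

namespace Fermat.Agent.DR.S36.L

open Fermat.Agent.MFF Fermat.Agent.RR Fermat.Agent.JRED Fermat.Agent.DR Fermat.Agent.DR.Mod2
  Fermat.Agent.DR.Mod

section Charts

variable {A : ValuationSubring (AlgebraicClosure ℚ)} {L : Type} [Field L]
  [Algebra L (AlgebraicClosure ℚ)] [IsInertiaField A L] {k : Type} [Field k] {π : A →+* k} {N : ℕ}
  [NeZero N] {q : ℕ}

variable (L) in
/-- Lifting to functions over `L` regular where `j` is. -/
theorem exists_lift_j (hq : q.Prime) (hA : A.LiesOverPrime q) (h : DegreeInput N k)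
    (hπ : Function.Surjective π) (hgood : GoodReduction N k) {u : modularFunctionFieldFullC k N}
    (hu : u ∈ Nodes.regAlg k (jRed k N)) :
    ∃ f : modularFunctionFieldFullC L N,
      inc L N f ∈ Nodes.regAlg (AlgebraicClosure ℚ) (jBar N) ∧
        (h.redDatum hπ).Red (inc L N f) u := by
  have h1 := exists_lift_regAlg (L := L) hq hA h hπ hgood (x := jRed L N) (xb := jRed k N)
    (by rw [inc_jRed]; exact redL_j π N) (Fermat.Agent.JRED.transcendental_jRed k N) hu
  rwa [inc_jRed] at h1

variable (L) in
/-- Lifting to functions over `L` regular where `j⁻¹` is. -/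
theorem exists_lift_j_inv (hq : q.Prime) (hA : A.LiesOverPrime q) (h : DegreeInput N k)
    (hπ : Function.Surjective π) (hgood : GoodReduction N k) {u : modularFunctionFieldFullC k N}
    (hu : u ∈ Nodes.regAlg k (jRed k N)⁻¹) :
    ∃ f : modularFunctionFieldFullC L N,
      inc L N f ∈ Nodes.regAlg (AlgebraicClosure ℚ) (jBar N)⁻¹ ∧
        (h.redDatum hπ).Red (inc L N f) u := by
  have htr := Fermat.Agent.JRED.transcendental_jRed k N
  have h0 : jRed k N ≠ 0 := fun h0 => htr (h0 ▸ isAlgebraic_zero)
  have h1 := exists_lift_regAlg (L := L) hq hA h hπ hgood (x := (jRed L N)⁻¹)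
    (xb := (jRed k N)⁻¹)
    (by rw [map_inv₀, inc_jRed]; exact RedDatum.inv hπ (redL_j π N) h0)
    (fun h2 => htr (by simpa using h2.inv)) hu
  rwa [map_inv₀, inc_jRed] at h1

end Charts

section Maps

variable (A : ValuationSubring (AlgebraicClosure ℚ)) {L : Type*} [Field L]
  [Algebra L (AlgebraicClosure ℚ)] [IsInertiaField A L] {M q : ℕ} [NeZero M] [NeZero q]

include A in
theorem alpha_mem_F0 {f : modularFunctionFieldBar M} (hf : f ∈ F0 L M) :
    heckeAlphaBar (AlgebraicClosure ℚ) M q f ∈ F0 L (M * q) := by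
  rw [mem_F0_iff (A := A)] at hf ⊢
  intro σ hσ
  rw [← Fermat.Agent.DR.ModGal.galois_alpha, hf σ hσ]

include A in
theorem beta_mem_F0 {f : modularFunctionFieldBar M} (hf : f ∈ F0 L M) :
    heckeBetaBar (AlgebraicClosure ℚ) M q f ∈ F0 L (M * q) := by
  rw [mem_F0_iff (A := A)] at hf ⊢
  intro σ hσ
  rw [← Fermat.Agent.DR.ModGal.galois_beta, hf σ hσ]

include A in
omit [NeZero M] in
/-- Functions with rational coefficients are defined over `L`. -/
theorem mem_F0_of_rat {f : modularFunctionFieldBar M} {g : LaurentSeries ℚ}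
    (h : (f : LaurentSeries (AlgebraicClosure ℚ)) =
      coeffMap (algebraMap ℚ (AlgebraicClosure ℚ)) g) : f ∈ F0 L M := by
  rw [mem_F0_iff (A := A)]
  intro σ _
  apply Subtype.ext
  rw [coe_arithmeticGalois_smul, h]
  ext n
  rw [coeffMap_coeff, coeffMap_coeff]
  exact σ.commutes _

end Maps

section Mono

variable {A : ValuationSubring (AlgebraicClosure ℚ)} {k : Type} [Field k] {π : A →+* k}
  {M q : ℕ} [NeZero M] [hq : Fact q.Prime] [IsAlgClosed k] [hchar : CharP k q]
  {w : laurentBaseChange (AlgebraicClosure ℚ) (modularFunctionFieldFull (M * q)) ≃ₐ[AlgebraicClosure ℚ]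
      laurentBaseChange (AlgebraicClosure ℚ) (modularFunctionFieldFull (M * q))}
  [FunctionField (AlgebraicClosure ℚ) (modularFunctionFieldBar (M * q))]
  [FunctionField (AlgebraicClosure ℚ) (modularFunctionFieldBar M)]
  [FunctionField k (modularFunctionFieldFullC k M)]
  {r : Place (AlgebraicClosure ℚ) (modularFunctionFieldBar M) →
    Place k (modularFunctionFieldFullC k M)}

variable (L : Type) [Field L] [Algebra L (AlgebraicClosure ℚ)] [IsInertiaField A L]

omit [FunctionField (AlgebraicClosure ℚ) (modularFunctionFieldBar (M * q))] in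
/-- The functions over the inertia field satisfy `MonoPair.Lifts`. -/
theorem lifts_modMono (hA : A.LiesOverPrime q) (S : Setup π w) (hqM : ¬ q ∣ M)
    (hdeg : DegreeInput M k) (hgood : GoodReduction M k)
    (hr : PlaceRed (hdeg.redDatum S.surj) r) :
    (modMono S hqM hdeg hgood hr).Lifts (F0 L M) := by
  intro u hu
  obtain ⟨f, hf, hfu⟩ := exists_lift_j L hq.out hA hdeg S.surj hgood (u := u) hu
  exact ⟨inc L M f, hf, inc_mem_F0 f, hfu⟩

end Mono

section Surf

/-! ### The fields of `Surf` (with `algInc` as the algebra structure `F_L → F`) -/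

variable {A : ValuationSubring (AlgebraicClosure ℚ)} {L : Type} [Field L]
  [Algebra L (AlgebraicClosure ℚ)] {k : Type} [Field k] {π : A →+* k} {N : ℕ} {q : ℕ}

/-- `Surf.comm` -/
theorem surf_comm (a : L) :
    letI := algInc L N
    algebraMap (modularFunctionFieldFullC L N) (modularFunctionFieldBar N)
      (algebraMap L (modularFunctionFieldFullC L N) a) =
      algebraMap (AlgebraicClosure ℚ) (modularFunctionFieldBar N)
        (algebraMap L (AlgebraicClosure ℚ) a) := inc_algebraMap a

/-- `Surf.disj` -/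
theorem surf_disj (n : ℕ) (b : Fin n → modularFunctionFieldFullC L N)
    (hb : LinearIndependent L b) :
    letI := algInc L N
    LinearIndependent (AlgebraicClosure ℚ) fun i =>
      algebraMap (modularFunctionFieldFullC L N) (modularFunctionFieldBar N) (b i) :=
  linearIndependent_inc hb

/-- `Surf.unram` -/
theorem surf_unram (A : ValuationSubring (AlgebraicClosure ℚ)) [IsInertiaField A L] [NeZero N]
    (P : Place (AlgebraicClosure ℚ) (modularFunctionFieldBar N)) :
    letI := algInc L N
    ∃ t : modularFunctionFieldFullC L N,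
      P.ord (algebraMap (modularFunctionFieldFullC L N) (modularFunctionFieldBar N) t) = 1 :=
  unram A P

/-- `Surf.π₀_eq_zero` -/
theorem surf_π₀_eq_zero [IsInertiaField A L] (hq : q.Prime) (hA : A.LiesOverPrime q)
    (hπ : Function.Surjective π) (a : A0 A L) (ha : π0 L π a = 0) : (q : A0 A L) ∣ a := by
  have h1 : a ∈ RingHom.ker (π0 L π) := ha
  rw [ker_π0 π hq hA hπ] at h1
  exact Ideal.mem_span_singleton.mp h1

/-- `Surf.π₀_q` -/
theorem surf_π₀_q (hA : A.LiesOverPrime q) (hπ : Function.Surjective π) :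
    π0 L π (q : A0 A L) = 0 := by
  rw [map_natCast]
  exact map_natCast_eq_zero π hA hπ

/-- `Surf.exists_zpow` -/
theorem surf_exists_zpow [IsInertiaField A L] (hq : q.Prime) (hA : A.LiesOverPrime q) (a : L)
    (ha : a ≠ 0) : ∃ (n : ℤ) (u : (A0 A L)ˣ), a = ((u : A0 A L) : L) * (q : L) ^ n :=
  exists_zpow hq hA ha

end Surf

end Fermat.Agent.DR.S36.L
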