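import Fermat.Agent.DR.S36.PicMap
import Fermat.Agent.DR.S36.Statement
import Fermat.Agent.JAN.PsiDegree
import Fermat.Agent.JRED.AtkinLehnerMain

/-!
# Auxiliary level: `S36Prime (N * r) q → S36Prime N q`
-/

set_option autoImplicit false
set_option linter.unusedSectionVars false

noncomputable section

open AlgebraicCurve ModularCurve SemilinearAut

namespace Fermat.Agent.DR.S36

open Fermat.Agent.Jan.HeckeInputs Fermat.Agent.Jan.HeckeCommute Fermat.Agent.Jan.PushPull
  Fermat.Agent.Jan.DegreeWiring Fermat.Agent.Jan.RelFundamental Fermat.Agent.S28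

section Abstract

variable {K F L₁ L₂ E : Type*} [Field K] [Field F] [Field L₁] [Field L₂] [Field E]
  [Algebra K F] [Algebra K L₁] [Algebra K L₂] [Algebra K E]
  [HasPrincipalDivisors K L₁] [HasPrincipalDivisors K L₂] [HasPrincipalDivisors K E]
variable (a : F →ₐ[K] L₁) (b : F →ₐ[K] L₂) (a' : L₂ →ₐ[K] E) (b' : L₁ →ₐ[K] E)
variable (ha : a.toRingHom.IsIntegral) (hb : b.toRingHom.IsIntegral)
  (ha' : a'.toRingHom.IsIntegral) (hb' : b'.toRingHom.IsIntegral)

include ha hb hb' in
theorem PushZero.pull (hcomm : ∀ x, b' (a x) = a' (b x))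
    (hfb : FiniteAlong K b) (hfb' : FiniteAlong K b')
    (hNb : NormFormulaAlong K b hfb) (hNb' : NormFormulaAlong K b' hfb')
    (hnorm : ∀ f : L₂, normAlong b' (a' f) = a (normAlong b f))
    (hFI : FundamentalIdentityAlong K a' ha')
    {x : Pic0 K L₂} (h : PushZero b x) : PushZero b' (picPull a' ha' hFI x) := by
  obtain ⟨D, rfl⟩ := Pic0.mk_surjective x
  intro hb'' D' hD'
  have h1 : (Divisor.pushforwardAlong b' hb' (Divisor.pullbackAlong a' ha' (D : Divisor K L₂))).IsPrincipal := by
    rw [← pullback_pushforward a b a' b' ha hb ha' hb' hcomm hfb hfb' hNb hNb' hnorm]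
    exact Divisor.isPrincipal_pullbackAlong a ha (h hb D rfl)
  rw [picPull_mk] at hD'
  have h2 : Pic0.mk (D' - degZeroPull a' ha' hFI D) = 0 := by
    show Pic0.mk D' - Pic0.mk (degZeroPull a' ha' hFI D) = 0
    rw [hD', sub_self]
  rw [pic0_mk_eq_zero_iff] at h2
  have h3 := Divisor.isPrincipal_pushforwardAlong b' hb'' hfb' hNb' h2
  have h4 : ((D' - degZeroPull a' ha' hFI D : Divisor.degZero (K := K) (F := E)) : Divisor K E) =
    (D' : Divisor K E) - Divisor.pullbackAlong a' ha' (D : Divisor K L₂) := rfl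
  rw [h4, map_sub] at h3
  have h5 := (Divisor.principal (K := K) (F := L₁)).add_mem h3 h1
  rwa [sub_add_cancel] at h5

end Abstract

section Closure

variable {L Ω : Type*} [Field L] [Field Ω] [Algebra L Ω]

theorem mem_of_adjoin (F₀ E : IntermediateField L Ω) (S : Subfield E) (s : Ω)
    (h1 : ∀ y ∈ F₀, ∃ z ∈ S, (z : Ω) = y) (h2 : ∃ z ∈ S, (z : Ω) = s)
    (hE : ∀ x ∈ E, x ∈ IntermediateField.adjoin F₀ {s}) (x : E) : x ∈ S := by
  set T : Subfield Ω := S.map E.val.toRingHom with hT
  have hle : (IntermediateField.adjoin F₀ {s}).toSubfield ≤ T := by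
    refine IntermediateField.adjoin_le_subfield _ _ ?_ ?_
    · rintro _ ⟨⟨y, hy⟩, rfl⟩
      obtain ⟨z, hz, hzy⟩ := h1 y hy
      exact ⟨z, hz, hzy⟩
    · rintro _ rfl
      obtain ⟨z, hz, hzy⟩ := h2
      exact ⟨z, hz, hzy⟩
  obtain ⟨y, hy, hyx⟩ := hle (hE x x.2)
  have : y = x := Subtype.ext hyx
  rwa [← this]

theorem mem_of_adjoin_pair (E : IntermediateField L Ω) (S : Subfield E) (s t : Ω)
    (h0 : ∀ c : L, algebraMap L E c ∈ S) (h1 : ∃ z ∈ S, (z : Ω) = s) (h2 : ∃ z ∈ S, (z : Ω) = t)
    (hE : ∀ x ∈ E, x ∈ IntermediateField.adjoin L {s, t}) (x : E) : x ∈ S := by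
  set T : Subfield Ω := S.map E.val.toRingHom with hT
  have hle : (IntermediateField.adjoin L {s, t}).toSubfield ≤ T := by
    refine IntermediateField.adjoin_le_subfield _ _ ?_ ?_
    · rintro _ ⟨c, rfl⟩
      exact ⟨algebraMap L E c, h0 c, rfl⟩
    · rintro _ (rfl | rfl)
      · obtain ⟨z, hz, hzy⟩ := h1
        exact ⟨z, hz, hzy⟩
      · obtain ⟨z, hz, hzy⟩ := h2
        exact ⟨z, hz, hzy⟩
  obtain ⟨y, hy, hyx⟩ := hle (hE x x.2)
  have : y = x := Subtype.ext hyx
  rwa [← this]

end Closure

section Modular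

variable (L : Type) [Field L] [Algebra ℚ L] [IsAlgClosed L]

theorem isIntegral_modular {N M : ℕ} [NeZero N] [NeZero M]
    (φ : laurentBaseChange L (modularFunctionFieldFull N) →ₐ[L]
      laurentBaseChange L (modularFunctionFieldFull M)) : φ.toRingHom.IsIntegral := by
  have := isFF1_modular' L N
  have := isFF1_modular' L M
  exact isIntegral_of_finite _ (finiteAlong _)

theorem finiteAlong_modular {N M : ℕ} [NeZero N] [NeZero M]
    (φ : laurentBaseChange L (modularFunctionFieldFull N) →ₐ[L]
      laurentBaseChange L (modularFunctionFieldFull M)) : FiniteAlong L φ := by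
  have := isFF1_modular' L N
  have := isFF1_modular' L M
  exact finiteAlong _

/-- the degree of `β` is the degree of `α` -/
theorem finrankAlong_beta (M q : ℕ) [NeZero M] [NeZero q] :
    finrankAlong L (heckeBetaBar L M q) = finrankAlong L (heckeAlphaBar L M q) := by
  obtain ⟨W, hWW, -, hW⟩ := Fermat.Agent.JRED.AL.exists_frickeBar L
  have h1 : ((W (M * q)).toAlgHom.comp (heckeAlphaBar L M q)).comp (W M).toAlgHom =
      heckeBetaBar L M q := AlgHom.ext fun x => hW M q x
  rw [← h1, finrankAlong_comp, finrankAlong_comp]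
  have h2 : ∀ (N : ℕ), finrankAlong L (W N).toAlgHom = 1 := by
    intro N
    rw [finrankAlong_eq_finrank_fieldRange]
    have : (W N).toAlgHom.fieldRange = ⊤ := AlgHom.fieldRange_eq_top.mpr (W N).surjective
    rw [this]
    exact IntermediateField.finrank_top
  rw [h2, h2, one_mul, mul_one]

theorem normFormula_modular {N M : ℕ} [NeZero N] [NeZero M]
    (φ : laurentBaseChange L (modularFunctionFieldFull N) →ₐ[L]
      laurentBaseChange L (modularFunctionFieldFull M)) :
    NormFormulaAlong L φ (finiteAlong_modular L φ) := by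
  have := isFF1_modular' L N
  have := isFF1_modular' L M
  have := hasPrincipalDivisors_modular' L N
  have := hasPrincipalDivisors_modular' L M
  have : CharZero L := charZero_of_injective_algebraMap (algebraMap ℚ L).injective
  exact normFormulaAlong _ _

theorem finrankAlong_pos {N M : ℕ} [NeZero N] [NeZero M]
    (φ : laurentBaseChange L (modularFunctionFieldFull N) →ₐ[L]
      laurentBaseChange L (modularFunctionFieldFull M)) : 0 < finrankAlong L φ := by
  have h := finiteAlong_modular L φ
  let _ := algebraAlong φ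
  have : Module.Finite (laurentBaseChange L (modularFunctionFieldFull N))
    (laurentBaseChange L (modularFunctionFieldFull M)) := h
  exact Module.finrank_pos

theorem intertwines_degen {N M d : ℕ} [NeZero N] [NeZero M] [NeZero d] (h : N * d ∣ M)
    (σ : L ≃ₐ[ℚ] L) :
    IntertwinesAlong (degen L N M d h : _ →+* _)
      (arithmeticGalois (modularFunctionFieldFull N) σ)
      (arithmeticGalois (modularFunctionFieldFull M) σ) := by
  intro x
  refine Subtype.ext ?_
  rw [coe_arithmeticGalois_smul]
  show coeffMap (σ : L →+* L) (qExpand L d (x : LaurentSeries L)) =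
    qExpand L d (coeffMap (σ : L →+* L) (x : LaurentSeries L))
  exact coeffMap_qExpand _ d _

/-- generation of `F_{M q²}` by `F_{M q}` and `j(t^{q²})`, `q ∤ M`. -/
theorem mem_closure_alpha {M q N₂ : ℕ} [NeZero M] [NeZero q] (hq : q.Prime) (hqM : ¬ q ∣ M)
    [NeZero N₂] (a' : laurentBaseChange L (modularFunctionFieldFull N₂) →ₐ[L]
      laurentBaseChange L (modularFunctionFieldFull (M * q * q)))
    (z : laurentBaseChange L (modularFunctionFieldFull N₂))
    (hz : (a' z : LaurentSeries L) = jt (1 : Lˣ) (q ^ 2))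
    (x : laurentBaseChange L (modularFunctionFieldFull (M * q * q))) :
    x ∈ Subfield.closure (Set.range (heckeAlphaBar L (M * q) q) ∪ Set.range a') := by
  have : CharZero L := charZero_of_injective_algebraMap (algebraMap ℚ L).injective
  have : Fact q.Prime := ⟨hq⟩
  have hM0 : M ≠ 0 := NeZero.ne M
  have hchar : ((M * q : ℕ) : L) ≠ 0 := by
    exact_mod_cast Nat.mul_ne_zero hM0 hq.ne_zero
  have hcharq : (q : L) ≠ 0 := by exact_mod_cast hq.ne_zero
  obtain ⟨ζ, hζ⟩ := exists_unit_primitiveRoot (K := L) (n := q) hcharq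
  obtain ⟨Φp, hΦp⟩ := exists_modPolySpec q
  have hchar1 : ((M * q ^ 1 : ℕ) : L) ≠ 0 := by rwa [pow_one]
  obtain ⟨⟨ι₀, hι₀⟩, -⟩ := tower (K := L) Fermat.Agent.S28.modPolyAll
    Fermat.Agent.S28.jpNotMem (M * q ^ 1) hchar1
  have hA := caseA hΦp hζ (k := 0) hM0 hqM hι₀
  obtain ⟨-, hadj⟩ := tower_step Fermat.Agent.S28.modPolyAll hM0 hqM hchar (k := 1) hι₀
    (by rw [show 1 + 1 = 0 + 2 from rfl, hA]; exact lowProd_eval_one)
  refine mem_of_adjoin (modularFunctionFieldFullC L (M * q ^ 1)) _ _ (jt (1 : Lˣ) (q ^ (1 + 1)))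
    ?_ ⟨a' z, Subfield.subset_closure (Or.inr ⟨_, rfl⟩), hz⟩ ?_ x
  · intro y hy
    have hy' : y ∈ laurentBaseChange L (modularFunctionFieldFull (M * q)) := by
      rw [Fermat.Agent.MFF.laurentBaseChange_full]
      rwa [pow_one] at hy
    exact ⟨heckeAlphaBar L (M * q) q ⟨y, hy'⟩, Subfield.subset_closure (Or.inl ⟨_, rfl⟩),
      coe_heckeAlphaBar (M * q) q _⟩
  · intro y h2
    rw [Fermat.Agent.MFF.laurentBaseChange_full] at h2
    have h3 : M * q * q = M * q ^ (1 + 1) := by ring
    rw [h3, hadj] at h2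
    exact h2

/-- generation, for `β` -/
theorem mem_closure_beta {M q N₂ : ℕ} [NeZero M] [NeZero q]
    [NeZero N₂] (a' : laurentBaseChange L (modularFunctionFieldFull N₂) →ₐ[L]
      laurentBaseChange L (modularFunctionFieldFull (M * q)))
    (z : laurentBaseChange L (modularFunctionFieldFull N₂))
    (hz : (a' z : LaurentSeries L) = jqModC L)
    (x : laurentBaseChange L (modularFunctionFieldFull (M * q))) :
    x ∈ Subfield.closure (Set.range (heckeBetaBar L M q) ∪ Set.range a') := by
  have : CharZero L := charZero_of_injective_algebraMap (algebraMap ℚ L).injective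
  refine mem_of_adjoin_pair _ _ (jqModC L) (jqNModC L (M * q)) (fun c => ?_)
    ⟨a' z, Subfield.subset_closure (Or.inr ⟨_, rfl⟩), hz⟩ ?_ ?_ x
  · rw [← a'.commutes c]
    exact Subfield.subset_closure (Or.inr ⟨_, rfl⟩)
  · have h1 : qExpand L M (jqModC L) ∈ laurentBaseChange L (modularFunctionFieldFull M) := by
      rw [Fermat.Agent.MFF.laurentBaseChange_full]
      exact jqModCd_mem_full L M dvd_rfl
    refine ⟨heckeBetaBar L M q ⟨_, h1⟩, Subfield.subset_closure (Or.inl ⟨_, rfl⟩), ?_⟩
    rw [coe_heckeBetaBar, qExpand_qExpand, jqNModC]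
    exact qExpand_congr (mul_comm _ _) _
  · intro y h2
    rw [Fermat.Agent.MFF.laurentBaseChange_full,
      Fermat.Agent.FunField.modularFunctionFieldFullC_eq] at h2
    exact h2

end Modular

/-- **Transfer to an auxiliary level.** -/
theorem S36Prime.of_mul {N r q : ℕ} [NeZero N] [NeZero r] [NeZero q] (hq : q.Prime)
    (hqN : ¬ q ∣ N) (hqr : ¬ q ∣ r) (h : S36Prime (N * r) q) : S36Prime N q := by
  obtain ⟨C, hC, H⟩ := h
  let L := AlgebraicClosure ℚ
  let _ : Algebra (AlgebraicClosure ℚ) ℂ :=
    (IsAlgClosed.lift (M := ℂ) (S := AlgebraicClosure ℚ) (R := ℚ)).toRingHom.toAlgebra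
  have hdvd1 : N * q * 1 ∣ N * r * q := ⟨r, by ring⟩
  have hdvd2 : N * q * q * 1 ∣ N * r * q * q := ⟨r, by ring⟩
  let a := degen L (N * q) (N * r * q) 1 hdvd1
  let a' := degen L (N * q * q) (N * r * q * q) 1 hdvd2
  let b := heckeAlphaBar L (N * q) q
  let b' := heckeAlphaBar L (N * r * q) q
  let c := heckeBetaBar L (N * q) q
  let c' := heckeBetaBar L (N * r * q) q
  have iFF := isFF1_modular' L (N * q)
  have iFF1 := isFF1_modular' L (N * q * q)
  have iFF2 := isFF1_modular' L (N * r * q)
  have iFF3 := isFF1_modular' L (N * r * q * q)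
  have i0 := hasPrincipalDivisors_modular' L (N * q)
  have i1 := hasPrincipalDivisors_modular' L (N * q * q)
  have i2 := hasPrincipalDivisors_modular' L (N * r * q)
  have i3 := hasPrincipalDivisors_modular' L (N * r * q * q)
  have hqNr : ¬ q ∣ N * r := fun hd => (hq.dvd_mul.mp hd).elim hqN hqr
  have hFI : FundamentalIdentityAlong L a' (isIntegral_modular L a') :=
    fundamentalIdentityAlong _ _ (finiteAlong_modular L a')
  have hdegα : finrankAlong L b' = finrankAlong L b := by
    rw [Fermat.Agent.JAN.PsiDegree.alphaDegree L (N * r * q) q hq,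
      Fermat.Agent.JAN.PsiDegree.alphaDegree L (N * q) q hq, if_pos (dvd_mul_left _ _),
      if_pos (dvd_mul_left _ _)]
  have hdegβ : finrankAlong L c' = finrankAlong L c := by
    rw [finrankAlong_beta, finrankAlong_beta]
    exact hdegα
  have hcommα : ∀ x, b' (a x) = a' (b x) := by
    intro x
    refine Subtype.ext ?_
    rw [coe_heckeAlphaBar, coe_degen, coe_degen, coe_heckeAlphaBar]
  have hcommβ : ∀ x, c' (a x) = a' (c x) := by
    intro x
    refine Subtype.ext ?_
    rw [coe_heckeBetaBar, coe_degen, coe_degen, coe_heckeBetaBar, qExpand_one_apply,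
      qExpand_one_apply]
  have hnormα : ∀ f, normAlong b' (a' f) = a (normAlong b f) := by
    refine normAlong_baseChange a b a' b' hcommα (finiteAlong_modular L b)
      (finiteAlong_modular L b') hdegα ?_
    have hz : jt (1 : Lˣ) (q ^ 2) ∈ laurentBaseChange L (modularFunctionFieldFull (N * q * q)) := by
      rw [Fermat.Agent.MFF.laurentBaseChange_full]
      exact jt_mem_full L (NeZero.ne _) ⟨N, by ring⟩
    exact mem_closure_alpha L hq hqNr a' ⟨_, hz⟩ (by rw [coe_degen, qExpand_one_apply])
  have hnormβ : ∀ f, normAlong c' (a' f) = a (normAlong c f) := by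
    refine normAlong_baseChange a c a' c' hcommβ (finiteAlong_modular L c)
      (finiteAlong_modular L c') hdegβ ?_
    have hz : jqModC L ∈ laurentBaseChange L (modularFunctionFieldFull (N * q * q)) := by
      rw [Fermat.Agent.MFF.laurentBaseChange_full]
      exact jqModC_mem_full L _
    exact mem_closure_beta L a' ⟨_, hz⟩ (by rw [coe_degen, qExpand_one_apply])
  refine ⟨C * finrankAlong L a', Nat.mul_pos hC (finrankAlong_pos L a'), ?_⟩
  intro A hA m hm x hmx hfix hα hβ
  set y := picPull a' (isIntegral_modular L a') hFI x with hy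
  have hCy : C • y = 0 := by
    refine H A hA m hm y ?_ ?_ ?_ ?_
    · rw [hy, ← map_nsmul, hmx, map_zero]
    · intro τ hτ
      have h1 := picPull_smul a' (isIntegral_modular L a') hFI
        (intertwines_degen L hdvd2 τ) x
      have h2 : arithmeticGalois (modularFunctionFieldFull (N * q * q)) τ • x = x := hfix τ hτ
      rw [h2] at h1
      exact h1.symm
    · exact PushZero.pull a b a' b' (isIntegral_modular L _) (isIntegral_modular L _)
        (isIntegral_modular L _) (isIntegral_modular L _) hcommα (finiteAlong_modular L b)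
        (finiteAlong_modular L b') (normFormula_modular L b) (normFormula_modular L b') hnormα hFI hα
    · exact PushZero.pull a c a' c' (isIntegral_modular L _) (isIntegral_modular L _)
        (isIntegral_modular L _) (isIntegral_modular L _) hcommβ (finiteAlong_modular L c)
        (finiteAlong_modular L c') (normFormula_modular L c) (normFormula_modular L c') hnormβ hFI hβ
  have h1 := picPush_picPull a' (isIntegral_modular L a') hFI (finiteAlong_modular L a')
    (normFormula_modular L a') (fun w => Fermat.FF.deg_eq_one w) (fun w => Fermat.FF.deg_eq_one w) x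
  rw [mul_smul, ← h1, ← hy, ← map_nsmul, hCy, map_zero]

/-- It is enough to treat levels divisible by `4` (`q` odd), resp. by `9` (`q = 2`). -/
theorem S36Prime.of_rigid {N q : ℕ} [NeZero N] [NeZero q] (hq : q.Prime) (hqN : ¬ q ∣ N)
    (h4 : q ≠ 2 → S36Prime (N * 4) q) (h9 : q = 2 → S36Prime (N * 9) q) : S36Prime N q := by
  by_cases h2 : q = 2
  · refine S36Prime.of_mul hq hqN ?_ (h9 h2)
    rw [h2]; norm_num
  · refine S36Prime.of_mul hq hqN (fun h => h2 ?_) (h4 h2)
    have h3 : q ∣ 2 := by
      have : q ∣ 2 ^ 2 := by simpa using h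
      exact hq.dvd_of_dvd_pow this
    exact (Nat.prime_dvd_prime_iff_eq hq Nat.prime_two).mp h3

end Fermat.Agent.DR.S36
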