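import Mathlib
import Fermat.Prelude.Def_AlgebraicCurve_Correspondence
import Fermat.Agent.Jan.HeckeNorm


/-!
# Characteristic polynomials along a finite map of function fields

* `charpoly_map_eq_prod`: the characteristic polynomial of `y ∈ M` over `E`, pushed to `Ω`, is the
  product of `X - ι y` over a complete set of embeddings `ι : M → Ω`.
* `charAlong ψ y`: characteristic polynomial of multiplication by `y` along `ψ : F →ₐ[K] F'`.
-/

set_option autoImplicit false
set_option linter.style.haveILetI false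

noncomputable section

open AlgebraicCurve Polynomial

namespace Fermat.Agent.DR.S36

section Prod

variable {E M Ω : Type*} [Field E] [Field M] [Field Ω] [Algebra E M]

/-- The matrix `(ι_i b_j)` of a complete set of embeddings is invertible. -/
theorem det_embMatrix_ne_zero (i0 : E →+* Ω) {I : Type*} [Fintype I] [DecidableEq I]
    (ι : I → (M →+* Ω)) (hι : ∀ i x, ι i (algebraMap E M x) = i0 x)
    (hinj : Function.Injective ι) (b : Module.Basis I E M) :
    (Matrix.of fun i j => ι i (b j)).det ≠ 0 := by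
  intro h0
  obtain ⟨v, hv, hv0⟩ := (Matrix.exists_vecMul_eq_zero_iff).mpr h0
  apply hv
  let χ : I → (M →* Ω) := fun i => (ι i).toMonoidHom
  have hχ : Function.Injective χ := by
    intro i i' h
    apply hinj
    ext x
    exact DFunLike.congr_fun h x
  have hli : LinearIndependent Ω (fun i => (χ i : M → Ω)) :=
    (linearIndependent_monoidHom M Ω).comp χ hχ
  rw [Fintype.linearIndependent_iff] at hli
  funext i
  refine hli v ?_ i
  funext m
  rw [Finset.sum_apply]
  have h1 : ∀ j, ∑ i, v i * ι i (b j) = 0 := fun j => congrFun hv0 j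
  have h2 : m = ∑ j, b.repr m j • b j := (b.sum_repr m).symm
  change ∑ i, v i • ι i m = 0
  rw [h2]
  simp only [map_sum, Algebra.smul_def, map_mul, hι, Finset.mul_sum]
  rw [Finset.sum_comm]
  refine Finset.sum_eq_zero fun j _ => ?_
  calc ∑ x, v x * (i0 (b.repr m j) * ι x (b j)) = i0 (b.repr m j) * ∑ x, v x * ι x (b j) := by
        rw [Finset.mul_sum]
        exact Finset.sum_congr rfl fun x _ => by ring
    _ = 0 := by rw [h1, mul_zero]

/-- **Characteristic polynomial as a product over embeddings.** -/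
theorem charpoly_map_eq_prod [FiniteDimensional E M] (i0 : E →+* Ω) {I : Type*} [Fintype I]
    (ι : I → (M →+* Ω)) (hι : ∀ i x, ι i (algebraMap E M x) = i0 x)
    (hinj : Function.Injective ι) (hcard : Fintype.card I = Module.finrank E M) (y : M) :
    (Algebra.lmul E M y).charpoly.map i0 = ∏ i, (X - C (ι i y)) := by
  classical
  let b : Module.Basis I E M := (Module.finBasis E M).reindex
    (Fintype.equivOfCardEq (by rw [Fintype.card_fin, hcard]))
  set S : Matrix I I Ω := Matrix.of fun i j => ι i (b j) with hS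
  have hdet : S.det ≠ 0 := det_embMatrix_ne_zero i0 ι hι hinj b
  have hSu : IsUnit S := (Matrix.isUnit_iff_isUnit_det S).mpr (isUnit_iff_ne_zero.mpr hdet)
  obtain ⟨U, hU⟩ := hSu
  set N : Matrix I I E := Algebra.leftMulMatrix b y with hN
  have hchar : (Algebra.lmul E M y).charpoly = N.charpoly := by
    rw [← LinearMap.charpoly_toMatrix (Algebra.lmul E M y) b]
    rfl
  have hrel : Matrix.diagonal (fun i => ι i y) * S = S * N.map i0 := by
    ext i j
    rw [Matrix.diagonal_mul, Matrix.mul_apply]
    have h1 : y * b j = ∑ k, N k j • b k := by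
      have := b.sum_repr (y * b j)
      rw [← this]
      refine Finset.sum_congr rfl fun k _ => ?_
      rw [hN, Algebra.leftMulMatrix_eq_repr_mul]
    have h2 := congrArg (ι i) h1
    rw [map_mul, map_sum] at h2
    rw [hS, Matrix.of_apply, h2]
    refine Finset.sum_congr rfl fun k _ => ?_
    rw [Algebra.smul_def, map_mul, hι, Matrix.of_apply, Matrix.map_apply, mul_comm]
  have hconj : (U : Matrix I I Ω) * N.map i0 * (U : Matrix I I Ω)⁻¹ =
      Matrix.diagonal (fun i => ι i y) := by
    rw [← Matrix.coe_units_inv, hU, ← hrel, ← hU, mul_assoc, Units.mul_inv, mul_one]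
  rw [hchar, ← Matrix.charpoly_map, ← Matrix.charpoly_units_conj U, hconj,
    Matrix.charpoly_diagonal]

end Prod

section Along

variable {K F F' : Type*} [Field K] [Field F] [Field F'] [Algebra K F] [Algebra K F']

/-- Characteristic polynomial of multiplication by `y` along `ψ`. -/
def charAlong (ψ : F →ₐ[K] F') (hfin : FiniteAlong K ψ) (y : F') : F[X] :=
  letI := algebraAlong ψ
  haveI : Module.Finite F F' := hfin
  (Algebra.lmul F F' y).charpoly

theorem charAlong_monic (ψ : F →ₐ[K] F') (hfin : FiniteAlong K ψ) (y : F') :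
    (charAlong ψ hfin y).Monic := by
  letI := algebraAlong ψ
  haveI : Module.Finite F F' := hfin
  exact LinearMap.charpoly_monic _

theorem charAlong_natDegree (ψ : F →ₐ[K] F') (hfin : FiniteAlong K ψ) (y : F') :
    (charAlong ψ hfin y).natDegree = finrankAlong K ψ := by
  letI := algebraAlong ψ
  haveI : Module.Finite F F' := hfin
  exact LinearMap.charpoly_natDegree _

/-- The norm is the constant coefficient up to sign. -/
theorem normAlong_eq_coeff (ψ : F →ₐ[K] F') (hfin : FiniteAlong K ψ) (y : F') :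
    Fermat.Agent.Jan.HeckeNorm.normAlong ψ y =
      (-1) ^ finrankAlong K ψ * (charAlong ψ hfin y).coeff 0 := by
  letI := algebraAlong ψ
  haveI : Module.Finite F F' := hfin
  change LinearMap.det (Algebra.lmul F F' y) = _
  rw [LinearMap.det_eq_sign_charpoly_coeff]
  rfl

/-- Cayley-Hamilton. -/
theorem aeval_charAlong (ψ : F →ₐ[K] F') (hfin : FiniteAlong K ψ) (y : F') :
    (charAlong ψ hfin y).eval₂ (ψ : F →+* F') y = 0 := by
  letI := algebraAlong ψ
  haveI : Module.Finite F F' := hfin
  have h := LinearMap.aeval_self_charpoly (Algebra.lmul F F' y)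
  have h1 : aeval (Algebra.lmul F F' y) (charAlong ψ hfin y) = 
      Algebra.lmul F F' (aeval y (charAlong ψ hfin y)) :=
    Polynomial.aeval_algHom_apply _ _ _
  have h2 : Algebra.lmul F F' (aeval y (charAlong ψ hfin y)) = 0 := by
    rw [← h1]
    exact h
  have h3 := LinearMap.congr_fun h2 (1 : F')
  rw [Algebra.coe_lmul_eq_mul, LinearMap.mul_apply_apply, mul_one, LinearMap.zero_apply] at h3
  rw [← h3]
  rfl

/-- **Product formula along `ψ`.** -/
theorem charAlong_map_eq_prod {Ω : Type*} [Field Ω] (ψ : F →ₐ[K] F') (hfin : FiniteAlong K ψ)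
    (i0 : F →+* Ω) {I : Type*} [Fintype I] (ι : I → (F' →+* Ω)) (hι : ∀ i x, ι i (ψ x) = i0 x)
    (hinj : Function.Injective ι) (hcard : Fintype.card I = finrankAlong K ψ) (y : F') :
    (charAlong ψ hfin y).map i0 = ∏ i, (X - C (ι i y)) := by
  letI := algebraAlong ψ
  haveI : Module.Finite F F' := hfin
  exact charpoly_map_eq_prod i0 ι hι hinj hcard y

theorem eval_charAlong (ψ : F →ₐ[K] F') (hfin : FiniteAlong K ψ) (y : F') (t : F) :
    (charAlong ψ hfin y).eval t = Fermat.Agent.Jan.HeckeNorm.normAlong ψ (ψ t - y) := by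
  letI := algebraAlong ψ
  haveI : Module.Finite F F' := hfin
  change (Algebra.lmul F F' y).charpoly.eval t = LinearMap.det (Algebra.lmul F F' (ψ t - y))
  rw [LinearMap.eval_charpoly]
  congr 1
  rw [map_sub]
  congr 1

end Along

section Equiv

variable {K F F' : Type*} [Field K] [Field F] [Field F'] [Algebra K F] [Algebra K F']

theorem normAlong_equiv (ψ ψ' : F →ₐ[K] F') (w₁ : F ≃+* F) (w₂ : F' ≃+* F')
    (h : ∀ x, w₂ (ψ x) = ψ' (w₁ x)) (y : F') :
    Fermat.Agent.Jan.HeckeNorm.normAlong ψ' (w₂ y) =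
      w₁ (Fermat.Agent.Jan.HeckeNorm.normAlong ψ y) := by
  have key := @Algebra.norm_eq_of_equiv_equiv F F' F F' _ _ _ _ (algebraAlong ψ) (algebraAlong ψ')
    w₁ w₂ (RingHom.ext fun x => (h x).symm) y
  change (@Algebra.norm F F' _ _ (algebraAlong ψ')) (w₂ y) =
    w₁ ((@Algebra.norm F F' _ _ (algebraAlong ψ)) y)
  rw [key, RingEquiv.apply_symm_apply]

theorem charAlong_equiv [Infinite F] (ψ ψ' : F →ₐ[K] F') (hfin : FiniteAlong K ψ)
    (hfin' : FiniteAlong K ψ') (w₁ : F ≃+* F) (w₂ : F' ≃+* F')
    (h : ∀ x, w₂ (ψ x) = ψ' (w₁ x)) (y : F') :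
    charAlong ψ' hfin' (w₂ y) = (charAlong ψ hfin y).map (w₁ : F →+* F) := by
  refine Polynomial.funext fun t => ?_
  obtain ⟨t, rfl⟩ := w₁.surjective t
  rw [eval_charAlong, ← h, ← map_sub, normAlong_equiv ψ ψ' w₁ w₂ h, eval_map]
  have h1 : w₁ t = (w₁ : F →+* F) t := rfl
  rw [h1, eval₂_at_apply, eval_charAlong]
  rfl

end Equiv

section Lagrange

variable {F : Type*} [Field F]

/-- A polynomial taking values in a subring `V` at sufficiently many elements whose differences are
units of `V` has coefficients in `V`. -/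
theorem coeff_mem_of_eval_mem (V : Subring F) (p : F[X]) (s : Finset ℕ) (v : ℕ → F)
    (hinj : Set.InjOn v s) (hdeg : p.degree < s.card) (hv : ∀ i, v i ∈ V)
    (hdiff : ∀ i j, (v i - v j)⁻¹ ∈ V) (hp : ∀ i ∈ s, p.eval (v i) ∈ V) (n : ℕ) :
    p.coeff n ∈ V := by
  have h1 : p ∈ liftsRing V.subtype := by
    rw [Lagrange.eq_interpolate hinj hdeg, Lagrange.interpolate_apply]
    have hC : ∀ a ∈ V, C a ∈ liftsRing V.subtype := fun a ha =>
      (lifts_iff_liftsRing _ _).mp (C_mem_lifts V.subtype ⟨a, ha⟩)
    refine sum_mem fun i hi => mul_mem (hC _ (hp i hi)) (prod_mem fun j _ => ?_)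
    rw [Lagrange.basisDivisor]
    exact mul_mem (hC _ (hdiff i j)) (sub_mem
      ((lifts_iff_liftsRing _ _).mp (X_mem_lifts V.subtype)) (hC _ (hv j)))
  rw [← lifts_iff_liftsRing, lifts_iff_coeff_lifts] at h1
  obtain ⟨a, ha⟩ := h1 n
  rw [← ha]
  exact a.2

end Lagrange

section Places

variable {K F F' : Type*} [Field K] [Field F] [Field F'] [Algebra K F] [Algebra K F']
  [HasPrincipalDivisors K F']

/-- The norm of a function regular above `P` is regular at `P`. -/
theorem ord_normAlong_nonneg (ψ : F →ₐ[K] F') (hψ : ψ.toRingHom.IsIntegral)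
    (hfin : FiniteAlong K ψ) (hN : NormFormulaAlong K ψ hfin) {P : Place K F} {f : F'} (hf0 : f ≠ 0)
    (hf : ∀ w : Place K F', w.restrictAlong ψ hψ = P → 0 ≤ w.ord f) :
    0 ≤ P.ord (Fermat.Agent.Jan.HeckeNorm.normAlong ψ f) := by
  classical
  obtain ⟨D, hD, -⟩ := HasPrincipalDivisors.exists_divisor (K := K) f hf0
  rw [← Fermat.Agent.Jan.HeckeNorm.pushforwardAlong_eq_ord ψ hψ hfin hN hf0 hD P]
  letI := algebraAlong ψ
  haveI := isScalarTower_along ψ
  haveI := isIntegral_along ψ hψ
  change 0 ≤ Divisor.pushforward F D P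
  rw [Divisor.pushforward_apply]
  refine Finset.sum_nonneg fun w _ => ?_
  split_ifs with h
  · rw [hD w]
    exact mul_nonneg (hf w h) (by positivity)
  · exact le_rfl

theorem ord_nonneg_of_mem' {E : Type*} [Field E] [Algebra K E] {w : Place K E} {f : E}
    (hf : f ∈ w.toValuationSubring) : 0 ≤ w.ord f := Fermat.FF.ord_nonneg_of_mem _ hf

theorem mem_of_ord_nonneg' {E : Type*} [Field E] [Algebra K E] {w : Place K E} {f : E}
    (hf : 0 ≤ w.ord f) : f ∈ w.toValuationSubring := by
  rcases eq_or_ne f 0 with rfl | h0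
  · exact zero_mem _
  · exact (Fermat.FF.mem_iff_ord w h0).mpr hf

/-- The coefficients of the characteristic polynomial of a function regular above `P` are regular
at `P`. -/
theorem charAlong_coeff_mem [Infinite K] (ψ : F →ₐ[K] F') (hψ : ψ.toRingHom.IsIntegral)
    (hfin : FiniteAlong K ψ) (hN : NormFormulaAlong K ψ hfin) {P : Place K F} {f : F'}
    (hf : ∀ w : Place K F', w.restrictAlong ψ hψ = P → f ∈ w.toValuationSubring) (n : ℕ) :
    (charAlong ψ hfin f).coeff n ∈ P.toValuationSubring := by
  classical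
  let v : ℕ ↪ K := Infinite.natEmbedding K
  have hconst : ∀ c : K, algebraMap K F c ∈ P.toValuationSubring := P.algebraMap_mem'
  refine coeff_mem_of_eval_mem P.toValuationSubring.toSubring (charAlong ψ hfin f)
    (Finset.range ((charAlong ψ hfin f).natDegree + 1)) (fun i => algebraMap K F (v i)) ?_ ?_ ?_ ?_ ?_ n
  · intro i _ j _ h
    exact v.injective ((algebraMap K F).injective h)
  · rw [Finset.card_range]
    exact lt_of_le_of_lt degree_le_natDegree (by exact_mod_cast Nat.lt_succ_self _)
  · exact fun i => hconst _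
  · intro i j
    rw [← map_sub, ← map_inv₀]
    exact hconst _
  · intro i _
    change _ ∈ P.toValuationSubring
    rw [eval_charAlong]
    rcases eq_or_ne (ψ (algebraMap K F (v i)) - f) 0 with h0 | h0
    · rw [h0]
      letI := algebraAlong ψ
      haveI : Module.Finite F F' := hfin
      have : Fermat.Agent.Jan.HeckeNorm.normAlong ψ (0 : F') = 0 := Algebra.norm_zero
      rw [this]
      exact zero_mem _
    · refine mem_of_ord_nonneg' (ord_normAlong_nonneg ψ hψ hfin hN h0 fun w hw => ?_)
      refine ord_nonneg_of_mem' (sub_mem ?_ (hf w hw))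
      rw [AlgHom.commutes]
      exact w.algebraMap_mem' _

end Places

end Fermat.Agent.DR.S36
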