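import Mathlib
import Fermat.Agent.S28.Degree

/-!
# Extending embeddings of `F_{N p}` to `F_{N p²}`

* `full_step`: `F_{N p^{k+1}} = F_{N p^k}(j(t^{p^{k+1}}))` with the degree of the minimal polynomial.
* `hom_ext_one`: ring homomorphisms from `F_{Np}` are determined on `F_N` and `j(t^p)`.
* `exists_extend_two`: extension of embeddings from `F_{Np}` to `F_{Np²}`.
-/

set_option autoImplicit false

noncomputable section

namespace Fermat.Agent.DR.S36

open ModularCurve Polynomial IntermediateField Fermat.Agent.S28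

variable {K : Type} [Field K] [IsAlgClosed K] {p : ℕ} [hp : Fact p.Prime]

/-- `F_{M₁ p^{k+1}}` is generated over `F_{M₁ p^k}` by `j(t^{p^{k+1}})`. -/
theorem full_step {M₁ : ℕ} (k : ℕ) (hpM₁ : ¬ p ∣ M₁) (hchar : ((M₁ * p : ℕ) : K) ≠ 0) :
    modularFunctionFieldFullC K (M₁ * p ^ (k + 1)) =
      (IntermediateField.adjoin (modularFunctionFieldFullC K (M₁ * p ^ k))
        {jt (1 : Kˣ) (p ^ (k + 1))}).restrictScalars K ∧
    (minpoly (modularFunctionFieldFullC K (M₁ * p ^ k))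
      (jt (1 : Kˣ) (p ^ (k + 1)))).natDegree = if k = 0 then p + 1 else p := by
  have hM₁ : M₁ ≠ 0 := by rintro rfl; exact hpM₁ (dvd_zero p)
  have hcharp : (p : K) ≠ 0 := by
    intro h; apply hchar; push_cast; rw [h, mul_zero]
  have hcharM₁ : (M₁ : K) ≠ 0 := by
    intro h; apply hchar; push_cast; rw [h, zero_mul]
  have hcharMk : ((M₁ * p ^ k : ℕ) : K) ≠ 0 := by
    push_cast
    exact mul_ne_zero hcharM₁ (pow_ne_zero _ hcharp)
  obtain ⟨⟨ι, hι⟩, -⟩ := tower modPolyAll jpNotMem (M₁ * p ^ k) hcharMk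
  obtain ⟨Φp, hΦp⟩ := modPolyAll p
  obtain ⟨ζ, hζ⟩ := exists_unit_primitiveRoot (K := K) (n := p) hcharp
  have key : ((minpoly (modularFunctionFieldFullC K (M₁ * p ^ k))
        (jt (1 : Kˣ) (p ^ (k + 1)))).map ((qExpand K p).comp ι)).eval (jt (1 : Kˣ) M₁) = 0 ∧
      (minpoly (modularFunctionFieldFullC K (M₁ * p ^ k))
        (jt (1 : Kˣ) (p ^ (k + 1)))).natDegree = if k = 0 then p + 1 else p := by
    cases k with
    | zero =>
      have hnot : jt (1 : Kˣ) (p ^ 1) ∉ modularFunctionFieldFullC K (M₁ * p ^ 0) := by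
        rw [pow_zero, mul_one]
        exact jt_p_notMem modPolyAll jpNotMem hpM₁ hchar
      have hB := caseB hΦp hζ hM₁ hpM₁ hι hnot
      exact ⟨eval_eq_zero_of_dvd_of_eval_eq_zero hB.1 lowProd_eval_one, by
        rw [if_pos rfl]; exact hB.2⟩
    | succ k =>
      have hA := caseA hΦp hζ hM₁ hpM₁ hι
      refine ⟨by rw [hA]; exact lowProd_eval_one, ?_⟩
      rw [if_neg (Nat.succ_ne_zero k)]
      have := congrArg natDegree hA
      rwa [natDegree_map, lowProd_natDegree] at this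
  exact ⟨(tower_step modPolyAll hM₁ hpM₁ hchar hι key.1).2, key.2⟩

omit [IsAlgClosed K] in
/-- Ring homomorphisms out of a simple extension inside `K((t))`. -/
theorem hom_ext_of_adjoin {Ω : Type*} [Field Ω] {F₀ F₁ : IntermediateField K (LaurentSeries K)}
    {x : LaurentSeries K} (hx : x ∈ F₁) (hle : F₀ ≤ F₁)
    (h : F₁ = (IntermediateField.adjoin F₀ {x}).restrictScalars K)
    (f g : F₁ →+* Ω) (h0 : ∀ a (ha : a ∈ F₀), f ⟨a, hle ha⟩ = g ⟨a, hle ha⟩)
    (h1 : f ⟨x, hx⟩ = g ⟨x, hx⟩) : f = g := by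
  have key : ∀ y (_ : y ∈ IntermediateField.adjoin F₀ {x}), ∀ hy' : y ∈ F₁,
      f ⟨y, hy'⟩ = g ⟨y, hy'⟩ := by
    intro y hy
    have hmem : ∀ z, z ∈ IntermediateField.adjoin F₀ {x} → z ∈ F₁ := by
      intro z hz
      rw [h]
      exact hz
    induction hy using IntermediateField.adjoin_induction with
    | mem z hz =>
      intro hz'
      obtain rfl := Set.mem_singleton_iff.mp hz
      exact h1
    | algebraMap c =>
      intro hc
      exact h0 c.1 c.2
    | add a b ha hb iha ihb =>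
      intro hab
      have e : ∀ (φ : F₁ →+* Ω), φ ⟨a + b, hab⟩ = φ ⟨a, hmem a ha⟩ + φ ⟨b, hmem b hb⟩ :=
        fun φ => by rw [← map_add]; rfl
      rw [e, e, iha, ihb]
    | inv a ha iha =>
      intro hab
      have e : ∀ (φ : F₁ →+* Ω), φ ⟨a⁻¹, hab⟩ = (φ ⟨a, hmem a ha⟩)⁻¹ :=
        fun φ => by rw [← map_inv₀]; rfl
      rw [e, e, iha]
    | mul a b ha hb iha ihb =>
      intro hab
      have e : ∀ (φ : F₁ →+* Ω), φ ⟨a * b, hab⟩ = φ ⟨a, hmem a ha⟩ * φ ⟨b, hmem b hb⟩ :=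
        fun φ => by rw [← map_mul]; rfl
      rw [e, e, iha, ihb]
  ext ⟨y, hy⟩
  have hy2 : y ∈ IntermediateField.adjoin F₀ {x} := by
    have := hy
    rw [h] at this
    exact this
  exact key y hy2 hy

omit [IsAlgClosed K] in
/-- Extension of a ring homomorphism to a simple extension inside `K((t))`. -/
theorem exists_extend_of_adjoin {Ω : Type*} [Field Ω]
    {F₀ F₁ : IntermediateField K (LaurentSeries K)}
    {x : LaurentSeries K} (hx : x ∈ F₁) (hle : F₀ ≤ F₁)
    (h : F₁ = (IntermediateField.adjoin F₀ {x}).restrictScalars K)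
    (hint : IsIntegral F₀ x) (i : F₀ →+* Ω) {z : Ω}
    (hz : ((minpoly F₀ x).map i).eval z = 0) :
    ∃ ι : F₁ →+* Ω, (∀ a (ha : a ∈ F₀), ι ⟨a, hle ha⟩ = i ⟨a, ha⟩) ∧ ι ⟨x, hx⟩ = z := by
  obtain ⟨ι'', hext, hgen⟩ := exists_extend_simple i hint hz
  have hmem' : F₁ ≤ (IntermediateField.adjoin F₀ {x}).restrictScalars K := h.le
  have hmem : ∀ y : F₁, (y : LaurentSeries K) ∈ IntermediateField.adjoin F₀ {x} :=
    fun y => hmem' y.2
  let f : F₁ →+* IntermediateField.adjoin F₀ {x} :=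
    (algebraMap F₁ (LaurentSeries K)).codRestrict _ hmem
  refine ⟨ι''.comp f, fun a ha => ?_, ?_⟩
  · rw [RingHom.comp_apply, ← hext]
    rfl
  · rw [RingHom.comp_apply, ← hgen]
    rfl

/-- The minimal polynomial of `j(t^{p²})` over `F_{Np}` divides out the root `j(t)` of
`Φ_p(X; j(t^p))`. -/
theorem extend_two {Ω : Type*} [Field Ω] {N : ℕ} (hpN : ¬ p ∣ N)
    (hchar : ((N * p : ℕ) : K) ≠ 0) {Φp : ℤ[X][X]} (hΦp : ModPolySpec p Φp)
    (hm1 : jt (1 : Kˣ) (p ^ 1) ∈ modularFunctionFieldFullC K (N * p ^ 1))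
    (hm0 : jt (1 : Kˣ) (p ^ 0) ∈ modularFunctionFieldFullC K (N * p ^ 1))
    (hm2 : jt (1 : Kˣ) (p ^ 2) ∈ modularFunctionFieldFullC K (N * p ^ 2))
    (hle : modularFunctionFieldFullC K (N * p ^ 1) ≤ modularFunctionFieldFullC K (N * p ^ 2))
    (i : modularFunctionFieldFullC K (N * p ^ 1) →+* Ω) {z : Ω}
    (hz : (PhiR Φp (i ⟨_, hm1⟩)).eval z = 0) (hne : z ≠ i ⟨_, hm0⟩) :
    ∃ ι : modularFunctionFieldFullC K (N * p ^ 2) →+* Ω,
      (∀ a (ha : a ∈ modularFunctionFieldFullC K (N * p ^ 1)), ι ⟨a, hle ha⟩ = i ⟨a, ha⟩) ∧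
        ι ⟨_, hm2⟩ = z := by
  have hN : N ≠ 0 := by rintro rfl; exact hpN (dvd_zero p)
  have hp0 : p ≠ 0 := hp.out.ne_zero
  have hcharp : (p : K) ≠ 0 := by
    intro h; apply hchar; push_cast; rw [h, mul_zero]
  obtain ⟨ζ, hζ⟩ := exists_unit_primitiveRoot (K := K) (n := p) hcharp
  obtain ⟨hadj, hdeg⟩ := full_step (K := K) 1 hpN hchar
  rw [if_neg one_ne_zero] at hdeg
  let FM := modularFunctionFieldFullC K (N * p ^ 1)
  set x : LaurentSeries K := jt (1 : Kˣ) (p ^ 2) with hx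
  set P : FM[X] := PhiR Φp (⟨jt 1 (p ^ 1), hm1⟩ : FM) with hP
  set a : FM := ⟨jt 1 (p ^ 0), hm0⟩ with ha
  have hPmonic : P.Monic := PhiR_monic hΦp.monic _
  have hPdeg : P.natDegree = p + 1 := by rw [hP, PhiR_natDegree hΦp.monic, hΦp.natDegree_eq]
  have hroot_a : P.IsRoot a := by
    apply Subtype.val_injective
    change algebraMap FM (LaurentSeries K) (P.eval a) = 0
    rw [← eval₂_at_apply, ← eval_map, hP, PhiR_map]
    have := hΦp.root_low_one hζ (m := p ^ 0) (by simp)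
    rwa [← pow_succ'] at this
  obtain ⟨G, hG⟩ := dvd_iff_isRoot.mpr hroot_a
  have hGmonic : G.Monic := by
    have h1 := hPmonic
    rw [hG] at h1
    exact (monic_X_sub_C a).of_mul_monic_left h1
  have hGdeg : G.natDegree = p := by
    have h1 := congrArg natDegree hG
    rw [hPdeg, natDegree_mul (X_sub_C_ne_zero a) hGmonic.ne_zero, natDegree_X_sub_C] at h1
    omega
  have hPx : aeval x P = 0 := by
    rw [aeval_def, ← eval_map, hP, PhiR_map]
    have := hΦp.root_high hζ (m := p ^ 1) (pow_ne_zero _ hp0)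
    rwa [← pow_succ'] at this
  have hxa : x ≠ algebraMap FM (LaurentSeries K) a := by
    intro h
    have h1 : jt (1 : Kˣ) (p ^ 2) = jt 1 (p ^ 0) := h
    have h2 := (jt_inj (pow_ne_zero _ hp0) (pow_ne_zero _ hp0) h1).1
    have h3 := Nat.pow_right_injective hp.out.two_le h2
    omega
  have hGx : aeval x G = 0 := by
    rw [hG, map_mul, map_sub, aeval_X, aeval_C] at hPx
    exact (mul_eq_zero.mp hPx).resolve_left (sub_ne_zero.mpr hxa)
  have hxint : IsIntegral FM x := ⟨P, hPmonic, hPx⟩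
  have hμ : minpoly FM x = G :=
    (eq_of_monic_of_dvd_of_natDegree_le (minpoly.monic hxint) hGmonic (minpoly.dvd FM x hGx)
      (by rw [hdeg, hGdeg])).symm
  have hirr : ((minpoly FM x).map i).eval z = 0 := by
    have h1 : (P.map i).eval z = 0 := by
      rw [hP, PhiR_map]
      exact hz
    rw [hG, Polynomial.map_mul, eval_mul, Polynomial.map_sub, map_X, map_C, eval_sub, eval_X,
      eval_C] at h1
    rw [hμ]
    exact (mul_eq_zero.mp h1).resolve_left (sub_ne_zero.mpr hne)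
  exact exists_extend_of_adjoin hm2 hle hadj hxint i hirr

end Fermat.Agent.DR.S36
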