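import Mathlib
import Fermat.Agent.DR.S36.Extend
import Fermat.Agent.DR.S36.CharAlong
import Fermat.Agent.DR.Mod.Basic
import Fermat.Agent.JRED.ESNorm
import Fermat.Agent.Q2.MidEmb

/-!
# Embeddings of the function field of `X₀(N q²)` and the characteristic polynomials along the two
degeneracy maps to `X₀(N q)`
-/

set_option autoImplicit false
set_option linter.style.haveILetI false

noncomputable section

open AlgebraicCurve ModularCurve IntermediateField Polynomial
open Fermat.Agent.S28 Fermat.Agent.JRED.ES Fermat.Agent.Jan.HeckeInputs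

namespace Fermat.Agent.DR.S36

section Cast

variable (L : Type) [Field L] [Algebra ℚ L]

theorem mem_bc_iff {M : ℕ} {x : LaurentSeries L} :
    x ∈ laurentBaseChange L (modularFunctionFieldFull M) ↔ x ∈ modularFunctionFieldFullC L M := by
  rw [Fermat.Agent.MFF.laurentBaseChange_full]

theorem full_le_bc {M M' : ℕ} (h : M' = M) :
    modularFunctionFieldFullC L M' ≤ laurentBaseChange L (modularFunctionFieldFull M) := by
  subst h
  exact (Fermat.Agent.MFF.laurentBaseChange_full L M').ge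

theorem bc_le_full {M M' : ℕ} (h : M' = M) :
    laurentBaseChange L (modularFunctionFieldFull M) ≤ modularFunctionFieldFullC L M' := by
  subst h
  exact (Fermat.Agent.MFF.laurentBaseChange_full L M').le

/-- `F_{M'}` as a subfield of `K((t))` maps to the base changed field of level `M`. -/
def castC (M M' : ℕ) (h : M' = M) :
    modularFunctionFieldFullC L M' →+* laurentBaseChange L (modularFunctionFieldFull M) :=
  (IntermediateField.inclusion (full_le_bc L h)).toRingHom

theorem coe_castC {M M' : ℕ} (h : M' = M) (x : modularFunctionFieldFullC L M') :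
    (castC L M M' h x : LaurentSeries L) = x := IntermediateField.coe_inclusion _ x

/-- The inverse direction. -/
def castB (M M' : ℕ) (h : M' = M) :
    laurentBaseChange L (modularFunctionFieldFull M) →+* modularFunctionFieldFullC L M' :=
  (IntermediateField.inclusion (bc_le_full L h)).toRingHom

theorem coe_castB {M M' : ℕ} (h : M' = M)
    (x : laurentBaseChange L (modularFunctionFieldFull M)) :
    (castB L M M' h x : LaurentSeries L) = x := IntermediateField.coe_inclusion _ x

theorem jL_eq : jL L = jqModC L := by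
  change coeffMap _ (jqModC ℚ) = _
  rw [coeffMap_jqModC]

theorem coe_jB' (N : ℕ) : (jB L N : LaurentSeries L) = jqModC L := by
  rw [coe_jB, jL_eq]

end Cast

section Ext

variable {L : Type} [Field L] [IsAlgClosed L] [Algebra ℚ L] {N q : ℕ} [NeZero N] [NeZero q]

/-- **Universal property**: embeddings of `F_{Nq²}` are pairs of embeddings of `F_{Nq}` agreeing on
the middle curve, with different outer curves. -/
theorem exists_hom_level_two [Fact q.Prime] (hqN : ¬ q ∣ N) {Ω : Type*} [Field Ω]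
    (i i' : laurentBaseChange L (modularFunctionFieldFull (N * q)) →+* Ω)
    (h0 : ∀ x, i' (heckeAlphaBar L N q x) = i (heckeBetaBar L N q x))
    (hne : i' (heckeBetaBar L N q (jB L N)) ≠ i (heckeAlphaBar L N q (jB L N))) :
    ∃ ι : laurentBaseChange L (modularFunctionFieldFull (N * q * q)) →+* Ω,
      (∀ x, ι (heckeAlphaBar L (N * q) q x) = i x) ∧
      (∀ x, ι (heckeBetaBar L (N * q) q x) = i' x) := by
  have : CharZero L := charZero_of_injective_algebraMap (algebraMap ℚ L).injective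
  have hN0 : N ≠ 0 := NeZero.ne N
  have hq0 : q ≠ 0 := NeZero.ne q
  have hchar : ((N * q : ℕ) : L) ≠ 0 := Nat.cast_ne_zero.mpr (Nat.mul_ne_zero hN0 hq0)
  obtain ⟨Φq, hΦq⟩ := modPolyAll q
  have hcharq : (q : L) ≠ 0 := Nat.cast_ne_zero.mpr hq0
  obtain ⟨ζ, hζ⟩ := exists_unit_primitiveRoot (K := L) (n := q) hcharq
  have hM1 : N * q ^ 1 ≠ 0 := Nat.mul_ne_zero hN0 (pow_ne_zero _ hq0)
  have hM2 : N * q ^ 2 ≠ 0 := Nat.mul_ne_zero hN0 (pow_ne_zero _ hq0)
  have e1 : N * q ^ 1 = N * q := by rw [pow_one]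
  have e2 : N * q ^ 2 = N * q * q := by ring
  have e0 : N * q ^ 0 = N := by rw [pow_zero, mul_one]
  have hm1 : jt (1 : Lˣ) (q ^ 1) ∈ modularFunctionFieldFullC L (N * q ^ 1) :=
    jt_mem_full L hM1 (dvd_mul_left _ _)
  have hm0 : jt (1 : Lˣ) (q ^ 0) ∈ modularFunctionFieldFullC L (N * q ^ 1) :=
    jt_mem_full L hM1 (by simp)
  have hm2 : jt (1 : Lˣ) (q ^ 2) ∈ modularFunctionFieldFullC L (N * q ^ 2) :=
    jt_mem_full L hM2 (dvd_mul_left _ _)
  have hle01 : modularFunctionFieldFullC L (N * q ^ 0) ≤ modularFunctionFieldFullC L (N * q ^ 1) :=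
    full_mono L hM1 (Nat.mul_dvd_mul dvd_rfl (pow_dvd_pow q (Nat.le_succ 0)))
  have hle12 : modularFunctionFieldFullC L (N * q ^ 1) ≤ modularFunctionFieldFullC L (N * q ^ 2) :=
    full_mono L hM2 (Nat.mul_dvd_mul dvd_rfl (pow_dvd_pow q (Nat.le_succ 1)))
  let iC : modularFunctionFieldFullC L (N * q ^ 1) →+* Ω := i.comp (castC L _ _ e1)
  have hc1 : castC L _ _ e1 ⟨_, hm1⟩ = heckeBetaBar L N q (jB L N) := by
    apply Subtype.ext
    rw [coe_castC, coe_heckeBetaBar, coe_jB']
    change jt 1 (q ^ 1) = _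
    rw [pow_one, jt_one_eq]
  have hc0 : castC L _ _ e1 ⟨_, hm0⟩ = heckeAlphaBar L N q (jB L N) := by
    apply Subtype.ext
    rw [coe_castC, coe_heckeAlphaBar, coe_jB']
    change jt 1 (q ^ 0) = _
    rw [pow_zero, jt_one_one]
  have hroot : (PhiR Φq (heckeAlphaBar L N q (jB L N))).eval (heckeBetaBar L N q (jB L N)) = 0 := by
    apply Subtype.val_injective
    change inclL L (N * q) _ = 0
    rw [← eval₂_at_apply, ← eval_map, PhiR_map, inclL_apply, inclL_apply, coe_heckeAlphaBar,
      coe_heckeBetaBar, coe_jB']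
    have h1 := hΦq.root_high hζ (m := 1) one_ne_zero
    rwa [mul_one, jt_one_one, jt_one_eq] at h1
  have hz : (PhiR Φq (iC ⟨_, hm1⟩)).eval (i' (heckeBetaBar L N q (jB L N))) = 0 := by
    have h1 : iC ⟨_, hm1⟩ = i' (heckeAlphaBar L N q (jB L N)) := by
      rw [RingHom.comp_apply, hc1, h0]
    rw [h1, ← PhiR_map, eval_map, eval₂_at_apply, hroot, map_zero]
  obtain ⟨ιC, hιC, hιz⟩ := extend_two hqN hchar hΦq hm1 hm0 hm2 hle12 iC hz (by
    rw [RingHom.comp_apply, hc0]; exact hne)
  obtain ⟨ι, hι⟩ : ∃ ι : laurentBaseChange L (modularFunctionFieldFull (N * q * q)) →+* Ω,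
      ∀ x, ι x = ιC (castB L _ _ e2 x) := ⟨ιC.comp (castB L _ _ e2), fun _ => rfl⟩
  have hα : ∀ x, ι (heckeAlphaBar L (N * q) q x) = i x := by
    intro x
    have hx : (x : LaurentSeries L) ∈ modularFunctionFieldFullC L (N * q ^ 1) :=
      (castB L (N * q) (N * q ^ 1) e1 x).2
    have h1 : castB L _ _ e2 (heckeAlphaBar L (N * q) q x) = ⟨x, hle12 hx⟩ := by
      apply Subtype.ext
      rw [coe_castB, coe_heckeAlphaBar]
    rw [hι, h1, hιC _ hx, RingHom.comp_apply]
    congr 1
  refine ⟨ι, hα, ?_⟩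
  have hadj := (full_step (K := L) 0 hqN hchar).1
  have key : (ι.comp (heckeBetaBar L (N * q) q : _ →+* _)).comp (castC L (N * q) (N * q ^ 1) e1) =
      i'.comp (castC L (N * q) (N * q ^ 1) e1) := by
    refine hom_ext_of_adjoin hm1 hle01 hadj _ _ ?_ ?_
    · intro a ha
      obtain ⟨b, hb⟩ : ∃ b : laurentBaseChange L (modularFunctionFieldFull N),
          (b : LaurentSeries L) = a :=
        ⟨castC L N (N * q ^ 0) e0 ⟨a, ha⟩, coe_castC L e0 ⟨a, ha⟩⟩
      have h1 : castC L (N * q) (N * q ^ 1) e1 ⟨a, hle01 ha⟩ = heckeAlphaBar L N q b := by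
        apply Subtype.ext
        rw [coe_castC, coe_heckeAlphaBar, hb]
      have h2 : heckeBetaBar L (N * q) q (heckeAlphaBar L N q b) =
          heckeAlphaBar L (N * q) q (heckeBetaBar L N q b) := by
        apply Subtype.ext
        rw [coe_heckeBetaBar, coe_heckeAlphaBar, coe_heckeAlphaBar, coe_heckeBetaBar]
      have h3 : ((ι.comp (heckeBetaBar L (N * q) q : _ →+* _)).comp
          (castC L (N * q) (N * q ^ 1) e1)) ⟨a, hle01 ha⟩ =
          ι (heckeBetaBar L (N * q) q (castC L (N * q) (N * q ^ 1) e1 ⟨a, hle01 ha⟩)) := rfl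
      have h4 : (i'.comp (castC L (N * q) (N * q ^ 1) e1)) ⟨a, hle01 ha⟩ =
          i' (castC L (N * q) (N * q ^ 1) e1 ⟨a, hle01 ha⟩) := rfl
      rw [h3, h4, h1, h2, hα, h0]
    · have h3 : ((ι.comp (heckeBetaBar L (N * q) q : _ →+* _)).comp
          (castC L (N * q) (N * q ^ 1) e1)) ⟨_, hm1⟩ =
          ι (heckeBetaBar L (N * q) q (castC L (N * q) (N * q ^ 1) e1 ⟨_, hm1⟩)) := rfl
      have h4 : (i'.comp (castC L (N * q) (N * q ^ 1) e1)) ⟨_, hm1⟩ =
          i' (castC L (N * q) (N * q ^ 1) e1 ⟨_, hm1⟩) := rfl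
      rw [h3, h4, hc1, ← hιz, hι]
      congr 1
      apply Subtype.ext
      rw [coe_castB, coe_heckeBetaBar, coe_heckeBetaBar, coe_jB', ← jt_one_one, qExpand_jt,
        qExpand_jt, mul_one, ← pow_two]
  intro x
  have hx : castC L (N * q) (N * q ^ 1) e1 (castB L (N * q) (N * q ^ 1) e1 x) = x :=
    Subtype.ext (by rw [coe_castC, coe_castB])
  have h1 := RingHom.congr_fun key (castB L (N * q) (N * q ^ 1) e1 x)
  have h3 : ((ι.comp (heckeBetaBar L (N * q) q : _ →+* _)).comp
      (castC L (N * q) (N * q ^ 1) e1)) (castB L (N * q) (N * q ^ 1) e1 x) =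
      ι (heckeBetaBar L (N * q) q (castC L (N * q) (N * q ^ 1) e1
        (castB L (N * q) (N * q ^ 1) e1 x))) := rfl
  have h4 : (i'.comp (castC L (N * q) (N * q ^ 1) e1)) (castB L (N * q) (N * q ^ 1) e1 x) =
      i' (castC L (N * q) (N * q ^ 1) e1 (castB L (N * q) (N * q ^ 1) e1 x)) := rfl
  rw [h3, h4, hx] at h1
  exact h1

end Ext

end Fermat.Agent.DR.S36
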