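import Mathlib
import Fermat.Agent.DR.S36.Level2

/-!
# The Atkin–Lehner automorphism of `F_{Nq²}` and the degree over `F_{Nq}`
-/

set_option autoImplicit false
set_option linter.style.haveILetI false
set_option linter.unusedSectionVars false

noncomputable section

open AlgebraicCurve ModularCurve IntermediateField Polynomial
open Fermat.Agent.S28 Fermat.Agent.JRED.ES Fermat.Agent.Jan.HeckeInputs

namespace Fermat.Agent.DR.S36

section Uniq

variable {L : Type} [Field L] [IsAlgClosed L] [Algebra ℚ L] {N q : ℕ} [NeZero N] [NeZero q]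

/-- Homomorphisms from `F_{Nq}` are determined by their restriction along `α` and `j(t^q)`. -/
theorem hom_ext_level_one [Fact q.Prime] (hqN : ¬ q ∣ N) {Ω : Type*} [Field Ω]
    (f g : laurentBaseChange L (modularFunctionFieldFull (N * q)) →+* Ω)
    (h0 : ∀ x, f (heckeAlphaBar L N q x) = g (heckeAlphaBar L N q x))
    (h1 : f (heckeBetaBar L N q (jB L N)) = g (heckeBetaBar L N q (jB L N))) : f = g := by
  have : CharZero L := charZero_of_injective_algebraMap (algebraMap ℚ L).injective
  have hN0 : N ≠ 0 := NeZero.ne N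
  have hq0 : q ≠ 0 := NeZero.ne q
  have hchar : ((N * q : ℕ) : L) ≠ 0 := Nat.cast_ne_zero.mpr (Nat.mul_ne_zero hN0 hq0)
  have hM1 : N * q ^ 1 ≠ 0 := Nat.mul_ne_zero hN0 (pow_ne_zero _ hq0)
  have e1 : N * q ^ 1 = N * q := by rw [pow_one]
  have e0 : N * q ^ 0 = N := by rw [pow_zero, mul_one]
  have hm1 : jt (1 : Lˣ) (q ^ 1) ∈ modularFunctionFieldFullC L (N * q ^ 1) :=
    jt_mem_full L hM1 (dvd_mul_left _ _)
  have hle01 : modularFunctionFieldFullC L (N * q ^ 0) ≤ modularFunctionFieldFullC L (N * q ^ 1) :=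
    full_mono L hM1 (Nat.mul_dvd_mul dvd_rfl (pow_dvd_pow q (Nat.le_succ 0)))
  have hc1 : castC L _ _ e1 ⟨_, hm1⟩ = heckeBetaBar L N q (jB L N) := by
    apply Subtype.ext
    rw [coe_castC, coe_heckeBetaBar, coe_jB']
    change jt 1 (q ^ 1) = _
    rw [pow_one, jt_one_eq]
  have hadj := (full_step (K := L) 0 hqN hchar).1
  have key : f.comp (castC L (N * q) (N * q ^ 1) e1) = g.comp (castC L (N * q) (N * q ^ 1) e1) := by
    refine hom_ext_of_adjoin hm1 hle01 hadj _ _ ?_ ?_
    · intro a ha
      obtain ⟨b, hb⟩ : ∃ b : laurentBaseChange L (modularFunctionFieldFull N),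
          (b : LaurentSeries L) = a :=
        ⟨castC L N (N * q ^ 0) e0 ⟨a, ha⟩, coe_castC L e0 ⟨a, ha⟩⟩
      have h2 : castC L (N * q) (N * q ^ 1) e1 ⟨a, hle01 ha⟩ = heckeAlphaBar L N q b := by
        apply Subtype.ext
        rw [coe_castC, coe_heckeAlphaBar, hb]
      rw [RingHom.comp_apply, RingHom.comp_apply, h2, h0]
    · rw [RingHom.comp_apply, RingHom.comp_apply, hc1, h1]
  ext x
  have hx : castC L (N * q) (N * q ^ 1) e1 (castB L (N * q) (N * q ^ 1) e1 x) = x :=
    Subtype.ext (by rw [coe_castC, coe_castB])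
  have h2 := RingHom.congr_fun key (castB L (N * q) (N * q ^ 1) e1 x)
  rwa [RingHom.comp_apply, RingHom.comp_apply, hx] at h2

/-- Homomorphisms from `F_{Nq²}` are determined by their restriction along `α` and
`j(t^{q²})`. -/
theorem hom_ext_level_two [Fact q.Prime] (hqN : ¬ q ∣ N) {Ω : Type*} [Field Ω]
    (f g : laurentBaseChange L (modularFunctionFieldFull (N * q * q)) →+* Ω)
    (h0 : ∀ x, f (heckeAlphaBar L (N * q) q x) = g (heckeAlphaBar L (N * q) q x))
    (h1 : f (heckeBetaBar L (N * q) q (heckeBetaBar L N q (jB L N))) =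
      g (heckeBetaBar L (N * q) q (heckeBetaBar L N q (jB L N)))) : f = g := by
  have : CharZero L := charZero_of_injective_algebraMap (algebraMap ℚ L).injective
  have hN0 : N ≠ 0 := NeZero.ne N
  have hq0 : q ≠ 0 := NeZero.ne q
  have hchar : ((N * q : ℕ) : L) ≠ 0 := Nat.cast_ne_zero.mpr (Nat.mul_ne_zero hN0 hq0)
  have hM2 : N * q ^ 2 ≠ 0 := Nat.mul_ne_zero hN0 (pow_ne_zero _ hq0)
  have e1 : N * q ^ 1 = N * q := by rw [pow_one]
  have e2 : N * q ^ 2 = N * q * q := by ring
  have hm2 : jt (1 : Lˣ) (q ^ 2) ∈ modularFunctionFieldFullC L (N * q ^ 2) :=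
    jt_mem_full L hM2 (dvd_mul_left _ _)
  have hle12 : modularFunctionFieldFullC L (N * q ^ 1) ≤ modularFunctionFieldFullC L (N * q ^ 2) :=
    full_mono L hM2 (Nat.mul_dvd_mul dvd_rfl (pow_dvd_pow q (Nat.le_succ 1)))
  have hc2 : castC L _ _ e2 ⟨_, hm2⟩ =
      heckeBetaBar L (N * q) q (heckeBetaBar L N q (jB L N)) := by
    apply Subtype.ext
    rw [coe_castC, coe_heckeBetaBar, coe_heckeBetaBar, coe_jB', ← jt_one_one, qExpand_jt,
      qExpand_jt, mul_one, ← pow_two]
  have hadj := (full_step (K := L) 1 hqN hchar).1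
  have key : f.comp (castC L (N * q * q) (N * q ^ 2) e2) =
      g.comp (castC L (N * q * q) (N * q ^ 2) e2) := by
    refine hom_ext_of_adjoin hm2 hle12 hadj _ _ ?_ ?_
    · intro a ha
      obtain ⟨b, hb⟩ : ∃ b : laurentBaseChange L (modularFunctionFieldFull (N * q)),
          (b : LaurentSeries L) = a :=
        ⟨castC L (N * q) (N * q ^ 1) e1 ⟨a, ha⟩, coe_castC L e1 ⟨a, ha⟩⟩
      have h2 : castC L (N * q * q) (N * q ^ 2) e2 ⟨a, hle12 ha⟩ =
          heckeAlphaBar L (N * q) q b := by
        apply Subtype.ext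
        rw [coe_castC, coe_heckeAlphaBar, hb]
      rw [RingHom.comp_apply, RingHom.comp_apply, h2, h0]
    · rw [RingHom.comp_apply, RingHom.comp_apply, hc2, h1]
  ext x
  have hx : castC L (N * q * q) (N * q ^ 2) e2 (castB L (N * q * q) (N * q ^ 2) e2 x) = x :=
    Subtype.ext (by rw [coe_castC, coe_castB])
  have h2 := RingHom.congr_fun key (castB L (N * q * q) (N * q ^ 2) e2 x)
  rwa [RingHom.comp_apply, RingHom.comp_apply, hx] at h2

end Uniq

section AL

variable {L : Type} [Field L] [Algebra ℚ L] {N q : ℕ} [NeZero N] [NeZero q]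

/-- `w₂` is the Atkin–Lehner automorphism of `F_{Nq²}`, `w₁` the one of `F_{Nq}`. -/
structure IsAL2
    (w₁ : laurentBaseChange L (modularFunctionFieldFull (N * q)) ≃ₐ[L]
      laurentBaseChange L (modularFunctionFieldFull (N * q)))
    (w₂ : laurentBaseChange L (modularFunctionFieldFull (N * q * q)) ≃ₐ[L]
      laurentBaseChange L (modularFunctionFieldFull (N * q * q))) : Prop where
  alpha : ∀ x, w₂ (heckeAlphaBar L (N * q) q x) = heckeBetaBar L (N * q) q (w₁ x)
  beta : ∀ x, w₂ (heckeBetaBar L (N * q) q x) = heckeAlphaBar L (N * q) q (w₁ x)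

theorem coeff_jq_qExpand_ne {n : ℕ} [NeZero n] (hn : 1 < n) :
    qExpand L n (jqModC L) ≠ jqModC L := by
  intro h
  have h1 : (qExpand L n (jqModC L)).coeff (-1) = (jqModC L).coeff (-1) := by rw [h]
  rw [coeff_jqModC_neg_one, qExpand_coeff_of_not_dvd] at h1
  · exact zero_ne_one h1
  · intro h2
    have h3 : (n : ℤ) ∣ 1 := by simpa using h2
    have h4 : n ∣ 1 := by exact_mod_cast h3
    exact hn.ne' (Nat.dvd_one.mp h4)

variable [IsAlgClosed L]

/-- `w₁` is an involution. -/
theorem isAL_invol [Fact q.Prime] (hqN : ¬ q ∣ N)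
    {w₁ : laurentBaseChange L (modularFunctionFieldFull (N * q)) ≃ₐ[L]
      laurentBaseChange L (modularFunctionFieldFull (N * q))}
    (hw : Fermat.Agent.DR.Mod.IsAL w₁)
    (x : laurentBaseChange L (modularFunctionFieldFull (N * q))) : w₁ (w₁ x) = x := by
  have key : (w₁ : _ →+* laurentBaseChange L (modularFunctionFieldFull (N * q))).comp
      (w₁ : _ →+* laurentBaseChange L (modularFunctionFieldFull (N * q))) = RingHom.id _ := by
    refine hom_ext_level_one hqN _ _ (fun y => ?_) ?_
    · change w₁ (w₁ (heckeAlphaBar L N q y)) = heckeAlphaBar L N q y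
      rw [hw.alpha, hw.beta]
    · change w₁ (w₁ (heckeBetaBar L N q (jB L N))) = heckeBetaBar L N q (jB L N)
      rw [hw.beta, hw.alpha]
  exact RingHom.congr_fun key x

theorem coe_beta_beta_j :
    ((heckeBetaBar L (N * q) q (heckeBetaBar L N q (jB L N)) :
      laurentBaseChange L (modularFunctionFieldFull (N * q * q))) : LaurentSeries L) =
      qExpand L q (qExpand L q (jqModC L)) := by
  rw [coe_heckeBetaBar, coe_heckeBetaBar, coe_jB']

theorem coe_alpha_alpha_j :
    ((heckeAlphaBar L (N * q) q (heckeAlphaBar L N q (jB L N)) :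
      laurentBaseChange L (modularFunctionFieldFull (N * q * q))) : LaurentSeries L) =
      jqModC L := by
  rw [coe_heckeAlphaBar, coe_heckeAlphaBar, coe_jB']

theorem qq_ne [Fact q.Prime] : qExpand L q (qExpand L q (jqModC L)) ≠ jqModC L := by
  intro h
  have h1 : (qExpand L q (qExpand L q (jqModC L))).coeff (-1) = (jqModC L).coeff (-1) := by rw [h]
  rw [coeff_jqModC_neg_one, qExpand_coeff_of_not_dvd] at h1
  · exact zero_ne_one h1
  · intro h2
    have h3 : (q : ℤ) ∣ 1 := by simpa using h2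
    have h4 : q ∣ 1 := by exact_mod_cast h3
    exact (Fact.out : q.Prime).one_lt.ne' (Nat.dvd_one.mp h4)

/-- **The Atkin–Lehner automorphism of `F_{Nq²}`.** -/
theorem exists_isAL2 [Fact q.Prime] (hqN : ¬ q ∣ N)
    {w₁ : laurentBaseChange L (modularFunctionFieldFull (N * q)) ≃ₐ[L]
      laurentBaseChange L (modularFunctionFieldFull (N * q))}
    (hw : Fermat.Agent.DR.Mod.IsAL w₁) :
    ∃ w₂ : laurentBaseChange L (modularFunctionFieldFull (N * q * q)) ≃ₐ[L]
      laurentBaseChange L (modularFunctionFieldFull (N * q * q)), IsAL2 w₁ w₂ := by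
  let F₂ := laurentBaseChange L (modularFunctionFieldFull (N * q * q))
  let i : laurentBaseChange L (modularFunctionFieldFull (N * q)) →+* F₂ :=
    ((heckeBetaBar L (N * q) q).comp w₁.toAlgHom : _ →+* F₂)
  let i' : laurentBaseChange L (modularFunctionFieldFull (N * q)) →+* F₂ :=
    ((heckeAlphaBar L (N * q) q).comp w₁.toAlgHom : _ →+* F₂)
  have hi : ∀ x, i x = heckeBetaBar L (N * q) q (w₁ x) := fun _ => rfl
  have hi' : ∀ x, i' x = heckeAlphaBar L (N * q) q (w₁ x) := fun _ => rfl
  have hαβ : ∀ x : laurentBaseChange L (modularFunctionFieldFull N),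
      heckeAlphaBar L (N * q) q (heckeBetaBar L N q x) =
        heckeBetaBar L (N * q) q (heckeAlphaBar L N q x) := by
    intro x
    apply Subtype.ext
    rw [coe_heckeBetaBar, coe_heckeAlphaBar, coe_heckeAlphaBar, coe_heckeBetaBar]
  obtain ⟨ι, hι1, hι2⟩ := exists_hom_level_two hqN i i' (fun x => by
    rw [hi, hi', hw.alpha, hw.beta, hαβ]) (by
    rw [hi, hi', hw.alpha, hw.beta]
    intro h
    have h1 := congrArg Subtype.val h
    exact qq_ne (((coe_alpha_alpha_j (L := L) (N := N) (q := q)).symm.trans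
      (h1.trans (coe_beta_beta_j (L := L) (N := N) (q := q)))).symm))
  have hinv : ∀ x, ι (ι x) = x := by
    have key : ι.comp ι = RingHom.id _ := by
      refine hom_ext_level_two hqN _ _ (fun y => ?_) ?_
      · change ι (ι (heckeAlphaBar L (N * q) q y)) = heckeAlphaBar L (N * q) q y
        rw [hι1, hi, hι2, hi', isAL_invol hqN hw]
      · change ι (ι (heckeBetaBar L (N * q) q (heckeBetaBar L N q (jB L N)))) =
          heckeBetaBar L (N * q) q (heckeBetaBar L N q (jB L N))
        rw [hι2, hi', hι1, hi, isAL_invol hqN hw]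
    exact fun x => RingHom.congr_fun key x
  have hcomm : ∀ c : L, ι (algebraMap L F₂ c) = algebraMap L F₂ c := by
    intro c
    have h1 : algebraMap L F₂ c = heckeAlphaBar L (N * q) q (algebraMap L _ c) :=
      ((heckeAlphaBar L (N * q) q).commutes c).symm
    rw [h1, hι1, hi, AlgEquiv.commutes, AlgHom.commutes, AlgHom.commutes]
  let w₂ : F₂ ≃ₐ[L] F₂ :=
    { ι with
      invFun := ι
      left_inv := hinv
      right_inv := hinv
      commutes' := hcomm }
  exact ⟨w₂, ⟨fun x => hι1 x, fun x => hι2 x⟩⟩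

theorem IsAL2.invol [Fact q.Prime] (hqN : ¬ q ∣ N)
    {w₁ : laurentBaseChange L (modularFunctionFieldFull (N * q)) ≃ₐ[L]
      laurentBaseChange L (modularFunctionFieldFull (N * q))}
    {w₂ : laurentBaseChange L (modularFunctionFieldFull (N * q * q)) ≃ₐ[L]
      laurentBaseChange L (modularFunctionFieldFull (N * q * q))}
    (hw : Fermat.Agent.DR.Mod.IsAL w₁) (h : IsAL2 w₁ w₂)
    (x : laurentBaseChange L (modularFunctionFieldFull (N * q * q))) : w₂ (w₂ x) = x := by
  have key : (w₂ : _ →+* laurentBaseChange L (modularFunctionFieldFull (N * q * q))).comp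
      (w₂ : _ →+* laurentBaseChange L (modularFunctionFieldFull (N * q * q))) = RingHom.id _ := by
    refine hom_ext_level_two hqN _ _ (fun y => ?_) ?_
    · change w₂ (w₂ (heckeAlphaBar L (N * q) q y)) = heckeAlphaBar L (N * q) q y
      rw [h.alpha, h.beta, isAL_invol hqN hw]
    · change w₂ (w₂ (heckeBetaBar L (N * q) q (heckeBetaBar L N q (jB L N)))) =
        heckeBetaBar L (N * q) q (heckeBetaBar L N q (jB L N))
      rw [h.beta, h.alpha, isAL_invol hqN hw]
  exact RingHom.congr_fun key x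

end AL

section Degree

variable {L : Type} [Field L] [IsAlgClosed L] [Algebra ℚ L] {N q : ℕ} [NeZero N] [NeZero q]

/-- `[F_{Nq²} : F_{Nq}] = q`. -/
theorem finrankAlong_level_two [Fact q.Prime] (hqN : ¬ q ∣ N) :
    finrankAlong L (heckeAlphaBar L (N * q) q) = q := by
  have : CharZero L := charZero_of_injective_algebraMap (algebraMap ℚ L).injective
  have hN0 : N ≠ 0 := NeZero.ne N
  have hq0 : q ≠ 0 := NeZero.ne q
  have hchar : ((N * q : ℕ) : L) ≠ 0 := Nat.cast_ne_zero.mpr (Nat.mul_ne_zero hN0 hq0)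
  have hM2 : N * q ^ 2 ≠ 0 := Nat.mul_ne_zero hN0 (pow_ne_zero _ hq0)
  have e1 : N * q ^ 1 = N * q := by rw [pow_one]
  have e2 : N * q ^ 2 = N * q * q := by ring
  obtain ⟨hadj, hdeg⟩ := full_step (K := L) 1 hqN hchar
  rw [if_neg one_ne_zero] at hdeg
  have hint : IsIntegral (modularFunctionFieldFullC L (N * q ^ 1)) (jt (1 : Lˣ) (q ^ 2)) := by
    apply isIntegral_jt modPolyAll (jt_mem_full L (Nat.mul_ne_zero hN0 (pow_ne_zero _ hq0))
      (one_dvd _))
    push_cast
    exact pow_ne_zero _ (Nat.cast_ne_zero.mpr hq0)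
  have hfr := relfinrank_adjoin_simple hint hadj
  rw [hdeg] at hfr
  have hle12 : modularFunctionFieldFullC L (N * q ^ 1) ≤ modularFunctionFieldFullC L (N * q ^ 2) :=
    full_mono L hM2 (Nat.mul_dvd_mul dvd_rfl (pow_dvd_pow q (Nat.le_succ 1)))
  rw [relfinrank_eq_finrank_of_le hle12] at hfr
  let f1 : laurentBaseChange L (modularFunctionFieldFull (N * q)) ≃+*
      modularFunctionFieldFullC L (N * q ^ 1) :=
    { castB L (N * q) (N * q ^ 1) e1 with
      invFun := castC L (N * q) (N * q ^ 1) e1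
      left_inv := fun x => Subtype.ext (by
        change ((castC L (N * q) (N * q ^ 1) e1 (castB L (N * q) (N * q ^ 1) e1 x) :
          laurentBaseChange L (modularFunctionFieldFull (N * q))) : LaurentSeries L) = x
        rw [coe_castC, coe_castB])
      right_inv := fun x => Subtype.ext (by
        change ((castB L (N * q) (N * q ^ 1) e1 (castC L (N * q) (N * q ^ 1) e1 x) :
          modularFunctionFieldFullC L (N * q ^ 1)) : LaurentSeries L) = x
        rw [coe_castB, coe_castC]) }
  let f2 : laurentBaseChange L (modularFunctionFieldFull (N * q * q)) ≃+*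
      extendScalars hle12 :=
    { castB L (N * q * q) (N * q ^ 2) e2 with
      invFun := fun x => castC L (N * q * q) (N * q ^ 2) e2 ⟨x.1, x.2⟩
      left_inv := fun x => Subtype.ext (coe_castC L e2 _)
      right_inv := fun x => Subtype.ext (coe_castC L e2 _) }
  letI := algebraAlong (heckeAlphaBar L (N * q) q)
  change Module.finrank (laurentBaseChange L (modularFunctionFieldFull (N * q)))
    (laurentBaseChange L (modularFunctionFieldFull (N * q * q))) = q
  refine (Algebra.finrank_eq_of_equiv_equiv f1 f2 (RingHom.ext fun x => Subtype.ext ?_)).trans hfr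
  rfl

end Degree

end Fermat.Agent.DR.S36
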