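import Mathlib
import Fermat.Agent.DR.S36.Level2AL
import Fermat.Agent.DR.Mod.Kronecker

/-!
# Characteristic polynomials and norms along `α, β : F_{Nq} → F_{Nq²}` and their reductions

`w₁`, `w₂` Atkin–Lehner at levels `Nq`, `Nq²`.  Middle embeddings `ι_z` (`z` a nontrivial `q`-th root
of unity): identity on `α F_{Nq}`, `β x ↦ (w₁ x)(z t)`.

* `map_charAlong_alpha`: `char_α(f) = (X - f) ∏_b (X - ι_b f)` in `K((t))`.
* `map_charAlong_alpha'`: `char_α(f)` seen through `x ↦ (w₁ x)(t^q)` is `∏_a (X - (w₂ f)(ζ^a t))`.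
* `charAlong_beta`, `normAlong_beta`: `char_β(f) = w₁ (char_α (w₂ f))`.
* `IsMidB.comp_w₂`: `ι_z (w₂ f) = (ι_{z⁻¹} f)(z t)`.
* reductions: `red_char_alpha₁`, `red_char_alpha₂`, `red_norm_alpha₁`, `red_norm_alpha₂`,
  `red_norm_beta₂`, `red_norm_beta₁`.
-/

set_option autoImplicit false
set_option linter.style.haveILetI false
set_option linter.unusedSectionVars false

noncomputable section

open AlgebraicCurve ModularCurve IntermediateField Polynomial
open Fermat.Agent.S28 Fermat.Agent.JRED Fermat.Agent.Jan.HeckeInputs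
open Fermat.Agent.JRED.ES (inclL inclL_apply jB)
open Fermat.Agent.Jan.HeckeNorm (normAlong)
open Fermat.Agent.DR.Mod (IsAL R1L R2L R1L_red R2L_red PRed GRed.twist GRed.prod GRed.of_qExpand
  GRed.qExpand root_red map_root)

namespace Fermat.Agent.DR.S36

section Mid

variable {L : Type} [Field L] [Algebra ℚ L] {N q : ℕ} [NeZero N] [NeZero q]

/-- The middle embedding of `F_{Nq²}` attached to the root of unity `z`. -/
structure IsMidB
    (w₁ : laurentBaseChange L (modularFunctionFieldFull (N * q)) ≃ₐ[L]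
      laurentBaseChange L (modularFunctionFieldFull (N * q))) (z : Lˣ)
    (ι : laurentBaseChange L (modularFunctionFieldFull (N * q * q)) →+* LaurentSeries L) :
    Prop where
  alpha : ∀ x, ι (heckeAlphaBar L (N * q) q x) = x
  beta : ∀ x, ι (heckeBetaBar L (N * q) q x) = twist z (w₁ x : LaurentSeries L)

variable {w₁ : laurentBaseChange L (modularFunctionFieldFull (N * q)) ≃ₐ[L]
      laurentBaseChange L (modularFunctionFieldFull (N * q))}
  {w₂ : laurentBaseChange L (modularFunctionFieldFull (N * q * q)) ≃ₐ[L]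
      laurentBaseChange L (modularFunctionFieldFull (N * q * q))}

theorem IsMidB.const {z : Lˣ}
    {ι : laurentBaseChange L (modularFunctionFieldFull (N * q * q)) →+* LaurentSeries L}
    (h : IsMidB w₁ z ι) (c : L) : ι (algebraMap L _ c) = algebraMap L (LaurentSeries L) c := by
  have h1 : algebraMap L (laurentBaseChange L (modularFunctionFieldFull (N * q * q))) c =
      heckeAlphaBar L (N * q) q (algebraMap L _ c) := ((heckeAlphaBar L (N * q) q).commutes c).symm
  rw [h1, h.alpha]
  rfl

theorem IsMidB.beta_beta_j {z : Lˣ}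
    {ι : laurentBaseChange L (modularFunctionFieldFull (N * q * q)) →+* LaurentSeries L}
    (hw : IsAL w₁) (h : IsMidB w₁ z ι) :
    ι (heckeBetaBar L (N * q) q (heckeBetaBar L N q (jB L N))) = jt z 1 := by
  rw [h.beta, hw.beta, coe_heckeAlphaBar, coe_jB', ← jt_one_one, twist_jt, pow_one, mul_one]

theorem incl_beta_beta_j :
    inclL L (N * q * q) (heckeBetaBar L (N * q) q (heckeBetaBar L N q (jB L N))) =
      jt 1 (q * q) := by
  rw [inclL_apply, coe_heckeBetaBar, coe_heckeBetaBar, coe_jB', ← jt_one_one, qExpand_jt,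
    qExpand_jt, mul_one]

variable [IsAlgClosed L] [Fact q.Prime]

theorem exists_isMidB (hqN : ¬ q ∣ N) (hw : IsAL w₁) {z : Lˣ} (hz : z ^ q = 1) (hz1 : z ≠ 1) :
    ∃ ι : laurentBaseChange L (modularFunctionFieldFull (N * q * q)) →+* LaurentSeries L,
      IsMidB w₁ z ι := by
  obtain ⟨ι, h1, h2⟩ := exists_hom_level_two hqN (inclL L (N * q))
    ((twist z).comp ((inclL L (N * q)).comp (w₁ : _ →+* _))) (fun x => by
      change twist z (w₁ (heckeAlphaBar L N q x) : LaurentSeries L) =
        (heckeBetaBar L N q x : LaurentSeries L)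
      rw [hw.alpha, coe_heckeBetaBar, twist_qExpand_of_pow_eq_one _ _ hz]) (by
      change twist z (w₁ (heckeBetaBar L N q (jB L N)) : LaurentSeries L) ≠
        (heckeAlphaBar L N q (jB L N) : LaurentSeries L)
      rw [hw.beta, coe_heckeAlphaBar, coe_jB', ← jt_one_one, twist_jt, pow_one, mul_one]
      intro h
      exact hz1 (jt_inj one_ne_zero one_ne_zero h).2)
  exact ⟨ι, ⟨h1, h2⟩⟩

theorem IsMidB.unique (hqN : ¬ q ∣ N) {z : Lˣ}
    {ι ι' : laurentBaseChange L (modularFunctionFieldFull (N * q * q)) →+* LaurentSeries L}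
    (h : IsMidB w₁ z ι) (h' : IsMidB w₁ z ι') : ι = ι' := by
  refine hom_ext_level_two hqN _ _ (fun x => ?_) ?_
  · rw [h.alpha, h'.alpha]
  · rw [h.beta, h'.beta]

/-- helper68's middle embedding is the same. -/
theorem IsMidB.of_isMid (hqN : ¬ q ∣ N) (hw : IsAL w₁) {z : Lˣ} (hz : z ^ q = 1) (hz1 : z ≠ 1)
    {ι' : modularFunctionFieldFullC L (N * q ^ 2) →+* LaurentSeries L}
    (h : Fermat.Agent.Q2.IsMid L N q z ι') (e : N * q ^ 2 = N * q * q) :
    IsMidB w₁ z (ι'.comp (castB L (N * q * q) (N * q ^ 2) e)) := by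
  obtain ⟨ι, hι⟩ := exists_isMidB hqN hw hz hz1
  have hα : ∀ x, (ι'.comp (castB L (N * q * q) (N * q ^ 2) e)) (heckeAlphaBar L (N * q) q x) =
      x := by
    intro x
    have hx : (x : LaurentSeries L) ∈ modularFunctionFieldFullC L (N * q) :=
      (mem_bc_iff L).mp x.2
    have hx2 : (x : LaurentSeries L) ∈ modularFunctionFieldFullC L (N * q ^ 2) := by
      rw [← coe_heckeAlphaBar (L := L) (N := N * q) (ℓ := q) x]
      exact bc_le_full L e (heckeAlphaBar L (N * q) q x).2
    have h1 : castB L (N * q * q) (N * q ^ 2) e (heckeAlphaBar L (N * q) q x) = ⟨x, hx2⟩ :=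
      Subtype.ext (by rw [coe_castB, coe_heckeAlphaBar])
    rw [RingHom.comp_apply, h1]
    exact h.of_mem _ hx2 hx
  have key : ι'.comp (castB L (N * q * q) (N * q ^ 2) e) = ι := by
    refine hom_ext_level_two hqN _ _ (fun x => ?_) ?_
    · rw [hα, hι.alpha]
    · rw [hι.beta_beta_j hw, RingHom.comp_apply]
      have hm : jt (1 : Lˣ) (1 * q ^ 2) ∈ modularFunctionFieldFullC L (N * q ^ 2) :=
        jt_mem_full L (Nat.mul_ne_zero (NeZero.ne N) (pow_ne_zero _ (NeZero.ne q)))
          (Nat.mul_dvd_mul (one_dvd N) dvd_rfl)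
      have h1 : castB L (N * q * q) (N * q ^ 2) e
          (heckeBetaBar L (N * q) q (heckeBetaBar L N q (jB L N))) = ⟨_, hm⟩ := by
        apply Subtype.ext
        rw [coe_castB]
        have h5 := incl_beta_beta_j (L := L) (N := N) (q := q)
        rw [inclL_apply] at h5
        rw [h5]
        change _ = jt 1 (1 * q ^ 2)
        rw [one_mul, pow_two]
      rw [h1, h.jt_top 1 hm (one_dvd N), pow_one]
  rw [key]
  exact hι

/-- `ι_z (w₂ f) = (ι_{z⁻¹} f)(z t)`. -/
theorem IsMidB.comp_w₂ (hqN : ¬ q ∣ N) (hw : IsAL w₁) (h2 : IsAL2 w₁ w₂) {z : Lˣ}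
    {ι ι' : laurentBaseChange L (modularFunctionFieldFull (N * q * q)) →+* LaurentSeries L}
    (h : IsMidB w₁ z ι) (h' : IsMidB w₁ z⁻¹ ι')
    (f : laurentBaseChange L (modularFunctionFieldFull (N * q * q))) :
    ι (w₂ f) = twist z (ι' f) := by
  have key : ι.comp (w₂ : _ →+* laurentBaseChange L (modularFunctionFieldFull (N * q * q))) =
      (twist z).comp ι' := by
    refine hom_ext_level_two hqN _ _ (fun x => ?_) ?_
    · change ι (w₂ (heckeAlphaBar L (N * q) q x)) = twist z (ι' (heckeAlphaBar L (N * q) q x))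
      rw [h2.alpha, h.beta, h'.alpha, isAL_invol hqN hw]
    · change ι (w₂ (heckeBetaBar L (N * q) q (heckeBetaBar L N q (jB L N)))) =
        twist z (ι' (heckeBetaBar L (N * q) q (heckeBetaBar L N q (jB L N))))
      rw [h2.beta, h.alpha, h'.beta_beta_j hw, hw.beta, coe_heckeAlphaBar, coe_jB', twist_jt,
        ← jt_one_one, pow_one, mul_inv_cancel]
  exact RingHom.congr_fun key f

end Mid

section Char

variable {L : Type} [Field L] [Algebra ℚ L] [IsAlgClosed L] {N q : ℕ} [NeZero N] [NeZero q]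
  [Fact q.Prime]
  {w₁ : laurentBaseChange L (modularFunctionFieldFull (N * q)) ≃ₐ[L]
      laurentBaseChange L (modularFunctionFieldFull (N * q))}
  {w₂ : laurentBaseChange L (modularFunctionFieldFull (N * q * q)) ≃ₐ[L]
      laurentBaseChange L (modularFunctionFieldFull (N * q * q))}

theorem root_ne_one {ζ : Lˣ} (hζ : IsPrimitiveRoot ζ q) (b : Fin (q - 1)) :
    ζ ^ ((b : ℕ) + 1) ≠ 1 := by
  intro h
  have h1 := (hζ.pow_eq_one_iff_dvd _).mp h
  have h2 := Nat.le_of_dvd (Nat.succ_pos _) h1
  have h3 := b.2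
  omega

/-- **Characteristic polynomial along `α`, first component.** -/
theorem map_charAlong_alpha (hqN : ¬ q ∣ N) (hw : IsAL w₁) {ζ : Lˣ} (hζ : IsPrimitiveRoot ζ q)
    {ι : Fin (q - 1) →
      (laurentBaseChange L (modularFunctionFieldFull (N * q * q)) →+* LaurentSeries L)}
    (hι : ∀ b : Fin (q - 1), IsMidB w₁ (ζ ^ ((b : ℕ) + 1)) (ι b))
    (hfin : FiniteAlong L (heckeAlphaBar L (N * q) q))
    (f : laurentBaseChange L (modularFunctionFieldFull (N * q * q))) :
    (charAlong (heckeAlphaBar L (N * q) q) hfin f).map (inclL L (N * q)) =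
      (X - C (f : LaurentSeries L)) * ∏ b, (X - C (ι b f)) := by
  have hq1 : 1 < q := (Fact.out : q.Prime).one_lt
  let J : Option (Fin (q - 1)) →
      (laurentBaseChange L (modularFunctionFieldFull (N * q * q)) →+* LaurentSeries L) :=
    fun o => o.elim (inclL L (N * q * q)) ι
  have hJ : ∀ o x, J o (heckeAlphaBar L (N * q) q x) = inclL L (N * q) x := by
    rintro (_ | b) x
    · change (heckeAlphaBar L (N * q) q x : LaurentSeries L) = x
      rw [coe_heckeAlphaBar]
    · exact (hι b).alpha x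
  have hinj : Function.Injective J := by
    have hb : ∀ b, J (some b) (heckeBetaBar L (N * q) q (heckeBetaBar L N q (jB L N))) =
        jt (ζ ^ ((b : ℕ) + 1)) 1 := fun b => (hι b).beta_beta_j hw
    have hn : J none (heckeBetaBar L (N * q) q (heckeBetaBar L N q (jB L N))) =
        jt 1 (q * q) := incl_beta_beta_j
    have hqq : 1 < q * q := by nlinarith
    rintro (_ | b) (_ | c) h
    · rfl
    · exfalso
      have h1 := RingHom.congr_fun h
        (heckeBetaBar L (N * q) q (heckeBetaBar L N q (jB L N)))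
      rw [hn, hb] at h1
      have := (jt_inj (by omega) one_ne_zero h1).1
      omega
    · exfalso
      have h1 := RingHom.congr_fun h
        (heckeBetaBar L (N * q) q (heckeBetaBar L N q (jB L N)))
      rw [hn, hb] at h1
      have := (jt_inj one_ne_zero (by omega) h1).1
      omega
    · have h1 := RingHom.congr_fun h
        (heckeBetaBar L (N * q) q (heckeBetaBar L N q (jB L N)))
      rw [hb, hb] at h1
      have h2 := (jt_inj one_ne_zero one_ne_zero h1).2
      have h3 := hζ.pow_inj (by have := b.2; omega) (by have := c.2; omega) h2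
      rw [Fin.ext (Nat.succ_injective h3)]
  have hcard : Fintype.card (Option (Fin (q - 1))) =
      finrankAlong L (heckeAlphaBar L (N * q) q) := by
    rw [Fintype.card_option, Fintype.card_fin, finrankAlong_level_two hqN]
    omega
  have key := charAlong_map_eq_prod (heckeAlphaBar L (N * q) q) hfin (inclL L (N * q)) J hJ hinj
    hcard f
  rw [Fintype.prod_option] at key
  exact key

/-- **Characteristic polynomial along `α`, second component.** -/
theorem map_charAlong_alpha' (hqN : ¬ q ∣ N) (hw : IsAL w₁) (h2 : IsAL2 w₁ w₂) {ζ : Lˣ}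
    (hζ : IsPrimitiveRoot ζ q) (hfin : FiniteAlong L (heckeAlphaBar L (N * q) q))
    (f : laurentBaseChange L (modularFunctionFieldFull (N * q * q))) :
    (charAlong (heckeAlphaBar L (N * q) q) hfin f).map
        ((ModularCurve.qExpand L q).comp ((inclL L (N * q)).comp (w₁ : _ →+* _))) =
      ∏ a : Fin q, (X - C (twist (ζ ^ (a : ℕ)) (w₂ f : LaurentSeries L))) := by
  let J : Fin q →
      (laurentBaseChange L (modularFunctionFieldFull (N * q * q)) →+* LaurentSeries L) :=
    fun a => (twist (ζ ^ (a : ℕ))).comp ((inclL L (N * q * q)).comp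
      (w₂ : _ →+* laurentBaseChange L (modularFunctionFieldFull (N * q * q))))
  have hJ0 : ∀ a x, J a x = twist (ζ ^ (a : ℕ)) (w₂ x : LaurentSeries L) := fun _ _ => rfl
  have hJ : ∀ o x, J o (heckeAlphaBar L (N * q) q x) =
      ((ModularCurve.qExpand L q).comp ((inclL L (N * q)).comp (w₁ : _ →+* _))) x := by
    intro a x
    rw [hJ0, h2.alpha, coe_heckeBetaBar, twist_qExpand_of_pow_eq_one]
    · rfl
    · rw [← pow_mul, mul_comm, pow_mul, hζ.pow_eq_one, one_pow]
  have hinj : Function.Injective J := by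
    intro a b h
    have h1 := RingHom.congr_fun h
      (heckeBetaBar L (N * q) q (heckeBetaBar L N q (jB L N)))
    rw [hJ0, hJ0, h2.beta, hw.beta, coe_heckeAlphaBar, coe_heckeAlphaBar, coe_jB', ← jt_one_one,
      twist_jt, twist_jt, pow_one, pow_one, mul_one, mul_one] at h1
    have h3 := (jt_inj one_ne_zero one_ne_zero h1).2
    exact Fin.ext (hζ.pow_inj a.2 b.2 h3)
  have hcard : Fintype.card (Fin q) = finrankAlong L (heckeAlphaBar L (N * q) q) := by
    rw [Fintype.card_fin, finrankAlong_level_two hqN]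
  exact charAlong_map_eq_prod (heckeAlphaBar L (N * q) q) hfin _ J hJ hinj hcard f

theorem normAlong_beta (hqN : ¬ q ∣ N) (hw : IsAL w₁) (h2 : IsAL2 w₁ w₂)
    (f : laurentBaseChange L (modularFunctionFieldFull (N * q * q))) :
    normAlong (heckeBetaBar L (N * q) q) f =
      w₁ (normAlong (heckeAlphaBar L (N * q) q) (w₂ f)) := by
  have h := normAlong_equiv (heckeAlphaBar L (N * q) q) (heckeBetaBar L (N * q) q)
    (w₁ : _ ≃+* _) (w₂ : _ ≃+* _) (fun x => h2.alpha x) (w₂ f)
  have h3 : (w₂ : _ ≃+* _) (w₂ f) = f := h2.invol hqN hw f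
  rw [h3] at h
  exact h

theorem charAlong_beta (hqN : ¬ q ∣ N) (hw : IsAL w₁) (h2 : IsAL2 w₁ w₂)
    (hα : FiniteAlong L (heckeAlphaBar L (N * q) q))
    (hβ : FiniteAlong L (heckeBetaBar L (N * q) q))
    (f : laurentBaseChange L (modularFunctionFieldFull (N * q * q))) :
    charAlong (heckeBetaBar L (N * q) q) hβ f =
      (charAlong (heckeAlphaBar L (N * q) q) hα (w₂ f)).map (w₁ : _ →+* _) := by
  have : CharZero L := charZero_of_injective_algebraMap (algebraMap ℚ L).injective
  have : CharZero (laurentBaseChange L (modularFunctionFieldFull (N * q))) :=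
    charZero_of_injective_algebraMap (algebraMap L _).injective
  have h := charAlong_equiv (heckeAlphaBar L (N * q) q) (heckeBetaBar L (N * q) q) hα hβ
    (w₁ : _ ≃+* _) (w₂ : _ ≃+* _) (fun x => h2.alpha x) (w₂ f)
  have h3 : (w₂ : _ ≃+* _) (w₂ f) = f := h2.invol hqN hw f
  rw [h3] at h
  exact h

end Char

section Red

variable {L : Type} [Field L] [Algebra ℚ L] [IsAlgClosed L] {N q : ℕ} [NeZero N] [NeZero q]
  [Fact q.Prime] {k : Type*} [Field k] {A : ValuationSubring L} {π : A →+* k} [ExpChar k q]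
  {w₁ : laurentBaseChange L (modularFunctionFieldFull (N * q)) ≃ₐ[L]
      laurentBaseChange L (modularFunctionFieldFull (N * q))}
  {w₂ : laurentBaseChange L (modularFunctionFieldFull (N * q * q)) ≃ₐ[L]
      laurentBaseChange L (modularFunctionFieldFull (N * q * q))}

/-- All middle embeddings of `c f` reduce to `u`. -/
def MidRed (π : A →+* k)
    (w₁ : laurentBaseChange L (modularFunctionFieldFull (N * q)) ≃ₐ[L]
      laurentBaseChange L (modularFunctionFieldFull (N * q)))
    (f : laurentBaseChange L (modularFunctionFieldFull (N * q * q))) (u : LaurentSeries k) : Prop :=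
  ∀ (z : Lˣ), z ^ q = 1 → z ≠ 1 →
    ∀ ι : laurentBaseChange L (modularFunctionFieldFull (N * q * q)) →+* LaurentSeries L,
      IsMidB w₁ z ι → GRed π (ι f) u

/-- The `w₂`-image has the same middle reduction. -/
theorem MidRed.comp_w₂ (hqN : ¬ q ∣ N) (hw : IsAL w₁) (h2 : IsAL2 w₁ w₂)
    {f : laurentBaseChange L (modularFunctionFieldFull (N * q * q))} {u : LaurentSeries k}
    (h : MidRed π w₁ f u) : MidRed π w₁ (w₂ f) u := by
  intro z hz hz1 ι hι
  have hz' : z⁻¹ ^ q = 1 := by rw [inv_pow, hz, inv_one]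
  have hz1' : z⁻¹ ≠ 1 := fun h => hz1 (inv_eq_one.mp h)
  obtain ⟨ι', hι'⟩ := exists_isMidB hqN hw hz' hz1'
  rw [hι.comp_w₂ hqN hw h2 hι']
  have : CharZero L := charZero_of_injective_algebraMap (algebraMap ℚ L).injective
  obtain ⟨ζ, hζ⟩ := Fermat.Agent.DR.Mod.exists_primitiveRoot_unit A q
  have hζL := IsPrimitiveRoot.coe_units_iff.mpr (map_root (A := A) hζ)
  obtain ⟨i, -, hi⟩ := hζL.eq_pow_of_pow_eq_one (ξ := (z : L)) (by
    rw [← Units.val_pow_eq_pow_val, hz, Units.val_one])
  have hi' : (Units.map A.subtype.toMonoidHom ζ) ^ i = z :=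
    Units.ext (by rw [Units.val_pow_eq_pow_val]; exact hi)
  rw [← hi', ← map_pow]
  exact GRed.twist (h _ hz' hz1' ι' hι') (ζ ^ i) (root_red hζ i)

/-- **Reduction of the characteristic polynomial along `α` at the first component.** -/
theorem red_char_alpha₁ (hqN : ¬ q ∣ N) (hw : IsAL w₁)
    (hfin : FiniteAlong L (heckeAlphaBar L (N * q) q))
    {f : laurentBaseChange L (modularFunctionFieldFull (N * q * q))} {u₀ u₁ : LaurentSeries k}
    (h0 : GRed π (f : LaurentSeries L) u₀) (h1 : MidRed π w₁ f u₁) (n : ℕ) :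
    (R1L π N q).Red ((charAlong (heckeAlphaBar L (N * q) q) hfin f).coeff n)
      (((X - C u₀) * (X - C u₁) ^ (q - 1)).coeff n) := by
  have : CharZero L := charZero_of_injective_algebraMap (algebraMap ℚ L).injective
  obtain ⟨ζ, hζ⟩ := Fermat.Agent.DR.Mod.exists_primitiveRoot_unit A q
  have hζ' := map_root (A := A) hζ
  have hex : ∀ b : Fin (q - 1), ∃ ι : laurentBaseChange L (modularFunctionFieldFull (N * q * q))
      →+* LaurentSeries L, IsMidB w₁ (Units.map A.subtype.toMonoidHom ζ ^ ((b : ℕ) + 1)) ι := by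
    intro b
    refine exists_isMidB hqN hw ?_ (root_ne_one hζ' b)
    rw [← pow_mul, mul_comm, pow_mul, hζ'.pow_eq_one, one_pow]
  choose ι hι using hex
  have key := map_charAlong_alpha hqN hw hζ' hι hfin f
  have hred : PRed π ((X - C (f : LaurentSeries L)) * ∏ b, (X - C (ι b f)))
      ((X - C u₀) * ∏ _b : Fin (q - 1), (X - C u₁)) := by
    refine (PRed.X_sub_C h0).mul (PRed.prod fun b _ => PRed.X_sub_C ?_)
    refine h1 _ ?_ (root_ne_one hζ' b) (ι b) (hι b)
    rw [← pow_mul, mul_comm, pow_mul, hζ'.pow_eq_one, one_pow]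
  rw [Finset.prod_const, Finset.card_univ, Fintype.card_fin, ← key] at hred
  have h3 := hred n
  rw [coeff_map] at h3
  exact h3

/-- **Reduction of the characteristic polynomial along `α` at the second component.** -/
theorem red_char_alpha₂ (hqN : ¬ q ∣ N) (hw : IsAL w₁) (h2 : IsAL2 w₁ w₂)
    (hfin : FiniteAlong L (heckeAlphaBar L (N * q) q))
    {f : laurentBaseChange L (modularFunctionFieldFull (N * q * q))} {u : LaurentSeries k}
    (h0 : GRed π (w₂ f : LaurentSeries L) u) (n : ℕ) :
    (R2L π w₁).Red ((charAlong (heckeAlphaBar L (N * q) q) hfin f).coeff n)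
      ((X ^ q - C (coeffMap (frobenius k q) u)).coeff n) := by
  have : CharZero L := charZero_of_injective_algebraMap (algebraMap ℚ L).injective
  obtain ⟨ζ, hζ⟩ := Fermat.Agent.DR.Mod.exists_primitiveRoot_unit A q
  have hζ' := map_root (A := A) hζ
  have key := map_charAlong_alpha' hqN hw h2 hζ' hfin f
  have hred : PRed π (∏ a : Fin q,
      (X - C (twist (Units.map A.subtype.toMonoidHom ζ ^ (a : ℕ)) (w₂ f : LaurentSeries L))))
      (∏ _a : Fin q, (X - C u)) := by
    refine PRed.prod fun a _ => PRed.X_sub_C ?_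
    rw [← map_pow]
    exact GRed.twist h0 (ζ ^ (a : ℕ)) (root_red hζ a)
  haveI : ExpChar (LaurentSeries k) q := expChar_of_injective_algebraMap
    (algebraMap k (LaurentSeries k)).injective q
  rw [Finset.prod_const, Finset.card_univ, Fintype.card_fin, ← key, sub_pow_expChar, ← C_pow,
    ES.laurent_pow_char] at hred
  have h3 := hred n
  rw [coeff_map] at h3
  apply GRed.of_qExpand q
  have h4 : (X ^ q - C (ModularCurve.qExpand k q (coeffMap (frobenius k q) u)) :
      (LaurentSeries k)[X]).coeff n = ModularCurve.qExpand k q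
        ((X ^ q - C (coeffMap (frobenius k q) u) : (LaurentSeries k)[X]).coeff n) := by
    rw [coeff_sub, coeff_sub, coeff_X_pow, coeff_C, coeff_C, map_sub]
    congr 1
    · split_ifs
      · rw [map_one]
      · rw [map_zero]
    · split_ifs
      · rfl
      · rw [map_zero]
  rw [h4] at h3
  exact h3

end Red

end Fermat.Agent.DR.S36
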