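import Mathlib
import Fermat.Agent.DR.S36.Level2Norm

/-!
# Graded reductions of the norms along `α, β : F_{Nq} → F_{Nq²}`
-/

set_option autoImplicit false
set_option linter.style.haveILetI false
set_option linter.unusedSectionVars false

noncomputable section

open AlgebraicCurve ModularCurve IntermediateField Polynomial
open Fermat.Agent.S28 Fermat.Agent.JRED Fermat.Agent.Jan.HeckeInputs
open Fermat.Agent.JRED.ES (inclL inclL_apply jB)
open Fermat.Agent.Jan.HeckeNorm (normAlong)
open Fermat.Agent.DR.Mod (IsAL R1L R2L R1L_red R2L_red PRed GRed.twist GRed.prod GRed.of_qExpand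
  GRed.qExpand root_red map_root)

namespace Fermat.Agent.DR.S36

section Norm

variable {L : Type} [Field L] [Algebra ℚ L] [IsAlgClosed L] {N q : ℕ} [NeZero N] [NeZero q]
  [Fact q.Prime]
  {w₁ : laurentBaseChange L (modularFunctionFieldFull (N * q)) ≃ₐ[L]
      laurentBaseChange L (modularFunctionFieldFull (N * q))}
  {w₂ : laurentBaseChange L (modularFunctionFieldFull (N * q * q)) ≃ₐ[L]
      laurentBaseChange L (modularFunctionFieldFull (N * q * q))}

theorem finiteAlong_alpha₂ : FiniteAlong L (heckeAlphaBar L (N * q) q) :=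
  finiteAlong_heckeAlphaBar L (N * q) q Fermat.Agent.Jan.DegreeWiring.jAlg

/-- **Norm along `α`, first component.** -/
theorem map_normAlong_alpha (hqN : ¬ q ∣ N) (hw : IsAL w₁) {ζ : Lˣ} (hζ : IsPrimitiveRoot ζ q)
    {ι : Fin (q - 1) →
      (laurentBaseChange L (modularFunctionFieldFull (N * q * q)) →+* LaurentSeries L)}
    (hι : ∀ b : Fin (q - 1), IsMidB w₁ (ζ ^ ((b : ℕ) + 1)) (ι b))
    (f : laurentBaseChange L (modularFunctionFieldFull (N * q * q))) :
    (normAlong (heckeAlphaBar L (N * q) q) f : LaurentSeries L) =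
      (f : LaurentSeries L) * ∏ b, ι b f := by
  have h0 := map_charAlong_alpha hqN hw hζ hι finiteAlong_alpha₂ (-f)
  have h1 := eval_charAlong (heckeAlphaBar L (N * q) q) finiteAlong_alpha₂ (-f) 0
  rw [map_zero, zero_sub, neg_neg] at h1
  have h2 := congrArg (Polynomial.eval (0 : LaurentSeries L)) h0
  rw [← map_zero (inclL L (N * q)), Polynomial.eval_map_apply, h1] at h2
  rw [inclL_apply] at h2
  rw [h2, map_zero, eval_mul, eval_prod]
  have e1 : ∀ y : LaurentSeries L, eval 0 (X - C y) = -y := fun y => by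
    rw [eval_sub, eval_X, eval_C, zero_sub]
  simp only [e1, map_neg (ι _), neg_neg, NegMemClass.coe_neg]

/-- **Norm along `α`, second component.** -/
theorem map_normAlong_alpha' (hqN : ¬ q ∣ N) (hw : IsAL w₁) (h2 : IsAL2 w₁ w₂) {ζ : Lˣ}
    (hζ : IsPrimitiveRoot ζ q)
    (f : laurentBaseChange L (modularFunctionFieldFull (N * q * q))) :
    ModularCurve.qExpand L q (w₁ (normAlong (heckeAlphaBar L (N * q) q) f) : LaurentSeries L) =
      ∏ a : Fin q, twist (ζ ^ (a : ℕ)) (w₂ f : LaurentSeries L) := by
  have h0 := map_charAlong_alpha' hqN hw h2 hζ finiteAlong_alpha₂ (-f)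
  have h1 := eval_charAlong (heckeAlphaBar L (N * q) q) finiteAlong_alpha₂ (-f) 0
  rw [map_zero, zero_sub, neg_neg] at h1
  have h3 := congrArg (Polynomial.eval (0 : LaurentSeries L)) h0
  let Φ : laurentBaseChange L (modularFunctionFieldFull (N * q)) →+* LaurentSeries L :=
    (ModularCurve.qExpand L q).comp ((inclL L (N * q)).comp
      (w₁ : laurentBaseChange L (modularFunctionFieldFull (N * q)) →+* _))
  change eval 0 ((charAlong (heckeAlphaBar L (N * q) q) finiteAlong_alpha₂ (-f)).map Φ) = _ at h3
  rw [← map_zero Φ, Polynomial.eval_map_apply, h1] at h3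
  have h4 : Φ (normAlong (heckeAlphaBar L (N * q) q) f) =
      ModularCurve.qExpand L q
        (w₁ (normAlong (heckeAlphaBar L (N * q) q) f) : LaurentSeries L) := rfl
  rw [h4] at h3
  rw [h3, map_zero, eval_prod]
  have e1 : ∀ y : LaurentSeries L, eval 0 (X - C y) = -y := fun y => by
    rw [eval_sub, eval_X, eval_C, zero_sub]
  have e2 : (w₂ (-f) : LaurentSeries L) = -(w₂ f : LaurentSeries L) := by rw [map_neg]; rfl
  simp only [e1, e2, map_neg (twist _), neg_neg]

end Norm

section Red

variable {L : Type} [Field L] [Algebra ℚ L] [IsAlgClosed L] {N q : ℕ} [NeZero N] [NeZero q]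
  [Fact q.Prime] {k : Type*} [Field k] {A : ValuationSubring L} {π : A →+* k} [ExpChar k q]
  {w₁ : laurentBaseChange L (modularFunctionFieldFull (N * q)) ≃ₐ[L]
      laurentBaseChange L (modularFunctionFieldFull (N * q))}
  {w₂ : laurentBaseChange L (modularFunctionFieldFull (N * q * q)) ≃ₐ[L]
      laurentBaseChange L (modularFunctionFieldFull (N * q * q))}

theorem R1L_smul_iff {M : ℕ} [NeZero M] {f : laurentBaseChange L (modularFunctionFieldFull (M * q))}
    {c : L} {u : LaurentSeries k} :
    (R1L π M q).Red (algebraMap L _ c * f) u ↔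
      GRed π (algebraMap L (LaurentSeries L) c * (f : LaurentSeries L)) u := Iff.rfl

/-- **Norms along `α` at the first component.** -/
theorem red_norm_alpha₁ (hqN : ¬ q ∣ N) (hw : IsAL w₁)
    {f : laurentBaseChange L (modularFunctionFieldFull (N * q * q))} {c₀ c₁ : L}
    {u₀ u₁ : LaurentSeries k}
    (h0 : GRed π (algebraMap L (LaurentSeries L) c₀ * (f : LaurentSeries L)) u₀)
    (h1 : MidRed π w₁ (algebraMap L _ c₁ * f) u₁) :
    (R1L π N q).Red (algebraMap L _ (c₀ * c₁ ^ (q - 1)) *
      normAlong (heckeAlphaBar L (N * q) q) f) (u₀ * u₁ ^ (q - 1)) := by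
  have : CharZero L := charZero_of_injective_algebraMap (algebraMap ℚ L).injective
  obtain ⟨ζ, hζ⟩ := Fermat.Agent.DR.Mod.exists_primitiveRoot_unit A q
  have hζ' := map_root (A := A) hζ
  have hex : ∀ b : Fin (q - 1), ∃ ι : laurentBaseChange L (modularFunctionFieldFull (N * q * q))
      →+* LaurentSeries L, IsMidB w₁ (Units.map A.subtype.toMonoidHom ζ ^ ((b : ℕ) + 1)) ι := by
    intro b
    refine exists_isMidB hqN hw ?_ (root_ne_one hζ' b)
    rw [← pow_mul, mul_comm, pow_mul, hζ'.pow_eq_one, one_pow]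
  choose ι hι using hex
  have key := map_normAlong_alpha hqN hw hζ' hι f
  have hred : GRed π ((algebraMap L (LaurentSeries L) c₀ * (f : LaurentSeries L)) *
      ∏ b, ι b (algebraMap L _ c₁ * f)) (u₀ * ∏ _b : Fin (q - 1), u₁) := by
    refine h0.mul (GRed.prod fun b _ => ?_)
    refine h1 _ ?_ (root_ne_one hζ' b) (ι b) (hι b)
    rw [← pow_mul, mul_comm, pow_mul, hζ'.pow_eq_one, one_pow]
  rw [Finset.prod_const, Finset.card_univ, Fintype.card_fin] at hred
  rw [R1L_smul_iff, key]
  convert hred using 1
  simp only [map_mul, (hι _).const, Finset.prod_mul_distrib, Finset.prod_const, Finset.card_univ,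
    Fintype.card_fin, map_pow]
  ring

/-- **Norms along `α` at the second component.** -/
theorem red_norm_alpha₂ (hqN : ¬ q ∣ N) (hw : IsAL w₁) (h2 : IsAL2 w₁ w₂)
    {f : laurentBaseChange L (modularFunctionFieldFull (N * q * q))} {c : L} {u : LaurentSeries k}
    (h0 : GRed π (w₂ (algebraMap L _ c * f) : LaurentSeries L) u) :
    (R2L π w₁).Red (algebraMap L _ (c ^ q) * normAlong (heckeAlphaBar L (N * q) q) f)
      (coeffMap (frobenius k q) u) := by
  have : CharZero L := charZero_of_injective_algebraMap (algebraMap ℚ L).injective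
  obtain ⟨ζ, hζ⟩ := Fermat.Agent.DR.Mod.exists_primitiveRoot_unit A q
  have hζ' := map_root (A := A) hζ
  have key := map_normAlong_alpha' hqN hw h2 hζ' f
  have hred : GRed π (∏ a : Fin q,
      twist (Units.map A.subtype.toMonoidHom ζ ^ (a : ℕ))
        (w₂ (algebraMap L _ c * f) : LaurentSeries L))
      (∏ _a : Fin q, u) := by
    refine GRed.prod fun a _ => ?_
    rw [← map_pow]
    exact GRed.twist h0 (ζ ^ (a : ℕ)) (root_red hζ a)
  rw [Finset.prod_const, Finset.card_univ, Fintype.card_fin, ES.laurent_pow_char] at hred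
  apply GRed.of_qExpand q
  convert hred using 1
  have hC : ∀ (z : Lˣ) (c : L), twist z (algebraMap L (LaurentSeries L) c) =
      algebraMap L (LaurentSeries L) c := by
    intro z c
    rw [algebraMap_eq_C, twist_C]
  have hC' : ∀ c : L, ModularCurve.qExpand L q (algebraMap L (LaurentSeries L) c) =
      algebraMap L (LaurentSeries L) c := by
    intro c
    rw [algebraMap_laurentSeries_eq_single, qExpand_single, mul_zero]
  have hm1 : (w₁ (algebraMap L _ (c ^ q) * normAlong (heckeAlphaBar L (N * q) q) f) :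
      LaurentSeries L) = algebraMap L (LaurentSeries L) (c ^ q) *
        (w₁ (normAlong (heckeAlphaBar L (N * q) q) f) : LaurentSeries L) := by
    rw [map_mul, AlgEquiv.commutes]
    rfl
  have hm2 : (w₂ (algebraMap L _ c * f) : LaurentSeries L) =
      algebraMap L (LaurentSeries L) c * (w₂ f : LaurentSeries L) := by
    rw [map_mul, AlgEquiv.commutes]
    rfl
  change ModularCurve.qExpand L q
    (w₁ (algebraMap L _ (c ^ q) * normAlong (heckeAlphaBar L (N * q) q) f) : LaurentSeries L) = _
  rw [hm1, map_mul, hC', key, hm2]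
  simp only [map_mul (twist _), hC, Finset.prod_mul_distrib, Finset.prod_const, Finset.card_univ,
    Fintype.card_fin, map_pow]

/-- **Norms along `β` at the second component.** -/
theorem red_norm_beta₂ (hqN : ¬ q ∣ N) (hw : IsAL w₁) (h2 : IsAL2 w₁ w₂)
    {f : laurentBaseChange L (modularFunctionFieldFull (N * q * q))} {c₀ c₁ : L}
    {u₀ u₁ : LaurentSeries k}
    (h0 : GRed π (w₂ (algebraMap L _ c₀ * f) : LaurentSeries L) u₀)
    (h1 : MidRed π w₁ (algebraMap L _ c₁ * f) u₁) :
    (R2L π w₁).Red (algebraMap L _ (c₀ * c₁ ^ (q - 1)) *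
      normAlong (heckeBetaBar L (N * q) q) f) (u₀ * u₁ ^ (q - 1)) := by
  have h3 : MidRed π w₁ (algebraMap L _ c₁ * w₂ f) u₁ := by
    have := h1.comp_w₂ hqN hw h2
    rwa [map_mul, AlgEquiv.commutes] at this
  have h4 : GRed π (algebraMap L (LaurentSeries L) c₀ * (w₂ f : LaurentSeries L)) u₀ := by
    have h5 := h0
    rw [map_mul, AlgEquiv.commutes] at h5
    exact h5
  have key := red_norm_alpha₁ hqN hw h4 h3
  rw [R2L_red, map_mul, AlgEquiv.commutes, normAlong_beta hqN hw h2, isAL_invol hqN hw]
  exact key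

/-- **Norms along `β` at the first component.** -/
theorem red_norm_beta₁ (hqN : ¬ q ∣ N) (hw : IsAL w₁) (h2 : IsAL2 w₁ w₂)
    {f : laurentBaseChange L (modularFunctionFieldFull (N * q * q))} {c : L} {u : LaurentSeries k}
    (h0 : GRed π (algebraMap L (LaurentSeries L) c * (f : LaurentSeries L)) u) :
    (R1L π N q).Red (algebraMap L _ (c ^ q) * normAlong (heckeBetaBar L (N * q) q) f)
      (coeffMap (frobenius k q) u) := by
  have h4 : GRed π (w₂ (algebraMap L _ c * w₂ f) : LaurentSeries L) u := by
    rw [map_mul, AlgEquiv.commutes, h2.invol hqN hw]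
    exact h0
  have key := red_norm_alpha₂ hqN hw h2 h4
  rw [R2L_red, map_mul, AlgEquiv.commutes, ← normAlong_beta hqN hw h2] at key
  exact key

theorem normAlong_const (ψ : laurentBaseChange L (modularFunctionFieldFull (N * q)) →ₐ[L]
      laurentBaseChange L (modularFunctionFieldFull (N * q * q)))
    (hψ : finrankAlong L ψ = q) (c : L) :
    normAlong ψ (algebraMap L _ c) = algebraMap L _ c ^ q := by
  letI := algebraAlong ψ
  have h1 : algebraMap L (laurentBaseChange L (modularFunctionFieldFull (N * q * q))) c =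
      algebraMap (laurentBaseChange L (modularFunctionFieldFull (N * q)))
        (laurentBaseChange L (modularFunctionFieldFull (N * q * q))) (algebraMap L _ c) :=
    (ψ.commutes c).symm
  change Algebra.norm (laurentBaseChange L (modularFunctionFieldFull (N * q))) _ = _
  rw [h1, Algebra.norm_algebraMap]
  congr 1

end Red

end Fermat.Agent.DR.S36
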