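import Mathlib
import Fermat.Agent.DR.S36.Level2Graded
import Fermat.Agent.DR.Nodal.Basic

/-!
# REGS at level `q²N`: the three reductions of a function regular on the residue disc above a
supersingular point take the same value there.

`regs_of_norms`: abstract statement, from the level `qN` gluing and the reductions of the norms
`N(f - a)`.
`regs_level_two`: the modular instance.
-/

set_option autoImplicit false
set_option linter.style.haveILetI false
set_option linter.unusedSectionVars false

noncomputable section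

open AlgebraicCurve Fermat.Agent.RR Fermat.Agent.JRED
open Fermat.Agent.Jan.HeckeNorm (normAlong)

namespace Fermat.Agent.DR.S36

open Fermat.Agent.DR

section Abstract

variable {k κ : Type*} [Field k] [Field κ] [Algebra k κ] [IsAlgClosed k] [FunctionField k κ]

/-- Only finitely many (at most one) constant `t` makes `g - t` vanish at `P`. -/
theorem ord_sub_const_le (P : Place k κ) (g : κ) :
    ∃ a : k, ∀ t : k, t ≠ a → g - algebraMap k κ t ≠ 0 ∧ P.ord (g - algebraMap k κ t) ≤ 0 := by
  by_cases hg : P.adicValuation g ≤ 1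
  · obtain ⟨a, ha⟩ := Val.exists_of_le hg
    refine ⟨a, fun t ht => ?_⟩
    have h1 : Val P (g - algebraMap k κ t) (a - t) := ha.sub (Val.const t)
    have h2 := h1.ord_eq_zero (sub_ne_zero.mpr fun h => ht h.symm)
    exact ⟨h2.1, h2.2.le⟩
  · refine ⟨0, fun t _ => ?_⟩
    have hlt : ¬ P.adicValuation (g - algebraMap k κ t) ≤ 1 := by
      intro h
      apply hg
      have : g = (g - algebraMap k κ t) + algebraMap k κ t := by ring
      rw [this]
      exact (P.adicValuation.map_add _ _).trans (max_le h (adicValuation_algebraMap_le t))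
    rw [adicValuation_le_one_iff'] at hlt
    push Not at hlt
    exact ⟨hlt.1, hlt.2.le⟩

/-- **The value comparison.** -/
theorem regs_abstract {q : ℕ} (hq : q.Prime) [ExpChar k q] {sp sq : Place k κ} {φ : κ →+* κ}
    (sq_φ : ∀ (g : κ) (c : k), Val sp g c → Val sq (φ g) (c ^ q)) {g0 g1 g2 : κ}
    (h : ∀ t : k, ∃ c : k,
      Val sp ((g0 - algebraMap k κ t) * (g1 - algebraMap k κ t) ^ (q - 1)) c ∧
        Val sq (φ (g2 - algebraMap k κ t)) c) :
    ∃ a : k, Val sp g0 a ∧ Val sp g1 a ∧ Val sp g2 a := by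
  have hq1 : 0 < q - 1 := by have := hq.two_le; omega
  obtain ⟨a0, h0⟩ := ord_sub_const_le sp g0
  obtain ⟨a1, h1⟩ := ord_sub_const_le sp g1
  obtain ⟨t, ht0, ht1⟩ : ∃ t : k, t ≠ a0 ∧ t ≠ a1 := by
    classical
    obtain ⟨t, ht⟩ := Infinite.exists_notMem_finset ({a0, a1} : Finset k)
    exact ⟨t, fun h => ht (by simp [h]), fun h => ht (by simp [h])⟩
  obtain ⟨hn0, hl0⟩ := h0 t ht0
  obtain ⟨hn1, hl1⟩ := h1 t ht1
  obtain ⟨c, hc, -⟩ := h t
  have hord := hc.ord_nonneg
  rw [sp.ord_mul hn0 (pow_ne_zero _ hn1), ← zpow_natCast, sp.ord_zpow] at hord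
  have hqz : (0 : ℤ) < ((q - 1 : ℕ) : ℤ) := by exact_mod_cast hq1
  have e0 : 0 ≤ sp.ord (g0 - algebraMap k κ t) := by
    nlinarith [mul_nonneg hqz.le (neg_nonneg.mpr hl1)]
  have e1 : 0 ≤ sp.ord (g1 - algebraMap k κ t) := by
    by_contra hcon
    push Not at hcon
    nlinarith [mul_pos hqz (neg_pos.mpr hcon)]
  have reg : ∀ g : κ, 0 ≤ sp.ord (g - algebraMap k κ t) → sp.adicValuation g ≤ 1 := by
    intro g hg
    have h1 : sp.adicValuation (g - algebraMap k κ t) ≤ 1 :=
      adicValuation_le_one_iff'.mpr (Or.inr hg)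
    have : g = (g - algebraMap k κ t) + algebraMap k κ t := by ring
    rw [this]
    exact (sp.adicValuation.map_add _ _).trans (max_le h1 (adicValuation_algebraMap_le t))
  obtain ⟨b0, hb0⟩ := Val.exists_of_le (reg g0 e0)
  obtain ⟨b1, hb1⟩ := Val.exists_of_le (reg g1 e1)
  -- `g2` is regular
  have hreg2 : sp.adicValuation g2 ≤ 1 := by
    by_contra hcon
    have hg2 : g2 ≠ 0 := by rintro rfl; simp at hcon
    have hlt : sp.ord g2 < 0 := by
      rw [adicValuation_le_one_iff'] at hcon
      push Not at hcon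
      exact hcon.2
    have hinv : Val sp g2⁻¹ 0 := Val.zero_iff.mpr (Or.inr (by rw [sp.ord_inv]; omega))
    have h2 := sq_φ _ _ hinv
    rw [zero_pow hq.ne_zero] at h2
    obtain ⟨c, -, hc⟩ := h 0
    rw [map_zero, sub_zero] at hc
    have h3 := hc.mul h2
    rw [← map_mul, mul_inv_cancel₀ hg2, map_one, mul_zero] at h3
    exact one_ne_zero (Val.one.unique h3)
  obtain ⟨b2, hb2⟩ := Val.exists_of_le hreg2
  -- compare
  have key : ∀ s : k, (b0 - s) * (b1 - s) ^ (q - 1) = (b2 - s) ^ q := by
    intro s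
    obtain ⟨c, hc1, hc2⟩ := h s
    have h3 := (hb0.sub (Val.const s)).mul ((hb1.sub (Val.const s)).pow (q - 1))
    have h4 := sq_φ _ _ (hb2.sub (Val.const s))
    rw [h3.unique hc1, h4.unique hc2]
  have k0 : b0 = b2 := by
    have := key b0
    rw [sub_self, zero_mul] at this
    exact (sub_eq_zero.mp (pow_eq_zero_iff hq.ne_zero |>.mp this.symm)).symm
  have k1 : b1 = b2 := by
    have := key b1
    rw [sub_self, zero_pow hq1.ne', mul_zero] at this
    exact (sub_eq_zero.mp (pow_eq_zero_iff hq.ne_zero |>.mp this.symm)).symm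
  subst k1
  subst k0
  exact ⟨_, hb0, hb1, hb2⟩

variable {K F1 F : Type*} [Field K] [Field F1] [Field F] [Algebra K F1] [Algebra K F]
  [IsAlgClosed K] [FunctionField K F] {A : ValuationSubring K} {π : A →+* k}

/-- **REGS at level two**, from norms. -/
theorem regs_of_norms (hπ : Function.Surjective π) {q : ℕ} (hq : q.Prime) [ExpChar k q]
    {R1 R2 : RedDatum K F1 k κ A π} {sp sq : Place k κ} {Ann : Set (Place K F1)}
    (glue : ∀ (ε : F1) (v₁ v₂ : κ), R1.Red ε v₁ → R2.Red ε v₂ →
      (∀ P ∈ Ann, ε ∈ P.toValuationSubring) → ∃ c : k, Val sp v₁ c ∧ Val sq v₂ c)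
    {φ : κ →+* κ} (sq_φ : ∀ (g : κ) (c : k), Val sp g c → Val sq (φ g) (c ^ q))
    (ψ : F1 →ₐ[K] F) (hψ : ψ.toRingHom.IsIntegral) (hfin : FiniteAlong K ψ)
    (hN : NormFormulaAlong K ψ hfin) {f : F}
    (hf : ∀ P : Place K F, P.restrictAlong ψ hψ ∈ Ann → f ∈ P.toValuationSubring)
    {g0 g1 g2 : κ}
    (h1 : ∀ a : A, R1.Red (normAlong ψ (f - algebraMap K F a))
      ((g0 - algebraMap k κ (π a)) * (g1 - algebraMap k κ (π a)) ^ (q - 1)))
    (h2 : ∀ a : A, R2.Red (normAlong ψ (f - algebraMap K F a))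
      (φ (g2 - algebraMap k κ (π a)))) :
    ∃ a : k, Val sp g0 a ∧ Val sp g1 a ∧ Val sp g2 a := by
  refine regs_abstract hq sq_φ fun t => ?_
  obtain ⟨a, rfl⟩ := hπ t
  refine glue _ _ _ (h1 a) (h2 a) fun P hP => ?_
  rcases eq_or_ne (f - algebraMap K F a) 0 with h0 | h0
  · rw [h0]
    letI := algebraAlong ψ
    haveI : FiniteDimensional F1 F := hfin
    have : normAlong ψ (0 : F) = 0 := Algebra.norm_zero
    rw [this]
    exact zero_mem _
  · refine mem_of_ord_nonneg' (ord_normAlong_nonneg ψ hψ hfin hN h0 fun w hw => ?_)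
    refine ord_nonneg_of_mem' (sub_mem (hf w (by rw [hw]; exact hP)) (w.algebraMap_mem' _))

end Abstract

section Modular

open ModularCurve Fermat.Agent.S28 Fermat.Agent.DR.Mod Fermat.Agent.Jan.HeckeInputs

variable {L : Type} [Field L] [Algebra ℚ L] [IsAlgClosed L] {N q : ℕ} [NeZero N] [NeZero q]
  [Fact q.Prime] {k : Type} [Field k] [IsAlgClosed k] {A : ValuationSubring L} {π : A →+* k}
  [ExpChar k q]
  {w₁ : laurentBaseChange L (modularFunctionFieldFull (N * q)) ≃ₐ[L]
      laurentBaseChange L (modularFunctionFieldFull (N * q))}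
  {w₂ : laurentBaseChange L (modularFunctionFieldFull (N * q * q)) ≃ₐ[L]
      laurentBaseChange L (modularFunctionFieldFull (N * q * q))}
  [FunctionField k (modularFunctionFieldFullC k N)]
  [FunctionField L (laurentBaseChange L (modularFunctionFieldFull (N * q * q)))]

theorem gred_sub {f f' : LaurentSeries L} {u u' : LaurentSeries k} (h : GRed π f u)
    (h' : GRed π f' u') : GRed π (f - f') (u - u') := by
  rw [sub_eq_add_neg, sub_eq_add_neg]
  exact h.add h'.neg

theorem MidRed.sub_const
    {f : laurentBaseChange L (modularFunctionFieldFull (N * q * q))} {u : LaurentSeries k}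
    (h : MidRed π w₁ f u) (a : A) :
    MidRed π w₁ (f - algebraMap L _ (a : L)) (u - algebraMap k (LaurentSeries k) (π a)) := by
  intro z hz hz1 ι hι
  rw [map_sub, hι.const]
  exact gred_sub (h z hz hz1 ι hι) (GRed.const a)

/-- **REGS at level `Nq²`**: the three reductions of a function which is regular above `Ann`
agree at `sp`. -/
theorem regs_level_two (hqN : ¬ q ∣ N) (S : Setup (M := N) (q := q) π w₁) (h2 : IsAL2 w₁ w₂)
    {sp sq : Place k (modularFunctionFieldFullC k N)}
    {Ann : Set (Place L (laurentBaseChange L (modularFunctionFieldFull (N * q))))}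
    (glue : ∀ (ε : laurentBaseChange L (modularFunctionFieldFull (N * q)))
      (v₁ v₂ : modularFunctionFieldFullC k N), (redOne S).Red ε v₁ → (redTwo S).Red ε v₂ →
      (∀ P ∈ Ann, ε ∈ P.toValuationSubring) → ∃ c : k, Val sp v₁ c ∧ Val sq v₂ c)
    {φ : modularFunctionFieldFullC k N →+* modularFunctionFieldFullC k N}
    (hφ : ∀ g, (φ g : LaurentSeries k) = coeffMap (frobenius k q) (g : LaurentSeries k))
    (sq_φ : ∀ (g : modularFunctionFieldFullC k N) (c : k), Val sp g c → Val sq (φ g) (c ^ q))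
    (hα : (heckeAlphaBar L (N * q) q).toRingHom.IsIntegral)
    (hN : NormFormulaAlong L (heckeAlphaBar L (N * q) q) finiteAlong_alpha₂)
    {f : laurentBaseChange L (modularFunctionFieldFull (N * q * q))}
    (hf : ∀ P : Place L (laurentBaseChange L (modularFunctionFieldFull (N * q * q))),
      P.restrictAlong (heckeAlphaBar L (N * q) q) hα ∈ Ann → f ∈ P.toValuationSubring)
    {g0 g1 g2 : modularFunctionFieldFullC k N} (r0 : GRed π (f : LaurentSeries L) g0)
    (r1 : MidRed π w₁ f g1) (r2 : GRed π (w₂ f : LaurentSeries L) g2) :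
    ∃ a : k, Val sp g0 a ∧ Val sp g1 a ∧ Val sp g2 a := by
  have hq : q.Prime := Fact.out
  refine regs_of_norms S.surj hq glue sq_φ (heckeAlphaBar L (N * q) q) hα finiteAlong_alpha₂ hN hf
    (fun a => ?_) (fun a => ?_)
  · have e0 : GRed π (algebraMap L (LaurentSeries L) 1 *
        ((f - algebraMap L _ (a : L) : laurentBaseChange L
          (modularFunctionFieldFull (N * q * q))) : LaurentSeries L))
        ((g0 - algebraMap k _ (π a) : modularFunctionFieldFullC k N) : LaurentSeries k) := by
      rw [map_one, one_mul]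
      exact gred_sub r0 (GRed.const a)
    have e1 : MidRed π w₁ (algebraMap L _ (1 : L) * (f - algebraMap L _ (a : L)))
        ((g1 - algebraMap k _ (π a) : modularFunctionFieldFullC k N) : LaurentSeries k) := by
      rw [map_one, one_mul]
      exact MidRed.sub_const r1 a
    have key := red_norm_alpha₁ hqN S.al e0 e1
    rw [one_pow, one_mul, map_one, one_mul] at key
    exact key
  · have e0 : GRed π (w₂ (algebraMap L _ (1 : L) * (f - algebraMap L _ (a : L))) :
        LaurentSeries L)
        ((g2 - algebraMap k _ (π a) : modularFunctionFieldFullC k N) : LaurentSeries k) := by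
      rw [map_one, one_mul, map_sub, AlgEquiv.commutes]
      exact gred_sub r2 (GRed.const a)
    have key := red_norm_alpha₂ hqN S.al h2 e0
    rw [one_pow, map_one, one_mul] at key
    rw [redTwo_red, hφ]
    exact key

end Modular

end Fermat.Agent.DR.S36
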