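import Fermat.Agent.DR.S36.Core
import Fermat.Agent.DR.Mono.Slope

/-!
# S36-SS: the supersingular annuli at level `q²N`, abstract part

Input: the nodes of level `qN` (`Np s`, `s : S`) with their annuli and coordinates of width one, the
two degeneracy maps `α, β : F1 → F`, and the behaviour of the three valuations of level `q²N` along
them. Output: functions `z s`, `z' s` without zeros or poles on `U s` and the field `slope` of
`Core`.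
-/

set_option autoImplicit false

noncomputable section

open AlgebraicCurve Fermat.Agent.RR Fermat.Agent.JRED

namespace Fermat.Agent.DR.S36

open Fermat.Agent.DR

namespace ResVals

variable {FL κ : Type*} [Field FL] [Field κ] (V : ResVals FL κ)

theorem res_zpow (i : Fin 3) {f : FL} {u : κ} (h : V.Res i f u) (hu : u ≠ 0) (n : ℤ) :
    V.Res i (f ^ n) (u ^ n) := by
  obtain ⟨m, rfl | rfl⟩ := n.eq_nat_or_neg
  · rw [zpow_natCast, zpow_natCast]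
    exact V.res_pow i h m
  · rw [zpow_neg, zpow_neg, zpow_natCast, zpow_natCast]
    exact V.res_inv i (V.res_pow i h m) (pow_ne_zero _ hu)

/-- the value of `f` from a reduction of a multiple -/
theorem w_of_res_mul (i : Fin 3) {c f : FL} {u : κ} (hc : c ≠ 0) (h : V.Res i (c * f) u)
    (hu : u ≠ 0) : f ≠ 0 ∧ V.w i f = - V.w i c := by
  obtain ⟨h1, h2⟩ := V.w_eq_zero i _ _ h hu
  have hf : f ≠ 0 := right_ne_zero_of_mul h1
  rw [V.w_mul i c f hc hf] at h2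
  exact ⟨hf, by omega⟩

theorem res_ne_zero (i : Fin 3) {f : FL} {u : κ} (hf : f ≠ 0) (hw : V.w i f = 0)
    (h : V.Res i f u) : u ≠ 0 := by
  obtain ⟨v, hv, hv'⟩ := V.exists_res i f hf hw
  rwa [V.res_unique i f u v h hv']

end ResVals

/-- The nodes of level `qN` and their annuli. -/
structure SSNodes (K F F1 k κ : Type*) [Field K] [Field F] [Field F1] [Field k]
    [Field κ] [Algebra K F] [Algebra K F1] [Algebra k κ] [HasPrincipalDivisors K F1]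
    {A : ValuationSubring K} {π : A →+* k} (R₁ R₂ : RedDatum K F1 k κ A π) where
  S : Type
  nonempty_S : Nonempty S
  /-- Frobenius on the supersingular points -/
  fr : S → S
  fr_fr : ∀ s, fr (fr s) = s
  Np : S → Mono.PlacePair R₁ R₂
  sp : S → Place k κ
  s₁_eq : ∀ s, (Np s).s₁ = sp s
  s₂_eq : ∀ s, (Np s).s₂ = sp (fr s)
  pα : Place K F → Place K F1
  pβ : Place K F → Place K F1
  mem_ann : ∀ s P, pα P ∈ (Np s).Ann ↔ pβ P ∈ (Np (fr s)).Ann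

namespace SSNodes

variable {K F F1 k κ : Type*} [Field K] [Field F] [Field F1] [Field k]
  [Field κ] [Algebra K F] [Algebra K F1] [Algebra k κ] [HasPrincipalDivisors K F1]
  {A : ValuationSubring K} {π : A →+* k} {R₁ R₂ : RedDatum K F1 k κ A π}
  (X : SSNodes K F F1 k κ R₁ R₂)

/-- The annulus of level `q²N` (`E₁` in the disc of `s`). -/
def U (s : X.S) : Set (Place K F) := {P | X.pα P ∈ (X.Np s).Ann}

def Aα (s : X.S) : Set (Place K F1) := (X.Np s).Ann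

def Aβ (s : X.S) : Set (Place K F1) := (X.Np (X.fr s)).Ann

def sq (s : X.S) : Place k κ := X.sp (X.fr s)

theorem U_α (s : X.S) (P : Place K F) : P ∈ X.U s ↔ X.pα P ∈ X.Aα s := Iff.rfl

theorem U_β (s : X.S) (P : Place K F) : P ∈ X.U s ↔ X.pβ P ∈ X.Aβ s := X.mem_ann s P

end SSNodes

/-- Compatibility of the three valuations of level `q²N` with the two reductions of level `qN`
along the degeneracy maps. `F₀` is the field of `L`-rational functions of level `qN`. -/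
structure DegenRes (K F F1 FL k κ : Type*) [Field K] [Field F] [Field F1] [Field FL] [Field k]
    [Field κ] [Algebra K F] [Algebra K F1] [Algebra k κ] [Algebra FL F]
    {A : ValuationSubring K} {π : A →+* k} (V : ResVals FL κ)
    (R₁ R₂ : RedDatum K F1 k κ A π) where
  α : F1 →ₐ[K] F
  β : F1 →ₐ[K] F
  F₀ : Subfield F1
  liftα : ∀ f ∈ F₀, ∃ z : FL, algebraMap FL F z = α f
  liftβ : ∀ f ∈ F₀, ∃ z : FL, algebraMap FL F z = β f
  /-- `k`-linear Frobenius of `κ` -/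
  Φ : κ →+* κ
  α₀ : ∀ (f : F1) (z : FL) (u : κ), f ∈ F₀ → algebraMap FL F z = α f → R₁.Red f u → V.Res 0 z u
  α₁ : ∀ (f : F1) (z : FL) (u : κ), f ∈ F₀ → algebraMap FL F z = α f → R₁.Red f u → V.Res 1 z u
  α₂ : ∀ (f : F1) (z : FL) (u : κ), f ∈ F₀ → algebraMap FL F z = α f → R₂.Red f u →
    V.Res 2 z (Φ u)
  β₀ : ∀ (f : F1) (z : FL) (u : κ), f ∈ F₀ → algebraMap FL F z = β f → R₁.Red f u →
    V.Res 0 z (Φ u)
  β₁ : ∀ (f : F1) (z : FL) (u : κ), f ∈ F₀ → algebraMap FL F z = β f → R₂.Red f u → V.Res 1 z u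
  β₂ : ∀ (f : F1) (z : FL) (u : κ), f ∈ F₀ → algebraMap FL F z = β f → R₂.Red f u → V.Res 2 z u

section Coord

variable {K F F1 FL k κ : Type*} [Field K] [Field F] [Field F1] [Field FL] [Field k]
  [Field κ] [Algebra K F] [Algebra K F1] [Algebra k κ] [Algebra FL F]
  [HasPrincipalDivisors K F1]
  {A : ValuationSubring K} {π : A →+* k} {V : ResVals FL κ}
  {R₁ R₂ : RedDatum K F1 k κ A π} {q : ℕ}
  (X : SSNodes K F F1 k κ R₁ R₂) (D : DegenRes K F F1 FL k κ V R₁ R₂)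

/-- Coordinates of width one on the annuli, and the ramification of `pα`, `pβ`. -/
structure SSCoords (q : ℕ) where
  C : ∀ s, Mono.Coord (X.Np s) (q : K)
  w_eq : ∀ s, (C s).w = 1
  mem_F₀ : ∀ s, (C s).y ∈ D.F₀
  ord_α : ∀ P : Place K F, ∃ e : ℤ, ∀ f : F1, P.ord (D.α f) = e * (X.pα P).ord f
  ord_β : ∀ P : Place K F, ∃ e : ℤ, ∀ f : F1, P.ord (D.β f) = e * (X.pβ P).ord f
  ord_Φ : ∀ s (g : κ), (X.sp s).ord (D.Φ g) = q * (X.sp (X.fr s)).ord g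

/-- A function on the annulus `U s` with its valuations and the orders of its residues. -/
structure SlopeFun (V : ResVals FL κ) (U : Set (Place K F)) (s : Place k κ) (q : ℕ)
    (z : FL) (a b : ℤ) where
  ne_zero : z ≠ 0
  ord : ∀ P ∈ U, P.ord (algebraMap FL F z) = 0
  w₀ : V.w 0 z = 0
  w₁ : V.w 1 z = (q - 1) * a
  w₂ : V.w 2 z = b
  r₀ : κ
  r₀_ne : r₀ ≠ 0
  res₀ : V.Res 0 z r₀
  r₁ : κ
  r₁_ne : r₁ ≠ 0
  res₁ : V.Res 1 ((q : FL) ^ (-a) * z) r₁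
  r₂ : κ
  r₂_ne : r₂ ≠ 0
  res₂ : V.Res 2 ((q : FL) ^ (-b) * z) r₂
  ord₀ : s.ord r₀ = b + (q - 1) * a
  ord₂ : s.ord r₂ = -q * b + (q - 1) * a

variable {X D}

omit [HasPrincipalDivisors K F1] in
theorem DegenRes.map_q_mul (γ : F1 →ₐ[K] F) {z : FL} {y : F1} (hz : algebraMap FL F z = γ y) :
    algebraMap FL F ((q : FL) ^ (-1 : ℤ) * z) = γ (algebraMap K F1 ((q : K) ^ ((1 : ℕ) : ℤ))⁻¹ * y) := by
  rw [map_mul, hz, map_mul, AlgHom.commutes, map_zpow₀, map_natCast, map_inv₀, map_zpow₀,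
    map_natCast, zpow_neg]
  rfl

omit [HasPrincipalDivisors K F1] in
theorem DegenRes.q_mul_mem {y : F1} (hy : y ∈ D.F₀) :
    algebraMap K F1 ((q : K) ^ ((1 : ℕ) : ℤ))⁻¹ * y ∈ D.F₀ := by
  refine mul_mem ?_ hy
  rw [map_inv₀, map_zpow₀, map_natCast]
  exact inv_mem (zpow_mem (natCast_mem _ q) _)

/-- **The function `z s = α (y_s)`**: valuations `(0, 0, 1)`. -/
theorem SSCoords.exists_z (Y : SSCoords X D q) (hπ : Function.Surjective π)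
    (hq : (q : FL) ≠ 0) (hw2 : V.w 2 (q : FL) = 1) (s : X.S) :
    ∃ z : FL, algebraMap FL F z = D.α (Y.C s).y ∧
      ∃ Z : SlopeFun (F := F) V (X.U s) (X.sp s) q z 0 1, (X.sp s).ord Z.r₁ = 1 ∧ Z.r₀ = Z.r₁ := by
  obtain ⟨z, hz⟩ := D.liftα _ (Y.mem_F₀ s)
  have hy1 := (Y.C s).y₁_ne
  have h0 : V.Res 0 z (Y.C s).y₁ := D.α₀ _ z _ (Y.mem_F₀ s) hz (Y.C s).red₁
  have h1 : V.Res 1 z (Y.C s).y₁ := D.α₁ _ z _ (Y.mem_F₀ s) hz (Y.C s).red₁
  obtain ⟨hz0, hwz0⟩ := V.w_eq_zero 0 _ _ h0 hy1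
  obtain ⟨-, hwz1⟩ := V.w_eq_zero 1 _ _ h1 hy1
  have hr2 := (Y.C s).red₂
  rw [Y.w_eq s] at hr2
  have h2 := D.α₂ _ _ _ (D.q_mul_mem (q := q) (Y.mem_F₀ s)) (DegenRes.map_q_mul D.α hz) hr2
  have hΦ : D.Φ (Y.C s).y₂ ≠ 0 := (_root_.map_ne_zero D.Φ).mpr (Y.C s).y₂_ne
  have hwz2 := (V.w_of_res_mul 2 (zpow_ne_zero _ hq) h2 hΦ).2
  rw [V.w_zpow 2 hq, hw2] at hwz2
  have ho1 := (Y.C s).ord₁
  rw [X.s₁_eq] at ho1
  have ho2 := (Y.C s).ord₂ hπ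
  rw [X.s₂_eq] at ho2
  refine ⟨z, hz, ⟨hz0, fun P hP => ?_, hwz0, by rw [hwz1]; ring, by rw [hwz2]; ring, _, hy1, h0,
    _, hy1, by simpa using h1, _, hΦ, h2, by rw [ho1]; ring, by rw [Y.ord_Φ, ho2]; ring⟩, ho1,
    rfl⟩
  obtain ⟨e, he⟩ := Y.ord_α P
  rw [hz, he, (Y.C s).inv.2 _ hP, mul_zero]

/-- **The function `z' s = β (y_{fr s})`**: valuations `(0, q - 1, 1)`. -/
theorem SSCoords.exists_z' (Y : SSCoords X D q) (hπ : Function.Surjective π)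
    (hq : (q : FL) ≠ 0) (hw1 : V.w 1 (q : FL) = q - 1)
    (hw2 : V.w 2 (q : FL) = 1) (s : X.S) :
    ∃ z : FL, algebraMap FL F z = D.β (Y.C (X.fr s)).y ∧
      ∃ Z : SlopeFun (F := F) V (X.U s) (X.sp s) q z 1 1, (X.sp s).ord Z.r₁ = -1 ∧ Z.r₁ = Z.r₂ := by
  obtain ⟨z, hz⟩ := D.liftβ _ (Y.mem_F₀ (X.fr s))
  have hy1 := (Y.C (X.fr s)).y₁_ne
  have h0 := D.β₀ _ z _ (Y.mem_F₀ (X.fr s)) hz (Y.C (X.fr s)).red₁
  have hΦ : D.Φ (Y.C (X.fr s)).y₁ ≠ 0 := (_root_.map_ne_zero D.Φ).mpr hy1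
  obtain ⟨hz0, hwz0⟩ := V.w_eq_zero 0 _ _ h0 hΦ
  have hr2 := (Y.C (X.fr s)).red₂
  have hy2 := (Y.C (X.fr s)).y₂_ne
  rw [Y.w_eq] at hr2
  have h1 := D.β₁ _ _ _ (D.q_mul_mem (q := q) (Y.mem_F₀ _)) (DegenRes.map_q_mul D.β hz) hr2
  have h2 := D.β₂ _ _ _ (D.q_mul_mem (q := q) (Y.mem_F₀ _)) (DegenRes.map_q_mul D.β hz) hr2
  have hwz1 := (V.w_of_res_mul 1 (zpow_ne_zero _ hq) h1 hy2).2
  rw [V.w_zpow 1 hq, hw1] at hwz1
  have hwz2 := (V.w_of_res_mul 2 (zpow_ne_zero _ hq) h2 hy2).2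
  rw [V.w_zpow 2 hq, hw2] at hwz2
  have ho1 := (Y.C (X.fr s)).ord₁
  rw [X.s₁_eq] at ho1
  have ho2 := (Y.C (X.fr s)).ord₂ hπ
  rw [X.s₂_eq, X.fr_fr] at ho2
  refine ⟨z, hz, ⟨hz0, fun P hP => ?_, hwz0, by rw [hwz1]; ring, by rw [hwz2]; ring, _, hΦ, h0,
    _, hy2, h1, _, hy2, h2, by rw [Y.ord_Φ, ho1]; ring, by rw [ho2]; ring⟩, ho2, rfl⟩
  obtain ⟨e, he⟩ := Y.ord_β P
  rw [hz, he, (Y.C (X.fr s)).inv.2 _ ((X.mem_ann s P).mp hP), mul_zero]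

/-- **Slopes.** -/
theorem SSCoords.slope (Y : SSCoords X D q) (hπ : Function.Surjective π)
    (hq : (q : FL) ≠ 0) (hw1 : V.w 1 (q : FL) = q - 1)
    (hw2 : V.w 2 (q : FL) = 1)
    (glue : ∀ s (u : FL) (r : Fin 3 → κ), (∀ i, V.Res i u (r i)) → (∀ i, r i ≠ 0) →
      (∀ P ∈ X.U s, P.ord (algebraMap FL F u) = 0) → ∃ c : k, c ≠ 0 ∧ ∀ i, Val (X.sp s) (r i) c)
    (s : X.S) (u : FL) (a b : ℤ) (r₀ r₂ : κ) (hu : u ≠ 0)
    (hord : ∀ P ∈ X.U s, P.ord (algebraMap FL F u) = 0) (h0 : V.w 0 u = 0)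
    (h1 : V.w 1 u = (q - 1) * a) (h2 : V.w 2 u = b) (hr0 : V.Res 0 u r₀)
    (hr2 : V.Res 2 ((q : FL) ^ (-b) * u) r₂) :
    (X.sp s).ord r₀ = b + (q - 1) * a ∧ (X.sp s).ord r₂ = -q * b + (q - 1) * a := by
  have hr00 : r₀ ≠ 0 := V.res_ne_zero 0 hu h0 hr0
  have hr20 : r₂ ≠ 0 := by
    refine V.res_ne_zero 2 (mul_ne_zero (zpow_ne_zero _ hq) hu) ?_ hr2
    rw [V.w_mul 2 _ _ (zpow_ne_zero _ hq) hu, V.w_zpow 2 hq, hw2, h2]
    ring
  obtain ⟨z, -, Z, -⟩ := Y.exists_z hπ hq hw2 s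
  obtain ⟨z', -, Z', -⟩ := Y.exists_z' hπ hq hw1 hw2 s
  set v : FL := u * z ^ (a - b) * z' ^ (-a) with hv
  have hza := zpow_ne_zero (a - b) Z.ne_zero
  have hza' := zpow_ne_zero (-a) Z'.ne_zero
  have hv0 : v ≠ 0 := mul_ne_zero (mul_ne_zero hu hza) hza'
  have hwv : ∀ i, V.w i v = V.w i u + (a - b) * V.w i z + (-a) * V.w i z' := by
    intro i
    rw [hv, V.w_mul i _ _ (mul_ne_zero hu hza) hza', V.w_mul i _ _ hu hza,
      V.w_zpow i Z.ne_zero, V.w_zpow i Z'.ne_zero]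
  have hv0' : V.w 0 v = 0 := by
    rw [hwv, h0, Z.w₀, Z'.w₀]; ring
  have hv1' : V.w 1 v = 0 := by
    rw [hwv, h1, Z.w₁, Z'.w₁]; ring
  have hv2' : V.w 2 v = 0 := by
    rw [hwv, h2, Z.w₂, Z'.w₂]; ring
  have hwv0 : ∀ i, V.w i v = 0 := by
    intro i
    fin_cases i
    · exact hv0'
    · exact hv1'
    · exact hv2'
  choose r hr0' hr using fun i => V.exists_res i v hv0 (hwv0 i)
  obtain ⟨c, hc, hval⟩ := glue s v r hr hr0' (by
    intro P hP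
    rw [hv, map_mul, map_mul, map_zpow₀, map_zpow₀,
      P.ord_mul (mul_ne_zero (by simpa using hu) (zpow_ne_zero _ (by simpa using Z.ne_zero)))
        (zpow_ne_zero _ (by simpa using Z'.ne_zero)),
      P.ord_mul (by simpa using hu) (zpow_ne_zero _ (by simpa using Z.ne_zero)),
      P.ord_zpow, P.ord_zpow, hord P hP, Z.ord P hP, Z'.ord P hP]
    ring)
  have hord0 : ∀ i, (X.sp s).ord (r i) = 0 := fun i => ((hval i).ord_eq_zero hc).2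
  have e0 : r 0 = r₀ * Z.r₀ ^ (a - b) * Z'.r₀ ^ (-a) :=
    V.res_unique 0 _ _ _ (hr 0) (V.res_mul 0 _ _ _ _ (V.res_mul 0 _ _ _ _ hr0
      (V.res_zpow 0 Z.res₀ Z.r₀_ne _)) (V.res_zpow 0 Z'.res₀ Z'.r₀_ne _))
  have e2 : r 2 = r₂ * Z.r₂ ^ (a - b) * Z'.r₂ ^ (-a) := by
    refine V.res_unique 2 _ _ _ (hr 2) ?_
    have h3 := V.res_mul 2 _ _ _ _ (V.res_mul 2 _ _ _ _ hr2
      (V.res_zpow 2 Z.res₂ Z.r₂_ne (a - b))) (V.res_zpow 2 Z'.res₂ Z'.r₂_ne (-a))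
    have h4 : (q : FL) ^ (-b) * u * ((q : FL) ^ (-1 : ℤ) * z) ^ (a - b) *
        ((q : FL) ^ (-1 : ℤ) * z') ^ (-a) = v := by
      rw [hv, mul_zpow, mul_zpow, ← zpow_mul, ← zpow_mul]
      have h5 : (q : FL) ^ (-b) * (q : FL) ^ (-1 * (a - b)) * (q : FL) ^ (-1 * -a) = 1 := by
        rw [← zpow_add₀ hq, ← zpow_add₀ hq]
        convert zpow_zero _ using 2
        ring
      calc _ = ((q : FL) ^ (-b) * (q : FL) ^ (-1 * (a - b)) * (q : FL) ^ (-1 * -a)) *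
            (u * z ^ (a - b) * z' ^ (-a)) := by ring
        _ = _ := by rw [h5, one_mul]
    rwa [h4] at h3
  have k0 := hord0 0
  have k2 := hord0 2
  rw [e0, Place.ord_mul _ (mul_ne_zero hr00 (zpow_ne_zero _ Z.r₀_ne)) (zpow_ne_zero _ Z'.r₀_ne),
    Place.ord_mul _ hr00 (zpow_ne_zero _ Z.r₀_ne), Place.ord_zpow, Place.ord_zpow, Z.ord₀,
    Z'.ord₀] at k0
  rw [e2, Place.ord_mul _ (mul_ne_zero hr20 (zpow_ne_zero _ Z.r₂_ne)) (zpow_ne_zero _ Z'.r₂_ne),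
    Place.ord_mul _ hr20 (zpow_ne_zero _ Z.r₂_ne), Place.ord_zpow, Place.ord_zpow, Z.ord₂,
    Z'.ord₂] at k2
  constructor
  · linear_combination k0
  · linear_combination k2

end Coord

end Fermat.Agent.DR.S36
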