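import Mathlib
import Fermat.Agent.MFF.CoeffDescent

/-!
# Descent of finite dimensional spaces

`K ⊂ Ω` fields, `G` a set of endomorphisms of `Ω` with common fixed field `K`. Let `V` be an
`Ω`-vector space with a separating family of coordinate functionals `cf x`. A finite
dimensional subspace stable under the coefficientwise action of `G` has a basis with coordinates
in `K`.
-/

set_option autoImplicit false

noncomputable section

namespace Fermat.Agent.DR.S36.L

variable {K Ω : Type*} [Field K] [Field Ω] [Algebra K Ω]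

/-- A `K`-linear retraction of `Ω` onto `K`. -/
theorem exists_retraction (K Ω : Type*) [Field K] [Field Ω] [Algebra K Ω] :
    ∃ φ : Ω →ₗ[K] K, φ 1 = 1 := by
  obtain ⟨φ, hφ⟩ : ∃ φ : Ω →ₗ[K] K, φ 1 ≠ 0 := by
    by_contra hcon
    push Not at hcon
    exact one_ne_zero ((Module.forall_dual_apply_eq_zero_iff K (1 : Ω)).1 hcon)
  exact ⟨(φ 1)⁻¹ • φ, by rw [LinearMap.smul_apply, smul_eq_mul, inv_mul_cancel₀ hφ]⟩

theorem map_mul_algebraMap (φ : Ω →ₗ[K] K) (c : Ω) (a : K) :
    φ (c * algebraMap K Ω a) = φ c * a := by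
  rw [mul_comm, ← Algebra.smul_def, map_smul, smul_eq_mul, mul_comm]

section Disjoint

variable {X V₀ V : Type*} [AddCommGroup V₀] [Module K V₀] [AddCommGroup V] [Module Ω V]

/-- **Linear disjointness.** -/
theorem linearIndependent_of_coord (cf₀ : X → V₀ →ₗ[K] K) (cf : X → V →ₗ[Ω] Ω) (e : V₀ → V)
    (he : ∀ v x, cf x (e v) = algebraMap K Ω (cf₀ x v))
    (hsep : ∀ v : V₀, (∀ x, cf₀ x v = 0) → v = 0) {ι : Type*} {b : ι → V₀}
    (hb : LinearIndependent K b) : LinearIndependent Ω (fun i => e (b i)) := by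
  rw [linearIndependent_iff']
  intro s g hg i hi
  rw [← Module.forall_dual_apply_eq_zero_iff K (g i)]
  intro φ
  have h1 : ∑ i ∈ s, φ (g i) • b i = 0 := by
    apply hsep
    intro x
    rw [map_sum]
    have h2 := congrArg (fun v => φ (cf x v)) hg
    simp only [map_sum, map_smul, smul_eq_mul, he, map_zero, map_mul_algebraMap] at h2
    rw [← h2]
    exact Finset.sum_congr rfl fun j _ => by rw [map_smul, smul_eq_mul]
  exact linearIndependent_iff'.mp hb s (fun i => φ (g i)) h1 i hi

end Disjoint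

section Basis

variable {X V : Type*} [AddCommGroup V] [Module Ω V] (cf : X → V →ₗ[Ω] Ω)
  (W : Submodule Ω V)

theorem span_coord [FiniteDimensional Ω W] (hsep : ∀ v ∈ W, (∀ x, cf x v = 0) → v = 0) :
    Submodule.span Ω (Set.range fun x => (cf x).comp W.subtype) = ⊤ := by
  have h1 : (Submodule.span Ω (Set.range fun x =>
      (cf x).comp W.subtype)).dualCoannihilator = ⊥ := by
    rw [eq_bot_iff]
    intro w hw
    rw [Submodule.mem_dualCoannihilator] at hw
    rw [Submodule.mem_bot]
    apply Subtype.ext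
    apply hsep _ w.2
    intro x
    exact hw _ (Submodule.subset_span ⟨x, rfl⟩)
  have h2 := Subspace.dualCoannihilator_dualAnnihilator_eq
    (W := Submodule.span Ω (Set.range fun x => (cf x).comp W.subtype))
  rw [← h2, h1]
  exact Submodule.dualAnnihilator_bot

/-- Finitely many of the coordinates are coordinates on `W`. -/
theorem exists_coord_basis [FiniteDimensional Ω W]
    (hsep : ∀ v ∈ W, (∀ x, cf x v = 0) → v = 0) :
    ∃ (n : ℕ) (m : Fin n → X) (b : Module.Basis (Fin n) Ω W),
      ∀ i j, cf (m j) (b i : V) = if i = j then 1 else 0 := by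
  classical
  let s := Set.range fun x => (cf x).comp W.subtype
  have hs : ⊤ ≤ Submodule.span Ω s := (span_coord cf W hsep).ge
  let c := Module.Basis.ofSpan hs
  have hfin : Finite ((linearIndepOn_empty Ω id).extend (Set.empty_subset s)) :=
    Module.Finite.finite_basis c
  obtain ⟨n, ⟨e⟩⟩ := Finite.exists_equiv_fin
    ((linearIndepOn_empty Ω id).extend (Set.empty_subset s))
  let b' := c.reindex e
  have hb' : ∀ j, ∃ m : X, (cf m).comp W.subtype = b' j := by
    intro j
    have h1 := Module.Basis.ofSpan_subset hs (Set.mem_range_self (e.symm j))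
    obtain ⟨m, hm⟩ := h1
    refine ⟨m, ?_⟩
    rw [Module.Basis.reindex_apply]
    exact hm
  choose m hm using hb'
  refine ⟨n, m, b'.dualBasis.map (Module.evalEquiv Ω W).symm, ?_⟩
  intro i j
  have h2 : cf (m j) (((b'.dualBasis.map (Module.evalEquiv Ω W).symm) i : W) : V) =
      b' j ((b'.dualBasis.map (Module.evalEquiv Ω W).symm) i) := by
    rw [← hm]; rfl
  rw [h2, Module.Basis.map_apply, Module.apply_evalEquiv_symm_apply,
    Module.Basis.dualBasis_apply_self]
  simp only [eq_comm]

variable {cf W} in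
theorem eq_sum_coord {n : ℕ} {m : Fin n → X} {b : Module.Basis (Fin n) Ω W}
    (hb : ∀ i j, cf (m j) (b i : V) = if i = j then 1 else 0)
    (w : W) : w = ∑ i, cf (m i) (w : V) • b i := by
  have h1 : ∀ j, cf (m j) (w : V) = b.repr w j := by
    intro j
    conv_lhs => rw [← b.sum_repr w]
    rw [Submodule.coe_sum, map_sum, Finset.sum_eq_single j]
    · rw [Submodule.coe_smul, map_smul, hb, if_pos rfl, smul_eq_mul, mul_one]
    · intro i _ hij
      rw [Submodule.coe_smul, map_smul, hb, if_neg hij, smul_zero]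
    · intro h; exact absurd (Finset.mem_univ j) h
  conv_lhs => rw [← b.sum_repr w]
  exact Finset.sum_congr rfl fun i _ => by rw [h1]

/-- **Descent of finite dimensional spaces.** -/
theorem exists_basis_of_stable [FiniteDimensional Ω W]
    (hsep : ∀ v ∈ W, (∀ x, cf x v = 0) → v = 0) (G : Set (Ω → Ω))
    (h0 : ∀ σ ∈ G, σ 0 = 0) (h1 : ∀ σ ∈ G, σ 1 = 1)
    (hG : ∀ a : Ω, (∀ σ ∈ G, σ a = a) → a ∈ Set.range (algebraMap K Ω))
    (hW : ∀ σ ∈ G, ∀ w ∈ W, ∃ w' ∈ W, ∀ x, cf x w' = σ (cf x w)) :
    ∃ (n : ℕ) (m : Fin n → X) (b : Fin n → V),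
      (∀ i, b i ∈ W) ∧ (∀ i j, cf (m j) (b i) = if i = j then 1 else 0) ∧
      (∀ i x, cf x (b i) ∈ Set.range (algebraMap K Ω)) ∧
      (∀ w ∈ W, w = ∑ i, cf (m i) w • b i) := by
  classical
  obtain ⟨n, m, b, hb⟩ := exists_coord_basis cf W hsep
  refine ⟨n, m, fun i => (b i : V), fun i => (b i).2, hb, ?_, ?_⟩
  · intro i x
    apply hG
    intro σ hσ
    obtain ⟨w', hw', hw⟩ := hW σ hσ _ (b i).2
    have h2 := eq_sum_coord hb ⟨w', hw'⟩
    have h3 : (⟨w', hw'⟩ : W) = b i := by
      rw [h2, Finset.sum_eq_single i]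
      · have : cf (m i) w' = 1 := by rw [hw, hb, if_pos rfl, h1 σ hσ]
        rw [this, one_smul]
      · intro j _ hji
        have : cf (m j) w' = 0 := by rw [hw, hb, if_neg (Ne.symm hji), h0 σ hσ]
        rw [this, zero_smul]
      · intro h; exact absurd (Finset.mem_univ i) h
    show σ (cf x (b i : V)) = cf x (b i : V)
    rw [← hw, ← h3]
  · intro w hw
    have h2 := congrArg (fun z : W => (z : V)) (eq_sum_coord hb ⟨w, hw⟩)
    simp only [Submodule.coe_sum, Submodule.coe_smul] at h2
    exact h2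

end Basis

end Fermat.Agent.DR.S36.L
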