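import Fermat.Agent.DR.S36.LField
import Fermat.Agent.DR.S36.LSeries
import Fermat.Agent.RR.HoloModular

/-!
# Functions on `X₀(N)` fixed by inertia

`F_N(ℚ̄)^I = F_N(L)`; descent of finite dimensional `I`-stable subspaces.
-/

set_option autoImplicit false

noncomputable section

open ModularCurve AlgebraicCurve

namespace Fermat.Agent.DR.S36.L

open Fermat.Agent.MFF Fermat.Agent.RR

section General

variable {Ω : Type*} [Field Ω]

/-- The coefficient functionals on a field of Laurent series. -/
def cfn (F : IntermediateField Ω (LaurentSeries Ω)) (n : ℤ) : F →ₗ[Ω] Ω where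
  toFun f := (f : LaurentSeries Ω).coeff n
  map_add' _ _ := rfl
  map_smul' c f := by
    have h1 : ((c • f : F) : LaurentSeries Ω) =
        algebraMap Ω (LaurentSeries Ω) c * (f : LaurentSeries Ω) := by
      rw [Algebra.smul_def]; rfl
    rw [h1, algebraMap_laurent_eq_single', HahnSeries.coeff_single_zero_mul]
    rfl

@[simp]
theorem cfn_apply (F : IntermediateField Ω (LaurentSeries Ω)) (n : ℤ) (f : F) :
    cfn F n f = (f : LaurentSeries Ω).coeff n := rfl

theorem eq_zero_of_cfn {F : IntermediateField Ω (LaurentSeries Ω)} {f : F}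
    (h : ∀ n, cfn F n f = 0) : f = 0 := by
  apply Subtype.ext
  ext n
  exact h n

end General

section Emb

variable (K : Type*) [Field K] [Algebra K (AlgebraicClosure ℚ)] (N : ℕ)

/-- The inclusion `F_N(K) → F_N(ℚ̄)`, `K ⊂ ℚ̄`. -/
def inc : modularFunctionFieldFullC K N →+* modularFunctionFieldBar N where
  toFun f := ⟨emb K (AlgebraicClosure ℚ) (f : LaurentSeries K), by
    rw [modularFunctionFieldBar_eq]; exact emb_mem_full_iff.mpr f.2⟩
  map_one' := Subtype.ext (map_one _)
  map_mul' a b := Subtype.ext (map_mul (emb K (AlgebraicClosure ℚ)) (a : LaurentSeries K) b)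
  map_zero' := Subtype.ext (map_zero _)
  map_add' a b := Subtype.ext (map_add (emb K (AlgebraicClosure ℚ)) (a : LaurentSeries K) b)

variable {K N}

theorem coe_inc (f : modularFunctionFieldFullC K N) :
    (inc K N f : LaurentSeries (AlgebraicClosure ℚ)) =
      emb K (AlgebraicClosure ℚ) (f : LaurentSeries K) := rfl

theorem coeff_inc (f : modularFunctionFieldFullC K N) (n : ℤ) :
    (inc K N f : LaurentSeries (AlgebraicClosure ℚ)).coeff n =
      algebraMap K (AlgebraicClosure ℚ) ((f : LaurentSeries K).coeff n) := coeffMap_coeff _ _ _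

theorem inc_injective : Function.Injective (inc K N) := (inc K N).injective

theorem inc_eq_zero {f : modularFunctionFieldFullC K N} : inc K N f = 0 ↔ f = 0 :=
  map_eq_zero_iff _ inc_injective

theorem inc_algebraMap (a : K) : inc K N (algebraMap K (modularFunctionFieldFullC K N) a) =
    algebraMap (AlgebraicClosure ℚ) (modularFunctionFieldBar N) (algebraMap K _ a) := by
  apply Subtype.ext
  rw [coe_inc]
  show emb K (AlgebraicClosure ℚ) (algebraMap K (LaurentSeries K) a) =
    algebraMap (AlgebraicClosure ℚ) (LaurentSeries (AlgebraicClosure ℚ)) (algebraMap K _ a)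
  rw [algebraMap_laurent_eq_single', algebraMap_laurent_eq_single', coeffMap_single]

theorem inc_smul (a : K) (f : modularFunctionFieldFullC K N) :
    inc K N (a • f) = (algebraMap K (AlgebraicClosure ℚ) a) • inc K N f := by
  rw [Algebra.smul_def, Algebra.smul_def, map_mul, inc_algebraMap]

/-- Functions with coefficients in `K`. -/
theorem exists_inc_eq {x : modularFunctionFieldBar N}
    (hx : ∀ n, (x : LaurentSeries (AlgebraicClosure ℚ)).coeff n ∈
      Set.range (algebraMap K (AlgebraicClosure ℚ))) : ∃ f, inc K N f = x := by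
  choose f hf using hx
  have hsupp : Function.support f ⊆ (x : LaurentSeries (AlgebraicClosure ℚ)).support := by
    intro n hn h0
    apply hn
    apply (algebraMap K (AlgebraicClosure ℚ)).injective
    rw [hf, map_zero]
    exact h0
  let y : LaurentSeries K :=
    ⟨f, (x : LaurentSeries (AlgebraicClosure ℚ)).isPWO_support.mono hsupp⟩
  have hy : emb K (AlgebraicClosure ℚ) y = x := by
    ext n
    exact (coeffMap_coeff _ _ _).trans (hf n)
  have hyN : y ∈ modularFunctionFieldFullC K N := by
    rw [← emb_mem_full_iff (Ω := AlgebraicClosure ℚ), hy, ← modularFunctionFieldBar_eq]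
    exact x.2
  exact ⟨⟨y, hyN⟩, Subtype.ext hy⟩

theorem coeff_mem_range_of_inc (f : modularFunctionFieldFullC K N) (n : ℤ) :
    (inc K N f : LaurentSeries (AlgebraicClosure ℚ)).coeff n ∈
      Set.range (algebraMap K (AlgebraicClosure ℚ)) := ⟨_, (coeff_inc f n).symm⟩

/-- Linear disjointness of `ℚ̄` and `F_N(K)` over `K`. -/
theorem linearIndependent_inc {ι : Type*} {b : ι → modularFunctionFieldFullC K N}
    (hb : LinearIndependent K b) : LinearIndependent (AlgebraicClosure ℚ)
      (fun i => inc K N (b i)) :=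
  linearIndependent_of_coord (cfn _) (cfn _) (inc K N) (fun v x => coeff_inc v x)
    (fun _ h => eq_zero_of_cfn h) hb

/-- The order at the cusp `∞`. -/
theorem order_inc (f : modularFunctionFieldFullC K N) :
    (inc K N f : LaurentSeries (AlgebraicClosure ℚ)).order = (f : LaurentSeries K).order := by
  rcases eq_or_ne f 0 with rfl | hf
  · rw [map_zero]; simp
  have hf' : (f : LaurentSeries K) ≠ 0 := fun h => hf (Subtype.ext h)
  apply le_antisymm
  · apply HahnSeries.order_le_of_coeff_ne_zero
    rw [coeff_inc]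
    intro h
    have h1 := (map_eq_zero_iff _ (algebraMap K (AlgebraicClosure ℚ)).injective).mp h
    rw [HahnSeries.coeff_order_eq_zero] at h1
    exact hf' h1
  · apply HahnSeries.order_le_of_coeff_ne_zero
    intro h
    have h1 : (inc K N f : LaurentSeries (AlgebraicClosure ℚ)).coeff
        (inc K N f : LaurentSeries (AlgebraicClosure ℚ)).order = 0 := by
      rw [coeff_inc, h, map_zero]
    rw [HahnSeries.coeff_order_eq_zero] at h1
    exact hf (inc_eq_zero.mp (Subtype.ext h1))

/-- The subspace of `F_N(K)` defined by a subspace of `F_N(ℚ̄)`. -/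
def desc (W : Submodule (AlgebraicClosure ℚ) (modularFunctionFieldBar N)) :
    Submodule K (modularFunctionFieldFullC K N) where
  carrier := {f | inc K N f ∈ W}
  zero_mem' := by
    show inc K N 0 ∈ W
    rw [map_zero]; exact zero_mem W
  add_mem' := by
    intro a b ha hb
    show inc K N (a + b) ∈ W
    rw [map_add]; exact add_mem ha hb
  smul_mem' := by
    intro c f hf
    show inc K N (c • f) ∈ W
    rw [inc_smul]; exact W.smul_mem _ hf

theorem mem_desc {W : Submodule (AlgebraicClosure ℚ) (modularFunctionFieldBar N)}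
    {f : modularFunctionFieldFullC K N} : f ∈ desc W ↔ inc K N f ∈ W := Iff.rfl

end Emb

section Inertia

variable {A : ValuationSubring (AlgebraicClosure ℚ)} {N : ℕ} {L : Type*} [Field L]
  [Algebra L (AlgebraicClosure ℚ)] [IsInertiaField A L]

theorem coeff_arithmeticGalois_smul (σ : AlgebraicClosure ℚ ≃ₐ[ℚ] AlgebraicClosure ℚ)
    (x : modularFunctionFieldBar N) (n : ℤ) :
    ((arithmeticGalois (modularFunctionFieldFull N) σ • x : modularFunctionFieldBar N) :
      LaurentSeries (AlgebraicClosure ℚ)).coeff n =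
      σ ((x : LaurentSeries (AlgebraicClosure ℚ)).coeff n) := by
  rw [coe_arithmeticGalois_smul, coeffMap_coeff]
  rfl

/-- **`F_N(ℚ̄)^I = F_N(L)`.** -/
theorem exists_inc_eq_iff {x : modularFunctionFieldBar N} :
    (∃ f : modularFunctionFieldFullC L N, inc L N f = x) ↔
      ∀ σ ∈ A.inertiaSubgroupIn ℚ, arithmeticGalois (modularFunctionFieldFull N) σ • x = x := by
  constructor
  · rintro ⟨f, rfl⟩ σ hσ
    apply Subtype.ext
    ext n
    rw [coeff_arithmeticGalois_smul, coeff_inc]
    exact fixed_algebraMap _ hσ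
  · intro h
    apply exists_inc_eq
    intro n
    rw [IsInertiaField.mem_range_iff (A := A)]
    intro σ hσ
    rw [← coeff_arithmeticGalois_smul, h σ hσ]

/-- Inertia acts trivially on `F_N(L)`. -/
theorem arithmeticGalois_smul_inc {σ : AlgebraicClosure ℚ ≃ₐ[ℚ] AlgebraicClosure ℚ}
    (hσ : σ ∈ A.inertiaSubgroupIn ℚ) (f : modularFunctionFieldFullC L N) :
    arithmeticGalois (modularFunctionFieldFull N) σ • inc L N f = inc L N f :=
  exists_inc_eq_iff.mp ⟨f, rfl⟩ σ hσ

/-- **Descent of finite dimensional `I`-stable spaces of functions.** -/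
theorem exists_basis_desc (W : Submodule (AlgebraicClosure ℚ) (modularFunctionFieldBar N))
    [FiniteDimensional (AlgebraicClosure ℚ) W]
    (hW : ∀ σ ∈ A.inertiaSubgroupIn ℚ, ∀ w ∈ W,
      arithmeticGalois (modularFunctionFieldFull N) σ • w ∈ W) :
    ∃ (n : ℕ) (m : Fin n → ℤ) (b : Fin n → modularFunctionFieldFullC L N),
      (∀ i j, ((b i : modularFunctionFieldFullC L N) : LaurentSeries L).coeff (m j) = if i = j then 1 else 0) ∧
      (∀ i, inc L N (b i) ∈ W) ∧
      LinearIndependent L b ∧
      LinearIndependent (AlgebraicClosure ℚ) (fun i => inc L N (b i)) ∧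
      (∀ w ∈ W, w = ∑ i, (w : LaurentSeries (AlgebraicClosure ℚ)).coeff (m i) •
        inc L N (b i)) ∧
      Submodule.span (AlgebraicClosure ℚ) (Set.range fun i => inc L N (b i)) = W ∧
      Submodule.span L (Set.range b) = desc W := by
  obtain ⟨n, m, b', hb1, hb2, hb3, hb4⟩ := exists_basis_of_stable (K := L)
    (cfn (modularFunctionFieldBar N)) W (fun v _ h => eq_zero_of_cfn h)
    {σ | ∃ τ ∈ A.inertiaSubgroupIn ℚ, σ = (τ : AlgebraicClosure ℚ → AlgebraicClosure ℚ)}
    (by rintro _ ⟨τ, -, rfl⟩; exact map_zero τ)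
    (by rintro _ ⟨τ, -, rfl⟩; exact map_one τ)
    (by
      intro a ha
      rw [IsInertiaField.mem_range_iff (A := A)]
      exact fun σ hσ => ha _ ⟨σ, hσ, rfl⟩)
    (by
      rintro _ ⟨τ, hτ, rfl⟩ w hw
      exact ⟨_, hW τ hτ w hw, fun x => coeff_arithmeticGalois_smul τ w x⟩)
  have hex : ∀ i, ∃ f : modularFunctionFieldFullC L N, inc L N f = b' i := fun i => exists_inc_eq (hb3 i)
  choose b hb using hex
  have hdelta : ∀ i j, ((b i : modularFunctionFieldFullC L N) : LaurentSeries L).coeff (m j) =
      if i = j then 1 else 0 := by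
    intro i j
    apply (algebraMap L (AlgebraicClosure ℚ)).injective
    rw [← coeff_inc, hb]
    have := hb2 i j
    rw [cfn_apply] at this
    rw [this]
    split_ifs <;> simp
  have hli : LinearIndependent L b := by
    rw [linearIndependent_iff']
    intro s g hg i hi
    have h1 := congrArg (cfn (modularFunctionFieldFullC L N) (m i)) hg
    rw [map_sum, map_zero] at h1
    simp only [map_smul, cfn_apply, hdelta, smul_eq_mul] at h1
    simpa [hi] using h1
  have hmem : ∀ i, inc L N (b i) ∈ W := fun i => by rw [hb]; exact hb1 i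
  have hsum : ∀ w ∈ W, w = ∑ i, (w : LaurentSeries (AlgebraicClosure ℚ)).coeff (m i) •
        inc L N (b i) := by
    intro w hw
    conv_lhs => rw [hb4 w hw]
    exact Finset.sum_congr rfl fun i _ => by rw [hb, cfn_apply]
  refine ⟨n, m, b, hdelta, hmem, hli, linearIndependent_inc hli, hsum, ?_, ?_⟩
  · apply le_antisymm
    · rw [Submodule.span_le]
      rintro _ ⟨i, rfl⟩
      exact hmem i
    · intro w hw
      rw [hsum w hw]
      exact Submodule.sum_mem _ fun i _ => Submodule.smul_mem _ _ (Submodule.subset_span ⟨i, rfl⟩)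
  · apply le_antisymm
    · rw [Submodule.span_le]
      rintro _ ⟨i, rfl⟩
      exact hmem i
    · intro f hf
      have h1 := hsum _ hf
      have h2 : f = ∑ i, ((f : modularFunctionFieldFullC L N) : LaurentSeries L).coeff (m i) • b i := by
        apply inc_injective
        rw [map_sum, h1]
        refine Finset.sum_congr rfl fun i _ => ?_
        rw [inc_smul, coeff_inc]
      rw [h2]
      exact Submodule.sum_mem _ fun i _ => Submodule.smul_mem _ _ (Submodule.subset_span ⟨i, rfl⟩)

end Inertia

end Fermat.Agent.DR.S36.L
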