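import Fermat.Agent.DR.S36.SSUnit
import Fermat.Agent.DR.S36.Regs
import Fermat.Agent.DR.S36.LInput
import Fermat.Agent.Q2.W2Deg

/-!
# Building the `Core` of S36: gluing, slopes, norms

Everything for `c : Q2.Ctx π w₁ w₂` (level `N q²`, `N` rigid).
-/

set_option autoImplicit false
set_option linter.unusedSectionVars false

noncomputable section

open AlgebraicCurve ModularCurve Fermat.Agent.RR Fermat.Agent.JRED

namespace Fermat.Agent.DR.S36

open Fermat.Agent.DR Fermat.Agent.DR.Mod Fermat.Agent.DR.Mod2 Fermat.Agent.DR.ModGal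
open Fermat.Agent.JRED.ESGalois Fermat.Agent.JRED.ESSemi Fermat.Agent.Q2.Ord
open S36.L S36.Unit
open Fermat.Agent.Jan.HeckeNorm (normAlong)

/-- A value of a unit is nonzero. -/
theorem val_ne_zero_of_inv {k κ : Type*} [Field k] [Field κ] [Algebra k κ] {P : Place k κ} {u : κ}
    (hu : u ≠ 0) {c c' : k} (h : Val P u c) (h' : Val P u⁻¹ c') : c ≠ 0 := by
  have h1 := h.mul h'
  rw [mul_inv_cancel₀ hu] at h1
  have h2 : c * c' = 1 := h1.unique Val.one
  exact left_ne_zero_of_mul (h2.trans_ne one_ne_zero)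

section Nodes

variable {A : ValuationSubring (AlgebraicClosure ℚ)} {k : Type} [Field k] {π : A →+* k}
  {M q : ℕ} [NeZero M] [hq : Fact q.Prime]
  {w : laurentBaseChange (AlgebraicClosure ℚ) (modularFunctionFieldFull (M * q)) ≃ₐ[AlgebraicClosure ℚ]
      laurentBaseChange (AlgebraicClosure ℚ) (modularFunctionFieldFull (M * q))}
  [FunctionField (AlgebraicClosure ℚ) (modularFunctionFieldBar (M * q))]
  [FunctionField (AlgebraicClosure ℚ) (modularFunctionFieldBar M)]
  [FunctionField k (modularFunctionFieldFullC k M)] [IsAlgClosed k] [CharP k q]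
  {S : Setup π w}
  {X : NodalDatum (AlgebraicClosure ℚ) (modularFunctionFieldBar (M * q)) k
      (modularFunctionFieldFullC k M) (modularFunctionFieldFullC k M) A π}
  {r : Place (AlgebraicClosure ℚ) (modularFunctionFieldBar M) →
    Place k (modularFunctionFieldFullC k M)}
  (hqM : ¬ q ∣ M) (hdeg : DegreeInput M k) (hgood : GoodReduction M k)
  (hr : PlaceRed (hdeg.redDatum S.surj) r)

/-- **Gluing at level `qM`.** -/
theorem glue_node {F₀ : Subfield (modularFunctionFieldBar (M * q))} (V : NodeUnit S F₀)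
    (hX : IsModularNodal S X) (hA : A.LiesOverPrime q) (s : X.nodes)
    {f : modularFunctionFieldBar (M * q)} {u₁ u₂ : modularFunctionFieldFullC k M}
    (h1 : (redOne S).Red f u₁) (h2 : (redTwo S).Red f u₂)
    (hf : Mono.PF (nodePair S hqM hdeg hgood hr s).Ann f) :
    ∃ c : k, Val s.1.1 u₁ c ∧ Val s.1.2 u₂ c := by
  have i1 : Fact (modMono S hqM hdeg hgood hr).q.Prime := hq
  have i2 : CharP k (modMono S hqM hdeg hgood hr).q := ‹CharP k q›
  have i3 : Fermat.FF.IsFF1 k (modularFunctionFieldFullC k M) :=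
    Descent.isFF1_of_functionField (K := k) (F := modularFunctionFieldFullC k M)
  obtain ⟨c, hc1, hc2⟩ := ((modMono S hqM hdeg hgood hr).node (mem_node_fst hX s)
    (inv_ann hqM hdeg hgood hr V hX s) V.red₁ V.u₁_ne (V.ord_pos hX s)).regs S.surj
    (Mono.arch hA S.surj) h1 h2 hf
  refine ⟨c, hc1, ?_⟩
  rw [← nodePair_s₂ hqM hdeg hgood hr hX s]
  exact hc2

/-- **Gluing at level `qM`, for units.** -/
theorem glue_node_unit {F₀ : Subfield (modularFunctionFieldBar (M * q))} (V : NodeUnit S F₀)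
    (hX : IsModularNodal S X) (hA : A.LiesOverPrime q) (s : X.nodes)
    {f : modularFunctionFieldBar (M * q)} {u₁ u₂ : modularFunctionFieldFullC k M}
    (h1 : (redOne S).Red f u₁) (h2 : (redTwo S).Red f u₂) (hu1 : u₁ ≠ 0) (hu2 : u₂ ≠ 0)
    (hf : ∀ P ∈ (nodePair S hqM hdeg hgood hr s).Ann, P.ord f = 0) :
    ∃ c : k, c ≠ 0 ∧ Val s.1.1 u₁ c ∧ Val s.1.2 u₂ c := by
  have hf0 : f ≠ 0 := RedDatum.ne_zero_of_red h1 hu1
  obtain ⟨c, hc1, hc2⟩ := glue_node hqM hdeg hgood hr V hX hA s h1 h2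
    (fun P hP => (Fermat.FF.mem_iff_ord P hf0).mpr (hf P hP).ge)
  obtain ⟨c', hc1', -⟩ := glue_node hqM hdeg hgood hr V hX hA s (RedDatum.inv S.surj h1 hu1)
    (RedDatum.inv S.surj h2 hu2) (fun P hP => by
      rw [Fermat.FF.mem_iff_ord P (inv_ne_zero hf0), P.ord_inv, hf P hP, neg_zero])
  exact ⟨c, val_ne_zero_of_inv hu1 hc1 hc1', hc1, hc2⟩

end Nodes

end Fermat.Agent.DR.S36
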