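import Fermat.Agent.DR.S36.Build1
import Fermat.Agent.DR.S36.AuxLevel

/-!
# Building the `Core` of S36: norms and gluing for `c : Q2.Ctx`
-/

set_option autoImplicit false
set_option linter.unusedSectionVars false

noncomputable section

open AlgebraicCurve ModularCurve Fermat.Agent.RR Fermat.Agent.JRED

namespace Fermat.Agent.DR.S36

open Fermat.Agent.DR Fermat.Agent.DR.Mod Fermat.Agent.DR.Mod2 Fermat.Agent.DR.ModGal
open Fermat.Agent.JRED.ESGalois Fermat.Agent.JRED.ESSemi Fermat.Agent.Q2.Ord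
open S36.L S36.Unit
open Fermat.Agent.Jan.HeckeNorm (normAlong)

local notation "ℚbar" => AlgebraicClosure ℚ

section Frob

variable (k : Type) [Field k] [IsAlgClosed k] (M q : ℕ) [hq : Fact q.Prime] [CharP k q]

/-- Coefficientwise Frobenius as a ring automorphism of `F̄_M`. -/
def frobR : modularFunctionFieldFullC k M ≃+* modularFunctionFieldFullC k M :=
  SemilinearAut.toRingAut (frobSemi k M q)

theorem frobR_apply (g : modularFunctionFieldFullC k M) : frobR k M q g = frobSemi k M q • g := rfl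

theorem coe_frobR (g : modularFunctionFieldFullC k M) :
    (frobR k M q g : LaurentSeries k) = coeffMap (frobenius k q) (g : LaurentSeries k) := rfl

theorem frobR_algebraMap (c : k) : frobR k M q (algebraMap k _ c) =
    algebraMap k _ (frobeniusEquiv k q c) := SemilinearAut.commutes _ _

theorem frobenius_eq_frobenius [i : ExpChar k q] :
    @frobenius k _ q i = frobenius k q := rfl

end Frob

section Ctx

open Fermat.Agent.Q2 (Ctx)

variable {A : ValuationSubring ℚbar} {k : Type} [Field k]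
  {N q : ℕ} [NeZero N] [hq : Fact q.Prime] [hchar : CharP k q] [IsAlgClosed k]
  {π : A →+* k}
  {w₁ : laurentBaseChange ℚbar (modularFunctionFieldFull (N * q)) ≃ₐ[ℚbar]
      laurentBaseChange ℚbar (modularFunctionFieldFull (N * q))}
  {w₂ : laurentBaseChange ℚbar (modularFunctionFieldFull (N * q * q)) ≃ₐ[ℚbar]
      laurentBaseChange ℚbar (modularFunctionFieldFull (N * q * q))}
  (c : Ctx π w₁ w₂) {L : Type} [Field L] [Algebra L ℚbar] [IsInertiaField A L]

theorem inc_q_zpow (a : ℤ) (f : modularFunctionFieldFullC L (N * q * q)) :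
    inc L (N * q * q) ((q : modularFunctionFieldFullC L (N * q * q)) ^ a * f) =
      algebraMap ℚbar _ ((q : ℚbar) ^ a) * inc L (N * q * q) f := by
  rw [map_mul, map_zpow₀, map_natCast, map_zpow₀, map_natCast]

theorem ctx_pow₁ (a b : ℤ) : algebraMap ℚbar (modularFunctionFieldBar (N * q))
    ((q : ℚbar) ^ a * ((q : ℚbar) ^ b) ^ (q - 1)) =
      (q : modularFunctionFieldBar (N * q)) ^ (a + (q - 1) * b) := by
  have hq0 : (q : modularFunctionFieldBar (N * q)) ≠ 0 := by
    have h : algebraMap ℚbar (modularFunctionFieldBar (N * q)) (q : ℚbar) ≠ 0 := by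
      rw [Ne, map_eq_zero]
      exact_mod_cast hq.out.ne_zero
    rwa [map_natCast] at h
  rw [map_mul, map_pow, map_zpow₀, map_zpow₀, map_natCast, zpow_add₀ hq0, ← zpow_natCast,
    ← zpow_mul, Nat.cast_sub hq.out.one_le, Nat.cast_one, mul_comm b]

theorem ctx_pow₂ (a : ℤ) : algebraMap ℚbar (modularFunctionFieldBar (N * q))
    (((q : ℚbar) ^ a) ^ q) = (q : modularFunctionFieldBar (N * q)) ^ (q * a) := by
  rw [map_pow, map_zpow₀, map_natCast, ← zpow_natCast, ← zpow_mul, mul_comm a]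

/-- `normα₁` of `Core` -/
theorem ctx_normα₁ (f : modularFunctionFieldFullC L (N * q * q)) (a b : ℤ)
    (u v : modularFunctionFieldFullC k N)
    (h0 : (c.V L).Res 0 ((q : modularFunctionFieldFullC L (N * q * q)) ^ a * f) u)
    (h1 : (c.V L).Res 1 ((q : modularFunctionFieldFullC L (N * q * q)) ^ b * f) v) :
    (redOne c.S).Red ((q : modularFunctionFieldBar (N * q)) ^ (a + (q - 1) * b) *
      normAlong (heckeAlphaBar ℚbar (N * q) q) (inc L (N * q * q) f)) (u * v ^ (q - 1)) := by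
  rw [c.V_res, c.res0_iff, inc_q_zpow] at h0
  rw [c.V_res, c.res1_iff, inc_q_zpow] at h1
  have key := red_norm_alpha₁ c.hqN c.S.al h0 h1
  rw [ctx_pow₁] at key
  exact key

/-- `normα₂` of `Core` -/
theorem ctx_normα₂ (f : modularFunctionFieldFullC L (N * q * q)) (a : ℤ)
    (u : modularFunctionFieldFullC k N)
    (h : (c.V L).Res 2 ((q : modularFunctionFieldFullC L (N * q * q)) ^ a * f) u) :
    (redTwo c.S).Red ((q : modularFunctionFieldBar (N * q)) ^ (q * a) *
      normAlong (heckeAlphaBar ℚbar (N * q) q) (inc L (N * q * q) f)) (frobR k N q u) := by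
  rw [c.V_res, c.res2_iff, inc_q_zpow] at h
  have key := red_norm_alpha₂ c.hqN c.S.al c.al2 h
  rw [ctx_pow₂] at key
  exact key

/-- `normβ₂` of `Core` -/
theorem ctx_normβ₂ (f : modularFunctionFieldFullC L (N * q * q)) (a b : ℤ)
    (u v : modularFunctionFieldFullC k N)
    (h0 : (c.V L).Res 2 ((q : modularFunctionFieldFullC L (N * q * q)) ^ a * f) u)
    (h1 : (c.V L).Res 1 ((q : modularFunctionFieldFullC L (N * q * q)) ^ b * f) v) :
    (redTwo c.S).Red ((q : modularFunctionFieldBar (N * q)) ^ (a + (q - 1) * b) *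
      normAlong (heckeBetaBar ℚbar (N * q) q) (inc L (N * q * q) f)) (u * v ^ (q - 1)) := by
  rw [c.V_res, c.res2_iff, inc_q_zpow] at h0
  rw [c.V_res, c.res1_iff, inc_q_zpow] at h1
  have key := red_norm_beta₂ c.hqN c.S.al c.al2 h0 h1
  rw [ctx_pow₁] at key
  exact key

/-- `normβ₁` of `Core` -/
theorem ctx_normβ₁ (f : modularFunctionFieldFullC L (N * q * q)) (a : ℤ)
    (u : modularFunctionFieldFullC k N)
    (h : (c.V L).Res 0 ((q : modularFunctionFieldFullC L (N * q * q)) ^ a * f) u) :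
    (redOne c.S).Red ((q : modularFunctionFieldBar (N * q)) ^ (q * a) *
      normAlong (heckeBetaBar ℚbar (N * q) q) (inc L (N * q * q) f)) (frobR k N q u) := by
  rw [c.V_res, c.res0_iff, inc_q_zpow] at h
  have key := red_norm_beta₁ c.hqN c.S.al c.al2 h
  rw [ctx_pow₂] at key
  exact key

variable [FunctionField ℚbar (modularFunctionFieldBar (N * q * q))]
  [FunctionField ℚbar (modularFunctionFieldBar (N * q))]
  [FunctionField ℚbar (modularFunctionFieldBar N)]
  [FunctionField k (modularFunctionFieldFullC k N)]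
  {X : NodalDatum ℚbar (modularFunctionFieldBar (N * q)) k
      (modularFunctionFieldFullC k N) (modularFunctionFieldFullC k N) A π}
  {r : Place ℚbar (modularFunctionFieldBar N) → Place k (modularFunctionFieldFullC k N)}
  (hdeg : DegreeInput N k) (hgood : GoodReduction N k)
  (hr : PlaceRed (hdeg.redDatum c.S.surj) r) (hX : IsModularNodal c.S X)
  (hα : (heckeAlphaBar ℚbar (N * q) q).toRingHom.IsIntegral)
  (hβ : (heckeBetaBar ℚbar (N * q) q).toRingHom.IsIntegral)

variable (L) in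
/-- The supersingular annuli. -/
def ctxNodes : SSNodes ℚbar (modularFunctionFieldBar (N * q * q))
      (modularFunctionFieldBar (N * q)) k (modularFunctionFieldFullC k N) (redOne c.S)
      (redTwo c.S) :=
  ssNodes' c.hqN hdeg hgood hr (nodeUnit L c.S c.hqN) hX c.hA hα hβ

theorem ctx_sq_φ (s : (ctxNodes c L hdeg hgood hr hX hα hβ).S)
    (g : modularFunctionFieldFullC k N) (a : k)
    (h : Val ((ctxNodes c L hdeg hgood hr hX hα hβ).sp s) g a) :
    Val ((ctxNodes c L hdeg hgood hr hX hα hβ).sq s) (frobR k N q g) (a ^ q) := by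
  have h1 := Mono.Val.smul (g := frobSemi k N q) h
  rw [baseAut_frobSemi] at h1
  have h2 : frobSemi k N q • (ctxNodes c L hdeg hgood hr hX hα hβ).sp s =
      (ctxNodes c L hdeg hgood hr hX hα hβ).sq s := frob_fst hX s
  rw [h2] at h1
  exact h1

theorem ctx_glueα (s : (ctxNodes c L hdeg hgood hr hX hα hβ).S)
    (ε : modularFunctionFieldBar (N * q)) (u₁ u₂ : modularFunctionFieldFullC k N)
    (h1 : (redOne c.S).Red ε u₁) (h2 : (redTwo c.S).Red ε u₂) (hu1 : u₁ ≠ 0) (hu2 : u₂ ≠ 0)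
    (hε : ∀ P' ∈ (ctxNodes c L hdeg hgood hr hX hα hβ).Aα s, P'.ord ε = 0) :
    ∃ a : k, a ≠ 0 ∧ Val ((ctxNodes c L hdeg hgood hr hX hα hβ).sp s) u₁ a ∧
      Val ((ctxNodes c L hdeg hgood hr hX hα hβ).sq s) u₂ a :=
  glue_node_unit c.hqN hdeg hgood hr (nodeUnit L c.S c.hqN) hX c.hA s h1 h2 hu1 hu2 hε

theorem ctx_glueβ (s : (ctxNodes c L hdeg hgood hr hX hα hβ).S)
    (ε : modularFunctionFieldBar (N * q)) (u₁ u₂ : modularFunctionFieldFullC k N)
    (h1 : (redOne c.S).Red ε u₁) (h2 : (redTwo c.S).Red ε u₂) (hu1 : u₁ ≠ 0) (hu2 : u₂ ≠ 0)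
    (hε : ∀ P' ∈ (ctxNodes c L hdeg hgood hr hX hα hβ).Aβ s, P'.ord ε = 0) :
    ∃ a : k, a ≠ 0 ∧ Val ((ctxNodes c L hdeg hgood hr hX hα hβ).sq s) u₁ a ∧
      Val ((ctxNodes c L hdeg hgood hr hX hα hβ).sp s) u₂ a :=
  glue_node_unit c.hqN hdeg hgood hr (nodeUnit L c.S c.hqN) hX c.hA (frNode hX c.hA s) h1 h2
    hu1 hu2 hε

theorem mem_ctxU (s : (ctxNodes c L hdeg hgood hr hX hα hβ).S)
    (P : Place ℚbar (modularFunctionFieldBar (N * q * q))) :
    P ∈ (ctxNodes c L hdeg hgood hr hX hα hβ).U s ↔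
      P.restrictAlong (heckeAlphaBar ℚbar (N * q) q) hα ∈
        (ctxNodes c L hdeg hgood hr hX hα hβ).Aα s :=
  (ctxNodes c L hdeg hgood hr hX hα hβ).U_α s P

/-- **Gluing at level `N q²`.** -/
theorem ctx_glue_reg (s : (ctxNodes c L hdeg hgood hr hX hα hβ).S)
    (u : modularFunctionFieldFullC L (N * q * q)) (g : Fin 3 → modularFunctionFieldFullC k N)
    (hg : ∀ i, (c.V L).Res i u (g i))
    (hu : ∀ P ∈ (ctxNodes c L hdeg hgood hr hX hα hβ).U s,
      inc L (N * q * q) u ∈ P.toValuationSubring) :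
    ∃ a : k, ∀ i, Val ((ctxNodes c L hdeg hgood hr hX hα hβ).sp s) (g i) a := by
  have h0 := c.res0_iff.mp (hg 0)
  have h1 := c.res1_iff.mp (hg 1)
  have h2 := c.res2_iff.mp (hg 2)
  have hglue : ∀ (ε : modularFunctionFieldBar (N * q)) (v₁ v₂ : modularFunctionFieldFullC k N),
      (redOne c.S).Red ε v₁ → (redTwo c.S).Red ε v₂ →
      (∀ P ∈ (ctxNodes c L hdeg hgood hr hX hα hβ).Aα s, ε ∈ P.toValuationSubring) →
      ∃ a : k, Val ((ctxNodes c L hdeg hgood hr hX hα hβ).sp s) v₁ a ∧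
        Val ((ctxNodes c L hdeg hgood hr hX hα hβ).sq s) v₂ a :=
    fun ε v₁ v₂ e1 e2 he => glue_node c.hqN hdeg hgood hr (nodeUnit L c.S c.hqN) hX c.hA s
      e1 e2 he
  have hφ : ∀ g, (((frobR k N q).toRingHom g : modularFunctionFieldFullC k N) :
      LaurentSeries k) = coeffMap (frobenius k q) (g : LaurentSeries k) := fun g => rfl
  have hN := normFormula_modular ℚbar (heckeAlphaBar ℚbar (N * q) q)
  obtain ⟨a, ha0, ha1, ha2⟩ := regs_level_two c.hqN c.S c.al2 hglue hφ
    (ctx_sq_φ c hdeg hgood hr hX hα hβ s) hα hN (f := inc L (N * q * q) u)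
    (fun P hP => hu P ((mem_ctxU c hdeg hgood hr hX hα hβ s P).mpr hP)) h0 h1 h2
  refine ⟨a, fun i => ?_⟩
  fin_cases i
  · exact ha0
  · exact ha1
  · exact ha2

end Ctx

end Fermat.Agent.DR.S36
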