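import Fermat.Agent.DR.S36.Build2

/-!
# Building the `Core` of S36: slopes, the modular units, and `coreOf`
-/

set_option autoImplicit false
set_option linter.unusedSectionVars false

noncomputable section

open AlgebraicCurve ModularCurve Fermat.Agent.RR Fermat.Agent.JRED

namespace Fermat.Agent.DR.S36

open Fermat.Agent.DR Fermat.Agent.DR.Mod Fermat.Agent.DR.Mod2 Fermat.Agent.DR.ModGal
open Fermat.Agent.JRED.ESGalois Fermat.Agent.JRED.ESSemi Fermat.Agent.Q2.Ord
open S36.L S36.Unit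
open Fermat.Agent.Jan.HeckeNorm (normAlong)
open Fermat.Agent.Q2 (Ctx)

local notation "ℚbar" => AlgebraicClosure ℚ

variable {A : ValuationSubring ℚbar} {k : Type} [Field k]
  {N q : ℕ} [NeZero N] [hq : Fact q.Prime] [hchar : CharP k q] [IsAlgClosed k]
  {π : A →+* k}
  {w₁ : laurentBaseChange ℚbar (modularFunctionFieldFull (N * q)) ≃ₐ[ℚbar]
      laurentBaseChange ℚbar (modularFunctionFieldFull (N * q))}
  {w₂ : laurentBaseChange ℚbar (modularFunctionFieldFull (N * q * q)) ≃ₐ[ℚbar]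
      laurentBaseChange ℚbar (modularFunctionFieldFull (N * q * q))}
  (c : Ctx π w₁ w₂) {L : Type} [Field L] [Algebra L ℚbar] [IsInertiaField A L]
  [FunctionField ℚbar (modularFunctionFieldBar (N * q * q))]
  [FunctionField ℚbar (modularFunctionFieldBar (N * q))]
  [FunctionField ℚbar (modularFunctionFieldBar N)]
  [FunctionField k (modularFunctionFieldFullC k N)]
  {X : NodalDatum ℚbar (modularFunctionFieldBar (N * q)) k
      (modularFunctionFieldFullC k N) (modularFunctionFieldFullC k N) A π}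
  {r : Place ℚbar (modularFunctionFieldBar N) → Place k (modularFunctionFieldFullC k N)}
  (hdeg : DegreeInput N k) (hgood : GoodReduction N k)
  (hr : PlaceRed (hdeg.redDatum c.S.surj) r) (hX : IsModularNodal c.S X)
  (hα : (heckeAlphaBar ℚbar (N * q) q).toRingHom.IsIntegral)
  (hβ : (heckeBetaBar ℚbar (N * q) q).toRingHom.IsIntegral)

/-- **Gluing at level `N q²` for units.** -/
theorem ctx_glue (s : (ctxNodes c L hdeg hgood hr hX hα hβ).S)
    (u : modularFunctionFieldFullC L (N * q * q)) (g : Fin 3 → modularFunctionFieldFullC k N)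
    (hg : ∀ i, (c.V L).Res i u (g i)) (hg0 : ∀ i, g i ≠ 0)
    (hu : ∀ P ∈ (ctxNodes c L hdeg hgood hr hX hα hβ).U s, P.ord (inc L (N * q * q) u) = 0) :
    ∃ a : k, a ≠ 0 ∧ ∀ i, Val ((ctxNodes c L hdeg hgood hr hX hα hβ).sp s) (g i) a := by
  have hu0 : u ≠ 0 := ((c.V L).w_eq_zero 0 _ _ (hg 0) (hg0 0)).1
  have hi0 : inc L (N * q * q) u ≠ 0 := by rwa [Ne, inc_eq_zero]
  obtain ⟨a, ha⟩ := ctx_glue_reg c hdeg hgood hr hX hα hβ s u g hg
    (fun P hP => (Fermat.FF.mem_iff_ord P hi0).mpr (hu P hP).ge)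
  obtain ⟨a', ha'⟩ := ctx_glue_reg c hdeg hgood hr hX hα hβ s u⁻¹ (fun i => (g i)⁻¹)
    (fun i => (c.V L).res_inv i (hg i) (hg0 i)) (fun P hP => by
      rw [map_inv₀, Fermat.FF.mem_iff_ord P (inv_ne_zero hi0), P.ord_inv, hu P hP, neg_zero])
  exact ⟨a, val_ne_zero_of_inv (hg0 0) (ha 0) (ha' 0), ha⟩

/-- The coordinates of the supersingular annuli. -/
def ctxCoords (hM : Rigid N) :
    letI := algInc L (N * q * q)
    SSCoords (ctxNodes c L hdeg hgood hr hX hα hβ) (c.degenRes L) q :=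
  letI := algInc L (N * q * q)
  ssCoords c.hqN hdeg hgood hr hM (nodeUnit L c.S c.hqN) hX c.hA hα hβ (c.degenRes L) rfl rfl rfl
    (fun _ => rfl)

/-- **Slopes.** -/
theorem ctx_slope (hM : Rigid N) (s : (ctxNodes c L hdeg hgood hr hX hα hβ).S)
    (u : modularFunctionFieldFullC L (N * q * q)) (a b : ℤ)
    (r₀ r₂ : modularFunctionFieldFullC k N) (hu : u ≠ 0)
    (hord : ∀ P ∈ (ctxNodes c L hdeg hgood hr hX hα hβ).U s, P.ord (inc L (N * q * q) u) = 0)
    (h0 : (c.V L).w 0 u = 0) (h1 : (c.V L).w 1 u = (q - 1) * a) (h2 : (c.V L).w 2 u = b)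
    (hr0 : (c.V L).Res 0 u r₀)
    (hr2 : (c.V L).Res 2 ((q : modularFunctionFieldFullC L (N * q * q)) ^ (-b) * u) r₂) :
    ((ctxNodes c L hdeg hgood hr hX hα hβ).sp s).ord r₀ = b + (q - 1) * a ∧
      ((ctxNodes c L hdeg hgood hr hX hα hβ).sp s).ord r₂ = -q * b + (q - 1) * a :=
  letI := algInc L (N * q * q)
  (ctxCoords c hdeg hgood hr hX hα hβ hM).slope c.S.surj c.w_q.1 c.w_q.2.2.1 c.w_q.2.2.2
    (fun s u g hg hg0 hu => ctx_glue c hdeg hgood hr hX hα hβ s u g hg hg0 hu) s u a b r₀ r₂ hu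
    hord h0 h1 h2 hr0 hr2

section Units

theorem inc_qneg (z : modularFunctionFieldFullC L (N * q * q))
    (γ : modularFunctionFieldBar (N * q) →ₐ[ℚbar] modularFunctionFieldBar (N * q * q))
    {y : modularFunctionFieldBar (N * q)} (hz : inc L (N * q * q) z = γ y) (n : ℕ) :
    inc L (N * q * q) ((q : modularFunctionFieldFullC L (N * q * q)) ^ (-(n : ℤ)) * z) =
      γ (algebraMap ℚbar _ ((q : ℚbar) ^ (n : ℤ))⁻¹ * y) := by
  rw [inc_q_zpow, map_mul, AlgHom.commutes, hz, zpow_neg]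

/-- values of a function from the reductions of `y` -/
theorem exists_uα : ∃ z : modularFunctionFieldFullC L (N * q * q),
    inc L (N * q * q) z = heckeAlphaBar ℚbar (N * q) q (uF ℚbar N q) ∧ z ≠ 0 ∧
      ((c.V L).w 0 z = 0 ∧ (c.V L).w 1 z = 0 ∧ (c.V L).w 2 z = 12) := by
  obtain ⟨z, hz⟩ := Fermat.Agent.Q2.exists_inc_alpha (L := L) (q := q)
    (x := uF ℚbar N q) uF_mem_F0
  have h1 := redOne_uF c.S
  have h2 := (nodeUnit L c.S c.hqN).red₂
  have hs : ssj k q N ≠ 0 := ssj_ne_zero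
  have hs' : PhiFull k q N (ssj k q N)⁻¹ ≠ 0 :=
    (_root_.map_ne_zero (PhiFull k q N)).mpr (inv_ne_zero hs)
  have e0 : (c.V L).Res 0 z (ssj k q N) := c.alpha0 hz h1
  have e1 : (c.V L).Res 1 z (ssj k q N) := c.alpha1 hz h1
  have e2 : (c.V L).Res 2 ((q : modularFunctionFieldFullC L (N * q * q)) ^ (-((12 : ℕ) : ℤ)) * z)
    (PhiFull k q N (ssj k q N)⁻¹) := c.alpha2 (inc_qneg z (heckeAlphaBar ℚbar (N * q) q) hz 12) h2
  obtain ⟨hz0, hw0⟩ := (c.V L).w_eq_zero 0 _ _ e0 hs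
  obtain ⟨-, hw1⟩ := (c.V L).w_eq_zero 1 _ _ e1 hs
  obtain ⟨hq0, -, -, hq2⟩ := c.w_q (L := L)
  have hw2 := ((c.V L).w_of_res_mul 2 (zpow_ne_zero _ hq0) e2 hs').2
  rw [(c.V L).w_zpow 2 hq0, hq2] at hw2
  refine ⟨z, hz, hz0, hw0, hw1, ?_⟩
  rw [hw2]
  norm_num

theorem exists_uβ : ∃ z : modularFunctionFieldFullC L (N * q * q),
    inc L (N * q * q) z = heckeBetaBar ℚbar (N * q) q (uF ℚbar N q) ∧ z ≠ 0 ∧
      ((c.V L).w 0 z = 0 ∧ (c.V L).w 1 z = 12 * (q - 1) ∧ (c.V L).w 2 z = 12) := by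
  obtain ⟨z, hz⟩ := Fermat.Agent.Q2.exists_inc_beta (L := L) (q := q)
    (x := uF ℚbar N q) uF_mem_F0
  have h1 := redOne_uF c.S
  have h2 := (nodeUnit L c.S c.hqN).red₂
  have hs : ssj k q N ≠ 0 := ssj_ne_zero
  have hs' : PhiFull k q N (ssj k q N) ≠ 0 :=
    (_root_.map_ne_zero (PhiFull k q N)).mpr hs
  have hs2 : (ssj k q N)⁻¹ ≠ 0 := inv_ne_zero hs
  have e0 : (c.V L).Res 0 z (PhiFull k q N (ssj k q N)) := c.beta0 hz h1
  have e1 : (c.V L).Res 1 ((q : modularFunctionFieldFullC L (N * q * q)) ^ (-((12 : ℕ) : ℤ)) * z)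
    (ssj k q N)⁻¹ := c.beta1 (inc_qneg z (heckeBetaBar ℚbar (N * q) q) hz 12) h2
  have e2 : (c.V L).Res 2 ((q : modularFunctionFieldFullC L (N * q * q)) ^ (-((12 : ℕ) : ℤ)) * z)
    (ssj k q N)⁻¹ := c.beta2 (inc_qneg z (heckeBetaBar ℚbar (N * q) q) hz 12) h2
  obtain ⟨hz0, hw0⟩ := (c.V L).w_eq_zero 0 _ _ e0 hs'
  obtain ⟨hq0, -, hq1, hq2⟩ := c.w_q (L := L)
  have hw1 := ((c.V L).w_of_res_mul 1 (zpow_ne_zero _ hq0) e1 hs2).2
  rw [(c.V L).w_zpow 1 hq0, hq1] at hw1
  have hw2 := ((c.V L).w_of_res_mul 2 (zpow_ne_zero _ hq0) e2 hs2).2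
  rw [(c.V L).w_zpow 2 hq0, hq2] at hw2
  refine ⟨z, hz, hz0, hw0, ?_, ?_⟩
  · rw [hw1]
    push_cast
    ring
  · rw [hw2]
    norm_num

end Units

/-- The statement of `Core.localgen`. -/
def LocalGen (hX : IsModularNodal c.S X) : Prop :=
  letI := algInc L (N * q * q)
  ∀ s : (ctxNodes c L hdeg hgood hr hX hα hβ).S,
    ∀ (m : ℕ) (f : modularFunctionFieldFullC L (N * q * q))
      (D : Divisor ℚbar (modularFunctionFieldBar (N * q * q))), m ≠ 0 → f ≠ 0 →
    (∀ P, P.ord (inc L (N * q * q) f) = m * D P) →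
    ∃ h : modularFunctionFieldFullC L (N * q * q), h ≠ 0 ∧ (∀ i, (c.V L).w i h = 0) ∧
      ∀ P ∈ (ctxNodes c L hdeg hgood hr hX hα hβ).U s, P.ord (inc L (N * q * q) h) = D P

/-- The statement of `Core.rigid`. -/
def IsRigid (hX : IsModularNodal c.S X) : Prop :=
  ∀ (m : ℕ) (f : modularFunctionFieldFullC L (N * q * q))
      (D : Divisor ℚbar (modularFunctionFieldBar (N * q * q))), (m : k) ≠ 0 →
      Divisor.degree D = 0 →
    (∀ P, P.ord (inc L (N * q * q) f) = m * D P) → (∀ i, (c.V L).Res i f 1) →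
    (∀ s : (ctxNodes c L hdeg hgood hr hX hα hβ).S,
      ∃ (h : modularFunctionFieldFullC L (N * q * q))
      (g : Fin 3 → modularFunctionFieldFullC k N) (γ : k), γ ≠ 0 ∧
      (∀ i, (c.V L).Res i h (g i)) ∧
      (∀ i, Val ((ctxNodes c L hdeg hgood hr hX hα hβ).sp s) (g i) γ) ∧
      ∀ P ∈ (ctxNodes c L hdeg hgood hr hX hα hβ).U s, P.ord (inc L (N * q * q) h) = D P) →
    D.IsPrincipal

/-- **The `Core` of S36**, given local generators and rigidity. -/
def coreOf (hM : Rigid N) (hloc : LocalGen (L := L) c hdeg hgood hr hα hβ hX)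
    (hrig : IsRigid (L := L) c hdeg hgood hr hα hβ hX) :
    letI := algInc L (N * q * q)
    Core ℚbar (modularFunctionFieldBar (N * q * q)) (modularFunctionFieldBar (N * q))
      (modularFunctionFieldFullC L (N * q * q)) k (modularFunctionFieldFullC k N) A π q :=
  letI := algInc L (N * q * q)
  { toResVals := c.V L
    hq := c.S.two_le
    w_q := c.w_q
    approx := fun g _ => c.approx g
    R1 := redOne c.S
    R2 := redTwo c.S
    Nα := normL (modularFunctionFieldFullC L (N * q * q)) (heckeAlphaBar ℚbar (N * q) q)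
      (finiteAlong_modular ℚbar _)
    Nβ := normL (modularFunctionFieldFullC L (N * q * q)) (heckeBetaBar ℚbar (N * q) q)
      (finiteAlong_modular ℚbar _)
    pα := fun P => P.restrictAlong (heckeAlphaBar ℚbar (N * q) q) hα
    pβ := fun P => P.restrictAlong (heckeBetaBar ℚbar (N * q) q) hβ
    normα_ord := fun f hf E hE P' => normL_ord _ hα _ (normFormula_modular ℚbar _) f hf E hE P'
    normβ_ord := fun f hf E hE P' => normL_ord _ hβ _ (normFormula_modular ℚbar _) f hf E hE P'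
    φ := frobR k N q
    φk := frobeniusEquiv k q
    φ_algebraMap := frobR_algebraMap k N q
    normα_q := by
      rw [normL_natCast, finrankAlong_level_two c.hqN]
    normβ_q := by
      rw [normL_natCast, finrankAlong_beta, finrankAlong_level_two c.hqN]
    normα₁ := fun f a b u v h0 h1 => ctx_normα₁ c f a b u v h0 h1
    normα₂ := fun f a u h => ctx_normα₂ c f a u h
    normβ₂ := fun f a b u v h0 h1 => ctx_normβ₂ c f a b u v h0 h1
    normβ₁ := fun f a u h => ctx_normβ₁ c f a u h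
    S := (ctxNodes c L hdeg hgood hr hX hα hβ).S
    nonempty_S := (ctxNodes c L hdeg hgood hr hX hα hβ).nonempty_S
    U := (ctxNodes c L hdeg hgood hr hX hα hβ).U
    Aα := (ctxNodes c L hdeg hgood hr hX hα hβ).Aα
    Aβ := (ctxNodes c L hdeg hgood hr hX hα hβ).Aβ
    U_α := (ctxNodes c L hdeg hgood hr hX hα hβ).U_α
    U_β := (ctxNodes c L hdeg hgood hr hX hα hβ).U_β
    sp := (ctxNodes c L hdeg hgood hr hX hα hβ).sp
    sq := (ctxNodes c L hdeg hgood hr hX hα hβ).sq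
    sq_φ := ctx_sq_φ c hdeg hgood hr hX hα hβ
    glueα := ctx_glueα c hdeg hgood hr hX hα hβ
    glueβ := ctx_glueβ c hdeg hgood hr hX hα hβ
    glue := ctx_glue c hdeg hgood hr hX hα hβ
    slope := ctx_slope c hdeg hgood hr hX hα hβ hM
    localgen := hloc
    uα := (exists_uα c (L := L)).choose
    uβ := (exists_uβ c (L := L)).choose
    uα_ne := (exists_uα c (L := L)).choose_spec.2.1
    uβ_ne := (exists_uβ c (L := L)).choose_spec.2.1
    w_uα := (exists_uα c (L := L)).choose_spec.2.2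
    w_uβ := (exists_uβ c (L := L)).choose_spec.2.2
    rigid := hrig }

end Fermat.Agent.DR.S36
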