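import Fermat.Agent.DR.S36.Build3

/-!
# S36' for rigid levels from local generators and rigidity
-/

set_option autoImplicit false
set_option linter.unusedSectionVars false

noncomputable section

open AlgebraicCurve ModularCurve Fermat.Agent.RR Fermat.Agent.JRED

namespace Fermat.Agent.DR.S36

open Fermat.Agent.DR Fermat.Agent.DR.Mod Fermat.Agent.DR.Mod2 Fermat.Agent.DR.ModGal
open S36.L S36.Unit
open Fermat.Agent.Q2 (Ctx)
open Fermat.Agent.Jan.HeckeInputs (heckeAlphaBarIntegral heckeBetaBarIntegral)

local notation "ℚbar" => AlgebraicClosure ℚ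

/-- The geometric input at level `N q²`: local generators at the supersingular points and
rigidity. -/
def GeomInput (N q : ℕ) [NeZero N] [Fact q.Prime] : Prop :=
  ∀ (A : ValuationSubring ℚbar) (k : Type) [Field k] [CharP k q] [IsAlgClosed k] (π : A →+* k)
    (w₁ : laurentBaseChange ℚbar (modularFunctionFieldFull (N * q)) ≃ₐ[ℚbar]
      laurentBaseChange ℚbar (modularFunctionFieldFull (N * q)))
    (w₂ : laurentBaseChange ℚbar (modularFunctionFieldFull (N * q * q)) ≃ₐ[ℚbar]
      laurentBaseChange ℚbar (modularFunctionFieldFull (N * q * q)))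
    (c : Ctx π w₁ w₂) (L : Type) [Field L] [Algebra L ℚbar] [IsInertiaField A L]
    [FunctionField ℚbar (modularFunctionFieldBar (N * q * q))]
    [FunctionField ℚbar (modularFunctionFieldBar (N * q))]
    [FunctionField ℚbar (modularFunctionFieldBar N)]
    [FunctionField k (modularFunctionFieldFullC k N)]
    (X : NodalDatum ℚbar (modularFunctionFieldBar (N * q)) k
      (modularFunctionFieldFullC k N) (modularFunctionFieldFullC k N) A π)
    (r : Place ℚbar (modularFunctionFieldBar N) → Place k (modularFunctionFieldFullC k N))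
    (hdeg : DegreeInput N k) (hgood : GoodReduction N k)
    (hr : PlaceRed (hdeg.redDatum c.S.surj) r) (hX : IsModularNodal c.S X)
    (hα : (heckeAlphaBar ℚbar (N * q) q).toRingHom.IsIntegral)
    (hβ : (heckeBetaBar ℚbar (N * q) q).toRingHom.IsIntegral),
    LocalGen (L := L) c hdeg hgood hr hα hβ hX ∧ IsRigid (L := L) c hdeg hgood hr hα hβ hX

theorem functionField_modularBar (M : ℕ) [NeZero M] :
    FunctionField ℚbar (modularFunctionFieldBar M) :=
  Fermat.Agent.JRED.functionField_of_finite (Fermat.Agent.JRED.transcendental_jBar M)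
      (Fermat.Agent.JRED.finrank_bar M).1

theorem exists_coreAt_aux {N q : ℕ} [NeZero N] [hq : Fact q.Prime] (hqN : ¬ q ∣ N)
    (hM : Rigid N) (H : GeomInput N q) {A : ValuationSubring ℚbar} (hA : A.LiesOverPrime q)
    {k : Type} [Field k] [i1 : CharP k q] [i2 : IsAlgClosed k] {π : A →+* k}
    (hsurj : Function.Surjective π) :
    ∃ (FL κ : Type) (_ : Field FL) (_ : Field κ) (_ : Algebra k κ)
        (_ : Algebra FL (modularFunctionFieldBar (N * q * q))), Nonempty (CoreAt N q A FL k κ) := by
  obtain ⟨w₁, w₂, ⟨c⟩⟩ := Fermat.Agent.Q2.exists_ctx' hsurj hA hqN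
  obtain ⟨L, _, _, hL⟩ := exists_inertiaField (A := A)
  have hdeg : DegreeInput N k := degreeInput' (NeZero.ne N) hqN
  have hgood : GoodReduction N k := goodReduction hsurj hq.out (NeZero.ne N) hqN
  have i3 := functionField_modularBar (N * q * q)
  have i4 := functionField_modularBar (N * q)
  have i5 := functionField_modularBar N
  have i6 := hdeg.functionField'
  obtain ⟨X, hX, -⟩ := exists_modular_nodalDatum hA hqN c.S hdeg hgood
  obtain ⟨r, hr⟩ := exists_placeRed_modular c.S.surj hdeg hgood
  have hα := heckeAlphaBarIntegral ℚbar (N * q) q Fermat.Agent.Jan.DegreeWiring.jAlg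
  have hβ := heckeBetaBarIntegral ℚbar (N * q) q Fermat.Agent.Jan.DegreeWiring.jAlg
  obtain ⟨h1, h2⟩ := H A k π w₁ w₂ c L X r hdeg hgood hr hX hα hβ
  exact ⟨modularFunctionFieldFullC L (N * q * q), modularFunctionFieldFullC k N, inferInstance,
    inferInstance, inferInstance, algInc L (N * q * q),
    ⟨letI := algInc L (N * q * q)
    { π := π
      surj := hsurj
      charP := i1
      algClosed := i2
      ff := i6
      X := coreOf c hdeg hgood hr hX hα hβ hM h1 h2
      hα := hα
      hβ := hβ
      pα_eq := rfl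
      pβ_eq := rfl
      classInput := S36.L.classInput (N * q * q) q }⟩⟩

/-- **`CoreAt`** at every place over `q`. -/
theorem exists_coreAt {N q : ℕ} [NeZero N] [hq : Fact q.Prime] (hqN : ¬ q ∣ N) (hM : Rigid N)
    (H : GeomInput N q) (A : ValuationSubring ℚbar) (hA : A.LiesOverPrime q) :
    ∃ (FL k κ : Type) (_ : Field FL) (_ : Field k) (_ : Field κ) (_ : Algebra k κ)
        (_ : Algebra FL (modularFunctionFieldBar (N * q * q))), Nonempty (CoreAt N q A FL k κ) := by
  have hsurj : Function.Surjective (IsLocalRing.residue A) := IsLocalRing.residue_surjective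
  have i1 : CharP (IsLocalRing.ResidueField A) q := L.charP _ hq.out hA hsurj
  have i2 : IsAlgClosed (IsLocalRing.ResidueField A) := isAlgClosed_of_surjective hsurj
  obtain ⟨FL, κ, j1, j2, j3, j4, h⟩ := exists_coreAt_aux hqN hM H hA hsurj
  exact ⟨FL, _, κ, j1, inferInstance, j2, j3, j4, h⟩

/-- **S36'** for rigid levels from the geometric input. -/
theorem s36Prime_of_geomInput {N q : ℕ} [NeZero N] [hq : Fact q.Prime] (hqN : ¬ q ∣ N)
    (hM : Rigid N) (H : GeomInput N q) : S36Prime N q :=
  s36Prime_of_core (exists_coreAt hqN hM H)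

/-- **S36'** from the geometric input at rigid levels. -/
theorem s36Prime_of_geomInputs
    (H : ∀ (N q : ℕ) [NeZero N] [Fact q.Prime], ¬ q ∣ N → Rigid N → GeomInput N q)
    (N q : ℕ) [NeZero N] [NeZero q] (hq : q.Prime) (hqN : ¬ q ∣ N) : S36Prime N q := by
  have : Fact q.Prime := ⟨hq⟩
  refine S36Prime.of_rigid hq hqN (fun h2 => ?_) (fun h2 => ?_)
  · have h4 : ¬ q ∣ N * 4 := by
      intro h
      rcases hq.dvd_mul.mp h with h | h
      · exact hqN h
      · have h3 : q ∣ 2 := hq.dvd_of_dvd_pow (show q ∣ 2 ^ 2 by simpa using h)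
        exact h2 ((Nat.prime_dvd_prime_iff_eq hq Nat.prime_two).mp h3)
    have : NeZero (N * 4) := ⟨by have := NeZero.ne N; omega⟩
    exact s36Prime_of_geomInput h4 (rigid_of_four (dvd_mul_left 4 N)) (H _ _ h4
      (rigid_of_four (dvd_mul_left 4 N)))
  · have h9 : ¬ q ∣ N * 9 := by
      intro h
      rcases hq.dvd_mul.mp h with h | h
      · exact hqN h
      · rw [h2] at h
        omega
    have : NeZero (N * 9) := ⟨by have := NeZero.ne N; omega⟩
    exact s36Prime_of_geomInput h9 (rigid_of_nine (dvd_mul_left 9 N)) (H _ _ h9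
      (rigid_of_nine (dvd_mul_left 9 N)))

end Fermat.Agent.DR.S36
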