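import Fermat.Agent.DR.S36.Surf
import Fermat.Agent.DR.Nodes.PoleBound

set_option autoImplicit false

/-!
# The Gauss valuation on `L(x)`

For a chart function `x`: nonzero elements `α` of `L(x)` have values `(t e₀, t e₁, t e₂)` along the
three components.
-/

noncomputable section

open AlgebraicCurve Fermat.Agent.RR Polynomial IntermediateField

namespace Fermat.Agent.DR.S36.Surf

variable {L K FL F k κ : Type*} [Field L] [Field K] [Field FL] [Field F] [Field k] [Field κ]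
  [Algebra L K] [Algebra L FL] [Algebra K F] [Algebra FL F] [Algebra k κ]
  {A₀ : ValuationSubring L} {q : ℕ} (S : Surf L K FL F k κ A₀ q)

/-- Evaluation of polynomials over the base at `x`. -/
def evx (x : FL) : A₀[X] →+* FL := (aeval x).toRingHom.comp (mapRingHom A₀.subtype)

include S in
theorem q_ne' : (q : L) ≠ 0 := S.q_ne

theorem π₀_unit (u : A₀ˣ) : S.π₀ (u : A₀) ≠ 0 := by
  intro h
  have h1 : S.π₀ ((u : A₀) * ((u⁻¹ : A₀ˣ) : A₀)) = 0 := by rw [map_mul, h, zero_mul]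
  rw [Units.mul_inv, map_one] at h1
  exact one_ne_zero h1

theorem mem_of_nonneg {a : L} {n : ℤ} {u : A₀ˣ} (h : a = ((u : A₀) : L) * (q : L) ^ n)
    (hn : 0 ≤ n) : a ∈ A₀ := by
  obtain ⟨m, rfl⟩ := Int.eq_ofNat_of_zero_le hn
  rw [h, zpow_natCast]
  exact mul_mem (u : A₀).2 (pow_mem (natCast_mem A₀ q) m)

/-- Every nonzero polynomial is a power of `q` times a primitive polynomial. -/
theorem exists_primitive {P : L[X]} (hP : P ≠ 0) :
    ∃ (t : ℤ) (P' : A₀[X]), P'.map S.π₀ ≠ 0 ∧ P = C ((q : L) ^ t) * P'.map A₀.subtype := by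
  classical
  have hex : ∀ i, ∃ (n : ℤ) (u : A₀ˣ), i ∈ P.support →
      P.coeff i = ((u : A₀) : L) * (q : L) ^ n := by
    intro i
    by_cases hi : i ∈ P.support
    · obtain ⟨n, u, h⟩ := S.exists_zpow _ (mem_support_iff.mp hi)
      exact ⟨n, u, fun _ => h⟩
    · exact ⟨0, 1, fun h => absurd h hi⟩
  choose n u hnu using hex
  obtain ⟨i₀, hi₀, hmin⟩ := P.support.exists_min_image n (support_nonempty.mpr hP)
  set t := n i₀ with ht
  have hq := S.q_ne
  have hcoeff : ∀ i, (C ((q : L) ^ (-t)) * P).coeff i ∈ Set.range A₀.subtype := by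
    intro i
    rw [coeff_C_mul]
    by_cases hi : i ∈ P.support
    · have h1 : (q : L) ^ (-t) * P.coeff i = ((u i : A₀) : L) * (q : L) ^ (n i - t) := by
        rw [hnu i hi, sub_eq_add_neg, zpow_add₀ hq]; ring
      exact ⟨⟨_, mem_of_nonneg h1 (sub_nonneg.mpr (hmin i hi))⟩, rfl⟩
    · rw [notMem_support_iff.mp hi, mul_zero]
      exact ⟨0, rfl⟩
  obtain ⟨P', hP'⟩ := (mem_lifts _).mp ((lifts_iff_coeff_lifts _).mpr hcoeff)
  refine ⟨t, P', ?_, ?_⟩
  · intro h0
    have h1 := congrArg (fun p => p.coeff i₀) hP'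
    simp only [coeff_map, coeff_C_mul] at h1
    have h2 : (P'.coeff i₀ : L) = ((u i₀ : A₀) : L) := by
      have h3 : (P'.coeff i₀ : L) = (q : L) ^ (-t) * P.coeff i₀ := h1
      rw [h3, hnu i₀ hi₀, ← ht, mul_comm, mul_assoc, ← zpow_add₀ hq, add_neg_cancel, zpow_zero,
        mul_one]
    have h3 : P'.coeff i₀ = (u i₀ : A₀) := Subtype.ext h2
    have h4 := congrArg (fun p => p.coeff i₀) h0
    simp only [coeff_map, coeff_zero] at h4
    rw [h3] at h4
    exact S.π₀_unit _ h4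
  · rw [hP', ← mul_assoc, ← C_mul, ← zpow_add₀ hq, add_neg_cancel, zpow_zero, C_1, one_mul]

section Chart

variable {x : FL} {xb : κ} {c : Fin 3}

theorem res_evx (hres : (S.V c).Res x xb) (P : A₀[X]) :
    (S.V c).Res (evx x P) (aeval xb (P.map S.π₀)) := by
  induction P using Polynomial.induction_on' with
  | add p r hp hr =>
    rw [map_add, Polynomial.map_add, map_add]
    exact (S.V c).res_add hp hr
  | monomial n a =>
    have h1 : evx x (monomial n a) = algebraMap L FL a * x ^ n := by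
      change aeval x ((monomial n a).map A₀.subtype) = _
      rw [map_monomial, aeval_monomial]
      rfl
    have h2 : aeval xb ((monomial n a).map S.π₀) = algebraMap k κ (S.π₀ a) * xb ^ n := by
      rw [map_monomial, aeval_monomial]
    rw [h1, h2]
    exact (S.V c).res_mul (S.res_const c a) ((S.V c).res_pow hres n)

theorem aeval_ne_zero (htr : Transcendental k xb) {P : A₀[X]} (hP : P.map S.π₀ ≠ 0) :
    aeval xb (P.map S.π₀) ≠ 0 := by
  intro h
  exact htr ⟨_, hP, h⟩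

theorem evx_ne_zero (htr : Transcendental k xb) (hres : (S.V c).Res x xb) {P : A₀[X]}
    (hP : P.map S.π₀ ≠ 0) : evx x P ≠ 0 :=
  (S.V c).ne_zero_of_res (S.res_evx hres P) (S.aeval_ne_zero htr hP)

theorem aeval_eq_evx (P' : A₀[X]) (t : ℤ) :
    aeval x (C ((q : L) ^ t) * P'.map A₀.subtype) = (q : FL) ^ t * evx x P' := by
  rw [map_mul, aeval_C, map_zpow₀, map_natCast]
  rfl

include S in
theorem transcendental_x (htr : Transcendental k xb) (hres : (S.V c).Res x xb) :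
    Transcendental L x := by
  rintro ⟨P, hP, h⟩
  obtain ⟨t, P', hP', rfl⟩ := S.exists_primitive hP
  rw [aeval_eq_evx] at h
  rcases mul_eq_zero.mp h with h | h
  · have hq : (q : FL) ≠ 0 := by
      intro h0
      apply S.q_ne
      apply (algebraMap L FL).injective
      rw [map_natCast, map_zero, h0]
    exact zpow_ne_zero _ hq h
  · exact S.evx_ne_zero htr hres hP' h

include S in
theorem q_ne_FL : (q : FL) ≠ 0 := by
  intro h0
  apply S.q_ne
  apply (algebraMap L FL).injective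
  rw [map_natCast, map_zero, h0]

/-- Shape of the nonzero elements of `L(x)`. -/
theorem exists_shape {α : FL} (hα : α ∈ L⟮x⟯) (hα0 : α ≠ 0) :
    ∃ (t : ℤ) (P Q : A₀[X]), P.map S.π₀ ≠ 0 ∧ Q.map S.π₀ ≠ 0 ∧
      α = (q : FL) ^ t * (evx x P / evx x Q) := by
  obtain ⟨P, Q, hPQ⟩ := (mem_adjoin_simple_iff L α).mp hα
  have hP0 : P ≠ 0 := by rintro rfl; rw [map_zero, zero_div] at hPQ; exact hα0 hPQ
  have hQ0 : Q ≠ 0 := by rintro rfl; rw [map_zero, div_zero] at hPQ; exact hα0 hPQ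
  obtain ⟨s, P', hP', rfl⟩ := S.exists_primitive hP0
  obtain ⟨t, Q', hQ', rfl⟩ := S.exists_primitive hQ0
  refine ⟨s - t, P', Q', hP', hQ', ?_⟩
  rw [hPQ, aeval_eq_evx, aeval_eq_evx, zpow_sub₀ S.q_ne_FL, mul_div_mul_comm]

theorem zpow_w (c : Fin 3) (t : ℤ) : (S.V c).w ((q : FL) ^ t) = t * S.e c := by
  have hq := S.q_ne_FL
  rcases t with n | n
  · rw [Int.ofNat_eq_natCast, zpow_natCast, (S.V c).w_pow, S.w_q]
  · rw [zpow_negSucc, (S.V c).w_inv, (S.V c).w_pow, S.w_q, Int.negSucc_eq]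
    push_cast
    ring

/-- residues of normalised elements of `L(x)` lie in `k(x̄)`. -/
theorem res_shape (htr : Transcendental k xb) (hres : (S.V c).Res x xb) {P Q : A₀[X]}
    (hP : P.map S.π₀ ≠ 0) (hQ : Q.map S.π₀ ≠ 0) :
    ∃ u ∈ k⟮xb⟯, u ≠ 0 ∧ (S.V c).Res (evx x P / evx x Q) u := by
  refine ⟨aeval xb (P.map S.π₀) / aeval xb (Q.map S.π₀), ?_, ?_, ?_⟩
  · exact (mem_adjoin_simple_iff k _).mpr ⟨_, _, rfl⟩
  · exact div_ne_zero (S.aeval_ne_zero htr hP) (S.aeval_ne_zero htr hQ)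
  · exact (S.V c).res_div (S.res_evx hres P) (S.res_evx hres Q) (S.aeval_ne_zero htr hQ)

theorem w_shape (htr : Transcendental k xb) (hres : (S.V c).Res x xb) {P Q : A₀[X]}
    (hP : P.map S.π₀ ≠ 0) (hQ : Q.map S.π₀ ≠ 0) (t : ℤ) :
    (S.V c).w ((q : FL) ^ t * (evx x P / evx x Q)) = t * S.e c := by
  obtain ⟨u, -, hu, h⟩ := S.res_shape htr hres hP hQ
  rw [(S.V c).w_mul (zpow_ne_zero _ S.q_ne_FL) ((S.V c).ne_zero_of_res h hu), zpow_w,
    (S.V c).w_eq_zero_of_res h hu, add_zero]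

end Chart

end Fermat.Agent.DR.S36.Surf
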