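import Fermat.Agent.DR.S36.ChartA

set_option autoImplicit false

/-!
# Comparison of degrees

Elements of `FL` which are linearly independent over `L(x)` stay independent over `K(x)`.
-/

noncomputable section

open AlgebraicCurve Fermat.Agent.RR Polynomial IntermediateField

namespace Fermat.Agent.DR.S36.Surf

variable {L K FL F k κ : Type*} [Field L] [Field K] [Field FL] [Field F] [Field k] [Field κ]
  [Algebra L K] [Algebra L FL] [Algebra K F] [Algebra FL F] [Algebra k κ]
  {A₀ : ValuationSubring L} {q : ℕ} (S : Surf L K FL F k κ A₀ q)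

section Indep

open scoped IntermediateField.algebraAdjoinAdjoin

variable {x : FL}

/-- `x ^ i * b j` are linearly independent over `L`. -/
theorem linearIndependent_pow_mul (hx : Transcendental L x) {m : ℕ} {b : Fin m → FL}
    (hb : LinearIndependent L⟮x⟯ b) (N : ℕ) :
    LinearIndependent L fun p : Fin N × Fin m => x ^ (p.1 : ℕ) * b p.2 := by
  rw [Fintype.linearIndependent_iff]
  intro g hg p
  rw [Fintype.sum_prod_type_right] at hg
  let P : Fin m → L[X] := fun j => ∑ i : Fin N, C (g (i, j)) * X ^ (i : ℕ)
  have hP : ∀ j, aeval x (P j) ∈ L⟮x⟯ := fun j =>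
    (mem_adjoin_simple_iff L _).mpr ⟨P j, 1, by simp⟩
  have h1 : ∑ j, (⟨aeval x (P j), hP j⟩ : L⟮x⟯) • b j = 0 := by
    rw [← hg]
    refine Finset.sum_congr rfl fun j _ => ?_
    change aeval x (P j) * b j = _
    simp only [P, map_sum, map_mul, aeval_C, map_pow, aeval_X, Finset.sum_mul]
    refine Finset.sum_congr rfl fun i _ => ?_
    rw [Algebra.smul_def, mul_assoc]
  have h2 := Fintype.linearIndependent_iff.mp hb _ h1 p.2
  have h3 : aeval x (P p.2) = 0 := congrArg Subtype.val h2
  have h4 : P p.2 = 0 := by
    by_contra hne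
    exact hx ⟨_, hne, h3⟩
  have h5 := congrArg (fun r => r.coeff (p.1 : ℕ)) h4
  simp only [P, finsetSum_coeff, coeff_C_mul, coeff_X_pow, coeff_zero] at h5
  rw [Finset.sum_eq_single p.1] at h5
  · simpa using h5
  · intro i _ hi
    rw [if_neg (fun h => hi (Fin.ext h.symm)), mul_zero]
  · intro h
    exact absurd (Finset.mem_univ _) h

include S in
theorem linearIndependent_map' (hx : Transcendental L x) {m : ℕ} {b : Fin m → FL}
    (hb : LinearIndependent L⟮x⟯ b) (x' : F) (hx' : algebraMap FL F x = x') :
    LinearIndependent K⟮x'⟯ fun i => algebraMap FL F (b i) := by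
  classical
  refine (LinearIndependent.iff_fractionRing (Algebra.adjoin K {x'}) K⟮x'⟯).mp ?_
  rw [Fintype.linearIndependent_iff]
  intro g hg j₀
  have hex : ∀ j, ∃ P : K[X], aeval x' P = (g j : F) := by
    intro j
    obtain ⟨r, hr⟩ := g j
    rw [Algebra.adjoin_singleton_eq_range_aeval] at hr
    exact hr
  choose P hP using hex
  obtain ⟨N, hN⟩ : ∃ N, ∀ j, (P j).natDegree < N := by
    refine ⟨(Finset.univ.sup fun j => (P j).natDegree) + 1, fun j => ?_⟩
    exact Nat.lt_succ_of_le (Finset.le_sup (f := fun j => (P j).natDegree) (Finset.mem_univ j))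
  have h1 := linearIndependent_pow_mul hx hb N
  -- transport to `K`
  let e : Fin (N * m) ≃ Fin N × Fin m := finProdFinEquiv.symm
  have h2 := (linearIndependent_equiv e).mpr h1
  have h3 := S.disj _ _ h2
  have h4 : LinearIndependent K fun p : Fin N × Fin m =>
      algebraMap FL F (x ^ (p.1 : ℕ) * b p.2) := by
    rw [← linearIndependent_equiv e]
    exact h3
  have h5 : ∑ p : Fin N × Fin m, (P p.2).coeff p.1 • algebraMap FL F (x ^ (p.1 : ℕ) * b p.2) =
      0 := by
    rw [Fintype.sum_prod_type_right, ← hg]
    refine Finset.sum_congr rfl fun j _ => ?_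
    change _ = (g j : F) * algebraMap FL F (b j)
    rw [← hP j, aeval_eq_sum_range' (hN j), Finset.sum_mul, ← Fin.sum_univ_eq_sum_range
      (fun i => (P j).coeff i • x' ^ i * algebraMap FL F (b j))]
    refine Finset.sum_congr rfl fun i _ => ?_
    rw [map_mul, map_pow, smul_mul_assoc, hx']
  have h6 := Fintype.linearIndependent_iff.mp h4 _ h5
  have h7 : P j₀ = 0 := by
    ext i
    rw [coeff_zero]
    by_cases hi : i < N
    · exact h6 (⟨i, hi⟩, j₀)
    · exact coeff_eq_zero_of_natDegree_lt ((hN j₀).trans_le (not_lt.mp hi))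
  apply Subtype.ext
  rw [← hP j₀, h7, map_zero]
  rfl

include S in
theorem linearIndependent_map (hx : Transcendental L x) {m : ℕ} {b : Fin m → FL}
    (hb : LinearIndependent L⟮x⟯ b) :
    LinearIndependent K⟮algebraMap FL F x⟯ fun i => algebraMap FL F (b i) :=
  S.linearIndependent_map' hx hb _ rfl

end Indep

theorem finiteDimensional_of_tr {k F : Type*} [Field k] [Field F] [Algebra k F]
    [FunctionField k F] {x : F} (hx : Transcendental k x) : FiniteDimensional k⟮x⟯ F := by
  have : Fermat.FF.IsFF1 k F := ⟨FunctionField.exists_finite⟩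
  exact Fermat.FF.IsFF1.finiteDimensional_adjoin hx

section Degree

variable [FunctionField K F] [IsAlgClosed K] {x : FL}

include S in
theorem card_le_of_linearIndependent (hx : Transcendental L x)
    (hx' : Transcendental K (algebraMap FL F x)) {m : ℕ} {b : Fin m → FL}
    (hb : LinearIndependent L⟮x⟯ b) :
    (m : ℤ) ≤ Divisor.degree (polesOf (K := K) (algebraMap FL F x)) := by
  have := finiteDimensional_of_tr hx'
  rw [degree_polesOf hx']
  have h := (S.linearIndependent_map hx hb).fintype_card_le_finrank
  rw [Fintype.card_fin] at h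
  exact_mod_cast h

include S in
theorem rank_le (hx : Transcendental L x)
    (hx' : Transcendental K (algebraMap FL F x)) :
    Module.rank L⟮x⟯ FL ≤
      ((Divisor.degree (polesOf (K := K) (algebraMap FL F x))).toNat : ℕ) := by
  apply _root_.rank_le
  intro s hs
  have h1 := S.card_le_of_linearIndependent hx hx'
    ((linearIndependent_equiv s.equivFin.symm).mpr hs)
  omega

include S in
theorem finiteDimensional_x (hx : Transcendental L x)
    (hx' : Transcendental K (algebraMap FL F x)) : FiniteDimensional L⟮x⟯ FL :=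
  Module.rank_lt_aleph0_iff.mp ((S.rank_le hx hx').trans_lt (Cardinal.natCast_lt_aleph0))

end Degree

end Fermat.Agent.DR.S36.Surf
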