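import Fermat.Agent.DR.S36.ChartB

set_option autoImplicit false

/-!
# A basis of `FL` over `L(x)` adapted to the components
-/

noncomputable section

open AlgebraicCurve Fermat.Agent.RR Polynomial IntermediateField

namespace Fermat.Agent.DR.S36.Surf

variable {L K FL F k κ : Type*} [Field L] [Field K] [Field FL] [Field F] [Field k] [Field κ]
  [Algebra L K] [Algebra L FL] [Algebra K F] [Algebra FL F] [Algebra k κ]
  {A₀ : ValuationSubring L} {q : ℕ} (S : Surf L K FL F k κ A₀ q)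

section Family

variable {f : Fin 3 → ℕ}

/-- index set of the adapted family -/
abbrev Ix (S : Surf L K FL F k κ A₀ q) (f : Fin 3 → ℕ) : Type :=
  Σ c : Fin 3, Fin (f c) × Fin (S.e c)

/-- An adapted family. -/
structure Adapted (f : Fin 3 → ℕ) (u : ∀ c, Fin (f c) → κ) where
  s : Fin 3 → FL
  w_s : ∀ c, (S.V c).w (s c) = 1
  b : S.Ix f → FL
  b_ne : ∀ i, b i ≠ 0
  res_b : ∀ i, (S.V i.1).Res (b i / s i.1 ^ (i.2.2 : ℕ)) (u i.1 i.2.1)
  w_b : ∀ i c, c ≠ i.1 → (S.e c : ℤ) ≤ (S.V c).w (b i)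

theorem ne_zero_of_w {c : Fin 3} {s : FL} (h : (S.V c).w s = 1) : s ≠ 0 := by
  rintro rfl
  simp at h

theorem exists_adapted (f : Fin 3 → ℕ) (u : ∀ c, Fin (f c) → κ) (hu : ∀ c i, u c i ≠ 0) :
    Nonempty (S.Adapted f u) := by
  classical
  choose s hs using S.unif
  -- idempotent like elements
  have hε : ∀ c, ∃ ε : FL, ∀ c', (S.V c').Res ε (if c' = c then 1 else 0) := fun c =>
    S.approx fun c' => if c' = c then 1 else 0
  choose ε hε using hε
  have hεc : ∀ c, (S.V c).Res (ε c) 1 := fun c => by have := hε c c; rwa [if_pos rfl] at this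
  have hε0 : ∀ c, ε c ≠ 0 := fun c => (S.V c).ne_zero_of_res (hεc c) one_ne_zero
  have hεw : ∀ c c', c' ≠ c → 1 ≤ (S.V c').w (ε c) := by
    intro c c' hne
    have h1 := hε c c'
    rw [if_neg hne, (S.V c').res_zero_iff, (S.V c').pos_iff] at h1
    rcases h1 with h1 | h1
    · exact absurd h1 (hε0 c)
    · omega
  -- lifts of the `u c i`
  have hg : ∀ c i, ∃ g : FL, ∀ c', (S.V c').Res g (if c' = c then u c i else 0) := fun c i =>
    S.approx fun c' => if c' = c then u c i else 0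
  choose g hg using hg
  have hgc : ∀ c i, (S.V c).Res (g c i) (u c i) := fun c i => by
    have := hg c i c; rwa [if_pos rfl] at this
  have hg0 : ∀ c i, g c i ≠ 0 := fun c i => (S.V c).ne_zero_of_res (hgc c i) (hu c i)
  have hgw : ∀ c i c', 0 ≤ (S.V c').w (g c i) := fun c i c' =>
    (S.V c').nonneg_iff'.mp ((S.V c').nonneg (hg c i c'))
  -- a large exponent
  obtain ⟨M, hM⟩ : ∃ M : ℕ, ∀ c c' (a : Fin (S.e c)),
      (S.e c' : ℤ) ≤ M + (a : ℕ) * (S.V c').w (s c) := by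
    have hfin : ∀ c c', ∃ M : ℕ, ∀ a : Fin (S.e c),
        (S.e c' : ℤ) ≤ M + (a : ℕ) * (S.V c').w (s c) := by
      intro c c'
      refine ⟨S.e c' + S.e c * ((S.V c').w (s c)).natAbs, fun a => ?_⟩
      have h1 : -(((S.V c').w (s c)).natAbs : ℤ) ≤ (S.V c').w (s c) := by omega
      have h2 : ((a : ℕ) : ℤ) ≤ S.e c := by exact_mod_cast a.2.le
      have h3 : (0 : ℤ) ≤ (((S.V c').w (s c)).natAbs : ℤ) := Int.natCast_nonneg _
      have h4 : ((a : ℕ) : ℤ) * (-(((S.V c').w (s c)).natAbs : ℤ)) ≤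
          ((a : ℕ) : ℤ) * (S.V c').w (s c) :=
        mul_le_mul_of_nonneg_left h1 (Int.natCast_nonneg _)
      have h5 : ((a : ℕ) : ℤ) * (((S.V c').w (s c)).natAbs : ℤ) ≤
          S.e c * (((S.V c').w (s c)).natAbs : ℤ) := mul_le_mul_of_nonneg_right h2 h3
      simp only [Nat.cast_add, Nat.cast_mul]
      linarith
    choose M hM using hfin
    refine ⟨∑ c, ∑ c', M c c', fun c c' a => (hM c c' a).trans ?_⟩
    have h1 : M c c' ≤ ∑ c, ∑ c', M c c' :=
      (Finset.single_le_sum (f := fun c' => M c c') (fun _ _ => Nat.zero_le _)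
        (Finset.mem_univ c')).trans
      (Finset.single_le_sum (f := fun c => ∑ c', M c c') (fun _ _ => Nat.zero_le _)
        (Finset.mem_univ c))
    have h2 : (M c c' : ℤ) ≤ ((∑ c, ∑ c', M c c' : ℕ) : ℤ) := by exact_mod_cast h1
    linarith
  have hs0 : ∀ c, s c ≠ 0 := fun c => S.ne_zero_of_w (hs c)
  refine ⟨⟨s, hs, fun i => s i.1 ^ (i.2.2 : ℕ) * (ε i.1 ^ M * g i.1 i.2.1), fun i => ?_,
    fun i => ?_, fun i c hc => ?_⟩⟩
  · exact mul_ne_zero (pow_ne_zero _ (hs0 _)) (mul_ne_zero (pow_ne_zero _ (hε0 _)) (hg0 _ _))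
  · rw [mul_div_cancel_left₀ _ (pow_ne_zero _ (hs0 _))]
    have h := (S.V i.1).res_mul ((S.V i.1).res_pow (hεc i.1) M) (hgc i.1 i.2.1)
    rwa [one_pow, one_mul] at h
  · rw [(S.V c).w_mul (pow_ne_zero _ (hs0 _)) (mul_ne_zero (pow_ne_zero _ (hε0 _)) (hg0 _ _)),
      (S.V c).w_mul (pow_ne_zero _ (hε0 _)) (hg0 _ _), (S.V c).w_pow, (S.V c).w_pow]
    have h1 := hεw i.1 c hc
    have h2 := hgw i.1 i.2.1 c
    have h3 := hM i.1 c i.2.2
    have h4 : (M : ℤ) ≤ M * (S.V c).w (ε i.1) := by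
      have : (0 : ℤ) ≤ M := Int.natCast_nonneg _
      nlinarith
    linarith

end Family

section Key

variable {x : FL} {xb : Fin 3 → κ} {f : Fin 3 → ℕ} {u : ∀ c, Fin (f c) → κ}

theorem w_of_mem (htr : ∀ c, Transcendental k (xb c)) (hres : ∀ c, (S.V c).Res x (xb c))
    {α : FL} (hα : α ∈ L⟮x⟯) (c : Fin 3) : (S.V c).w α = S.e c * (S.V 0).w α := by
  rcases eq_or_ne α 0 with rfl | h0
  · simp
  obtain ⟨t, P, Q, hP, hQ, rfl⟩ := S.exists_shape hα h0
  rw [S.w_shape (htr c) (hres c) hP hQ, S.w_shape (htr 0) (hres 0) hP hQ, S.e_zero]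
  push_cast
  ring

theorem res_of_mem (htr : ∀ c, Transcendental k (xb c)) (hres : ∀ c, (S.V c).Res x (xb c))
    {α : FL} (hα : α ∈ L⟮x⟯) (h0 : 0 ≤ (S.V 0).w α) (c : Fin 3) :
    ∃ r ∈ k⟮xb c⟯, (S.V c).Res α r := by
  rcases eq_or_ne α 0 with rfl | hne
  · exact ⟨0, zero_mem _, (S.V c).res_zero⟩
  obtain ⟨t, P, Q, hP, hQ, rfl⟩ := S.exists_shape hα hne
  rw [S.w_shape (htr 0) (hres 0) hP hQ, S.e_zero, Nat.cast_one, mul_one] at h0
  obtain ⟨r, hr, -, h⟩ := S.res_shape (htr c) (hres c) hP hQ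
  obtain ⟨m, rfl⟩ := Int.eq_ofNat_of_zero_le h0
  rcases Nat.eq_zero_or_pos m with rfl | hm
  · refine ⟨r, hr, ?_⟩
    simpa using h
  · refine ⟨0, zero_mem _, ?_⟩
    have h1 : (S.V c).Res ((q : FL) ^ (m : ℤ)) 0 := by
      rw [(S.V c).res_zero_iff, (S.V c).pos_iff, S.zpow_w]
      right
      have := S.e_pos c
      positivity
    have h2 := (S.V c).res_mul h1 h
    rwa [zero_mul] at h2

/-- **Key lemma**: values of combinations of an adapted family. -/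
theorem Adapted.key (B : S.Adapted f u) (htr : ∀ c, Transcendental k (xb c))
    (hres : ∀ c, (S.V c).Res x (xb c)) (hu : ∀ c, LinearIndependent k⟮xb c⟯ (u c))
    {α : S.Ix f → FL} (hα : ∀ i, α i ∈ L⟮x⟯) (hne : ∃ i, α i ≠ 0) :
    ∃ (c : Fin 3) (a : ℕ) (μ : ℤ), a < S.e c ∧ (∀ i, α i ≠ 0 → μ ≤ (S.V 0).w (α i)) ∧
      ∑ i, α i * B.b i ≠ 0 ∧ (S.V c).w (∑ i, α i * B.b i) = S.e c * μ + a := by
  classical
  -- the minimal value
  obtain ⟨i₁, hi₁⟩ := hne
  let N : Finset (S.Ix f) := Finset.univ.filter fun i => α i ≠ 0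
  have hN : ∀ i, i ∈ N ↔ α i ≠ 0 := fun i => by simp [N]
  obtain ⟨i₂, hi₂, hmin⟩ := N.exists_min_image (fun i => (S.V 0).w (α i)) ⟨i₁, (hN _).mpr hi₁⟩
  set μ := (S.V 0).w (α i₂) with hμ
  set c := i₂.1 with hc
  -- the minimal exponent on the component `c`
  let N' : Finset (S.Ix f) := N.filter fun i => i.1 = c ∧ (S.V 0).w (α i) = μ
  have hN' : ∀ i, i ∈ N' ↔ α i ≠ 0 ∧ i.1 = c ∧ (S.V 0).w (α i) = μ := fun i => by
    simp [N', hN]
  obtain ⟨i₀, hi₀, hmin'⟩ := N'.exists_min_image (fun i => (i.2.2 : ℕ))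
    ⟨i₂, (hN' _).mpr ⟨(hN _).mp hi₂, rfl, rfl⟩⟩
  obtain ⟨hα₀, hc₀, hμ₀⟩ := (hN' _).mp hi₀
  set a : ℕ := (i₀.2.2 : ℕ) with ha
  have hae : a < S.e c := lt_of_lt_of_eq i₀.2.2.2 (congrArg S.e hc₀)
  have hs0 : B.s c ≠ 0 := S.ne_zero_of_w (B.w_s c)
  have hq0 := S.q_ne_FL
  set D : FL := (q : FL) ^ μ * B.s c ^ a with hD
  have hD0 : D ≠ 0 := mul_ne_zero (zpow_ne_zero _ hq0) (pow_ne_zero _ hs0)
  have hwD : (S.V c).w D = S.e c * μ + a := by
    rw [hD, (S.V c).w_mul (zpow_ne_zero _ hq0) (pow_ne_zero _ hs0), S.zpow_w, (S.V c).w_pow,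
      B.w_s]
    ring
  -- values of the terms
  have hwα : ∀ i, (S.V c).w (α i) = S.e c * (S.V 0).w (α i) := fun i =>
    S.w_of_mem htr hres (hα i) c
  have hwterm : ∀ i, α i ≠ 0 → (S.V c).w (α i * B.b i / D) =
      S.e c * ((S.V 0).w (α i) - μ) + (S.V c).w (B.b i) - a := by
    intro i hi
    rw [(S.V c).w_div (mul_ne_zero hi (B.b_ne i)) hD0, (S.V c).w_mul hi (B.b_ne i), hwα, hwD]
    ring
  have hepos : (0 : ℤ) < S.e c := by exact_mod_cast S.e_pos c
  have hμle : ∀ i, α i ≠ 0 → μ ≤ (S.V 0).w (α i) := fun i hi => hmin i ((hN i).mpr hi)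
  -- terms on the other components
  have hother : ∀ i : S.Ix f, i.1 ≠ c → (S.V c).Res (α i * B.b i / D) 0 := by
    intro i hic
    rw [(S.V c).res_zero_iff, (S.V c).pos_iff]
    rcases eq_or_ne (α i) 0 with h0 | h0
    · left; rw [h0, zero_mul, zero_div]
    · right
      rw [hwterm i h0]
      have h1 := B.w_b i c (Ne.symm hic)
      have h2 := hμle i h0
      have h3 : (0 : ℤ) ≤ S.e c * ((S.V 0).w (α i) - μ) :=
        mul_nonneg hepos.le (by linarith)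
      have h4 : (a : ℤ) < S.e c := by exact_mod_cast hae
      linarith
  -- terms on `c`
  have hwb : ∀ (j : Fin (f c)) (a' : Fin (S.e c)), (S.V c).w (B.b ⟨c, (j, a')⟩) = a' := by
    intro j a'
    have h1 := B.res_b ⟨c, (j, a')⟩
    have h2 := (S.V c).w_eq_zero_of_res h1 ((hu c).ne_zero j)
    rw [(S.V c).w_div (B.b_ne _) (pow_ne_zero _ hs0), (S.V c).w_pow, B.w_s] at h2
    linarith
  have hdiff : ∀ (j : Fin (f c)) (a' : Fin (S.e c)), (a' : ℕ) ≠ a →
      (S.V c).Res (α ⟨c, (j, a')⟩ * B.b ⟨c, (j, a')⟩ / D) 0 := by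
    intro j a' hne
    rw [(S.V c).res_zero_iff, (S.V c).pos_iff]
    rcases eq_or_ne (α ⟨c, (j, a')⟩) 0 with h0 | h0
    · left; rw [h0, zero_mul, zero_div]
    · right
      rw [hwterm _ h0, hwb]
      have h2 := hμle _ h0
      have h4 : (a : ℤ) < S.e c := by exact_mod_cast hae
      rcases lt_or_gt_of_ne hne with h5 | h5
      · -- then the value is not minimal
        have h6 : (S.V 0).w (α ⟨c, (j, a')⟩) ≠ μ := by
          intro h7
          have h8 := hmin' ⟨c, (j, a')⟩ ((hN' _).mpr ⟨h0, rfl, h7⟩)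
          exact absurd h8 (not_le.mpr h5)
        have h7 : 1 ≤ (S.V 0).w (α ⟨c, (j, a')⟩) - μ := by
          have := lt_of_le_of_ne h2 (Ne.symm h6)
          omega
        have h8 : (S.e c : ℤ) ≤ S.e c * ((S.V 0).w (α ⟨c, (j, a')⟩) - μ) := by nlinarith
        have h9 : (0 : ℤ) ≤ ((a' : ℕ) : ℤ) := Int.natCast_nonneg _
        linarith
      · have h3 : (0 : ℤ) ≤ S.e c * ((S.V 0).w (α ⟨c, (j, a')⟩) - μ) :=
          mul_nonneg hepos.le (by linarith)
        have h6 : (a : ℤ) < ((a' : ℕ) : ℤ) := by exact_mod_cast h5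
        linarith
  -- the main terms
  set aF : Fin (S.e c) := ⟨a, hae⟩ with haF
  have hmain : ∀ j : Fin (f c), ∃ r ∈ k⟮xb c⟯, (S.V c).Res ((q : FL) ^ (-μ) * α ⟨c, (j, aF)⟩) r ∧
      (S.V c).Res (α ⟨c, (j, aF)⟩ * B.b ⟨c, (j, aF)⟩ / D) (r * u c j) := by
    intro j
    have hmem : (q : FL) ^ (-μ) * α ⟨c, (j, aF)⟩ ∈ L⟮x⟯ := by
      refine mul_mem (zpow_mem ?_ _) (hα _)
      exact _root_.natCast_mem _ q
    have hnn : 0 ≤ (S.V 0).w ((q : FL) ^ (-μ) * α ⟨c, (j, aF)⟩) := by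
      rcases eq_or_ne (α ⟨c, (j, aF)⟩) 0 with h0 | h0
      · rw [h0, mul_zero, (S.V 0).w_zero]
      · rw [(S.V 0).w_mul (zpow_ne_zero _ hq0) h0, S.zpow_w, S.e_zero]
        have := hμle _ h0
        push_cast
        linarith
    obtain ⟨r, hr, hrr⟩ := S.res_of_mem htr hres hmem hnn c
    refine ⟨r, hr, hrr, ?_⟩
    have h1 := (S.V c).res_mul hrr (B.res_b ⟨c, (j, aF)⟩)
    have h2 : (q : FL) ^ (-μ) * α ⟨c, (j, aF)⟩ * (B.b ⟨c, (j, aF)⟩ / B.s c ^ a) =
        α ⟨c, (j, aF)⟩ * B.b ⟨c, (j, aF)⟩ / D := by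
      rw [hD, zpow_neg]
      have := zpow_ne_zero μ hq0
      field_simp
    rw [← h2]
    exact h1
  choose r hrmem hr1 hr2 using hmain
  -- the residue of the sum
  have hsum : (S.V c).Res (∑ i, α i * B.b i / D) (∑ j, r j * u c j) := by
    rw [Fintype.sum_sigma]
    have h1 : ∑ j, r j * u c j = ∑ c', if c' = c then ∑ j, r j * u c j else 0 := by
      rw [Finset.sum_ite_eq' Finset.univ c, if_pos (Finset.mem_univ c)]
    rw [h1]
    apply (S.V c).res_sum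
    intro c' _
    split_ifs with hcc
    · obtain rfl : c = c' := hcc.symm
      rw [Fintype.sum_prod_type]
      apply (S.V c).res_sum
      intro j _
      have h2 : r j * u c j = ∑ a', if a' = aF then r j * u c j else 0 := by
        rw [Finset.sum_ite_eq' Finset.univ aF, if_pos (Finset.mem_univ aF)]
      rw [h2]
      apply (S.V c).res_sum
      intro a' _
      split_ifs with haa
      · rw [haa]; exact hr2 j
      · exact hdiff j a' fun h => haa (Fin.ext h)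
    · have h2 : (0 : κ) = ∑ _p : Fin (f c') × Fin (S.e c'), 0 := by simp
      rw [h2]
      apply (S.V c).res_sum
      intro p _
      exact hother ⟨c', p⟩ hcc
  have hrne : ∑ j, r j * u c j ≠ 0 := by
    intro h0
    have h1 : ∑ j, (⟨r j, hrmem j⟩ : k⟮xb c⟯) • u c j = 0 := h0
    have h2 := Fintype.linearIndependent_iff.mp (hu c) _ h1
    -- the coefficient of `i₀`
    have hi₀' : i₀ = ⟨c, (Fin.cast (by rw [hc₀]) i₀.2.1, aF)⟩ := by
      obtain ⟨c₀, j₀, a₀⟩ := i₀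
      obtain rfl : c₀ = c := hc₀
      rfl
    have h3 := congrArg Subtype.val (h2 (Fin.cast (by rw [hc₀]) i₀.2.1))
    have h4 := hr1 (Fin.cast (by rw [hc₀]) i₀.2.1)
    rw [← hi₀'] at h4
    have h5 : r (Fin.cast (by rw [hc₀]) i₀.2.1) = 0 := h3
    rw [h5, (S.V c).res_zero_iff, (S.V c).pos_iff] at h4
    rcases h4 with h4 | h4
    · exact (mul_ne_zero (zpow_ne_zero _ hq0) hα₀) h4
    · rw [(S.V c).w_mul (zpow_ne_zero _ hq0) hα₀, S.zpow_w, hwα, hμ₀] at h4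
      linarith
  rw [← Finset.sum_div] at hsum
  have hne' := (S.V c).ne_zero_of_res hsum hrne
  have hw' := (S.V c).w_eq_zero_of_res hsum hrne
  have hh : ∑ i, α i * B.b i ≠ 0 := fun h => hne' (by rw [h, zero_div])
  refine ⟨c, a, μ, hae, hμle, hh, ?_⟩
  rw [(S.V c).w_div hh hD0, hwD] at hw'
  linarith

end Key

end Fermat.Agent.DR.S36.Surf
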