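import Fermat.Agent.DR.S36.ChartC

set_option autoImplicit false
set_option linter.unusedSectionVars false

/-!
# Integrality over the Gauss valuation ring of `L(x)`
-/

noncomputable section

open AlgebraicCurve Fermat.Agent.RR Polynomial IntermediateField

namespace Fermat.Agent.DR.S36.Surf

variable {L K FL F k κ : Type*} [Field L] [Field K] [Field FL] [Field F] [Field k] [Field κ]
  [Algebra L K] [Algebra L FL] [Algebra K F] [Algebra FL F] [Algebra k κ]
  {A₀ : ValuationSubring L} {q : ℕ} (S : Surf L K FL F k κ A₀ q)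

section Pow

variable [FunctionField k κ]

theorem polesOf_pow (y : κ) (n : ℕ) : polesOf (K := k) (y ^ n) = n • polesOf y := by
  ext v
  rw [Finsupp.smul_apply, polesOf_apply, polesOf_apply, ord_pow, nsmul_eq_mul]
  have hn : (0 : ℤ) ≤ n := Int.natCast_nonneg _
  rw [← mul_neg, mul_max_of_nonneg _ _ hn, mul_zero]

theorem finrank_pow [IsAlgClosed k] {y : κ} (hy : Transcendental k y) {n : ℕ} (hn : 0 < n) :
    (Module.finrank k⟮y ^ n⟯ κ : ℤ) = n * Divisor.degree (polesOf (K := k) y) := by
  have h1 := hy.pow hn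
  have h2 := finiteDimensional_of_tr h1
  rw [← degree_polesOf h1, polesOf_pow, map_nsmul, nsmul_eq_mul]

end Pow

section Lattice

variable [IsAlgClosed K] [FunctionField K F] [IsAlgClosed k] [FunctionField k κ]
  {x : FL} {y : κ}

/-- All the data attached to a chart function. -/
structure CD (S : Surf L K FL F k κ A₀ q) (x : FL) where
  xb : Fin 3 → κ
  tr : ∀ c, Transcendental k (xb c)
  res : ∀ c, (S.V c).Res x (xb c)
  f : Fin 3 → ℕ
  u : ∀ c, Fin (f c) → κ
  hu : ∀ c, LinearIndependent k⟮xb c⟯ (u c)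
  B : S.Adapted f u
  trL : Transcendental L x
  trK : Transcendental K (algebraMap FL F x)
  card : (Divisor.degree (polesOf (K := K) (algebraMap FL F x))).toNat =
    Fintype.card (S.Ix f)

variable {S}

theorem IsChart.exists_cd (hx : S.IsChart x y) : Nonempty (S.CD x) := by
  obtain ⟨n, hn, hdeg⟩ := hx.deg
  have hy := hx.transcendental
  have htr : ∀ c, Transcendental k (y ^ n c) := fun c => hy.pow (hn c).1
  have hfd : ∀ c, FiniteDimensional k⟮y ^ n c⟯ κ := fun c => finiteDimensional_of_tr (htr c)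
  let u : ∀ c, Fin (Module.finrank k⟮y ^ n c⟯ κ) → κ := fun c => Module.finBasis k⟮y ^ n c⟯ κ
  have hu : ∀ c, LinearIndependent k⟮y ^ n c⟯ (u c) := fun c =>
    (Module.finBasis k⟮y ^ n c⟯ κ).linearIndependent
  obtain ⟨B⟩ := S.exists_adapted _ u (fun c i => (hu c).ne_zero i)
  have hy' : 0 < Divisor.degree (polesOf (K := k) y) := by
    have h := finiteDimensional_of_tr hy
    rw [degree_polesOf hy]
    exact_mod_cast Module.finrank_pos
  have hcard : Divisor.degree (polesOf (K := K) (algebraMap FL F x)) =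
      (Fintype.card (S.Ix fun c => Module.finrank k⟮y ^ n c⟯ κ) : ℤ) := by
    rw [Fintype.card_sigma, hdeg]
    push_cast
    refine Finset.sum_congr rfl fun c _ => ?_
    rw [Fintype.card_prod, Fintype.card_fin, Fintype.card_fin]
    push_cast
    rw [finrank_pow hy (hn c).1]
    ring
  have hpos : 0 < Divisor.degree (polesOf (K := K) (algebraMap FL F x)) := by
    rw [hdeg]
    apply Finset.sum_pos
    · intro c _
      refine mul_pos ?_ hy'
      exact_mod_cast Nat.mul_pos (S.e_pos c) (hn c).1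
    · exact Finset.univ_nonempty
  refine ⟨⟨fun c => y ^ n c, htr, fun c => (hn c).2, _, u, hu, B,
    S.transcendental_x (c := 0) (htr 0) (hn 0).2,
    Fermat.Agent.DR.Nodes.transcendental_of_degree_pos hpos, ?_⟩⟩
  rw [hcard]
  exact Int.toNat_natCast _

namespace CD

variable (D : S.CD x)

include D in
theorem finiteDimensional : FiniteDimensional L⟮x⟯ FL := S.finiteDimensional_x D.trL D.trK

theorem linearIndependent : LinearIndependent L⟮x⟯ D.B.b := by
  rw [Fintype.linearIndependent_iff]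
  intro g hg i
  by_contra hi
  obtain ⟨c, a, μ, -, -, h, -⟩ := D.B.key S D.tr D.res D.hu (α := fun i => ((g i : L⟮x⟯) : FL))
    (fun i => (g i).2) ⟨i, fun h => hi (Subtype.ext h)⟩
  exact h hg

theorem span_eq_top : Submodule.span L⟮x⟯ (Set.range D.B.b) = ⊤ := by
  have := D.finiteDimensional
  have h1 := D.linearIndependent
  apply h1.span_eq_top_of_card_eq_finrank'
  apply le_antisymm
  · exact h1.fintype_card_le_finrank
  · rw [← D.card]
    have h2 := S.rank_le D.trL D.trK
    exact Module.finrank_le_of_rank_le h2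

/-- Integral functions are combinations of the adapted basis with integral coefficients. -/
theorem exists_coeff {h : FL} (hh : ∀ c, 0 ≤ (S.V c).w h) :
    ∃ α : S.Ix D.f → L⟮x⟯, h = ∑ i, (α i : FL) * D.B.b i ∧
      ∀ i, 0 ≤ (S.V 0).w (α i : FL) := by
  have h1 : h ∈ Submodule.span L⟮x⟯ (Set.range D.B.b) := by
    rw [D.span_eq_top]; trivial
  obtain ⟨α, hα⟩ := (Submodule.mem_span_range_iff_exists_fun _).mp h1
  have hα' : h = ∑ i, (α i : FL) * D.B.b i := hα.symm
  refine ⟨α, hα', fun i => ?_⟩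
  rcases eq_or_ne (α i : FL) 0 with h0 | h0
  · rw [h0, CompVal.w_zero]
  obtain ⟨c, a, μ, ha, hμ, -, hw⟩ := D.B.key S D.tr D.res D.hu
    (α := fun i => ((α i : L⟮x⟯) : FL)) (fun i => (α i).2) ⟨i, h0⟩
  refine le_trans ?_ (hμ i h0)
  have h2 := hh c
  rw [hα', hw] at h2
  have h3 : (a : ℤ) < S.e c := by exact_mod_cast ha
  by_contra hneg
  push Not at hneg
  have h4 : (S.e c : ℤ) * μ ≤ S.e c * (-1) :=
    mul_le_mul_of_nonneg_left (by omega) (Int.natCast_nonneg _)
  linarith

theorem w_b_nonneg (i : S.Ix D.f) (c : Fin 3) : 0 ≤ (S.V c).w (D.B.b i) := by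
  by_cases hc : c = i.1
  · subst hc
    have h1 := D.B.res_b i
    have h2 := (S.V i.1).w_eq_zero_of_res h1 ((D.hu i.1).ne_zero i.2.1)
    rw [(S.V i.1).w_div (D.B.b_ne _) (pow_ne_zero _ (S.ne_zero_of_w (D.B.w_s _))),
      (S.V i.1).w_pow, D.B.w_s] at h2
    have h3 : (0 : ℤ) ≤ ((i.2.2 : ℕ) : ℤ) := Int.natCast_nonneg _
    linarith
  · exact (Int.natCast_nonneg _).trans (D.B.w_b i c hc)

end CD

/-- The Gauss valuation ring of `L(x)`. -/
def Vx (S : Surf L K FL F k κ A₀ q) (x : FL) : ValuationSubring L⟮x⟯ :=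
  (S.V 0).W.comap (algebraMap L⟮x⟯ FL)

theorem mem_Vx {α : L⟮x⟯} : α ∈ Vx S x ↔ 0 ≤ (S.V 0).w (α : FL) := by
  rw [← CompVal.mem_W']
  rfl

/-- Integrality over the Gauss ring. -/
theorem CD.isIntegral_Vx (D : S.CD x) {h : FL} (hh : ∀ c, 0 ≤ (S.V c).w h) :
    ((algebraMap L⟮x⟯ FL).comp (Vx S x).subtype).IsIntegralElem h := by
  let _ : Algebra (Vx S x) FL := ((algebraMap L⟮x⟯ FL).comp (Vx S x).subtype).toAlgebra
  have key : IsIntegral (Vx S x) h := by
    let N : Submodule (Vx S x) FL := Submodule.span (Vx S x) (Set.range D.B.b)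
    have hmem : ∀ g : FL, (∀ c, 0 ≤ (S.V c).w g) → g ∈ N := by
      intro g hg
      obtain ⟨α, hα, hα0⟩ := D.exists_coeff hg
      rw [hα]
      refine Submodule.sum_mem _ fun i _ => ?_
      have h1 : (α i : FL) * D.B.b i = (⟨α i, mem_Vx.mpr (hα0 i)⟩ : Vx S x) • D.B.b i := by
        rw [Algebra.smul_def]
        rfl
      rw [h1]
      exact Submodule.smul_mem _ _ (Submodule.subset_span ⟨i, rfl⟩)
    have hmem' : ∀ g ∈ N, ∀ c, g ∈ (S.V c).W := by
      intro g hg c
      induction hg using Submodule.span_induction with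
      | mem g hg =>
        obtain ⟨i, rfl⟩ := hg
        exact (S.V c).mem_W'.mpr (D.w_b_nonneg i c)
      | zero => exact zero_mem _
      | add g g' _ _ hg hg' => exact add_mem hg hg'
      | smul a g _ hg =>
        rw [Algebra.smul_def]
        refine mul_mem ?_ hg
        rw [(S.V c).mem_W']
        change 0 ≤ (S.V c).w (((a : Vx S x) : L⟮x⟯) : FL)
        rw [S.w_of_mem D.tr D.res (Subtype.property _) c]
        exact mul_nonneg (Int.natCast_nonneg _) (mem_Vx.mp a.2)
    refine isIntegral_of_smul_mem_submodule N ?_ (Submodule.fg_span (Set.finite_range _)) h ?_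
    · intro h0
      have h1 : (1 : FL) ∈ N := hmem 1 fun c => by rw [CompVal.w_one]
      rw [h0, Submodule.mem_bot] at h1
      exact one_ne_zero h1
    · intro g hg
      apply hmem
      intro c
      rw [← (S.V c).mem_W', smul_eq_mul]
      exact mul_mem ((S.V c).mem_W'.mpr (hh c)) (hmem' g hg c)
  exact key

end Lattice

end Fermat.Agent.DR.S36.Surf
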