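import Fermat.Agent.DR.S36.ChartD

set_option autoImplicit false
set_option linter.unusedSectionVars false

/-!
# The coordinate ring of a chart is integral over `A₀[x]`
-/

noncomputable section

open AlgebraicCurve Fermat.Agent.RR Polynomial IntermediateField

namespace Fermat.Agent.DR.S36.Surf

variable {L K FL F k κ : Type*} [Field L] [Field K] [Field FL] [Field F] [Field k] [Field κ]
  [Algebra L K] [Algebra L FL] [Algebra K F] [Algebra FL F] [Algebra k κ]
  {A₀ : ValuationSubring L} {q : ℕ} {S : Surf L K FL F k κ A₀ q}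

section OverL

variable [IsAlgClosed K] [FunctionField K F] {x : FL}

/-- evaluation of polynomials over `L` at `x`, in `F` -/
def psi (F : Type*) [Field F] [Algebra FL F] (x : FL) : L[X] →+* F :=
  (algebraMap FL F).comp (aeval x).toRingHom

include S in
theorem isIntegralElem_const (x : FL) (a : K) :
    (psi (L := L) F x).IsIntegralElem (algebraMap K F a) := by
  have h1 : IsIntegral L a := by
    have := S.algebraic
    exact (Algebra.IsAlgebraic.isAlgebraic a).isIntegral
  obtain ⟨p, hp, hpa⟩ := h1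
  refine ⟨p.map C, hp.map _, ?_⟩
  rw [eval₂_map]
  have h2 : (psi (L := L) F x).comp C = (algebraMap K F).comp (algebraMap L K) := by
    ext b
    change algebraMap FL F (aeval x (C b)) = _
    rw [aeval_C]
    exact S.comm b
  rw [h2, ← hom_eval₂, hpa, map_zero]

include S in
theorem isIntegral_of_adjoin {x' : F} (hx' : algebraMap FL F x = x')
    {f : F} (hf : IsIntegral (Algebra.adjoin K {x'}) f) :
    (psi (L := L) F x).IsIntegralElem f := by
  let _ : Algebra L[X] F := (psi (L := L) F x).toAlgebra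
  let Cl := integralClosure L[X] F
  have h1 : ∀ r ∈ Algebra.adjoin K {x'}, r ∈ Cl := by
    intro r hr
    induction hr using Algebra.adjoin_induction with
    | mem y hy =>
      rw [Set.mem_singleton_iff.mp hy, ← hx']
      have h2 : algebraMap FL F x = algebraMap L[X] F X := by
        change _ = algebraMap FL F (aeval x X)
        rw [aeval_X]
      rw [h2]
      exact Subalgebra.algebraMap_mem _ _
    | algebraMap c => exact isIntegralElem_const (S := S) x c
    | add y z _ _ hy hz => exact add_mem hy hz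
    | mul y z _ _ hy hz => exact mul_mem hy hz
  obtain ⟨p, hp, hpf⟩ := hf
  let g : Algebra.adjoin K {x'} →+* Cl :=
    (algebraMap (Algebra.adjoin K {x'}) F).codRestrict Cl fun r => h1 r r.2
  have h2 : IsIntegral Cl f := by
    refine ⟨p.map g, hp.map _, ?_⟩
    rw [eval₂_map]
    exact hpf
  have h3 : Algebra.IsIntegral L[X] Cl := integralClosure.AlgebraIsIntegral
  exact isIntegral_trans (R := L[X]) (A := Cl) f h2

include S in
theorem Hol.isIntegral_adjoin (hx : Transcendental K (algebraMap FL F x)) {h : FL}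
    (hh : S.Hol x h) : IsIntegral (Algebra.adjoin L {x}) h := by
  have hfd := finiteDimensional_of_tr hx
  have h1 := Fermat.Agent.DR.Nodes.isIntegral_of_mem_regAlg hx (f := algebraMap FL F h) hh.2
  obtain ⟨p, hp, hph⟩ := isIntegral_of_adjoin (S := S) rfl h1
  let g : L[X] →+* Algebra.adjoin L {x} := (aeval x).toRingHom.codRestrict _ fun r => by
    rw [Algebra.adjoin_singleton_eq_range_aeval]
    exact ⟨r, rfl⟩
  refine ⟨p.map g, hp.map _, ?_⟩
  apply (algebraMap FL F).injective
  rw [eval₂_map, map_zero, hom_eval₂]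
  exact hph

end OverL

section Integral

variable [IsAlgClosed K] [FunctionField K F] [IsAlgClosed k] [FunctionField k κ]
  {x : FL} {y : κ}

theorem evx_mem (x : FL) (P : A₀[X]) : evx x P ∈ L⟮x⟯ :=
  (mem_adjoin_simple_iff L _).mpr ⟨P.map A₀.subtype, 1, by rw [map_one, div_one]; rfl⟩

/-- evaluation at `x`, with values in `L(x)` -/
def evx' (x : FL) : A₀[X] →+* L⟮x⟯ := (evx x).codRestrict L⟮x⟯ (evx_mem x)

theorem coe_evx' (x : FL) (P : A₀[X]) : ((evx' x P : L⟮x⟯) : FL) = evx x P := rfl

/-- `A₀[x] = L[x] ∩ V_x` -/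
theorem CD.mem_range_evx (D : S.CD x) {α : L⟮x⟯} (h1 : α ∈ Vx S x)
    (h2 : (α : FL) ∈ Algebra.adjoin L {x}) : α ∈ Set.range (evx' (A₀ := A₀) x) := by
  rw [Algebra.adjoin_singleton_eq_range_aeval] at h2
  obtain ⟨P, hP⟩ := h2
  rcases eq_or_ne P 0 with rfl | hP0
  · refine ⟨0, Subtype.ext ?_⟩
    rw [← hP, map_zero, map_zero]
    rfl
  obtain ⟨t, P', hP', rfl⟩ := S.exists_primitive hP0
  have hP2 : (α : FL) = (q : FL) ^ t * evx x P' := by rw [← hP]; exact aeval_eq_evx P' t
  have h3 : 0 ≤ t := by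
    have h4 := mem_Vx.mp h1
    have h5 := S.w_shape (c := 0) (D.tr 0) (D.res 0) hP' (Q := 1)
      (by rw [Polynomial.map_one]; exact one_ne_zero) t
    rw [map_one, div_one, ← hP2, S.e_zero] at h5
    rw [h5] at h4
    simpa using h4
  obtain ⟨m, rfl⟩ := Int.eq_ofNat_of_zero_le h3
  refine ⟨C ((q : A₀) ^ m) * P', Subtype.ext ?_⟩
  rw [coe_evx', hP2, map_mul, map_pow, map_pow, map_natCast, map_natCast, zpow_natCast]

/-- **Functions on the chart are integral over `A₀[x]`.** -/
theorem CD.isIntegral (D : S.CD x) {h : FL} (hh : S.Hol x h) : (evx (A₀ := A₀) x).IsIntegralElem h := by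
  have hfd := D.finiteDimensional
  have h1 := D.isIntegral_Vx fun c => (S.V c).nonneg_iff'.mp (hh.1 c)
  have h2 := Hol.isIntegral_adjoin D.trK hh
  -- the coefficients of the minimal polynomial
  have hc1 : ∀ n, (minpoly L⟮x⟯ h).coeff n ∈ Vx S x := by
    let _ : Algebra (Vx S x) FL := ((algebraMap L⟮x⟯ FL).comp (Vx S x).subtype).toAlgebra
    have : IsScalarTower (Vx S x) L⟮x⟯ FL := IsScalarTower.of_algebraMap_eq fun _ => rfl
    have h3 : IsIntegral (Vx S x) h := h1
    rw [minpoly.isIntegrallyClosed_eq_field_fractions' L⟮x⟯ h3]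
    intro n
    rw [coeff_map]
    exact Subtype.property _
  have hc2 : ∀ n, (((minpoly L⟮x⟯ h).coeff n : L⟮x⟯) : FL) ∈ Algebra.adjoin L {x} := by
    have hpid : IsPrincipalIdealRing (Algebra.adjoin L {x}) :=
      Fermat.FF.adjoin_isPrincipalIdealRing D.trL
    open scoped IntermediateField.algebraAdjoinAdjoin in
    rw [minpoly.isIntegrallyClosed_eq_field_fractions' L⟮x⟯ h2]
    intro n
    rw [coeff_map]
    exact ((minpoly (Algebra.adjoin L {x}) h).coeff n).2
  have h3 : minpoly L⟮x⟯ h ∈ lifts (evx' (A₀ := A₀) x) := by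
    rw [lifts_iff_coeff_lifts]
    exact fun n => D.mem_range_evx (hc1 n) (hc2 n)
  have h4 : IsIntegral L⟮x⟯ h := IsIntegral.of_finite _ _
  obtain ⟨p, hp1, -, hp2⟩ := lifts_and_natDegree_eq_and_monic h3 (minpoly.monic h4)
  refine ⟨p, hp2, ?_⟩
  have h5 := minpoly.aeval L⟮x⟯ h
  rw [← hp1, aeval_def, eval₂_map] at h5
  exact h5

end Integral

end Fermat.Agent.DR.S36.Surf
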