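import Fermat.Agent.DR.S36.G3

set_option autoImplicit false

/-!
# The local-global step (S36-G, part 4)

`Chart`: a field `F` with finitely many "vertical" valuation rings `W c` (components of the special
fibre) and a family `H i` of "horizontal" ones.  `B = ⋂ W c ∩ ⋂ H i`.  For a divisor with local
equations `r i`, if near every maximal ideal `n ∋ q` of `B` some power (prime to the order `m`) of
a local root of `f` is congruent, along all components, to an element of `Bₙ`, then there is a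
global section `h` congruent to `1` along all components.
-/

set_option linter.unusedSectionVars false

noncomputable section

namespace Fermat.Agent.DR.S36.G

open IsLocalRing

/-- A chart: components and horizontal valuations. -/
structure Chart (F C P : Type*) [Field F] where
  W : C → ValuationSubring F
  H : P → ValuationSubring F
  q : F
  q_ne : q ≠ 0
  q_lt : ∀ c, (W c).valuation q < 1
  q_unit : ∀ i, (H i).valuation q = 1
  fc : ∀ x : F, {i | x ∉ H i}.Finite
  rW : ∀ (c : C) (g h : F), (W c).valuation g < 1 → ∃ N : ℕ, g ^ N * h ∈ W c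
  rH : ∀ (i : P) (g h : F), (H i).valuation g < 1 → ∃ N : ℕ, g ^ N * h ∈ H i

namespace Chart

variable {F C P : Type*} [Field F] (X : Chart F C P)

/-- The whole family. -/
def V : C ⊕ P → ValuationSubring F := Sum.elim X.W X.H

@[simp] theorem V_inl (c : C) : X.V (Sum.inl c) = X.W c := rfl

@[simp] theorem V_inr (i : P) : X.V (Sum.inr i) = X.H i := rfl

/-- The coordinate ring of the chart. -/
def B : Subring F := ⨅ i, (X.V i).toSubring

theorem mem_B {x : F} : x ∈ X.B ↔ ∀ i, x ∈ X.V i := by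
  rw [B, Subring.mem_iInf]
  rfl

theorem mem_B' {x : F} : x ∈ X.B ↔ (∀ c, x ∈ X.W c) ∧ ∀ i, x ∈ X.H i := by
  rw [mem_B]
  constructor
  · exact fun h => ⟨fun c => h (Sum.inl c), fun i => h (Sum.inr i)⟩
  · rintro ⟨h1, h2⟩ (c | i)
    · exact h1 c
    · exact h2 i

theorem fcV [Finite C] (x : F) : {i | x ∉ X.V i}.Finite := by
  have h1 : {i | x ∉ X.V i} ⊆ Set.range (Sum.inl : C → C ⊕ P) ∪ Sum.inr '' {i | x ∉ X.H i} := by
    rintro (c | i) hi
    · exact Or.inl ⟨c, rfl⟩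
    · exact Or.inr ⟨i, hi, rfl⟩
  exact ((Set.finite_range _).union ((X.fc x).image _)).subset h1

theorem rV (i : C ⊕ P) (g h : F) (hg : (X.V i).valuation g < 1) : ∃ N : ℕ, g ^ N * h ∈ X.V i := by
  rcases i with c | i
  · exact X.rW c g h hg
  · exact X.rH i g h hg

/-- The sections of the divisor with local equations `r`. -/
def Sec (r : P → F) (h : F) : Prop :=
  (∀ c, h ∈ X.W c) ∧ ∀ i, (X.H i).valuation h ≤ (X.H i).valuation (r i)

variable {X}

theorem Sec.zero (r : P → F) : X.Sec r 0 := ⟨fun _ => zero_mem _, fun i => by simp⟩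

theorem Sec.add {r : P → F} {g h : F} (hg : X.Sec r g) (hh : X.Sec r h) : X.Sec r (g + h) :=
  ⟨fun c => add_mem (hg.1 c) (hh.1 c), fun i => (Valuation.map_add _ g h).trans
    (max_le (hg.2 i) (hh.2 i))⟩

theorem Sec.mul {r : P → F} {b h : F} (hb : b ∈ X.B) (hh : X.Sec r h) : X.Sec r (b * h) := by
  rw [mem_B'] at hb
  refine ⟨fun c => mul_mem (hb.1 c) (hh.1 c), fun i => ?_⟩
  rw [map_mul]
  exact (mul_le_of_le_one_left' (((X.H i).valuation_le_one_iff b).mpr (hb.2 i))).trans (hh.2 i)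

/-- `n` is good for `r`. -/
def Good (r : P → F) (n : Ideal X.B) : Prop :=
  ∃ g : X.B, g ∉ n ∧ ∃ h, X.Sec r h ∧ ∀ c, (X.W c).valuation (h - g) < 1

theorem val_le_one {b : F} (hb : b ∈ X.B) (i : C ⊕ P) : (X.V i).valuation b ≤ 1 :=
  ((X.V i).valuation_le_one_iff b).mpr (X.mem_B.mp hb i)

/-- The ideal of elements congruent to sections. -/
def congIdeal (X : Chart F C P) (r : P → F) : Ideal X.B where
  carrier := {g | ∃ h, X.Sec r h ∧ ∀ c, (X.W c).valuation (h - g) < 1}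
  zero_mem' := ⟨0, Sec.zero r, fun c => by simp⟩
  add_mem' := by
    rintro a b ⟨g, hg, hga⟩ ⟨h, hh, hhb⟩
    refine ⟨g + h, hg.add hh, fun c => ?_⟩
    have : g + h - ((a + b : X.B) : F) = (g - a) + (h - b) := by push_cast; ring
    rw [this]
    exact Valuation.map_add_lt _ (hga c) (hhb c)
  smul_mem' := by
    rintro b a ⟨h, hh, hha⟩
    refine ⟨b * h, hh.mul b.2, fun c => ?_⟩
    have : (b : F) * h - ((b • a : X.B) : F) = b * (h - a) := by
      rw [smul_eq_mul]; push_cast; ring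
    rw [this, map_mul]
    exact (mul_le_of_le_one_left' (val_le_one b.2 (Sum.inl c))).trans_lt (hha c)

theorem q_mem (X : Chart F C P) : X.q ∈ X.B := by
  rw [mem_B']
  exact ⟨fun c => ((X.W c).valuation_le_one_iff _).mp (X.q_lt c).le,
    fun i => ((X.H i).valuation_le_one_iff _).mp (X.q_unit i).le⟩

/-- **Local-global principle.** -/
theorem exists_sec_one (X : Chart F C P) (r : P → F)
    (hgood : ∀ n : Ideal X.B, n.IsMaximal → (⟨X.q, X.q_mem⟩ : X.B) ∈ n → X.Good r n) :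
    ∃ h, X.Sec r h ∧ ∀ c, (X.W c).valuation (h - 1) < 1 := by
  have htop : X.congIdeal r = ⊤ := by
    by_contra hne
    obtain ⟨n, hn, hle⟩ := Ideal.exists_le_maximal _ hne
    have hq : (⟨X.q, X.q_mem⟩ : X.B) ∈ n := by
      apply hle
      refine ⟨0, Sec.zero r, fun c => ?_⟩
      rw [zero_sub, Valuation.map_neg]
      exact X.q_lt c
    obtain ⟨g, hg, h, hh, hgh⟩ := hgood n hn hq
    exact hg (hle ⟨h, hh, hgh⟩)
  have h1 : (1 : X.B) ∈ X.congIdeal r := by rw [htop]; trivial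
  obtain ⟨h, hh, hh1⟩ := h1
  exact ⟨h, hh, fun c => by simpa using hh1 c⟩

theorem exists_lt (n : Ideal X.B) {i : C ⊕ P} (hi : i ∉ near X.V n) :
    ∃ b : X.B, b ∉ n ∧ (X.V i).valuation (b : F) < 1 :=
  exists_lt_of_notMem_near (fun _ => X.mem_B) hi

/-- Good ideals from local sections congruent to `1`. -/
theorem good_of_local [Finite C] {r : P → F} (hr0 : ∀ i, r i ≠ 0)
    (hr : {i | (X.H i).valuation (r i) ≠ 1}.Finite) {n : Ideal X.B} (hn : n.IsPrime) {x : F}
    (hx1 : ∀ c, Sum.inl c ∈ near X.V n → (X.W c).valuation (x - 1) < 1)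
    (hx2 : ∀ i, Sum.inr i ∈ near X.V n → (X.H i).valuation x ≤ (X.H i).valuation (r i)) :
    X.Good r n := by
  classical
  -- the finite set of bad indices
  let T : Set (C ⊕ P) := {i | i ∉ near X.V n ∧ ((∃ c, i = Sum.inl c) ∨
    ∃ j, i = Sum.inr j ∧ ¬ (X.H j).valuation x ≤ (X.H j).valuation (r j))}
  have hTfin : T.Finite := by
    have h1 : T ⊆ Set.range (Sum.inl : C → C ⊕ P) ∪ Sum.inr '' ({i | x ∉ X.H i} ∪
        {i | (X.H i).valuation (r i) ≠ 1}) := by
      rintro i ⟨-, ⟨c, rfl⟩ | ⟨j, rfl, hj⟩⟩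
      · exact Or.inl ⟨c, rfl⟩
      · refine Or.inr ⟨j, ?_, rfl⟩
        by_cases h : x ∈ X.H j
        · right
          intro h2
          apply hj
          rw [h2]
          exact ((X.H j).valuation_le_one_iff x).mpr h
        · exact Or.inl h
    exact ((Set.finite_range _).union (((X.fc x).union hr).image _)).subset h1
  have hT : ∀ i ∈ T, ∃ c : X.B, c ∉ n ∧ (∀ c', i = Sum.inl c' →
      (X.W c').valuation (c : F) < 1 ∧ (X.W c').valuation ((c : F) * x) < 1) ∧
      (∀ j, i = Sum.inr j → (X.H j).valuation ((c : F) * x) ≤ (X.H j).valuation (r j)) := by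
    rintro i ⟨hi, ⟨c', rfl⟩ | ⟨j, rfl, hj⟩⟩
    · obtain ⟨b, hb, hb1⟩ := exists_lt n hi
      rw [V_inl] at hb1
      obtain ⟨N, hN⟩ := X.rW c' b x hb1
      refine ⟨b ^ (N + 1), fun h => hb (hn.mem_of_pow_mem _ h), ?_, fun j hj => by simp at hj⟩
      intro c'' hc''
      obtain rfl := Sum.inl_injective hc''
      constructor
      · rw [Subring.coe_pow, map_pow]
        exact pow_lt_one' hb1 (Nat.succ_ne_zero N)
      · rw [Subring.coe_pow, pow_succ', mul_assoc, map_mul]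
        exact (mul_le_of_le_one_right' (((X.W c').valuation_le_one_iff _).mpr hN)).trans_lt hb1
    · obtain ⟨b, hb, hb1⟩ := exists_lt n hi
      rw [V_inr] at hb1
      obtain ⟨N, hN⟩ := X.rH j b (x / r j) hb1
      refine ⟨b ^ N, fun h => hb (hn.mem_of_pow_mem _ h), fun c' hc' => by simp at hc', ?_⟩
      intro j' hj'
      obtain rfl := Sum.inr_injective hj'
      have h1 : ((b ^ N : X.B) : F) * x = ((b : F) ^ N * (x / r j)) * r j := by
        rw [Subring.coe_pow, mul_assoc, div_mul_cancel₀ _ (hr0 j)]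
      rw [h1, map_mul]
      exact mul_le_of_le_one_left' (((X.H j).valuation_le_one_iff _).mpr hN)
  choose! c hc hcl hcr using hT
  let T' := hTfin.toFinset
  have hT' : ∀ i, i ∈ T' ↔ i ∈ T := fun i => hTfin.mem_toFinset
  refine ⟨∏ i ∈ T', c i, ?_, ((∏ i ∈ T', c i : X.B) : F) * x, ⟨?_, ?_⟩, ?_⟩
  · intro h
    obtain ⟨i, hi, hi'⟩ := (Ideal.IsPrime.prod_mem_iff (hp := hn)).mp h
    exact hc i ((hT' i).mp hi) hi'
  · intro c'
    by_cases h : Sum.inl c' ∈ T'
    · rw [← Finset.mul_prod_erase T' c h, Subring.coe_mul, mul_right_comm]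
      refine mul_mem (((X.W c').valuation_le_one_iff _).mp
        (hcl _ ((hT' _).mp h) c' rfl).2.le) ((X.mem_B'.mp (Subtype.property _)).1 c')
    · have h1 : Sum.inl c' ∈ near X.V n := by
        by_contra h2
        exact h ((hT' _).mpr ⟨h2, Or.inl ⟨c', rfl⟩⟩)
      have h2 : x ∈ X.W c' := by
        have h3 := hx1 c' h1
        have h4 : x = (x - 1) + 1 := by ring
        rw [h4]
        exact add_mem (((X.W c').valuation_le_one_iff _).mp h3.le) (one_mem _)
      exact mul_mem ((X.mem_B'.mp (Subtype.property _)).1 c') h2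
  · intro j
    by_cases h : Sum.inr j ∈ T'
    · rw [← Finset.mul_prod_erase T' c h, Subring.coe_mul, mul_right_comm, map_mul]
      exact (mul_le_of_le_one_right' (val_le_one (Subtype.property _) (Sum.inr j))).trans
        (hcr _ ((hT' _).mp h) j rfl)
    · rw [map_mul]
      refine (mul_le_of_le_one_left' (val_le_one (Subtype.property _) (Sum.inr j))).trans ?_
      by_contra h1
      by_cases h2 : Sum.inr j ∈ near X.V n
      · exact h1 (hx2 j h2)
      · exact h ((hT' _).mpr ⟨h2, Or.inr ⟨j, rfl, h1⟩⟩)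
  · intro c'
    by_cases h : Sum.inl c' ∈ T'
    · have h0 := hcl _ ((hT' _).mp h) c' rfl
      have h1 : (X.W c').valuation (((∏ i ∈ T', c i : X.B) : F) * x) < 1 := by
        rw [← Finset.mul_prod_erase T' c h, Subring.coe_mul, mul_right_comm, map_mul]
        exact (mul_le_of_le_one_right' (val_le_one (Subtype.property _) (Sum.inl c'))).trans_lt
          h0.2
      have h2 : (X.W c').valuation ((∏ i ∈ T', c i : X.B) : F) < 1 := by
        rw [← Finset.mul_prod_erase T' c h, Subring.coe_mul, map_mul]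
        exact (mul_le_of_le_one_right' (val_le_one (Subtype.property _) (Sum.inl c'))).trans_lt
          h0.1
      exact Valuation.map_sub_lt _ h1 h2
    · have h1 : Sum.inl c' ∈ near X.V n := by
        by_contra h2
        exact h ((hT' _).mpr ⟨h2, Or.inl ⟨c', rfl⟩⟩)
      have h2 : ((∏ i ∈ T', c i : X.B) : F) * x - ((∏ i ∈ T', c i : X.B) : F) =
          ((∏ i ∈ T', c i : X.B) : F) * (x - 1) := by ring
      rw [h2, map_mul]
      exact (mul_le_of_le_one_left' (val_le_one (Subtype.property _) (Sum.inl c'))).trans_lt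
        (hx1 c' h1)

section Power

variable [Finite C] [IsFractionRing X.B F] {n : Ideal X.B} [hn : n.IsMaximal]

theorem mem_loc_iff' {x : F} : x ∈ Loc X.B n ↔ ∀ i ∈ near X.V n, x ∈ X.V i :=
  mem_loc_iff (fun _ => X.mem_B) X.fcV X.rV

theorem val_eq_one_of_loc {x : F} (hx : x ∈ Loc X.B n) (hx' : x⁻¹ ∈ Loc X.B n) (hx0 : x ≠ 0)
    {i : C ⊕ P} (hi : i ∈ near X.V n) : (X.V i).valuation x = 1 := by
  have h1 := ((X.V i).valuation_le_one_iff _).mpr (mem_loc_iff'.mp hx i hi)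
  have h2 := ((X.V i).valuation_le_one_iff _).mpr (mem_loc_iff'.mp hx' i hi)
  refine le_antisymm h1 ?_
  rw [map_inv₀] at h2
  have h0 : (X.V i).valuation x ≠ 0 := (Valuation.ne_zero_iff _).mpr hx0
  exact (inv_le_one₀ (lt_of_le_of_ne zero_le h0.symm)).mp h2

theorem isLocalRing_loc : IsLocalRing (Loc X.B n) := IsLocalization.AtPrime.isLocalRing (Loc X.B n) n

/-- Elements of `Bₙ` which are congruent, along all the components through `n`, to a unit are
units. -/
theorem inv_mem_loc (hq : (⟨X.q, X.q_mem⟩ : X.B) ∈ n) {x u : F} (hx : x ∈ Loc X.B n)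
    (hu : u ∈ Loc X.B n) (hu' : u⁻¹ ∈ Loc X.B n) (hu0 : u ≠ 0)
    (h : ∀ c, Sum.inl c ∈ near X.V n → (X.W c).valuation (x - u) < 1) :
    x ≠ 0 ∧ x⁻¹ ∈ Loc X.B n := by
  have hloc := isLocalRing_loc (X := X) (n := n)
  have he : x - u ∈ Loc X.B n := sub_mem hx hu
  -- a power of `x - u` is divisible by `q`
  have hpow : ∃ N : ℕ, ∀ c, Sum.inl c ∈ near X.V n → (x - u) ^ N * X.q⁻¹ ∈ X.W c := by
    classical
    have := Fintype.ofFinite C
    have h1 : ∀ c, ∃ N : ℕ, Sum.inl c ∈ near X.V n → (x - u) ^ N * X.q⁻¹ ∈ X.W c := by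
      intro c
      by_cases hc : Sum.inl c ∈ near X.V n
      · obtain ⟨N, hN⟩ := X.rW c (x - u) X.q⁻¹ (h c hc)
        exact ⟨N, fun _ => hN⟩
      · exact ⟨0, fun hc' => absurd hc' hc⟩
    choose N hN using h1
    refine ⟨∑ c, N c, fun c hc => ?_⟩
    have h2 : ∑ c, N c = N c + ∑ c' ∈ Finset.univ.erase c, N c' :=
      (Finset.add_sum_erase _ _ (Finset.mem_univ c)).symm
    rw [h2, pow_add, mul_right_comm]
    exact mul_mem (hN c hc) (pow_mem (((X.W c).valuation_le_one_iff _).mp (h c hc).le) _)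
  obtain ⟨N, hN⟩ := hpow
  have hmem : (x - u) ^ N * X.q⁻¹ ∈ Loc X.B n := by
    rw [mem_loc_iff']
    rintro (c | i) hi
    · exact hN c hi
    · refine mul_mem (pow_mem (mem_loc_iff'.mp he _ hi) N) ?_
      rw [← ValuationSubring.valuation_le_one_iff, map_inv₀, V_inr, X.q_unit, inv_one]
  have hqm : (algebraMap X.B (Loc X.B n) ⟨X.q, X.q_mem⟩) ∈ maximalIdeal (Loc X.B n) :=
    (IsLocalization.AtPrime.to_map_mem_maximal_iff (Loc X.B n) n _).mpr hq
  have hem : (⟨x - u, he⟩ : Loc X.B n) ∈ maximalIdeal (Loc X.B n) := by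
    refine (Ideal.IsMaximal.isPrime' (maximalIdeal (Loc X.B n))).mem_of_pow_mem N ?_
    have h1 : (⟨x - u, he⟩ : Loc X.B n) ^ N = (⟨_, hmem⟩ : Loc X.B n) *
        algebraMap X.B (Loc X.B n) ⟨X.q, X.q_mem⟩ := by
      apply Subtype.ext
      change (x - u) ^ N = (x - u) ^ N * X.q⁻¹ * X.q
      rw [mul_assoc, inv_mul_cancel₀ X.q_ne, mul_one]
    rw [h1]
    exact Ideal.mul_mem_left _ _ hqm
  have huu : IsUnit (⟨u, hu⟩ : Loc X.B n) :=
    IsUnit.of_mul_eq_one ⟨u⁻¹, hu'⟩ (Subtype.ext (mul_inv_cancel₀ hu0))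
  have hxu : IsUnit (⟨x, hx⟩ : Loc X.B n) := by
    by_contra hcon
    have h1 : (⟨x, hx⟩ : Loc X.B n) ∈ maximalIdeal (Loc X.B n) := (mem_maximalIdeal _).mpr hcon
    have h2 : (⟨u, hu⟩ : Loc X.B n) ∈ maximalIdeal (Loc X.B n) := by
      have h3 : (⟨u, hu⟩ : Loc X.B n) = ⟨x, hx⟩ - ⟨x - u, he⟩ := by
        apply Subtype.ext
        change u = x - (x - u)
        ring
      rw [h3]
      exact sub_mem h1 hem
    exact (mem_maximalIdeal _).mp h2 huu
  obtain ⟨y, hy⟩ := hxu.exists_right_inv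
  have hy' : x * (y : F) = 1 := congrArg Subtype.val hy
  have hx0 : x ≠ 0 := left_ne_zero_of_mul_eq_one hy'
  refine ⟨hx0, ?_⟩
  rw [← eq_inv_of_mul_eq_one_right hy']
  exact y.2

/-- Congruences modulo the maximal ideal of a valuation ring, raised to powers. -/
theorem val_pow_sub_pow_lt {A : ValuationSubring F} {x y : F} (hx : x ∈ A) (hy : y ∈ A)
    (h : A.valuation (x - y) < 1) (m : ℕ) : A.valuation (x ^ m - y ^ m) < 1 := by
  obtain ⟨c, hc⟩ := sub_dvd_pow_sub_pow (⟨x, hx⟩ : A) ⟨y, hy⟩ m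
  have h1 : x ^ m - y ^ m = (x - y) * (c : F) := congrArg Subtype.val hc
  rw [h1, map_mul]
  exact (mul_le_of_le_one_right' ((A.valuation_le_one_iff _).mpr c.2)).trans_lt h

theorem pow_eq_pow_left {Γ : Type*} [LinearOrderedCommGroupWithZero Γ] {m : ℕ} (hm : m ≠ 0)
    {a b : Γ} (h : a ^ m = b ^ m) : a = b :=
  (pow_left_inj₀ zero_le zero_le hm).mp h

theorem mul_eq_zpow {h u w : F} (hh0 : h ≠ 0) (hu0 : u ≠ 0) (hw0 : w ≠ 0) {m Q : ℕ} {a b : ℤ}
    (hab : (m : ℤ) * a + (Q : ℤ) * b = 1) :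
    (u ^ a * w ^ b)⁻¹ * h = (h ^ m / u) ^ a * (h ^ Q / w) ^ b := by
  have h1 : (h ^ m) ^ a * (h ^ Q) ^ b = h := by
    rw [← zpow_natCast, ← zpow_natCast, ← zpow_mul, ← zpow_mul, ← zpow_add₀ hh0, hab, zpow_one]
  have h2 : u ^ a ≠ 0 := zpow_ne_zero a hu0
  have h3 : w ^ b ≠ 0 := zpow_ne_zero b hw0
  rw [div_zpow, div_zpow, div_mul_div_comm, h1, eq_div_iff (mul_ne_zero h2 h3), mul_comm,
    ← mul_assoc, mul_inv_cancel₀ (mul_ne_zero h2 h3), one_mul]

theorem zpow_sub_one_lt (A : ValuationSubring F) {x y : F} (hx0 : x ≠ 0) (hy0 : y ≠ 0)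
    (hx : A.valuation (x - 1) < 1) (hy : A.valuation (y - 1) < 1) (a b : ℤ) :
    A.valuation (x ^ a * y ^ b - 1) < 1 := by
  have key1 : Units.mk0 x hx0 ∈ A.principalUnitGroup := by
    rw [ValuationSubring.mem_principalUnitGroup_iff, Units.val_mk0]; exact hx
  have key2 : Units.mk0 y hy0 ∈ A.principalUnitGroup := by
    rw [ValuationSubring.mem_principalUnitGroup_iff, Units.val_mk0]; exact hy
  have key := mul_mem (zpow_mem key1 a) (zpow_mem key2 b)
  rw [ValuationSubring.mem_principalUnitGroup_iff, Units.val_mul, Units.val_zpow_eq_zpow_val,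
    Units.val_zpow_eq_zpow_val, Units.val_mk0, Units.val_mk0] at key
  exact key

theorem val_inv_zpow {Γ : Type*} [LinearOrderedCommGroupWithZero Γ] (v : Valuation F Γ) {x y : F}
    (hx : v x = 1) (hy : v y = 1) {a b : ℤ} : v (x ^ a * y ^ b)⁻¹ = 1 := by
  rw [map_inv₀, map_mul, map_zpow₀, map_zpow₀, hx, hy, one_zpow, one_zpow, one_mul, inv_one]

/-- **Good ideals from local roots.** -/
theorem good_of_pow {r : P → F} (hr0 : ∀ i, r i ≠ 0)
    (hr : {i | (X.H i).valuation (r i) ≠ 1}.Finite)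
    (hq : (⟨X.q, X.q_mem⟩ : X.B) ∈ n) {m Q : ℕ} (hm : m ≠ 0) (hmQ : Nat.Coprime m Q) {f h w : F}
    (hf : ∀ c, (X.W c).valuation (f - 1) < 1) (hf0 : f ≠ 0) (hh0 : h ≠ 0)
    (hfr : ∀ i, (X.H i).valuation f = (X.H i).valuation (r i) ^ m)
    (hroot : f / h ^ m ∈ Loc X.B n) (hroot' : h ^ m / f ∈ Loc X.B n)
    (hw : w ∈ Loc X.B n)
    (hhw : ∀ c, Sum.inl c ∈ near X.V n → (X.W c).valuation (h ^ Q - w) < 1) :
    X.Good r n := by
  obtain ⟨u, hu⟩ : ∃ u, u = h ^ m / f := ⟨_, rfl⟩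
  have hu0 : u ≠ 0 := by rw [hu]; exact div_ne_zero (pow_ne_zero _ hh0) hf0
  have huL : u ∈ Loc X.B n := by rw [hu]; exact hroot'
  have hui : u⁻¹ ∈ Loc X.B n := by rw [hu, inv_div]; exact hroot
  have huf : u * f = h ^ m := by rw [hu, div_mul_cancel₀ _ hf0]
  -- values
  have hfv : ∀ c, (X.W c).valuation f = 1 := by
    intro c
    have h1 : f = 1 + (f - 1) := by ring
    rw [h1]
    exact Valuation.map_one_add_of_lt _ (hf c)
  have huv : ∀ i, i ∈ near X.V n → (X.V i).valuation u = 1 :=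
    fun i hi => val_eq_one_of_loc huL hui hu0 hi
  have huvc : ∀ c, Sum.inl c ∈ near X.V n → (X.W c).valuation u = 1 :=
    fun c hc => huv (Sum.inl c) hc
  have hhv : ∀ c, Sum.inl c ∈ near X.V n → (X.W c).valuation h = 1 := by
    intro c hc
    have h1 : (X.W c).valuation h ^ m = 1 ^ m := by
      rw [← map_pow, ← huf, map_mul, huvc c hc, hfv c, one_mul, one_pow]
    exact pow_eq_pow_left hm h1
  have hhA : ∀ c, Sum.inl c ∈ near X.V n → h ∈ X.W c := fun c hc =>
    ((X.W c).valuation_le_one_iff _).mp (hhv c hc).le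
  have huA : ∀ c, Sum.inl c ∈ near X.V n → u ∈ X.W c := fun c hc =>
    ((X.W c).valuation_le_one_iff _).mp (huvc _ hc).le
  have hwA : ∀ c, Sum.inl c ∈ near X.V n → w ∈ X.W c := fun c hc => mem_loc_iff'.mp hw _ hc
  have hhu : ∀ c, Sum.inl c ∈ near X.V n → (X.W c).valuation (h ^ m - u) < 1 := by
    intro c hc
    have h1 : h ^ m - u = u * (f - 1) := by rw [← huf]; ring
    rw [h1, map_mul, huvc _ hc, one_mul]
    exact hf c
  -- `w` is a unit
  have hwm : ∀ c, Sum.inl c ∈ near X.V n → (X.W c).valuation (w ^ m - u ^ Q) < 1 := by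
    intro c hc
    have h1 := val_pow_sub_pow_lt (pow_mem (hhA c hc) Q) (hwA c hc) (hhw c hc) m
    have h2 := val_pow_sub_pow_lt (pow_mem (hhA c hc) m) (huA c hc) (hhu c hc) Q
    have h3 : w ^ m - u ^ Q = ((h ^ m) ^ Q - u ^ Q) - ((h ^ Q) ^ m - w ^ m) := by
      rw [← pow_mul, ← pow_mul, mul_comm Q m]; ring
    rw [h3]
    exact Valuation.map_sub_lt _ h2 h1
  obtain ⟨hwm0, hwmi⟩ := inv_mem_loc hq (pow_mem hw m) (pow_mem huL Q)
    (by rw [← inv_pow]; exact pow_mem hui Q) (pow_ne_zero _ hu0) hwm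
  have hw0 : w ≠ 0 := fun h => hwm0 (by rw [h, zero_pow hm])
  have hwi : w⁻¹ ∈ Loc X.B n := by
    obtain ⟨m', rfl⟩ := Nat.exists_eq_succ_of_ne_zero hm
    have h1 : w⁻¹ = w ^ m' * (w ^ (m' + 1))⁻¹ := by
      rw [pow_succ, mul_inv, ← mul_assoc, mul_inv_cancel₀ (pow_ne_zero _ hw0), one_mul]
    rw [h1]
    exact mul_mem (pow_mem hw m') hwmi
  have hwv : ∀ i, i ∈ near X.V n → (X.V i).valuation w = 1 :=
    fun i hi => val_eq_one_of_loc hw hwi hw0 hi
  -- Bezout
  obtain ⟨a, b, hab⟩ : ∃ a b : ℤ, (m : ℤ) * a + (Q : ℤ) * b = 1 := by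
    refine ⟨Nat.gcdA m Q, Nat.gcdB m Q, ?_⟩
    rw [← Nat.gcd_eq_gcd_ab, hmQ.gcd_eq_one, Nat.cast_one]
  have hyh := mul_eq_zpow (F := F) (u := u) (w := w) hh0 hu0 hw0 hab
  refine good_of_local hr0 hr hn.isPrime (x := (u ^ a * w ^ b)⁻¹ * h) ?_ ?_
  · intro c hc
    rw [hyh]
    apply zpow_sub_one_lt _ (div_ne_zero (pow_ne_zero _ hh0) hu0)
      (div_ne_zero (pow_ne_zero _ hh0) hw0)
    · have h1 : h ^ m / u = f := by rw [← huf, mul_div_cancel_left₀ _ hu0]
      rw [h1]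
      exact hf c
    · have h1 : h ^ Q / w - 1 = (h ^ Q - w) / w := by rw [sub_div, div_self hw0]
      have h2 : (X.W c).valuation w = 1 := hwv (Sum.inl c) hc
      rw [h1, map_div₀, h2, div_one]
      exact hhw c hc
  · intro i hi
    have h2 : (X.H i).valuation u = 1 := huv (Sum.inr i) hi
    have h3 : (X.H i).valuation w = 1 := hwv (Sum.inr i) hi
    rw [map_mul, val_inv_zpow _ h2 h3, one_mul]
    have h4 : (X.H i).valuation h ^ m = (X.H i).valuation (r i) ^ m := by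
      rw [← hfr, ← map_pow, ← huf, map_mul, h2, one_mul]
    exact (pow_eq_pow_left hm h4).le

end Power

end Chart

end Fermat.Agent.DR.S36.G
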