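import Fermat.Agent.DR.S36.ChartE
import Fermat.Agent.DR.S36.G4

set_option autoImplicit false
set_option linter.unusedSectionVars false

/-!
# The coordinate ring of a chart
-/

noncomputable section

open AlgebraicCurve Fermat.Agent.RR Polynomial IntermediateField

namespace Fermat.Agent.DR.S36

theorem val_le_iff {E : Type*} [Field E] (A : ValuationSubring E) {f g : E} (hg : g ≠ 0) :
    A.valuation f ≤ A.valuation g ↔ f / g ∈ A := by
  rw [← A.valuation_le_one_iff, map_div₀]
  have hg' : 0 < A.valuation g := lt_of_le_of_ne zero_le ((Valuation.ne_zero_iff _).mpr hg).symm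
  rw [div_le_one₀ hg']

theorem ord_div {K F : Type*} [Field K] [Field F] [Algebra K F] (P : Place K F) {f g : F}
    (hf : f ≠ 0) (hg : g ≠ 0) : P.ord (f / g) = P.ord f - P.ord g := by
  rw [div_eq_mul_inv, P.ord_mul hf (inv_ne_zero hg), P.ord_inv]; ring

namespace Surf

variable {L K FL F k κ : Type*} [Field L] [Field K] [Field FL] [Field F] [Field k] [Field κ]
  [Algebra L K] [Algebra L FL] [Algebra K F] [Algebra FL F] [Algebra k κ]
  {A₀ : ValuationSubring L} {q : ℕ} (S : Surf L K FL F k κ A₀ q)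

section HP

variable (P : Place K F)

/-- The valuation ring of a place, restricted to `FL`. -/
def HP (FL : Type*) [Field FL] [Algebra FL F] (P : Place K F) : ValuationSubring FL :=
  P.toValuationSubring.comap (algebraMap FL F)

theorem mem_HP {f : FL} : f ∈ HP FL P ↔ algebraMap FL F f ∈ P.toValuationSubring := Iff.rfl

theorem mem_HP' {f : FL} : f ∈ HP FL P ↔ 0 ≤ P.ord (algebraMap FL F f) := by
  rw [mem_HP, mem_iff_ord_nonneg]

theorem alg_ne {f : FL} (hf : f ≠ 0) : algebraMap FL F f ≠ 0 :=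
  (_root_.map_ne_zero (algebraMap FL F)).mpr hf

theorem HP_le_iff {f g : FL} (hf : f ≠ 0) (hg : g ≠ 0) :
    (HP FL P).valuation f ≤ (HP FL P).valuation g ↔
      P.ord (algebraMap FL F g) ≤ P.ord (algebraMap FL F f) := by
  rw [val_le_iff _ hg, mem_HP', map_div₀, ord_div P (alg_ne hf) (alg_ne hg)]
  omega

theorem HP_eq_iff {f g : FL} (hf : f ≠ 0) (hg : g ≠ 0) :
    (HP FL P).valuation f = (HP FL P).valuation g ↔
      P.ord (algebraMap FL F f) = P.ord (algebraMap FL F g) := by
  rw [le_antisymm_iff, HP_le_iff P hf hg, HP_le_iff P hg hf]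
  omega

theorem HP_eq_one_iff {f : FL} (hf : f ≠ 0) :
    (HP FL P).valuation f = 1 ↔ P.ord (algebraMap FL F f) = 0 := by
  rw [← map_one (HP FL P).valuation, HP_eq_iff P hf one_ne_zero, map_one, P.ord_one]

theorem HP_lt_one_iff {f : FL} : (HP FL P).valuation f < 1 ↔ f = 0 ∨ 0 < P.ord (algebraMap FL F f) := by
  rcases eq_or_ne f 0 with rfl | hf
  · simp
  rw [← map_one (HP FL P).valuation, ← not_iff_not, not_lt, HP_le_iff P one_ne_zero hf, map_one,
    P.ord_one]
  simp [hf]

end HP

section Chart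

variable [FunctionField K F]

include S in
theorem ord_q (P : Place K F) : P.ord (algebraMap FL F (q : FL)) = 0 := by
  rw [map_natCast, ← map_natCast (algebraMap K F)]
  exact ord_algebraMap P _

/-- The chart attached to `x`. -/
def chart (x : FL) : G.Chart FL (Fin 3) {P : Place K F // algebraMap FL F x ∈ P.toValuationSubring}
    where
  W c := (S.V c).W
  H P := HP FL P.1
  q := (q : FL)
  q_ne := S.q_ne_FL
  q_lt c := by
    rw [(S.V c).valuation_lt_one_iff, (S.V c).pos_iff, S.w_q]
    right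
    exact_mod_cast S.e_pos c
  q_unit P := by
    rw [HP_eq_one_iff P.1 S.q_ne_FL, S.ord_q]
  fc h := by
    have h1 : ((divOf (K := K) (algebraMap FL F h)).support : Set (Place K F)).Finite :=
      Finset.finite_toSet _
    refine Set.Finite.of_finite_image (f := Subtype.val) (h1.subset ?_)
      Subtype.val_injective.injOn
    rintro _ ⟨P, hP, rfl⟩
    simp only [Set.mem_ofPred_eq, mem_HP'] at hP
    rw [Finset.mem_coe, Finsupp.mem_support_iff, divOf_apply]
    omega
  rW c g h hg := by
    rw [(S.V c).valuation_lt_one_iff, (S.V c).pos_iff] at hg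
    rcases eq_or_ne g 0 with rfl | hg0
    · exact ⟨1, by simp⟩
    rcases eq_or_ne h 0 with rfl | hh0
    · exact ⟨1, by simp⟩
    have hg' : 0 < (S.V c).w g := hg.resolve_left hg0
    refine ⟨((S.V c).w h).natAbs, ?_⟩
    rw [(S.V c).mem_W', (S.V c).w_mul (pow_ne_zero _ hg0) hh0, (S.V c).w_pow]
    have h1 : (((S.V c).w h).natAbs : ℤ) * 1 ≤ ((S.V c).w h).natAbs * (S.V c).w g :=
      mul_le_mul_of_nonneg_left (by omega) (Int.natCast_nonneg _)
    omega
  rH P g h hg := by
    rcases eq_or_ne g 0 with rfl | hg0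
    · exact ⟨1, by simp⟩
    rcases eq_or_ne h 0 with rfl | hh0
    · exact ⟨1, by simp⟩
    have hg' : 0 < P.1.ord (algebraMap FL F g) := ((HP_lt_one_iff P.1).mp hg).resolve_left hg0
    refine ⟨(P.1.ord (algebraMap FL F h)).natAbs, ?_⟩
    rw [mem_HP', map_mul, map_pow, P.1.ord_mul (pow_ne_zero _ (alg_ne hg0)) (alg_ne hh0), ord_pow]
    have h1 : ((P.1.ord (algebraMap FL F h)).natAbs : ℤ) * 1 ≤
        (P.1.ord (algebraMap FL F h)).natAbs * P.1.ord (algebraMap FL F g) :=
      mul_le_mul_of_nonneg_left (by omega) (Int.natCast_nonneg _)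
    omega

@[simp] theorem chart_W (x : FL) (c : Fin 3) : (S.chart x).W c = (S.V c).W := rfl

@[simp] theorem chart_H (x : FL)
    (P : {P : Place K F // algebraMap FL F x ∈ P.toValuationSubring}) :
    (S.chart x).H P = HP FL P.1 := rfl

@[simp] theorem chart_q (x : FL) : (S.chart x).q = (q : FL) := rfl

theorem mem_chart_B {x b : FL} : b ∈ (S.chart x).B ↔ S.Hol x b := by
  rw [G.Chart.mem_B']
  constructor
  · rintro ⟨h1, h2⟩
    exact ⟨h1, fun P hP => h2 ⟨P, hP⟩⟩
  · rintro ⟨h1, h2⟩
    exact ⟨h1, fun P => h2 P.1 P.2⟩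

theorem hol_evx {x : FL} (hx : ∀ c, 0 ≤ (S.V c).v x) (p : A₀[X]) : S.Hol x (evx x p) := by
  rw [← mem_chart_B]
  induction p using Polynomial.induction_on' with
  | add p r hp hr => rw [map_add]; exact add_mem hp hr
  | monomial n a =>
    have h1 : evx x (monomial n a) = algebraMap L FL a * x ^ n := by
      change aeval x ((monomial n a).map A₀.subtype) = _
      rw [map_monomial, aeval_monomial]
      rfl
    rw [h1]
    refine mul_mem ?_ (pow_mem ?_ n)
    · rw [mem_chart_B]
      refine ⟨fun c => (S.V c).nonneg (S.res_const c a), fun P _ => ?_⟩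
      rw [S.comm]
      exact P.algebraMap_mem' _
    · rw [mem_chart_B]
      exact ⟨hx, fun P hP => hP⟩

end Chart

section Noeth

variable [IsAlgClosed K] [FunctionField K F] [IsAlgClosed k] [FunctionField k κ]
  {x : FL} {y : κ} {S}

theorem CD.nonneg_x (D : S.CD x) (c : Fin 3) : 0 ≤ (S.V c).v x := (S.V c).nonneg (D.res c)

/-- `A₀[X] → B` -/
def CD.toB (D : S.CD x) : A₀[X] →+* (S.chart x).B :=
  (evx x).codRestrict (S.chart x).B fun p => S.mem_chart_B.mpr (S.hol_evx D.nonneg_x p)

theorem CD.coe_toB (D : S.CD x) (p : A₀[X]) : ((D.toB p : (S.chart x).B) : FL) = evx x p := rfl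

theorem CD.mem_B_iff (D : S.CD x) {b : FL} :
    b ∈ (S.chart x).B ↔ (evx (A₀ := A₀) x).IsIntegralElem b := by
  constructor
  · intro h
    exact D.isIntegral (S.mem_chart_B.mp h)
  · rintro ⟨p, hp, hpb⟩
    rw [G.Chart.mem_B]
    intro i
    have h1 : ∀ r : A₀[X], evx x r ∈ (S.chart x).V i := fun r =>
      ((S.chart x).mem_B.mp (D.toB r).2) i
    -- valuation rings are integrally closed
    let g : A₀[X] →+* (S.chart x).V i := (evx x).codRestrict _ h1
    have h2 : IsIntegral ((S.chart x).V i) b := by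
      refine ⟨p.map g, hp.map _, ?_⟩
      rw [eval₂_map]
      exact hpb
    obtain ⟨z, hz⟩ := IsIntegrallyClosed.isIntegral_iff.mp h2
    rw [← hz]
    exact z.2

section Alg

variable [IsDiscreteValuationRing A₀] [CharZero L] (D : S.CD x)

include D in
theorem CD.isFractionRing_evx' :
    @IsFractionRing A₀[X] _ L⟮x⟯ _ (evx' x).toAlgebra := by
  let _ : Algebra A₀[X] L⟮x⟯ := (evx' x).toAlgebra
  have hinj : Function.Injective (algebraMap A₀[X] L⟮x⟯) := by
    rw [injective_iff_map_eq_zero]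
    intro p hp
    have h1 : aeval x (p.map A₀.subtype) = 0 := congrArg Subtype.val hp
    by_contra hne
    refine D.trL ⟨p.map A₀.subtype, ?_, h1⟩
    intro h2
    exact hne (Polynomial.map_injective _ A₀.subtype_injective (by rw [h2, Polynomial.map_zero]))
  have : FaithfulSMul A₀[X] L⟮x⟯ := (faithfulSMul_iff_algebraMap_injective _ _).mpr hinj
  refine IsFractionRing.of_field _ _ fun z => ?_
  rcases eq_or_ne z 0 with rfl | hz
  · exact ⟨0, 1, by simp⟩
  obtain ⟨t, P, Q, hP, hQ, h⟩ := S.exists_shape z.2 fun h0 => hz (Subtype.ext h0)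
  rcases t with m | m
  · refine ⟨C ((q : A₀) ^ m) * P, Q, Subtype.ext ?_⟩
    change (z : FL) = evx x (C ((q : A₀) ^ m) * P) / evx x Q
    rw [h, map_mul, map_pow, map_pow, map_natCast, map_natCast, Int.ofNat_eq_natCast, zpow_natCast,
      mul_div_assoc]
  · refine ⟨P, C ((q : A₀) ^ (m + 1)) * Q, Subtype.ext ?_⟩
    change (z : FL) = evx x P / evx x (C ((q : A₀) ^ (m + 1)) * Q)
    rw [h, map_mul, map_pow, map_pow, map_natCast, map_natCast, zpow_negSucc, div_mul_eq_div_div,
      inv_mul_eq_div, div_right_comm]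

include D in
theorem CD.finite_and : (D.toB.Finite) ∧ IsNoetherianRing (S.chart x).B ∧
    IsFractionRing (S.chart x).B FL := by
  have hfd := D.finiteDimensional
  let _ : Algebra A₀[X] (S.chart x).B := D.toB.toAlgebra
  let _ : Algebra A₀[X] FL := (evx x).toAlgebra
  let _ : Algebra A₀[X] L⟮x⟯ := (evx' x).toAlgebra
  have : IsScalarTower A₀[X] L⟮x⟯ FL := IsScalarTower.of_algebraMap_eq fun _ => rfl
  have : IsScalarTower A₀[X] (S.chart x).B FL := IsScalarTower.of_algebraMap_eq fun _ => rfl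
  have hfr : IsFractionRing A₀[X] L⟮x⟯ := D.isFractionRing_evx'
  have hic : IsIntegralClosure (S.chart x).B A₀[X] FL :=
    { algebraMap_injective := Subtype.val_injective
      isIntegral_iff := by
        intro b
        constructor
        · intro h
          exact ⟨⟨b, D.mem_B_iff.mpr h⟩, rfl⟩
        · rintro ⟨b, rfl⟩
          exact D.mem_B_iff.mp b.2 }
  have : CharZero L⟮x⟯ := charZero_of_injective_algebraMap (algebraMap L L⟮x⟯).injective
  have h1 : Module.Finite A₀[X] (S.chart x).B := by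
    exact IsIntegralClosure.finite A₀[X] L⟮x⟯ FL (S.chart x).B
  refine ⟨h1, ?_, ?_⟩
  · exact IsIntegralClosure.isNoetherianRing A₀[X] L⟮x⟯ FL (S.chart x).B
  · exact IsIntegralClosure.isFractionRing_of_finite_extension A₀[X] L⟮x⟯ FL (S.chart x).B

include D in
/-- Clearing denominators. -/
theorem CD.exists_denominator (e : FL) : ∃ d : A₀[X], d ≠ 0 ∧ S.Hol x (evx x d * e) := by
  have hfd := D.finiteDimensional
  let _ : Algebra A₀[X] FL := (evx x).toAlgebra
  let _ : Algebra A₀[X] L⟮x⟯ := (evx' x).toAlgebra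
  have : IsScalarTower A₀[X] L⟮x⟯ FL := IsScalarTower.of_algebraMap_eq fun _ => rfl
  have hfr : IsFractionRing A₀[X] L⟮x⟯ := D.isFractionRing_evx'
  have halg : Algebra.IsAlgebraic A₀[X] FL := IsFractionRing.comap_isAlgebraic_iff.mpr
    (inferInstance : Algebra.IsAlgebraic L⟮x⟯ FL)
  obtain ⟨d, hd, h⟩ := (halg.isAlgebraic e).exists_integral_multiple
  refine ⟨d, hd, S.mem_chart_B.mp (D.mem_B_iff.mpr ?_)⟩
  have h1 : evx x d * e = d • e := (Algebra.smul_def d e).symm
  rw [h1]
  exact h

end Alg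

end Noeth

end Surf

end Fermat.Agent.DR.S36
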