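import Fermat.Agent.DR.S36.G4

set_option autoImplicit false

/-!
# Local equations of horizontal divisors (S36-G, part 5)
-/

set_option linter.unusedSectionVars false

noncomputable section

namespace Fermat.Agent.DR.S36.G

open IsLocalRing

section Strip

variable {S : Type*} [CommRing S] [IsDomain S] [UniqueFactorizationMonoid S]
  {F : Type*} [Field F] [Algebra S F] [FaithfulSMul S F] {ι : Type*} (V : ι → ValuationSubring F)

/-- The part of an element supported on `H`. -/
theorem exists_strip (hS : ∀ i, ∀ s : S, algebraMap S F s ∈ V i) (H : Set ι)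
    (hsep : ∀ p : S, Prime p → ∀ i ∈ H, ∀ j, j ∉ H → (V i).valuation (algebraMap S F p) < 1 →
      (V j).valuation (algebraMap S F p) = 1) (a : S) (ha : a ≠ 0) :
    ∃ g : S, g ≠ 0 ∧ (∀ i ∈ H, (V i).valuation (algebraMap S F g) =
      (V i).valuation (algebraMap S F a)) ∧
      ∀ j, j ∉ H → (V j).valuation (algebraMap S F g) = 1 := by
  have hle : ∀ i (s : S), (V i).valuation (algebraMap S F s) ≤ 1 := fun i s =>
    ((V i).valuation_le_one_iff _).mpr (hS i s)
  revert ha
  refine UniqueFactorizationMonoid.induction_on_prime (P := fun a => a ≠ 0 →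
    ∃ g : S, g ≠ 0 ∧ (∀ i ∈ H, (V i).valuation (algebraMap S F g) =
      (V i).valuation (algebraMap S F a)) ∧
      ∀ j, j ∉ H → (V j).valuation (algebraMap S F g) = 1) a ?_ ?_ ?_
  · intro h
    exact absurd rfl h
  · intro x hx _
    refine ⟨1, one_ne_zero, fun i _ => ?_, fun j _ => by rw [map_one, map_one]⟩
    rw [map_one, map_one]
    obtain ⟨z, hz⟩ := hx.exists_right_inv
    have h1 : (V i).valuation (algebraMap S F x) * (V i).valuation (algebraMap S F z) = 1 := by
      rw [← map_mul, ← map_mul, hz, map_one, map_one]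
    refine (le_antisymm (hle i x) ?_).symm
    calc (1 : (V i).ValueGroup) = _ := h1.symm
      _ ≤ (V i).valuation (algebraMap S F x) * 1 := mul_le_mul_right (hle i z) _
      _ = _ := mul_one _
  · intro a p ha hp ih _
    obtain ⟨g, hg0, hg1, hg2⟩ := ih ha
    by_cases h : ∃ i ∈ H, (V i).valuation (algebraMap S F p) < 1
    · obtain ⟨i, hi, hip⟩ := h
      refine ⟨p * g, mul_ne_zero hp.ne_zero hg0, fun i' hi' => ?_, fun j hj => ?_⟩
      · rw [map_mul, map_mul, map_mul, map_mul, hg1 i' hi']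
      · rw [map_mul, map_mul, hg2 j hj, hsep p hp i hi j hj hip, one_mul]
    · push Not at h
      refine ⟨g, hg0, fun i hi => ?_, hg2⟩
      rw [map_mul, map_mul, le_antisymm (hle i p) (h i hi), one_mul, hg1 i hi]

end Strip

section Cond

variable {F : Type*} [Field F] {ι : Type*} {V : ι → ValuationSubring F} {B : Subring F}
  [IsFractionRing B F] [IsNoetherianRing B] {n : Ideal B} [hn : n.IsMaximal] {i₀ : ι} {κ : Type*}
  [Field κ] (D : LocalData V n i₀ κ)
  (hB : ∀ x : F, x ∈ B ↔ ∀ i, x ∈ V i)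
  (hfc : ∀ x : F, {i | x ∉ V i}.Finite)
  (hr : ∀ (i : ι) (g h : F), (V i).valuation g < 1 → ∃ N : ℕ, g ^ N * h ∈ V i)

include D hB hfc hr in
/-- Valuations near `n`, not centered at `n`, are centered at principal primes. -/
theorem LocalData.prime_dvd {i : ι} (hi : i ∈ near V n)
    (hcent : ∃ b ∈ n, (V i).valuation (b : F) = 1) {p : Loc B n} (hp : Prime p)
    (hpi : (V i).valuation (p : F) < 1) {s : Loc B n} (hs : (V i).valuation (s : F) < 1) :
    p ∣ s := by
  have hprinc := D.principal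
  have hloc : IsLocalRing (Loc B n) := IsLocalization.AtPrime.isLocalRing (Loc B n) n
  have hnoeth : IsNoetherianRing (Loc B n) :=
    IsLocalization.isNoetherianRing n.primeCompl (Loc B n) inferInstance
  let I : Ideal (Loc B n) :=
    { carrier := {s | (V i).valuation (s : F) < 1}
      zero_mem' := by simp
      add_mem' := fun {a b} ha hb => by
        have ha' : (V i).valuation (a : F) < 1 := ha
        have hb' : (V i).valuation (b : F) < 1 := hb
        exact Valuation.map_add_lt _ ha' hb'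
      smul_mem' := fun c x hx => by
        change (V i).valuation ((c : F) * x) < 1
        rw [map_mul]
        exact (mul_le_of_le_one_left' (((V i).valuation_le_one_iff _).mpr
          (LocalData.coe_mem hB hfc hr c.2 hi))).trans_lt hx }
  have hIp : I.IsPrime := by
    refine ⟨?_, ?_⟩
    · rw [Ideal.ne_top_iff_one]
      change ¬ (V i).valuation ((1 : Loc B n) : F) < 1
      simp
    · intro a b hab
      change (V i).valuation ((a : F) * b) < 1 at hab
      by_contra hcon
      push Not at hcon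
      obtain ⟨h1, h2⟩ := hcon
      have h1' : (V i).valuation (a : F) = 1 :=
        le_antisymm (((V i).valuation_le_one_iff _).mpr (LocalData.coe_mem hB hfc hr a.2 hi))
          (not_lt.mp h1)
      rw [map_mul, h1', one_mul] at hab
      exact h2 hab
  rcases isPrincipal_or_eq_maximalIdeal (D.resO hB hfc hr) (D.resO_surjective hB hfc hr) _
    (fun h => D.z_ne (congrArg Subtype.val h)) (D.ker_resO hB hfc hr) I hIp with ⟨g, hg⟩ | hmax
  · have hpI : p ∈ I := hpi
    have hsI : s ∈ I := hs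
    rw [hg, Ideal.mem_span_singleton] at hpI hsI
    have hgu : ¬ IsUnit g := by
      intro hu
      apply hIp.ne_top
      rw [hg, Ideal.span_singleton_eq_top]
      exact hu
    have hassoc : Associated p g := (hp.irreducible.dvd_iff.mp hpI).resolve_left hgu
    exact hassoc.dvd.trans hsI
  · exfalso
    obtain ⟨b, hb, hb1⟩ := hcent
    have hbL : (b : F) ∈ Loc B n := mem_loc.mpr ⟨b, 1, fun h => hn.ne_top
      (Ideal.eq_top_of_isUnit_mem _ h isUnit_one), by simp⟩
    have hbm : (⟨b, hbL⟩ : Loc B n) ∈ maximalIdeal (Loc B n) := by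
      have h1 := IsLocalization.AtPrime.to_map_mem_maximal_iff (Loc B n) n b
      exact h1.mpr hb
    rw [← hmax] at hbm
    change (V i).valuation (b : F) < 1 at hbm
    exact hbm.ne hb1

end Cond

namespace Chart

variable {F C P : Type*} [Field F] {X : Chart F C P}

/-- Through every point of the special fibre passes a component. -/
theorem exists_near [Finite C] {n : Ideal X.B} (hn : n.IsPrime)
    (hq : (⟨X.q, X.q_mem⟩ : X.B) ∈ n) : ∃ c, Sum.inl c ∈ near X.V n := by
  classical
  by_contra hcon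
  push Not at hcon
  have := Fintype.ofFinite C
  choose b hb hb1 using fun c => exists_lt n (hcon c)
  let t : X.B := ∏ c, b c
  have ht : t ∉ n := by
    intro h
    obtain ⟨c, -, hc⟩ := (Ideal.IsPrime.prod_mem_iff (hp := hn)).mp h
    exact hb c hc
  have htv : ∀ c, (X.W c).valuation (t : F) < 1 := by
    intro c
    have h1 : t = b c * ∏ c' ∈ Finset.univ.erase c, b c' :=
      (Finset.mul_prod_erase _ _ (Finset.mem_univ c)).symm
    rw [h1, Subring.coe_mul, map_mul]
    exact (mul_le_of_le_one_right' (val_le_one (Subtype.property _) (Sum.inl c))).trans_lt (hb1 c)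
  choose N hN using fun c => X.rW c (t : F) X.q⁻¹ (htv c)
  have hmem : (t : F) ^ (∑ c, N c) * X.q⁻¹ ∈ X.B := by
    rw [mem_B']
    constructor
    · intro c
      have h2 : ∑ c, N c = N c + ∑ c' ∈ Finset.univ.erase c, N c' :=
        (Finset.add_sum_erase _ _ (Finset.mem_univ c)).symm
      rw [h2, pow_add, mul_right_comm]
      exact mul_mem (hN c) (pow_mem (((X.W c).valuation_le_one_iff _).mp (htv c).le) _)
    · intro i
      refine mul_mem (pow_mem ((X.mem_B'.mp t.2).2 i) _) ?_
      rw [← ValuationSubring.valuation_le_one_iff, map_inv₀, X.q_unit, inv_one]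
  apply ht
  refine hn.mem_of_pow_mem (∑ c, N c) ?_
  have h1 : t ^ (∑ c, N c) = (⟨_, hmem⟩ : X.B) * ⟨X.q, X.q_mem⟩ := by
    apply Subtype.ext
    change (t : F) ^ (∑ c, N c) = (t : F) ^ (∑ c, N c) * X.q⁻¹ * X.q
    rw [mul_assoc, inv_mul_cancel₀ X.q_ne, mul_one]
  rw [h1]
  exact Ideal.mul_mem_left _ _ hq

section Local

variable [Finite C] [IsFractionRing X.B F] [IsNoetherianRing X.B] {n : Ideal X.B}
  [hn : n.IsMaximal] {i₀ : C ⊕ P} {κ : Type*} [Field κ] (D : LocalData X.V n i₀ κ)

include D in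
/-- Extraction of the horizontal part. -/
theorem exists_horizontal (hcent : ∀ c, Sum.inl c ∈ near X.V n →
      ∃ b ∈ n, (X.W c).valuation (b : F) = 1) {f : F} (hf : f ≠ 0) :
    ∃ g : F, g ≠ 0 ∧ (∀ i, Sum.inr i ∈ near X.V n → (X.H i).valuation g = (X.H i).valuation f) ∧
      ∀ c, Sum.inl c ∈ near X.V n → (X.W c).valuation g = 1 := by
  have hB : ∀ x : F, x ∈ X.B ↔ ∀ i, x ∈ X.V i := fun _ => X.mem_B
  have hufd := D.ufd hB X.fcV X.rV
  let V' : near X.V n → ValuationSubring F := fun i => X.V i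
  let H' : Set (near X.V n) := {i | ∃ j, (i : C ⊕ P) = Sum.inr j}
  have hqL : X.q ∈ Loc X.B n := mem_loc.mpr ⟨⟨X.q, X.q_mem⟩, 1, fun h => hn.ne_top
    (Ideal.eq_top_of_isUnit_mem _ h isUnit_one), by simp⟩
  have hsep : ∀ p : Loc X.B n, Prime p → ∀ i ∈ H', ∀ j, j ∉ H' →
      (V' i).valuation (algebraMap (Loc X.B n) F p) < 1 →
      (V' j).valuation (algebraMap (Loc X.B n) F p) = 1 := by
    rintro p hp ⟨i, hi⟩ ⟨i', hii'⟩ ⟨j, hj⟩ hjH hip
    obtain rfl : i = Sum.inr i' := hii'
    rcases j with c | j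
    swap
    · exact absurd ⟨j, rfl⟩ hjH
    by_contra hne
    have hle : (X.V (Sum.inl c)).valuation (p : F) ≤ 1 :=
      ((X.V (Sum.inl c)).valuation_le_one_iff _).mpr (mem_loc_iff'.mp p.2 _ hj)
    have hlt : (X.V (Sum.inl c)).valuation (p : F) < 1 := lt_of_le_of_ne hle hne
    obtain ⟨s, hs⟩ := D.prime_dvd hB X.fcV X.rV hj (hcent c hj) hp hlt
      (s := ⟨X.q, hqL⟩) (X.q_lt c)
    have hs' : X.q = (p : F) * (s : F) := congrArg Subtype.val hs
    have h1 : (X.H i').valuation X.q < 1 := by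
      rw [hs', map_mul]
      exact (mul_le_of_le_one_right' (((X.H i').valuation_le_one_iff _).mpr
        (mem_loc_iff'.mp s.2 _ hi))).trans_lt hip
    rw [X.q_unit] at h1
    exact lt_irrefl _ h1
  have hS : ∀ (i : near X.V n) (s : Loc X.B n), algebraMap (Loc X.B n) F s ∈ V' i :=
    fun i s => mem_loc_iff'.mp s.2 _ i.2
  obtain ⟨a, b, hb, rfl⟩ := IsFractionRing.div_surjective (A := Loc X.B n) f
  have hb0 : b ≠ 0 := nonZeroDivisors.ne_zero hb
  have ha0 : a ≠ 0 := by
    rintro rfl
    rw [map_zero, zero_div] at hf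
    exact hf rfl
  obtain ⟨g, hg0, hg1, hg2⟩ := exists_strip V' hS H' hsep a ha0
  obtain ⟨g', hg0', hg1', hg2'⟩ := exists_strip V' hS H' hsep b hb0
  refine ⟨algebraMap (Loc X.B n) F g / algebraMap (Loc X.B n) F g', ?_, ?_, ?_⟩
  · exact div_ne_zero (fun h => hg0 (Subtype.ext h)) (fun h => hg0' (Subtype.ext h))
  · intro i hi
    have h1 := hg1 ⟨_, hi⟩ ⟨i, rfl⟩
    have h2 := hg1' ⟨_, hi⟩ ⟨i, rfl⟩
    rw [map_div₀, map_div₀]
    exact congrArg₂ (· / ·) h1 h2
  · intro c hc
    have h1 := hg2 ⟨_, hc⟩ (by rintro ⟨j, hj⟩; exact absurd hj (by simp))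
    have h2 := hg2' ⟨_, hc⟩ (by rintro ⟨j, hj⟩; exact absurd hj (by simp))
    rw [map_div₀]
    have h3 : (X.W c).valuation (algebraMap (Loc X.B n) F g) = 1 := h1
    have h4 : (X.W c).valuation (algebraMap (Loc X.B n) F g') = 1 := h2
    rw [h3, h4, div_one]

include D in
/-- **Local equations of horizontal divisors.** -/
theorem exists_local_root (hcent : ∀ c, Sum.inl c ∈ near X.V n →
      ∃ b ∈ n, (X.W c).valuation (b : F) = 1) (hq : (⟨X.q, X.q_mem⟩ : X.B) ∈ n)
    {m : ℕ} (hm : m ≠ 0) {f : F} (hf : f ≠ 0)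
    (hroot : ∀ i, Sum.inr i ∈ near X.V n →
      ∃ h : F, h ≠ 0 ∧ (X.H i).valuation f = (X.H i).valuation h ^ m) :
    ∃ h : F, h ≠ 0 ∧ (∀ c, Sum.inl c ∈ near X.V n → (X.W c).valuation h = 1) ∧
      ∀ i, Sum.inr i ∈ near X.V n → (X.H i).valuation f = (X.H i).valuation h ^ m := by
  have hB : ∀ x : F, x ∈ X.B ↔ ∀ i, x ∈ X.V i := fun _ => X.mem_B
  obtain ⟨g, hg0, hg1, hg2⟩ := exists_horizontal D hcent hf
  have hcent' : ∀ i ∈ near X.V n, ∃ b ∈ n, (X.V i).valuation (b : F) = 1 := by
    rintro (c | i) hi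
    · exact hcent c hi
    · exact ⟨_, hq, X.q_unit i⟩
  obtain ⟨h, hh0, h1, h2⟩ := D.exists_root hB X.fcV X.rV hcent' hm hg0 (by
    rintro (c | i) hi
    · refine ⟨1, one_ne_zero, ?_⟩
      rw [map_one, one_pow]
      exact hg2 c hi
    · obtain ⟨h, hh0, hh⟩ := hroot i hi
      exact ⟨h, hh0, (hg1 i hi).trans hh⟩)
  have hm0 : h ^ m ≠ 0 := pow_ne_zero _ hh0
  have hval : ∀ i ∈ near X.V n, (X.V i).valuation g = (X.V i).valuation h ^ m := by
    intro i hi
    have h3 := val_eq_one_of_loc (X := X) (n := n) h1 (by rw [inv_div]; exact h2)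
      (div_ne_zero hg0 hm0) hi
    rw [map_div₀, div_eq_one_iff_eq ((Valuation.ne_zero_iff _).mpr hm0), map_pow] at h3
    exact h3
  refine ⟨h, hh0, fun c hc => ?_, fun i hi => ?_⟩
  · have h3 : (X.W c).valuation g = (X.W c).valuation h ^ m := hval (Sum.inl c) hc
    rw [hg2 c hc] at h3
    exact pow_eq_pow_left hm (by rw [← h3, one_pow])
  · rw [← hg1 i hi]
    exact hval (Sum.inr i) hi

end Local

end Chart

end Fermat.Agent.DR.S36.G
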