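import Fermat.Agent.DR.Nodes.PoleBound
import Fermat.Agent.DR.Nodal.Basic
import Fermat.Agent.DR.Nodes.RegAlg

set_option autoImplicit false

/-!
# Affine coordinate rings of curves: maximal ideals are places
-/

noncomputable section

open AlgebraicCurve Fermat.Agent.RR IntermediateField IsDedekindDomain
open Fermat.Agent.DR.Nodes (regAlg mem_regAlg isDedekindDomain_intClosure isFractionRing_intClosure
  mem_regAlg_of_isIntegral isIntegral_of_mem_regAlg)

namespace Fermat.Agent.DR.S36

variable {k κ : Type*} [Field k] [Field κ] [Algebra k κ] [FunctionField k κ] {y : κ}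

theorem finiteDimensional_of_tr' (hx : Transcendental k y) : FiniteDimensional k⟮y⟯ κ := by
  have : Fermat.FF.IsFF1 k κ := ⟨FunctionField.exists_finite⟩
  exact Fermat.FF.IsFF1.finiteDimensional_adjoin hx

/-- `y` has a zero. -/
theorem exists_zero [IsAlgClosed k] (hy : Transcendental k y) : ∃ R : Place k κ, 0 < R.ord y := by
  have hy0 : y ≠ 0 := by
    rintro rfl
    exact hy isAlgebraic_zero
  have hyi : Transcendental k y⁻¹ := by
    rw [transcendental_iff] at hy ⊢
    intro p hp
    by_contra hne
    have h1 : IsAlgebraic k y⁻¹ := ⟨p, hne, hp⟩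
    have h2 : IsAlgebraic k y := by simpa using h1.inv
    obtain ⟨r, hr, hr'⟩ := h2
    exact hr (hy r hr')
  have h := Fermat.Agent.DR.Nodes.degree_polesOf_pos hyi
  by_contra hcon
  push Not at hcon
  have h0 : polesOf (K := k) y⁻¹ = 0 := by
    ext R
    rw [polesOf_apply, R.ord_inv, neg_neg, max_eq_right (hcon R)]
    rfl
  rw [h0, map_zero] at h
  exact lt_irrefl _ h

/-- inclusion of the integral closure -/
def icIncl (hy : Transcendental k y) :
    integralClosure (Algebra.adjoin k {y}) κ ≃+* regAlg k y where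
  toFun r := ⟨(r : κ), mem_regAlg_of_isIntegral r.2⟩
  invFun r := ⟨(r : κ), by
    have := finiteDimensional_of_tr' hy
    exact isIntegral_of_mem_regAlg hy r.2⟩
  left_inv _ := rfl
  right_inv _ := rfl
  map_mul' _ _ := rfl
  map_add' _ _ := rfl

theorem coe_icIncl (hy : Transcendental k y) (r : integralClosure (Algebra.adjoin k {y}) κ) :
    ((icIncl hy r : regAlg k y) : κ) = (r : κ) := rfl

/-- **Maximal ideals of the coordinate ring are places.** -/
theorem exists_place_of_isMaximal [IsAlgClosed k] (hy : Transcendental k y)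
    {I : Ideal (regAlg k y)} (hI : I.IsMaximal) :
    ∃ R : Place k κ, y ∈ R.toValuationSubring ∧
      ∀ u : regAlg k y, R.adicValuation (u : κ) < 1 ↔ u ∈ I := by
  have hfd := finiteDimensional_of_tr' hy
  have h1 := isDedekindDomain_intClosure (k := k) (F := κ) hy
  have h2 := isFractionRing_intClosure (k := k) (F := κ) (x := y)
  have hI0 : I ≠ ⊥ := by
    rintro rfl
    obtain ⟨R, hR⟩ := exists_zero hy
    have hy0 : y ≠ 0 := by
      rintro rfl
      simp at hR
    have hfield := Ring.isField_iff_maximal_bot.mpr hI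
    obtain ⟨z, hz⟩ := hfield.mul_inv_cancel (a := (⟨y, fun P hP => hP⟩ : regAlg k y))
      (fun h => hy0 (congrArg Subtype.val h))
    have hz' : y * (z : κ) = 1 := congrArg Subtype.val hz
    have hz0 : (z : κ) = y⁻¹ := eq_inv_of_mul_eq_one_right hz'
    have h3 := z.2 R (mem_of_ord_nonneg R hR.le)
    rw [hz0, mem_iff_ord_nonneg, R.ord_inv] at h3
    linarith
  let J : Ideal (integralClosure (Algebra.adjoin k {y}) κ) := I.comap (icIncl hy).toRingHom
  have hJ : J.IsPrime := Ideal.IsPrime.comap _ (hK := hI.isPrime)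
  have hJ0 : J ≠ ⊥ := by
    intro h
    apply hI0
    rw [eq_bot_iff]
    intro u hu
    obtain ⟨r, rfl⟩ := (icIncl hy).surjective u
    have hr : r ∈ J := hu
    rw [h, Ideal.mem_bot] at hr
    rw [hr, map_zero]
    exact zero_mem _
  refine ⟨Place.ofHeightOneSpectrum (K := k) ⟨J, hJ, hJ0⟩, ?_, ?_⟩
  · rw [Place.ofHeightOneSpectrum_toValuationSubring, Valuation.mem_valuationSubring_iff]
    exact HeightOneSpectrum.valuation_le_one _
      ((icIncl hy).symm ⟨y, fun P hP => hP⟩)
  · intro u
    obtain ⟨r, rfl⟩ := (icIncl hy).surjective u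
    exact Fermat.FF.val_ofHeightOneSpectrum_lt_one_iff (K := k) (F := κ) ⟨J, hJ, hJ0⟩ (r := r)

theorem ic_mem (hy : Transcendental k y) {R : Place k κ} (hR : y ∈ R.toValuationSubring)
    (r : integralClosure (Algebra.adjoin k {y}) κ) :
    algebraMap (integralClosure (Algebra.adjoin k {y}) κ) κ r ∈ R.toValuationSubring :=
  (icIncl hy r).2 R hR

/-- The local ring of a place is a localisation of the coordinate ring. -/
theorem exists_div_reg (hy : Transcendental k y) {R : Place k κ}
    (hR : y ∈ R.toValuationSubring) {g : κ} (hg : g ∈ R.toValuationSubring) :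
    ∃ a ∈ regAlg k y, ∃ b ∈ regAlg k y, R.adicValuation b = 1 ∧ b * g = a := by
  have hfd := finiteDimensional_of_tr' hy
  have h1 := isDedekindDomain_intClosure (k := k) (F := κ) hy
  have h2 := isFractionRing_intClosure (k := k) (F := κ) (x := y)
  obtain ⟨a, s, hs, h⟩ := Fermat.FF.Gen.exists_div_of_mem R (ic_mem hy hR) hg
  exact ⟨(a : κ), (icIncl hy a).2, (s : κ), (icIncl hy s).2, hs, h⟩

/-- Places are separated by the coordinate ring. -/
theorem place_eq_of_reg (hy : Transcendental k y) {R R' : Place k κ}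
    (hR : y ∈ R.toValuationSubring) (hR' : y ∈ R'.toValuationSubring)
    (h : ∀ u ∈ regAlg k y, R.adicValuation u < 1 → R'.adicValuation u < 1) : R = R' := by
  have hfd := finiteDimensional_of_tr' hy
  have h1 := isDedekindDomain_intClosure (k := k) (F := κ) hy
  have h2 := isFractionRing_intClosure (k := k) (F := κ) (x := y)
  have h3 : Fermat.FF.centre R (ic_mem hy hR) = Fermat.FF.centre R' (ic_mem hy hR') := by
    have hmax : (Fermat.FF.centre R (ic_mem hy hR)).IsMaximal :=
      (Fermat.FF.centre_isPrime R (ic_mem hy hR)).isMaximal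
        (Fermat.FF.centre_ne_bot R (ic_mem hy hR))
    apply hmax.eq_of_le (Fermat.FF.centre_isPrime R' (ic_mem hy hR')).ne_top
    intro r hr
    rw [Fermat.FF.mem_centre] at hr ⊢
    exact h _ (icIncl hy r).2 hr
  rw [Fermat.FF.eq_ofHeightOneSpectrum R (ic_mem hy hR),
    Fermat.FF.eq_ofHeightOneSpectrum R' (ic_mem hy hR')]
  congr 1
  exact HeightOneSpectrum.ext h3

theorem exists_reg_zero (hy : Transcendental k y) {R : Place k κ}
    (hR : y ∈ R.toValuationSubring) : ∃ u ∈ regAlg k y, u ≠ 0 ∧ R.adicValuation u < 1 := by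
  have hfd := finiteDimensional_of_tr' hy
  have h1 := isDedekindDomain_intClosure (k := k) (F := κ) hy
  have h2 := isFractionRing_intClosure (k := k) (F := κ) (x := y)
  obtain ⟨r, hr, hr0⟩ := Submodule.exists_mem_ne_zero_of_ne_bot
    (Fermat.FF.centre_ne_bot R (ic_mem hy hR))
  refine ⟨(r : κ), (icIncl hy r).2, fun h => hr0 (Subtype.ext h), ?_⟩
  exact Fermat.FF.mem_centre.mp hr

end Fermat.Agent.DR.S36
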