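import Fermat.Agent.DR.S36.ChartF
import Fermat.Agent.DR.S36.G5
import Fermat.Agent.DR.S36.RegPlace

set_option autoImplicit false
set_option linter.unusedSectionVars false

/-!
# Closed points of the special fibre
-/

noncomputable section

open AlgebraicCurve Fermat.Agent.RR Polynomial IntermediateField
open Fermat.Agent.DR.Nodes (regAlg mem_regAlg mem_regAlg_of_isIntegral)

namespace Fermat.Agent.DR.S36.Surf

variable {L K FL F k κ : Type*} [Field L] [Field K] [Field FL] [Field F] [Field k] [Field κ]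
  [Algebra L K] [Algebra L FL] [Algebra K F] [Algebra FL F] [Algebra k κ]
  {A₀ : ValuationSubring L} {q : ℕ} {S : Surf L K FL F k κ A₀ q}

section

variable [IsAlgClosed K] [FunctionField K F] [IsAlgClosed k] [FunctionField k κ]
  {x : FL} {y : κ}

/-- residues of functions on the chart are regular functions on the component -/
theorem IsChart.res_mem_regAlg (hx : S.IsChart x y) {b : FL} (hb : S.Hol x b) {c : Fin 3} {u : κ}
    (hu : (S.V c).Res b u) : u ∈ regAlg k y := by
  obtain ⟨D⟩ := hx.exists_cd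
  obtain ⟨n, hn, -⟩ := hx.deg
  have hxb : D.xb c = y ^ n c := (S.V c).res_unique (D.res c) (hn c).2
  obtain ⟨p, hp, hpb⟩ := D.isIntegral hb
  let φ : A₀[X] →+* κ := (aeval (D.xb c)).toRingHom.comp (mapRingHom S.π₀)
  have hres : ∀ r : A₀[X][X], (S.V c).Res (eval₂ (evx x) b r) (eval₂ φ u r) := by
    intro r
    induction r using Polynomial.induction_on' with
    | add r s hr hs => rw [eval₂_add, eval₂_add]; exact (S.V c).res_add hr hs
    | monomial m a =>
      rw [eval₂_monomial, eval₂_monomial]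
      exact (S.V c).res_mul (S.res_evx (D.res c) a) ((S.V c).res_pow hu m)
  have h0 : eval₂ φ u p = 0 := by
    have h1 := hres p
    rw [hpb] at h1
    exact (S.V c).res_unique h1 (S.V c).res_zero
  have hint : IsIntegral (Algebra.adjoin k {D.xb c}) u := by
    let g : A₀[X] →+* Algebra.adjoin k {D.xb c} := φ.codRestrict _ fun r => by
      rw [Algebra.adjoin_singleton_eq_range_aeval]
      exact ⟨r.map S.π₀, rfl⟩
    refine ⟨p.map g, hp.map _, ?_⟩
    rw [eval₂_map]
    exact h0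
  intro R hR
  refine mem_regAlg_of_isIntegral hint R ?_
  rw [hxb]
  exact pow_mem hR _

theorem val_of_mem {R : Place k κ} {u : κ} (hu : u ∈ R.toValuationSubring) :
    ∃ a : k, Val R u a := by
  obtain ⟨a, ha⟩ := exists_const_of_mem R hu
  exact ⟨a, adicValuation_lt_one_iff.mpr ha⟩

theorem mem_of_val {R : Place k κ} {u : κ} {a : k} (h : Val R u a) : u ∈ R.toValuationSubring := by
  rw [mem_iff_adicValuation]
  exact h.le_one

theorem inv_mem_of_val {R : Place k κ} {u : κ} {a : k} (h : Val R u a) (ha : a ≠ 0) :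
    u⁻¹ ∈ R.toValuationSubring := by
  obtain ⟨-, h3⟩ := h.ord_eq_zero ha
  apply mem_of_ord_nonneg
  rw [R.ord_inv, h3, neg_zero]

/-- The ideal of the point `(c, R)`. -/
def pt (hx : S.IsChart x y) (c : Fin 3) {R : Place k κ} (hR : y ∈ R.toValuationSubring) :
    Ideal (S.chart x).B where
  carrier := {b | ∃ u, (S.V c).Res (b : FL) u ∧ Val R u 0}
  zero_mem' := ⟨0, (S.V c).res_zero, Val.zero⟩
  add_mem' := by
    rintro a b ⟨u, hu, hu'⟩ ⟨v, hv, hv'⟩
    exact ⟨u + v, (S.V c).res_add hu hv, by simpa using hu'.add hv'⟩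
  smul_mem' := by
    rintro a b ⟨u, hu, hu'⟩
    obtain ⟨v, hv⟩ := (S.V c).exists_res ((S.mem_chart_B.mp a.2).1 c)
    obtain ⟨z, hz⟩ := val_of_mem (hx.res_mem_regAlg (S.mem_chart_B.mp a.2) hv R hR)
    exact ⟨v * u, (S.V c).res_mul hv hu, by simpa using hz.mul hu'⟩

theorem mem_pt {hx : S.IsChart x y} {c : Fin 3} {R : Place k κ} {hR : y ∈ R.toValuationSubring}
    {b : (S.chart x).B} : b ∈ pt hx c hR ↔ ∃ u, (S.V c).Res (b : FL) u ∧ Val R u 0 := Iff.rfl

theorem mem_pt_iff {hx : S.IsChart x y} {c : Fin 3} {R : Place k κ}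
    {hR : y ∈ R.toValuationSubring} {b : (S.chart x).B} {u : κ} (hu : (S.V c).Res (b : FL) u) :
    b ∈ pt hx c hR ↔ Val R u 0 := by
  rw [mem_pt]
  constructor
  · rintro ⟨u', hu', h⟩
    rwa [(S.V c).res_unique hu hu']
  · exact fun h => ⟨u, hu, h⟩

/-- constants of the base, as functions on the chart -/
def cst (S : Surf L K FL F k κ A₀ q) (x : FL) (a : A₀) : (S.chart x).B :=
  ⟨algebraMap L FL a, S.mem_chart_B.mpr ⟨fun c => (S.V c).nonneg (S.res_const c a),
    fun P _ => by rw [S.comm]; exact P.algebraMap_mem' _⟩⟩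

theorem coe_cst (a : A₀) : ((cst S x a : (S.chart x).B) : FL) = algebraMap L FL a := rfl

theorem exists_cst (c : k) : ∃ a : A₀, ∀ i, (S.V i).Res ((cst S x a : (S.chart x).B) : FL)
    (algebraMap k κ c) := by
  obtain ⟨a, rfl⟩ := S.π₀_surjective c
  exact ⟨a, fun i => S.res_const i a⟩

theorem pt_isMaximal (hx : S.IsChart x y) (c : Fin 3) {R : Place k κ}
    (hR : y ∈ R.toValuationSubring) : (pt hx c hR).IsMaximal := by
  rw [Ideal.isMaximal_iff]
  constructor
  · rw [mem_pt_iff (u := 1) (by exact (S.V c).res_one)]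
    intro h
    exact one_ne_zero (Val.one.unique h)
  · intro J b hJ hb hbJ
    obtain ⟨u, hu⟩ := (S.V c).exists_res ((S.mem_chart_B.mp b.2).1 c)
    obtain ⟨z, hz⟩ := val_of_mem (hx.res_mem_regAlg (S.mem_chart_B.mp b.2) hu R hR)
    have hz0 : z ≠ 0 := by
      rintro rfl
      exact hb ((mem_pt_iff hu).mpr hz)
    obtain ⟨a, ha⟩ := exists_cst (S := S) (x := x) z⁻¹
    have h1 : cst S x a * b - 1 ∈ pt hx c hR := by
      have h2 : (S.V c).Res ((cst S x a * b - 1 : (S.chart x).B) : FL)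
          (algebraMap k κ z⁻¹ * u - 1) := by
        exact (S.V c).res_sub ((S.V c).res_mul (ha c) hu) (S.V c).res_one
      rw [mem_pt_iff h2]
      have h3 := ((Val.const (P := R) z⁻¹).mul hz).sub Val.one
      rwa [inv_mul_cancel₀ hz0, sub_self] at h3
    have h2 : (1 : (S.chart x).B) = cst S x a * b - (cst S x a * b - 1) := by ring
    rw [h2]
    exact sub_mem (J.mul_mem_left _ hbJ) (hJ h1)

theorem q_mem_pt (hx : S.IsChart x y) (c : Fin 3) {R : Place k κ}
    (hR : y ∈ R.toValuationSubring) :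
    (⟨(S.chart x).q, (S.chart x).q_mem⟩ : (S.chart x).B) ∈ pt hx c hR := by
  have h1 : (S.V c).Res (q : FL) 0 := by
    have h2 := S.res_const c (q : A₀)
    rw [S.π₀_q, map_zero] at h2
    have h3 : algebraMap L FL ((q : A₀) : L) = (q : FL) := map_natCast (algebraMap L FL) q
    rwa [h3] at h2
  exact ⟨0, h1, Val.zero⟩

theorem near_pt (hx : S.IsChart x y) (c : Fin 3) {R : Place k κ}
    (hR : y ∈ R.toValuationSubring) : Sum.inl c ∈ G.near (S.chart x).V (pt hx c hR) := by
  intro b hb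
  obtain ⟨u, hu⟩ := (S.V c).exists_res ((S.mem_chart_B.mp b.2).1 c)
  have hu0 : u ≠ 0 := by
    rintro rfl
    exact hb ⟨0, hu, Val.zero⟩
  exact ((S.V c).valuation_eq_one_iff ((S.V c).ne_zero_of_res hu hu0)).mpr
    ((S.V c).w_eq_zero_of_res hu hu0)

/-- **Every closed point of the special fibre is a point of a component.** -/
theorem exists_eq_pt (hx : S.IsChart x y) {n : Ideal (S.chart x).B} (hn : n.IsMaximal)
    {c : Fin 3} (hc : Sum.inl c ∈ G.near (S.chart x).V n) :
    ∃ (R : Place k κ) (hR : y ∈ R.toValuationSubring), n = pt hx c hR := by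
  have hmem : ∀ b : (S.chart x).B, (b : FL) ∈ (S.V c).W := fun b =>
    (S.mem_chart_B.mp b.2).1 c
  let ρ : (S.chart x).B →+* regAlg k y :=
    ((S.V c).ρ.comp ((S.chart x).B.subtype.codRestrict (S.V c).W hmem)).codRestrict
      (regAlg k y) fun b => hx.res_mem_regAlg (S.mem_chart_B.mp b.2) ((S.V c).res_ρ ⟨b, hmem b⟩)
  have hρ : ∀ b : (S.chart x).B, (S.V c).Res (b : FL) ((ρ b : regAlg k y) : κ) := fun b =>
    (S.V c).res_ρ ⟨b, hmem b⟩
  have hsurj : Function.Surjective ρ := by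
    rintro ⟨u, hu⟩
    obtain ⟨b, hb, hbu⟩ := hx.lift c u hu
    exact ⟨⟨b, S.mem_chart_B.mpr hb⟩, Subtype.ext ((S.V c).res_unique (hρ _) hbu)⟩
  have hker : ∀ b, ρ b = 0 → b ∈ n := by
    intro b hb
    by_contra hbn
    have h1 := hc b hbn
    have h2 : (S.V c).Res (b : FL) 0 := by
      have := hρ b
      rwa [hb] at this
    rw [(S.V c).res_zero_iff, ← (S.V c).valuation_lt_one_iff] at h2
    exact h2.ne h1
  have hmax : (n.map ρ).IsMaximal := by
    have h1 := Ideal.map_eq_top_or_isMaximal_of_surjective ρ hsurj hn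
    rcases h1 with h1 | h1
    · exfalso
      have h2 : (1 : regAlg k y) ∈ n.map ρ := by rw [h1]; trivial
      obtain ⟨b, hb, hb1⟩ := (Ideal.mem_map_iff_of_surjective ρ hsurj).mp h2
      have h3 : b - 1 ∈ n := hker _ (by rw [map_sub, hb1, map_one, sub_self])
      apply hn.ne_top
      rw [Ideal.eq_top_iff_one]
      have h4 : (1 : (S.chart x).B) = b - (b - 1) := by ring
      rw [h4]
      exact sub_mem hb h3
    · exact h1
  obtain ⟨R, hR, hRn⟩ := exists_place_of_isMaximal hx.transcendental hmax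
  refine ⟨R, hR, ?_⟩
  have hval : ∀ u : κ, Val R u 0 ↔ R.adicValuation u < 1 := fun u => by
    unfold Val
    rw [map_zero, sub_zero]
  ext b
  rw [mem_pt_iff (hρ b), hval, hRn]
  constructor
  · exact fun h => Ideal.mem_map_of_mem ρ h
  · intro h
    obtain ⟨b', hb', hbb⟩ := (Ideal.mem_map_iff_of_surjective ρ hsurj).mp h
    have h3 : b - b' ∈ n := hker _ (by rw [map_sub, hbb, sub_self])
    have h4 : b = b' + (b - b') := by ring
    rw [h4]
    exact add_mem hb' h3

theorem exists_pt (hx : S.IsChart x y) {n : Ideal (S.chart x).B} (hn : n.IsMaximal)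
    (hq : (⟨(S.chart x).q, (S.chart x).q_mem⟩ : (S.chart x).B) ∈ n) :
    ∃ (c : Fin 3) (R : Place k κ) (hR : y ∈ R.toValuationSubring), n = pt hx c hR := by
  obtain ⟨c, hc⟩ := G.Chart.exists_near hn.isPrime hq
  obtain ⟨R, hR, h⟩ := exists_eq_pt hx hn hc
  exact ⟨c, R, hR, h⟩

/-- points on the same component are separated -/
theorem pt_injective (hx : S.IsChart x y) {c : Fin 3} {R R' : Place k κ}
    {hR : y ∈ R.toValuationSubring} {hR' : y ∈ R'.toValuationSubring}
    (h : pt hx c hR = pt hx c hR') : R = R' := by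
  apply place_eq_of_reg hx.transcendental hR hR'
  intro u hu h1
  obtain ⟨b, hb, hbu⟩ := hx.lift c u hu
  have hval : ∀ R : Place k κ, Val R u 0 ↔ R.adicValuation u < 1 := fun R => by
    unfold Val
    rw [map_zero, sub_zero]
  have h2 : (⟨b, S.mem_chart_B.mpr hb⟩ : (S.chart x).B) ∈ pt hx c hR :=
    (mem_pt_iff hbu).mpr ((hval R).mpr h1)
  rw [h] at h2
  exact (hval R').mp ((mem_pt_iff hbu).mp h2)

/-- the horizontal and vertical valuations near a point -/
theorem exists_cent (hx : S.IsChart x y) {n : Ideal (S.chart x).B} (hn : n.IsMaximal)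
    {c : Fin 3} (hc : Sum.inl c ∈ G.near (S.chart x).V n) :
    ∃ b ∈ n, (S.V c).W.valuation (b : FL) = 1 := by
  obtain ⟨R, hR, rfl⟩ := exists_eq_pt hx hn hc
  obtain ⟨u, hu, hu0, hu1⟩ := exists_reg_zero hx.transcendental hR
  obtain ⟨b, hb, hbu⟩ := hx.lift c u hu
  refine ⟨⟨b, S.mem_chart_B.mpr hb⟩, (mem_pt_iff hbu).mpr ?_, ?_⟩
  · unfold Val
    rwa [map_zero, sub_zero]
  · exact ((S.V c).valuation_eq_one_iff ((S.V c).ne_zero_of_res hbu hu0)).mpr
      ((S.V c).w_eq_zero_of_res hbu hu0)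

/-- **Local data at a point.** -/
def localData (hx : S.IsChart x y) (c : Fin 3) {R : Place k κ} (hR : y ∈ R.toValuationSubring)
    {z : FL} (hz : (S.V c).w z = 1)
    (hz' : ∀ c', c' ≠ c → Sum.inl c' ∈ G.near (S.chart x).V (pt hx c hR) → (S.V c').w z = 0)
    (hz'' : ∀ P, Sum.inr P ∈ G.near (S.chart x).V (pt hx c hR) →
      P.1.ord (algebraMap FL F z) = 0) :
    G.LocalData (S.chart x).V (pt hx c hR) (Sum.inl c) κ where
  mem_near := near_pt hx c hR
  z := z
  z_ne := S.ne_zero_of_w hz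
  z_lt := by
    refine (S.V c).valuation_lt_one_iff.mpr ((S.V c).pos_iff.mpr (Or.inr ?_))
    rw [hz]; exact zero_lt_one
  z_gen := by
    intro f hf
    rcases eq_or_ne f 0 with rfl | hf0
    · rw [map_zero]; exact zero_le
    refine ((S.V c).valuation_le_iff hf0 (S.ne_zero_of_w hz)).mpr ?_
    rw [hz]
    have h1 := (S.V c).pos_iff.mp ((S.V c).valuation_lt_one_iff.mp hf)
    rcases h1 with h1 | h1
    · exact absurd h1 hf0
    · omega
  z_unit := by
    rintro (c' | P) hi hne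
    · exact ((S.V c').valuation_eq_one_iff (S.ne_zero_of_w hz)).mpr
        (hz' c' (fun h => hne (by rw [h])) hi)
    · exact (HP_eq_one_iff P.1 (S.ne_zero_of_w hz)).mpr (hz'' P hi)
  ρ := (S.V c).ρ
  ρ_eq_zero := (S.V c).ρ_eq_zero_iff
  O := R.toValuationSubring
  principal := R.isPrincipalIdealRing'
  mem_O := fun b hb hbB => hx.res_mem_regAlg (S.mem_chart_B.mp hbB) ((S.V c).res_ρ ⟨b, hb⟩) R hR
  unit_O := by
    intro b hb hbn
    have h1 := (S.V c).res_ρ ⟨b, hb⟩
    have h2 : ¬ Val R ((S.V c).ρ ⟨b, hb⟩) 0 := fun h => hbn ⟨_, h1, h⟩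
    obtain ⟨a, ha⟩ := val_of_mem (hx.res_mem_regAlg (S.mem_chart_B.mp b.2) h1 R hR)
    have ha0 : a ≠ 0 := by
      rintro rfl
      exact h2 ha
    exact inv_mem_of_val ha ha0
  surj_O := by
    intro g hg
    obtain ⟨a, ha, b, hb, hb1, hab⟩ := exists_div_reg hx.transcendental hR hg
    obtain ⟨a', ha', hau⟩ := hx.lift c a ha
    obtain ⟨b', hb', hbu⟩ := hx.lift c b hb
    refine ⟨⟨a', S.mem_chart_B.mpr ha'⟩, ⟨b', S.mem_chart_B.mpr hb'⟩, ha'.1 c, hb'.1 c, ?_, ?_⟩
    · rw [mem_pt_iff hbu]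
      intro h
      unfold Val at h
      rw [map_zero, sub_zero, hb1] at h
      exact lt_irrefl _ h
    · refine Eq.trans (congrArg (· * g) ((S.V c).ρ_eq (f := ⟨b', hb'.1 c⟩) hbu)) ?_
      exact hab.trans ((S.V c).ρ_eq (f := ⟨a', ha'.1 c⟩) hau).symm

end

end Fermat.Agent.DR.S36.Surf
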