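import Fermat.Agent.DR.S36.ChartG

set_option autoImplicit false
set_option linter.unusedSectionVars false

/-!
# Local analysis at the points of the special fibre
-/

noncomputable section

open AlgebraicCurve Fermat.Agent.RR Polynomial IntermediateField
open Fermat.Agent.DR.Nodes (regAlg mem_regAlg mem_regAlg_of_isIntegral)

namespace Fermat.Agent.DR.S36.Surf

variable {L K FL F k κ : Type*} [Field L] [Field K] [Field FL] [Field F] [Field k] [Field κ]
  [Algebra L K] [Algebra L FL] [Algebra K F] [Algebra FL F] [Algebra k κ]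
  {A₀ : ValuationSubring L} {q : ℕ} {S : Surf L K FL F k κ A₀ q}

section

variable [IsAlgClosed K] [FunctionField K F] [IsAlgClosed k] [FunctionField k κ]
  {x : FL} {y : κ}

theorem IsChart.isNoetherianRing [IsDiscreteValuationRing A₀] [CharZero L] (hx : S.IsChart x y) :
    IsNoetherianRing (S.chart x).B := by
  obtain ⟨D⟩ := hx.exists_cd
  exact D.finite_and.2.1

theorem IsChart.isFractionRing [IsDiscreteValuationRing A₀] [CharZero L] (hx : S.IsChart x y) :
    IsFractionRing (S.chart x).B FL := by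
  obtain ⟨D⟩ := hx.exists_cd
  exact D.finite_and.2.2

theorem near_inr_iff {hx : S.IsChart x y} {c : Fin 3} {R : Place k κ}
    {hR : y ∈ R.toValuationSubring}
    {P : {P : Place K F // algebraMap FL F x ∈ P.toValuationSubring}} :
    Sum.inr P ∈ G.near (S.chart x).V (pt hx c hR) ↔
      ∀ b u, S.Hol x b → (S.V c).Res b u → ¬ Val R u 0 → P.1.ord (algebraMap FL F b) = 0 := by
  constructor
  · intro h b u hb hu hu0
    have h1 := h ⟨b, S.mem_chart_B.mpr hb⟩ (fun h => hu0 ((mem_pt_iff hu).mp h))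
    have hb0 : b ≠ 0 := by
      rintro rfl
      rw [(S.V c).res_unique hu (S.V c).res_zero] at hu0
      exact hu0 Val.zero
    exact (HP_eq_one_iff P.1 hb0).mp h1
  · intro h b hb
    obtain ⟨u, hu⟩ := (S.V c).exists_res ((S.mem_chart_B.mp b.2).1 c)
    have hu0 : ¬ Val R u 0 := fun h => hb ((mem_pt_iff hu).mpr h)
    have hb0 : (b : FL) ≠ 0 := by
      intro h0
      rw [h0] at hu
      rw [(S.V c).res_unique hu (S.V c).res_zero] at hu0
      exact hu0 Val.zero
    exact (HP_eq_one_iff P.1 hb0).mpr (h b u (S.mem_chart_B.mp b.2) hu hu0)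

/-- `exists_cent` for components near a point -/
theorem cent (hx : S.IsChart x y) {c : Fin 3} {R : Place k κ} {hR : y ∈ R.toValuationSubring} :
    ∀ c', Sum.inl c' ∈ G.near (S.chart x).V (pt hx c hR) →
      ∃ b ∈ pt hx c hR, ((S.chart x).W c').valuation (b : FL) = 1 :=
  fun _ hc' => exists_cent hx (pt_isMaximal hx c hR) hc'

section Loc

variable {hx : S.IsChart x y} {c : Fin 3} {R : Place k κ} {hR : y ∈ R.toValuationSubring}
  [IsFractionRing (S.chart x).B FL] [hm : (pt hx c hR).IsMaximal]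

theorem ne_zero_of_notMem {b : (S.chart x).B} (hb : b ∉ pt hx c hR) : (b : FL) ≠ 0 := by
  intro h
  apply hb
  have h1 : b = 0 := Subtype.ext h
  rw [h1]
  exact zero_mem _

theorem res_mem_of_loc {g : FL} (hg : g ∈ G.Loc (S.chart x).B (pt hx c hR)) {u : κ}
    (hu : (S.V c).Res g u) : u ∈ R.toValuationSubring := by
  obtain ⟨a, b, hb, hab⟩ := G.mem_loc.mp hg
  obtain ⟨β, hβ⟩ := (S.V c).exists_res ((S.mem_chart_B.mp b.2).1 c)
  obtain ⟨z, hz⟩ := val_of_mem (hx.res_mem_regAlg (S.mem_chart_B.mp b.2) hβ R hR)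
  have hz0 : z ≠ 0 := by
    rintro rfl
    exact hb ((mem_pt_iff hβ).mpr hz)
  have hβ0 : β ≠ 0 := by
    rintro rfl
    exact hz0 (hz.unique Val.zero)
  have h1 := (S.V c).res_mul hβ hu
  rw [hab] at h1
  have h2 := hx.res_mem_regAlg (S.mem_chart_B.mp a.2) h1 R hR
  have h3 : u = β⁻¹ * (β * u) := by rw [← mul_assoc, inv_mul_cancel₀ hβ0, one_mul]
  rw [h3]
  exact mul_mem (inv_mem_of_val hz hz0) h2

theorem exists_loc_res {g : κ} (hg : g ∈ R.toValuationSubring) :
    ∃ w ∈ G.Loc (S.chart x).B (pt hx c hR), (S.V c).Res w g := by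
  obtain ⟨a, ha, b, hb, hb1, hab⟩ := exists_div_reg hx.transcendental hR hg
  obtain ⟨a', ha', hau⟩ := hx.lift c a ha
  obtain ⟨b', hb', hbu⟩ := hx.lift c b hb
  have hb0 : b ≠ 0 := by
    rintro rfl
    simp at hb1
  have hbn : (⟨b', S.mem_chart_B.mpr hb'⟩ : (S.chart x).B) ∉ pt hx c hR := by
    rw [mem_pt_iff hbu]
    intro h
    unfold Val at h
    rw [map_zero, sub_zero, hb1] at h
    exact lt_irrefl _ h
  have hb0' : b' ≠ 0 := ne_zero_of_notMem hbn
  refine ⟨a' / b', G.mem_loc.mpr ⟨⟨a', S.mem_chart_B.mpr ha'⟩, ⟨b', S.mem_chart_B.mpr hb'⟩, hbn,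
    mul_div_cancel₀ _ hb0'⟩, ?_⟩
  have h1 := (S.V c).res_div hau hbu hb0
  rwa [← hab, mul_div_cancel_left₀ _ hb0] at h1

theorem InLoc.mem_loc {g : FL} (h : S.InLoc x c R g) :
    g ∈ G.Loc (S.chart x).B (pt hx c hR) := by
  obtain ⟨a, b, ha, hb, ⟨u, hu, hu0⟩, hab⟩ := h
  exact G.mem_loc.mpr ⟨⟨a, S.mem_chart_B.mpr ha⟩, ⟨b, S.mem_chart_B.mpr hb⟩,
    fun h => hu0 ((mem_pt_iff hu).mp h), hab⟩

theorem w_nonneg_of_loc {g : FL} (hg : g ∈ G.Loc (S.chart x).B (pt hx c hR)) {c' : Fin 3}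
    (hc' : Sum.inl c' ∈ G.near (S.chart x).V (pt hx c hR)) : 0 ≤ (S.V c').v g :=
  G.Chart.mem_loc_iff'.mp hg _ hc'

theorem ord_nonneg_of_loc {g : FL} (hg : g ∈ G.Loc (S.chart x).B (pt hx c hR))
    {P : {P : Place K F // algebraMap FL F x ∈ P.toValuationSubring}}
    (hP : Sum.inr P ∈ G.near (S.chart x).V (pt hx c hR)) : 0 ≤ P.1.ord (algebraMap FL F g) :=
  (mem_HP' P.1).mp (G.Chart.mem_loc_iff'.mp hg _ hP)

theorem mem_loc_of {g : FL}
    (h1 : ∀ c', Sum.inl c' ∈ G.near (S.chart x).V (pt hx c hR) → 0 ≤ (S.V c').w g)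
    (h2 : ∀ P, Sum.inr P ∈ G.near (S.chart x).V (pt hx c hR) → 0 ≤ P.1.ord (algebraMap FL F g)) :
    g ∈ G.Loc (S.chart x).B (pt hx c hR) := by
  rw [G.Chart.mem_loc_iff']
  rintro (c' | P) hi
  · exact (S.V c').mem_W'.mpr (h1 c' hi)
  · exact (mem_HP' P.1).mpr (h2 P hi)

end Loc

/-- A point `(c, R)` of the special fibre through which only one component passes, with an
equation of this component. -/
structure Isolated (hx : S.IsChart x y) (c : Fin 3) {R : Place k κ}
    (hR : y ∈ R.toValuationSubring) : Prop where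
  iso : ∀ c', c' ≠ c → Sum.inl c' ∉ G.near (S.chart x).V (pt hx c hR)
  eqn : ∃ δ : FL, (S.V c).w δ = 1 ∧ ∀ P, Sum.inr P ∈ G.near (S.chart x).V (pt hx c hR) →
    P.1.ord (algebraMap FL F δ) = 0

variable [IsDiscreteValuationRing A₀] [CharZero L]

/-- the data of a divisor which is `m`-divisible -/
theorem exists_root_at (hroot : ∀ P : Place K F, ∃ t : FL, P.ord (algebraMap FL F t) = 1)
    {m : ℕ} {f : FL} (hf : f ≠ 0) {D : Divisor K F}
    (hD : ∀ P, P.ord (algebraMap FL F f) = m * D P) (P : Place K F) :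
    ∃ h : FL, h ≠ 0 ∧ P.ord (algebraMap FL F h) = D P ∧
      (HP FL P).valuation f = (HP FL P).valuation h ^ m := by
  obtain ⟨t, ht⟩ := hroot P
  have ht0 : t ≠ 0 := by
    rintro rfl
    simp at ht
  have h1 : P.ord (algebraMap FL F (t ^ (D P))) = D P := by
    rw [map_zpow₀, P.ord_zpow, ht, mul_one]
  refine ⟨t ^ (D P), zpow_ne_zero _ ht0, h1, ?_⟩
  rw [← map_pow, HP_eq_iff P hf (pow_ne_zero _ (zpow_ne_zero _ ht0)), map_pow, ord_pow, h1, hD]

section Iso

variable {hx : S.IsChart x y} {c : Fin 3} {R : Place k κ} {hR : y ∈ R.toValuationSubring}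

/-- **Local roots at an isolated point.** -/
theorem Isolated.exists_root (H : Isolated hx c hR) [IsFractionRing (S.chart x).B FL]
    [hmax : (pt hx c hR).IsMaximal] {m : ℕ} (hm : m ≠ 0) {f : FL} (hf : f ≠ 0)
    (hw : (S.V c).w f = 0) {D : Divisor K F} (hD : ∀ P, P.ord (algebraMap FL F f) = m * D P) :
    ∃ h : FL, h ≠ 0 ∧ (S.V c).w h = 0 ∧ f / h ^ m ∈ G.Loc (S.chart x).B (pt hx c hR) ∧
      h ^ m / f ∈ G.Loc (S.chart x).B (pt hx c hR) := by
  obtain ⟨δ, hδ, hδP⟩ := H.eqn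
  have hN := hx.isNoetherianRing
  obtain ⟨h, hh0, hhc, hhP⟩ := G.Chart.exists_local_root
    (localData hx c hR hδ (fun c' hc' hn => absurd hn (H.iso c' hc')) hδP) (cent hx)
    (q_mem_pt hx c hR) hm hf (fun P _ => by
      obtain ⟨h, hh, -, hv⟩ := exists_root_at S.unram hf hD P.1
      exact ⟨h, hh, hv⟩)
  have hhm := pow_ne_zero m hh0
  have hwh : (S.V c).w h = 0 := ((S.V c).valuation_eq_one_iff hh0).mp (hhc c (near_pt hx c hR))
  have hord : ∀ P, Sum.inr P ∈ G.near (S.chart x).V (pt hx c hR) →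
      P.1.ord (algebraMap FL F f) = P.1.ord (algebraMap FL F (h ^ m)) := by
    intro P hP
    have h1 := hhP P hP
    rw [← map_pow] at h1
    exact (HP_eq_iff P.1 hf hhm).mp h1
  refine ⟨h, hh0, hwh, mem_loc_of ?_ ?_, mem_loc_of ?_ ?_⟩
  · intro c' hc'
    obtain rfl : c' = c := by
      by_contra hne
      exact H.iso c' hne hc'
    rw [(S.V c').w_div hf hhm, hw, (S.V c').w_pow, hwh]
    simp
  · intro P hP
    rw [map_div₀, ord_div P.1 (alg_ne hf) (alg_ne hhm), hord P hP, sub_self]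
  · intro c' hc'
    obtain rfl : c' = c := by
      by_contra hne
      exact H.iso c' hne hc'
    rw [(S.V c').w_div hhm hf, hw, (S.V c').w_pow, hwh]
    simp
  · intro P hP
    rw [map_div₀, ord_div P.1 (alg_ne hhm) (alg_ne hf), hord P hP, sub_self]

/-- **Divisibility of the residual divisor at an isolated point.** -/
theorem Isolated.dvd_ord (H : Isolated hx c hR) {m : ℕ} (hm : m ≠ 0) {f : FL} (hf : f ≠ 0)
    {r : κ} (hr : (S.V c).Res f r) (hr0 : r ≠ 0) {D : Divisor K F}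
    (hD : ∀ P, P.ord (algebraMap FL F f) = m * D P) : (m : ℤ) ∣ R.ord r := by
  have hfr := hx.isFractionRing
  have hmax := pt_isMaximal hx c hR
  obtain ⟨h, hh0, hwh, h1, h2⟩ := H.exists_root hm hf ((S.V c).w_eq_zero_of_res hr hr0) hD
  obtain ⟨η, hη0, hη⟩ := (S.V c).exists_res_of_w hh0 hwh
  have hηm := pow_ne_zero m hη0
  have h3 := res_mem_of_loc h1 ((S.V c).res_div hr ((S.V c).res_pow hη m) hηm)
  have h4 := res_mem_of_loc h2 ((S.V c).res_div ((S.V c).res_pow hη m) hr hr0)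
  rw [mem_iff_ord_nonneg, ord_div R hr0 hηm] at h3
  rw [mem_iff_ord_nonneg, ord_div R hηm hr0] at h4
  rw [ord_pow] at h3 h4
  exact ⟨R.ord η, by omega⟩

/-- **Isolated points are good.** -/
theorem Isolated.good (H : Isolated hx c hR) {m : ℕ} (hm : m ≠ 0) {f : FL} (hf : f ≠ 0)
    (hres : ∀ i, (S.V i).Res f 1) {D : Divisor K F}
    (hD : ∀ P, P.ord (algebraMap FL F f) = m * D P) {r : Place K F → FL} (hr0 : ∀ P, r P ≠ 0)
    (hr : ∀ P, P.ord (algebraMap FL F (r P)) = D P) :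
    (S.chart x).Good (fun P => r P.1) (pt hx c hR) := by
  have hfr := hx.isFractionRing
  have hN := hx.isNoetherianRing
  have hmax := pt_isMaximal hx c hR
  obtain ⟨h, hh0, hwh, h1, h2⟩ := H.exists_root hm hf
    ((S.V c).w_eq_zero_of_res (hres c) one_ne_zero) hD
  obtain ⟨η, hη0, hη⟩ := (S.V c).exists_res_of_w hh0 hwh
  have hηm := pow_ne_zero m hη0
  -- `η` is integral at `R`
  have h4 := res_mem_of_loc h2 ((S.V c).res_div ((S.V c).res_pow hη m) (hres c) one_ne_zero)
  have hη' : η ∈ R.toValuationSubring := by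
    rw [div_one, mem_iff_ord_nonneg, ord_pow] at h4
    rw [mem_iff_ord_nonneg]
    by_contra hcon
    push Not at hcon
    have : (m : ℤ) * R.ord η < 0 := mul_neg_of_pos_of_neg (by exact_mod_cast Nat.pos_of_ne_zero hm)
      hcon
    linarith
  obtain ⟨w, hw, hwη⟩ := exists_loc_res (hx := hx) (c := c) hη'
  have hfv : ∀ i, ((S.chart x).W i).valuation (f - 1) < 1 := by
    intro i
    refine (S.V i).valuation_lt_one_iff.mpr ((S.V i).res_zero_iff.mp ?_)
    have := (S.V i).res_sub (hres i) (S.V i).res_one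
    rwa [sub_self] at this
  refine G.Chart.good_of_pow (Q := 1) (fun P => hr0 P.1) ?_ (q_mem_pt hx c hR) hm
    (Nat.coprime_one_right m) hfv hf hh0 ?_ h1 h2 hw ?_
  · refine Set.Finite.of_finite_image (f := Subtype.val)
      ((Finset.finite_toSet D.support).subset ?_) Subtype.val_injective.injOn
    rintro _ ⟨P, hP, rfl⟩
    simp only [Set.mem_ofPred_eq] at hP
    rw [Finset.mem_coe, Finsupp.mem_support_iff]
    intro h0
    apply hP
    exact (HP_eq_one_iff P.1 (hr0 P.1)).mpr (by rw [hr, h0])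
  · intro P
    have h5 : P.1.ord (algebraMap FL F f) = P.1.ord (algebraMap FL F (r P.1 ^ m)) := by
      rw [map_pow, ord_pow, hr, hD]
    have h6 := (HP_eq_iff P.1 hf (pow_ne_zero m (hr0 P.1))).mpr h5
    rw [map_pow] at h6
    exact h6
  · intro c' hc'
    obtain rfl : c' = c := by
      by_contra hne
      exact H.iso c' hne hc'
    rw [pow_one]
    refine (S.V c').valuation_lt_one_iff.mpr ((S.V c').res_zero_iff.mp ?_)
    have := (S.V c').res_sub hη hwη
    rwa [sub_self] at this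

end Iso

end

end Fermat.Agent.DR.S36.Surf
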