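import Fermat.Agent.DR.S36.ChartH

set_option autoImplicit false
set_option linter.unusedSectionVars false

/-!
# Local analysis at the points where the components meet
-/

noncomputable section

open AlgebraicCurve Fermat.Agent.RR Polynomial IntermediateField
open Fermat.Agent.DR.Nodes (regAlg mem_regAlg mem_regAlg_of_isIntegral)

namespace Fermat.Agent.DR.S36.Surf

variable {L K FL F k κ : Type*} [Field L] [Field K] [Field FL] [Field F] [Field k] [Field κ]
  [Algebra L K] [Algebra L FL] [Algebra K F] [Algebra FL F] [Algebra k κ]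
  {A₀ : ValuationSubring L} {q : ℕ} {S : Surf L K FL F k κ A₀ q}

theorem mem_loc_congr {B : Subring FL} [IsFractionRing B FL] {n n' : Ideal B} [n.IsPrime]
    [n'.IsPrime] (h : n = n') {g : FL} : g ∈ G.Loc B n ↔ g ∈ G.Loc B n' := by
  subst h
  rfl

section

variable [IsAlgClosed K] [FunctionField K F] [IsAlgClosed k] [FunctionField k κ]
  {x : FL} {y : κ} [IsDiscreteValuationRing A₀] [CharZero L]

/-- Functions supported on one component. -/
theorem IsChart.exists_single (hx : S.IsChart x y) (c : Fin 3) :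
    ∃ (e : FL) (ε : κ), S.Hol x e ∧ ε ≠ 0 ∧ (S.V c).Res e ε ∧
      ∀ c', c' ≠ c → (S.V c').Res e 0 := by
  classical
  obtain ⟨D⟩ := hx.exists_cd
  obtain ⟨e₀, he₀⟩ := S.approx fun i => if i = c then 1 else 0
  obtain ⟨d, hd, hde⟩ := D.exists_denominator e₀
  have hd' : d.map A₀.subtype ≠ 0 := fun h => hd (Polynomial.map_injective _
    A₀.subtype_injective (by rw [h, Polynomial.map_zero]))
  obtain ⟨t, d', hd'0, hdd⟩ := S.exists_primitive hd'
  have hev : evx x d = (q : FL) ^ t * evx x d' := by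
    change aeval x (d.map A₀.subtype) = _
    rw [hdd, aeval_eq_evx]
  have hres : ∀ i, (S.V i).Res (evx x d' * e₀)
      (aeval (D.xb i) (d'.map S.π₀) * if i = c then 1 else 0) := fun i =>
    (S.V i).res_mul (S.res_evx (D.res i) d') (he₀ i)
  refine ⟨evx x d' * e₀, aeval (D.xb c) (d'.map S.π₀), ⟨fun i => (S.V i).nonneg (hres i), ?_⟩,
    S.aeval_ne_zero (D.tr c) hd'0, ?_, ?_⟩
  · intro P hP
    have h1 := hde.2 P hP
    rw [hev, mul_assoc, map_mul, map_zpow₀] at h1
    rw [mem_iff_ord_nonneg] at h1 ⊢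
    rcases eq_or_ne (evx x d' * e₀) 0 with h0 | h0
    · rw [h0, map_zero, P.ord_zero]
    rw [P.ord_mul (zpow_ne_zero _ (alg_ne S.q_ne_FL)) (alg_ne h0), P.ord_zpow, S.ord_q, mul_zero,
      zero_add] at h1
    exact h1
  · have := hres c
    rwa [if_pos rfl, mul_one] at this
  · intro c' hc'
    have := hres c'
    rwa [if_neg hc', mul_zero] at this

section Loc

variable {hx : S.IsChart x y} {c : Fin 3} {R : Place k κ} {hR : y ∈ R.toValuationSubring}

/-- Functions on the local ring supported on one component. -/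
theorem exists_loc_single [IsFractionRing (S.chart x).B FL] [hmax : (pt hx c hR).IsMaximal]
    (hnear : ∀ c', Sum.inl c' ∈ G.near (S.chart x).V (pt hx c hR)) :
    ∃ M : ℕ, ∀ g : κ, (g = 0 ∨ (M : ℤ) ≤ R.ord g) →
      ∃ w ∈ G.Loc (S.chart x).B (pt hx c hR), (S.V c).Res w g ∧
        ∀ c', c' ≠ c → (S.V c').Res w 0 := by
  obtain ⟨e, ε, he, hε0, heε, he'⟩ := hx.exists_single c
  refine ⟨(R.ord ε).toNat, fun g hg => ?_⟩
  rcases eq_or_ne g 0 with rfl | hg0
  · exact ⟨0, zero_mem _, (S.V c).res_zero, fun c' _ => (S.V c').res_zero⟩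
  have hg1 := hg.resolve_left hg0
  have hmem : g / ε ∈ R.toValuationSubring := by
    rw [mem_iff_ord_nonneg, ord_div R hg0 hε0]
    have := Int.self_le_toNat (R.ord ε)
    omega
  obtain ⟨w, hw, hwg⟩ := exists_loc_res (hx := hx) (c := c) hmem
  refine ⟨e * w, mul_mem ?_ hw, ?_, fun c' hc' => ?_⟩
  · exact G.mem_loc.mpr ⟨⟨e, S.mem_chart_B.mpr he⟩, 1, fun h => hmax.ne_top
      (Ideal.eq_top_of_isUnit_mem _ h isUnit_one), by simp⟩
  · have h1 := (S.V c).res_mul heε hwg
    rwa [mul_div_cancel₀ _ hε0] at h1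
  · obtain ⟨u, hu⟩ := (S.V c').exists_res (w_nonneg_of_loc hw (hnear c'))
    have h1 := (S.V c').res_mul (he' c' hc') hu
    rwa [zero_mul] at h1

end Loc

/-- A point through which all the components pass. -/
structure Special (hx : S.IsChart x y) {R : Place k κ} (hR : y ∈ R.toValuationSubring) :
    Prop where
  same : ∀ c, pt hx c hR = pt hx 0 hR

section Special

variable {hx : S.IsChart x y} {R : Place k κ} {hR : y ∈ R.toValuationSubring}

theorem Special.near (H : Special hx hR) (c : Fin 3) :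
    Sum.inl c ∈ G.near (S.chart x).V (pt hx 0 hR) := by
  have := near_pt hx c hR
  rwa [H.same c] at this

theorem charP_κ (S : Surf L K FL F k κ A₀ q) (hq : q.Prime) : CharP κ q := by
  have h1 : (q : k) = 0 := by
    have := S.π₀_q
    rwa [map_natCast] at this
  have h2 : (q : κ) = 0 := by
    rw [← map_natCast (algebraMap k κ), h1, map_zero]
  exact (CharP.charP_iff_prime_eq_zero hq).mpr h2

theorem coprime_of_ne (S : Surf L K FL F k κ A₀ q) (hq : q.Prime) {m : ℕ} (hm : (m : k) ≠ 0)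
    (j : ℕ) : Nat.Coprime m (q ^ j) := by
  apply Nat.Coprime.pow_right
  rw [Nat.coprime_comm, hq.coprime_iff_not_dvd]
  rintro ⟨d, rfl⟩
  apply hm
  have h1 : (q : k) = 0 := by
    have := S.π₀_q
    rwa [map_natCast] at this
  rw [Nat.cast_mul, h1, zero_mul]

/-- **Frobenius powers of compatible triples lift to the local ring.** -/
theorem Special.exists_pow (H : Special hx hR) (hq : q.Prime)
    [IsFractionRing (S.chart x).B FL] [hmax : (pt hx 0 hR).IsMaximal] {r : Fin 3 → κ} {γ : k}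
    (hr : ∀ i, Val R (r i) γ) :
    ∃ (j : ℕ) (w : FL), w ∈ G.Loc (S.chart x).B (pt hx 0 hR) ∧
      ∀ i, (S.V i).Res w (r i ^ q ^ j) := by
  classical
  have hchar := charP_κ S hq
  have : Fact q.Prime := ⟨hq⟩
  have hM : ∀ c : Fin 3, ∃ M : ℕ, ∀ g : κ, (g = 0 ∨ (M : ℤ) ≤ R.ord g) →
      ∃ w ∈ G.Loc (S.chart x).B (pt hx 0 hR), (S.V c).Res w g ∧
        ∀ c', c' ≠ c → (S.V c').Res w 0 := by
    intro c
    have hmax' : (pt hx c hR).IsMaximal := pt_isMaximal hx c hR
    obtain ⟨M, hM⟩ := exists_loc_single (hx := hx) (c := c) (R := R) (hR := hR) (fun c' => by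
      rw [H.same c]; exact H.near c')
    refine ⟨M, fun g hg => ?_⟩
    obtain ⟨w, hw, h⟩ := hM g hg
    exact ⟨w, (mem_loc_congr (H.same c)).mp hw, h⟩
  choose M hM using hM
  have hj : ∀ c, (M c : ℤ) ≤ (q ^ (∑ c, M c) : ℕ) := by
    intro c
    have h1 : M c ≤ ∑ c, M c := Finset.single_le_sum (fun _ _ => Nat.zero_le _)
      (Finset.mem_univ c)
    have h2 : ∑ c, M c < q ^ (∑ c, M c) := Nat.lt_pow_self hq.one_lt
    exact_mod_cast (h1.trans h2.le)
  set j := ∑ c, M c with hjdef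
  have hg : ∀ c, (r c - algebraMap k κ γ) ^ q ^ j = 0 ∨
      (M c : ℤ) ≤ R.ord ((r c - algebraMap k κ γ) ^ q ^ j) := by
    intro c
    rcases eq_or_ne (r c - algebraMap k κ γ) 0 with h0 | h0
    · left
      rw [h0, zero_pow (pow_ne_zero _ hq.ne_zero)]
    · right
      have h1 : 0 < R.ord (r c - algebraMap k κ γ) :=
        (adicValuation_lt_one_iff.mp (hr c)).resolve_left h0
      rw [ord_pow]
      refine (hj c).trans ?_
      have h2 : ((q ^ j : ℕ) : ℤ) * 1 ≤ ((q ^ j : ℕ) : ℤ) * R.ord (r c - algebraMap k κ γ) :=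
        mul_le_mul_of_nonneg_left (by omega) (Int.natCast_nonneg _)
      linarith
  choose w hw hwc hwc' using fun c => hM c _ (hg c)
  obtain ⟨a, ha⟩ := exists_cst (S := S) (x := x) γ
  refine ⟨j, ((cst S x a : (S.chart x).B) : FL) ^ q ^ j + ∑ c, w c, ?_, fun i => ?_⟩
  · refine add_mem (pow_mem ?_ _) (sum_mem fun c _ => hw c)
    exact G.mem_loc.mpr ⟨cst S x a, 1, fun h => hmax.ne_top
      (Ideal.eq_top_of_isUnit_mem _ h isUnit_one), by simp⟩
  · have h1 : (S.V i).Res (∑ c, w c)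
        (∑ c, if c = i then (r i - algebraMap k κ γ) ^ q ^ j else 0) := by
      apply (S.V i).res_sum
      intro c _
      by_cases hc : c = i
      · subst hc
        rw [if_pos rfl]
        exact hwc c
      · rw [if_neg hc]
        exact hwc' c i (Ne.symm hc)
    rw [Finset.sum_ite_eq' Finset.univ i, if_pos (Finset.mem_univ i)] at h1
    have h2 := (S.V i).res_add ((S.V i).res_pow (ha i) (q ^ j)) h1
    rw [sub_pow_char_pow, add_sub_cancel] at h2
    exact h2

/-- **Special points are good.** -/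
theorem Special.good (H : Special hx hR) (hq : q.Prime) {m : ℕ} (hm : (m : k) ≠ 0) {f : FL}
    (hf : f ≠ 0) (hres : ∀ i, (S.V i).Res f 1) {D : Divisor K F}
    (hD : ∀ P, P.ord (algebraMap FL F f) = m * D P) {r : Place K F → FL} (hr0 : ∀ P, r P ≠ 0)
    (hr : ∀ P, P.ord (algebraMap FL F (r P)) = D P) {h : FL} {ρ : Fin 3 → κ} {γ : k}
    (hγ : γ ≠ 0) (hh : ∀ i, (S.V i).Res h (ρ i)) (hργ : ∀ i, Val R (ρ i) γ)
    (hhP : ∀ P, Sum.inr P ∈ G.near (S.chart x).V (pt hx 0 hR) →
      P.1.ord (algebraMap FL F h) = D P.1) :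
    (S.chart x).Good (fun P => r P.1) (pt hx 0 hR) := by
  have hfr := hx.isFractionRing
  have hN := hx.isNoetherianRing
  have hmax := pt_isMaximal hx 0 hR
  have hm0 : m ≠ 0 := by
    rintro rfl
    simp at hm
  have hρ0 : ∀ i, ρ i ≠ 0 := by
    intro i h0
    have h1 := hργ i
    rw [h0] at h1
    exact hγ (h1.unique Val.zero)
  have hh0 : h ≠ 0 := (S.V 0).ne_zero_of_res (hh 0) (hρ0 0)
  have hhm := pow_ne_zero m hh0
  obtain ⟨j, w, hw, hwr⟩ := H.exists_pow hq hργ
  have hwh : ∀ i, (S.V i).w h = 0 := fun i => (S.V i).w_eq_zero_of_res (hh i) (hρ0 i)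
  have hwf : ∀ i, (S.V i).w f = 0 := fun i => (S.V i).w_eq_zero_of_res (hres i) one_ne_zero
  have hord : ∀ P, Sum.inr P ∈ G.near (S.chart x).V (pt hx 0 hR) →
      P.1.ord (algebraMap FL F f) = P.1.ord (algebraMap FL F (h ^ m)) := by
    intro P hP
    rw [map_pow, ord_pow, hhP P hP, hD]
  have hfv : ∀ i, ((S.chart x).W i).valuation (f - 1) < 1 := by
    intro i
    refine (S.V i).valuation_lt_one_iff.mpr ((S.V i).res_zero_iff.mp ?_)
    have := (S.V i).res_sub (hres i) (S.V i).res_one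
    rwa [sub_self] at this
  refine G.Chart.good_of_pow (Q := q ^ j) (fun P => hr0 P.1) ?_ (q_mem_pt hx 0 hR) hm0
    (coprime_of_ne S hq hm j) hfv hf hh0 ?_ (mem_loc_of ?_ ?_) (mem_loc_of ?_ ?_) hw ?_
  · refine Set.Finite.of_finite_image (f := Subtype.val)
      ((Finset.finite_toSet D.support).subset ?_) Subtype.val_injective.injOn
    rintro _ ⟨P, hP, rfl⟩
    simp only [Set.mem_ofPred_eq] at hP
    rw [Finset.mem_coe, Finsupp.mem_support_iff]
    intro h0
    apply hP
    exact (HP_eq_one_iff P.1 (hr0 P.1)).mpr (by rw [hr, h0])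
  · intro P
    have h5 : P.1.ord (algebraMap FL F f) = P.1.ord (algebraMap FL F (r P.1 ^ m)) := by
      rw [map_pow, ord_pow, hr, hD]
    have h6 := (HP_eq_iff P.1 hf (pow_ne_zero m (hr0 P.1))).mpr h5
    rw [map_pow] at h6
    exact h6
  · intro c' _
    rw [(S.V c').w_div hf hhm, hwf, (S.V c').w_pow, hwh]
    simp
  · intro P hP
    rw [map_div₀, ord_div P.1 (alg_ne hf) (alg_ne hhm), hord P hP, sub_self]
  · intro c' _
    rw [(S.V c').w_div hhm hf, hwf, (S.V c').w_pow, hwh]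
    simp
  · intro P hP
    rw [map_div₀, ord_div P.1 (alg_ne hhm) (alg_ne hf), hord P hP, sub_self]
  · intro c' _
    refine (S.V c').valuation_lt_one_iff.mpr ((S.V c').res_zero_iff.mp ?_)
    have := (S.V c').res_sub ((S.V c').res_pow (hh c') (q ^ j)) (hwr c')
    rwa [sub_self] at this

/-- **Local generators at special points.** -/
theorem Special.exists_gen (H : Special hx hR) {z : FL} (hz0 : (S.V 0).w z = 0)
    (hz1 : (S.V 1).w z = 0) (hz2 : (S.V 2).w z = 1)
    (hzP : ∀ P, Sum.inr P ∈ G.near (S.chart x).V (pt hx 0 hR) →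
      P.1.ord (algebraMap FL F z) = 0) {m : ℕ} (hm : m ≠ 0) {f : FL} (hf : f ≠ 0)
    {D : Divisor K F} (hD : ∀ P, P.ord (algebraMap FL F f) = m * D P) :
    ∃ h : FL, h ≠ 0 ∧ (∀ i, (S.V i).w h = 0) ∧
      ∀ P, Sum.inr P ∈ G.near (S.chart x).V (pt hx 0 hR) →
        P.1.ord (algebraMap FL F h) = D P.1 := by
  have hfr := hx.isFractionRing
  have hN := hx.isNoetherianRing
  have hmax := pt_isMaximal hx 2 hR
  obtain ⟨h, hh0, hhc, hhP⟩ := G.Chart.exists_local_root
    (localData hx 2 hR hz2 (fun c' hc' _ => by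
      have h3 : ∀ c : Fin 3, c ≠ 2 → c = 0 ∨ c = 1 := by decide
      rcases h3 c' hc' with rfl | rfl
      · exact hz0
      · exact hz1) (by rw [H.same 2]; exact hzP)) (cent hx)
    (q_mem_pt hx 2 hR) hm hf (fun P _ => by
      obtain ⟨h, hh, -, hv⟩ := exists_root_at S.unram hf hD P.1
      exact ⟨h, hh, hv⟩)
  rw [H.same 2] at hhc hhP
  refine ⟨h, hh0, fun i => ((S.V i).valuation_eq_one_iff hh0).mp (hhc i (H.near i)), ?_⟩
  intro P hP
  have h1 := hhP P hP
  rw [← map_pow] at h1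
  have h2 := (HP_eq_iff P.1 hf (pow_ne_zero m hh0)).mp h1
  rw [map_pow, ord_pow, hD] at h2
  exact (mul_left_cancel₀ (by exact_mod_cast hm) h2).symm

end Special

end

end Fermat.Agent.DR.S36.Surf
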