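import Fermat.Agent.DR.S36.ChartI

set_option autoImplicit false
set_option linter.unusedSectionVars false

/-!
# Goodness of all the points of the special fibre
-/

noncomputable section

open AlgebraicCurve Fermat.Agent.RR Polynomial IntermediateField
open Fermat.Agent.DR.Nodes (regAlg mem_regAlg mem_regAlg_of_isIntegral)

namespace Fermat.Agent.DR.S36.Surf

variable {L K FL F k κ : Type*} [Field L] [Field K] [Field FL] [Field F] [Field k] [Field κ]
  [Algebra L K] [Algebra L FL] [Algebra K F] [Algebra FL F] [Algebra k κ]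
  {A₀ : ValuationSubring L} {q : ℕ} {S : Surf L K FL F k κ A₀ q}

section

variable [IsAlgClosed K] [FunctionField K F] [IsAlgClosed k] [FunctionField k κ]
  {x : FL} {y : κ} [IsDiscreteValuationRing A₀] [CharZero L]

theorem val_zero_pow {R : Place k κ} {u : κ} (h : Val R u 0) {n : ℕ} (hn : 0 < n) :
    Val R (u ^ n) 0 := by
  have := h.pow n
  rwa [zero_pow hn.ne'] at this

theorem val_inv_zero {R : Place k κ} {y : κ} (hy : y ∉ R.toValuationSubring) :
    Val R y⁻¹ 0 := by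
  unfold Val
  rw [map_zero, sub_zero]
  rw [mem_iff_adicValuation, not_le] at hy
  rw [map_inv₀]
  exact inv_lt_one_of_one_lt₀ hy

theorem notMem_of_val {R : Place k κ} {y : κ} (hy0 : y ≠ 0) (h : Val R y⁻¹ 0) :
    y ∉ R.toValuationSubring := by
  intro hy
  obtain ⟨a, ha⟩ := val_of_mem hy
  have h1 := ha.mul h
  rw [mul_inv_cancel₀ hy0, mul_zero] at h1
  exact one_ne_zero (Val.one.unique h1)

theorem isolated_eqn_of {hx : S.IsChart x y} {c : Fin 3} {R : Place k κ}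
    {hR : y ∈ R.toValuationSubring} {δ : FL} (hδ : (S.V c).w δ = 1) {e : ℕ} (he : 0 < e)
    (h1 : S.InLoc x c R (δ ^ e / q)) (h2 : S.InLoc x c R (q / δ ^ e)) :
    ∃ δ : FL, (S.V c).w δ = 1 ∧ ∀ P, Sum.inr P ∈ G.near (S.chart x).V (pt hx c hR) →
      P.1.ord (algebraMap FL F δ) = 0 := by
  have hfr := hx.isFractionRing
  have hmax := pt_isMaximal hx c hR
  refine ⟨δ, hδ, fun P hP => ?_⟩
  have hδ0 := S.ne_zero_of_w hδ
  have h3 := ord_nonneg_of_loc h1.mem_loc hP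
  have h4 := ord_nonneg_of_loc h2.mem_loc hP
  rw [map_div₀, map_pow, ord_div P.1 (pow_ne_zero _ (alg_ne hδ0)) (alg_ne S.q_ne_FL), S.ord_q,
    ord_pow] at h3
  rw [map_div₀, map_pow, ord_div P.1 (alg_ne S.q_ne_FL) (pow_ne_zero _ (alg_ne hδ0)), S.ord_q,
    ord_pow] at h4
  have h5 : (e : ℤ) * P.1.ord (algebraMap FL F δ) = 0 := by linarith
  rcases mul_eq_zero.mp h5 with h6 | h6
  · exact absurd (by exact_mod_cast h6) he.ne'
  · exact h6

theorem isolated_eqn_q {hx : S.IsChart x y} {c : Fin 3} (he : S.e c = 1) {R : Place k κ}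
    {hR : y ∈ R.toValuationSubring} :
    ∃ δ : FL, (S.V c).w δ = 1 ∧ ∀ P, Sum.inr P ∈ G.near (S.chart x).V (pt hx c hR) →
      P.1.ord (algebraMap FL F δ) = 0 :=
  ⟨(q : FL), by rw [S.w_q, he]; rfl, fun P _ => S.ord_q P.1⟩

namespace Points

variable (Pt : S.Points x y)

include Pt

theorem special (hx : S.IsChart x y) (s : Pt.T) : Special hx (Pt.y_mem s) := by
  refine ⟨fun c => ?_⟩
  have key : ∀ (c c' : Fin 3) (b : (S.chart x).B), b ∈ pt hx c (Pt.y_mem s) →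
      b ∈ pt hx c' (Pt.y_mem s) := by
    rintro c c' b ⟨u, hu, hu0⟩
    obtain ⟨a, ha⟩ := Pt.glue s b (S.mem_chart_B.mp b.2)
    obtain ⟨u', hu'⟩ := (S.V c').exists_res ((S.mem_chart_B.mp b.2).1 c')
    refine ⟨u', hu', ?_⟩
    have h1 := ha c u hu
    rw [hu0.unique h1]
    exact ha c' u' hu'
  ext b
  exact ⟨key c 0 b, key 0 c b⟩

theorem near_iff (hx : S.IsChart x y) (s : Pt.T)
    (P : {P : Place K F // algebraMap FL F x ∈ P.toValuationSubring}) :
    Sum.inr P ∈ G.near (S.chart x).V (pt hx 0 (Pt.y_mem s)) ↔ P.1 ∈ Pt.U s := by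
  rw [near_inr_iff, Pt.U_iff]
  exact ⟨fun h => ⟨P.2, h⟩, fun h => h.2⟩

theorem isolated (hx : S.IsChart x y) (he2 : S.e 2 = 1) {R : Place k κ}
    (hR : y ∈ R.toValuationSubring) (hs : ∀ s, R ≠ Pt.sp s) (c : Fin 3) :
    Isolated hx c hR := by
  refine ⟨fun c' hc' hn => ?_, ?_⟩
  · obtain ⟨b, u, hb, hu, hu0, hv⟩ := Pt.sep c c' R (Ne.symm hc') hR hs
    have h1 := hn ⟨b, S.mem_chart_B.mpr hb⟩ (fun h => hu0 ((mem_pt_iff hu).mp h))
    have h2 := (S.V c').valuation_lt_one_iff.mpr hv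
    exact h2.ne h1
  · have h3 : c = 0 ∨ c = 1 ∨ c = 2 := by
      revert c
      decide
    rcases h3 with rfl | rfl | rfl
    · exact isolated_eqn_q S.e_zero
    · obtain ⟨δ, hδ, h1, h2⟩ := Pt.exists_δ R hR hs
      exact isolated_eqn_of hδ (S.e_pos 1) h1 h2
    · exact isolated_eqn_q he2

theorem isolated_inf (hx : S.IsChart x y) (hx' : S.IsChart x⁻¹ y⁻¹) (he2 : S.e 2 = 1)
    {R : Place k κ} (hR : y ∉ R.toValuationSubring) (hR' : y⁻¹ ∈ R.toValuationSubring)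
    (c : Fin 3) : Isolated hx' c hR' := by
  have hy0 : y ≠ 0 := by
    rintro rfl
    exact hR (zero_mem _)
  refine ⟨fun c' hc' hn => ?_, ?_⟩
  · obtain ⟨R', hR'', h⟩ := exists_eq_pt hx' (pt_isMaximal hx' c hR') hn
    obtain ⟨n, hn', -⟩ := hx'.deg
    -- `x⁻¹` vanishes at the point
    have hx1 : S.Hol x⁻¹ x⁻¹ :=
      ⟨fun i => (S.V i).nonneg (hn' i).2, fun P hP => hP⟩
    have h1 : (⟨x⁻¹, S.mem_chart_B.mpr hx1⟩ : (S.chart x⁻¹).B) ∈ pt hx' c hR' :=
      (mem_pt_iff (hn' c).2).mpr (val_zero_pow (val_inv_zero hR) (hn' c).1)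
    rw [h, mem_pt_iff (hn' c').2] at h1
    have h2 : y ∉ R'.toValuationSubring := by
      intro hy
      obtain ⟨a, ha⟩ := val_of_mem hy
      have h3 := (ha.pow (n c')).mul h1
      rw [← mul_pow, mul_inv_cancel₀ hy0, one_pow, mul_zero] at h3
      exact one_ne_zero (Val.one.unique h3)
    refine Pt.sep_inf c c' R R' (Ne.symm hc') hR h2 ?_
    intro b u u' hb hu hu'
    have h3 : (⟨b, S.mem_chart_B.mpr hb⟩ : (S.chart x⁻¹).B) ∈ pt hx' c hR' ↔
        (⟨b, S.mem_chart_B.mpr hb⟩ : (S.chart x⁻¹).B) ∈ pt hx' c' hR'' := by rw [h]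
    rwa [mem_pt_iff hu, mem_pt_iff hu'] at h3
  · have h3 : c = 0 ∨ c = 1 ∨ c = 2 := by
      revert c
      decide
    rcases h3 with rfl | rfl | rfl
    · exact isolated_eqn_q S.e_zero
    · obtain ⟨δ, hδ, h1, h2⟩ := Pt.exists_δ_inf R hR
      exact isolated_eqn_of hδ (S.e_pos 1) h1 h2
    · exact isolated_eqn_q he2

/-- **Local generators.** -/
theorem localgen (hx : S.IsChart x y) (s : Pt.T) {m : ℕ} {f : FL} {D : Divisor K F}
    (hm : m ≠ 0) (hf : f ≠ 0) (hD : ∀ P, P.ord (algebraMap FL F f) = m * D P) :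
    ∃ h : FL, h ≠ 0 ∧ (∀ i, (S.V i).w h = 0) ∧
      ∀ P ∈ Pt.U s, P.ord (algebraMap FL F h) = D P := by
  obtain ⟨z, hz0, hz1, hz2, hzP⟩ := Pt.exists_z s
  obtain ⟨h, hh0, hw, hP⟩ := (Pt.special hx s).exists_gen hz0 hz1 hz2
    (fun P hP => hzP P.1 ((Pt.near_iff hx s P).mp hP)) hm hf hD
  refine ⟨h, hh0, hw, fun P hPU => ?_⟩
  exact hP ⟨P, ((Pt.U_iff s P).mp hPU).1⟩ ((Pt.near_iff hx s _).mpr hPU)

/-- **Divisibility of the residual divisors outside the supersingular points.** -/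
theorem dvd_ord (hx : S.IsChart x y) (hx' : S.IsChart x⁻¹ y⁻¹) (he2 : S.e 2 = 1) {m : ℕ}
    (hm : m ≠ 0) {f : FL} (hf : f ≠ 0) {D : Divisor K F}
    (hD : ∀ P, P.ord (algebraMap FL F f) = m * D P) {c : Fin 3} {r : κ}
    (hr : (S.V c).Res f r) (hr0 : r ≠ 0) {R : Place k κ} (hs : ∀ s, R ≠ Pt.sp s) :
    (m : ℤ) ∣ R.ord r := by
  by_cases hR : y ∈ R.toValuationSubring
  · exact (Pt.isolated hx he2 hR hs c).dvd_ord hm hf hr hr0 hD
  · have hR' : y⁻¹ ∈ R.toValuationSubring := (R.toValuationSubring.mem_or_inv_mem y).resolve_left hR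
    exact (Pt.isolated_inf hx hx' he2 hR hR' c).dvd_ord hm hf hr hr0 hD

end Points

/-- Poles of `x` are finite in number. -/
theorem exists_pow_bound (x : FL) (φ : Place K F → ℤ) :
    ∃ N : ℕ, ∀ P : Place K F, algebraMap FL F x ∉ P.toValuationSubring → φ P ≤ N := by
  classical
  have h1 : ((divOf (K := K) (algebraMap FL F x)).support : Set (Place K F)).Finite :=
    Finset.finite_toSet _
  refine ⟨∑ P ∈ (divOf (K := K) (algebraMap FL F x)).support, (φ P).natAbs, fun P hP => ?_⟩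
  have h2 : P ∈ (divOf (K := K) (algebraMap FL F x)).support := by
    rw [mem_iff_ord_nonneg, not_le] at hP
    rw [Finsupp.mem_support_iff, divOf_apply]
    omega
  have h3 : (φ P).natAbs ≤ ∑ P ∈ (divOf (K := K) (algebraMap FL F x)).support, (φ P).natAbs :=
    Finset.single_le_sum (f := fun P => (φ P).natAbs) (fun _ _ => Nat.zero_le _) h2
  omega

/-- **Transfer between the charts.** -/
theorem good_inv (hx : S.IsChart x y) (hx' : S.IsChart x⁻¹ y⁻¹) {c : Fin 3} {R : Place k κ}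
    (hR : y ∈ R.toValuationSubring) (hR' : y⁻¹ ∈ R.toValuationSubring)
    {r : Place K F → FL} (hr0 : ∀ P, r P ≠ 0)
    (h : (S.chart x).Good (fun P => r P.1) (pt hx c hR)) :
    (S.chart x⁻¹).Good (fun P => r P.1) (pt hx' c hR') := by
  obtain ⟨n, hn, -⟩ := hx'.deg
  obtain ⟨n₀, hn₀, -⟩ := hx.deg
  have hy0 : y ≠ 0 := by
    rintro rfl
    exact hx.transcendental isAlgebraic_zero
  have hx0 : x ≠ 0 := (S.V 0).ne_zero_of_res (hn₀ 0).2 (pow_ne_zero _ hy0)
  have hxi0 : x⁻¹ ≠ 0 := inv_ne_zero hx0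
  obtain ⟨g, hg, h, hh, hgh⟩ := h
  have hg0 : (g : FL) ≠ 0 := by
    intro h0
    apply hg
    have h1 : g = 0 := Subtype.ext h0
    rw [h1]
    exact zero_mem _
  obtain ⟨N, hN⟩ := exists_pow_bound (K := K) (F := F) x fun P =>
    |P.ord (algebraMap FL F (g : FL))| + |P.ord (algebraMap FL F h)| +
      |P.ord (algebraMap FL F (r P))|
  have hxw : ∀ i, (S.V i).w x⁻¹ = 0 := fun i =>
    (S.V i).w_eq_zero_of_res (hn i).2 (pow_ne_zero _ (inv_ne_zero hy0))
  have hxN : ∀ i, x⁻¹ ^ N ∈ (S.V i).W := fun i => by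
    rw [(S.V i).mem_W', (S.V i).w_pow, hxw, mul_zero]
  have hval : ∀ i, (S.V i).W.valuation (x⁻¹ ^ N) = 1 := fun i => by
    rw [(S.V i).valuation_eq_one_iff (pow_ne_zero _ hxi0), (S.V i).w_pow, hxw, mul_zero]
  -- orders of `x⁻¹ ^ N`
  have hordN : ∀ P : Place K F, algebraMap FL F x⁻¹ ∈ P.toValuationSubring →
      (algebraMap FL F x ∈ P.toValuationSubring ∧ P.ord (algebraMap FL F (x⁻¹ ^ N)) = 0) ∨
      (algebraMap FL F x ∉ P.toValuationSubring ∧
        (N : ℤ) ≤ P.ord (algebraMap FL F (x⁻¹ ^ N))) := by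
    intro P hP
    rw [map_pow, ord_pow, map_inv₀, P.ord_inv]
    rw [map_inv₀, mem_iff_ord_nonneg, P.ord_inv] at hP
    rw [mem_iff_ord_nonneg]
    by_cases h1 : 0 ≤ P.ord (algebraMap FL F x)
    · left
      refine ⟨h1, ?_⟩
      have h2 : P.ord (algebraMap FL F x) = 0 := by omega
      rw [h2]; simp
    · right
      refine ⟨h1, ?_⟩
      have h2 : (N : ℤ) * 1 ≤ N * (-P.ord (algebraMap FL F x)) :=
        mul_le_mul_of_nonneg_left (by omega) (Int.natCast_nonneg _)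
      linarith
  have hg' : S.Hol x⁻¹ (x⁻¹ ^ N * g) := by
    constructor
    · intro i
      exact mul_mem (hxN i) ((S.mem_chart_B.mp g.2).1 i)
    · intro P hP
      rw [mem_iff_ord_nonneg, map_mul, P.ord_mul (alg_ne (pow_ne_zero _ hxi0)) (alg_ne hg0)]
      rcases hordN P hP with ⟨h1, h2⟩ | ⟨h1, h2⟩
      · have h3 := (mem_iff_ord_nonneg P).mp ((S.mem_chart_B.mp g.2).2 P h1)
        omega
      · have h3 := hN P h1
        have h4 := neg_abs_le (P.ord (algebraMap FL F (g : FL)))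
        have h5 := abs_nonneg (P.ord (algebraMap FL F h))
        have h6 := abs_nonneg (P.ord (algebraMap FL F (r P)))
        linarith
  refine ⟨⟨x⁻¹ ^ N * g, S.mem_chart_B.mpr hg'⟩, ?_, x⁻¹ ^ N * h, ⟨fun i => ?_, fun P => ?_⟩,
    fun i => ?_⟩
  · obtain ⟨β, hβ⟩ := (S.V c).exists_res ((S.mem_chart_B.mp g.2).1 c)
    have hβ0 : ¬ Val R β 0 := fun h => hg ((mem_pt_iff hβ).mpr h)
    obtain ⟨b, hb⟩ := val_of_mem (hx.res_mem_regAlg (S.mem_chart_B.mp g.2) hβ R hR)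
    obtain ⟨a, ha⟩ := val_of_mem hR
    obtain ⟨a', ha'⟩ := val_of_mem hR'
    have haa : a * a' = 1 := by
      have h1 := ha.mul ha'
      rw [mul_inv_cancel₀ hy0] at h1
      exact h1.unique Val.one
    have ha0 : a' ≠ 0 := right_ne_zero_of_mul (haa ▸ one_ne_zero)
    have hb0 : b ≠ 0 := by
      rintro rfl
      exact hβ0 hb
    have h1 : (S.V c).Res (x⁻¹ ^ N * g) ((y⁻¹ ^ n c) ^ N * β) :=
      (S.V c).res_mul ((S.V c).res_pow (hn c).2 N) hβ
    rw [mem_pt_iff (by exact h1)]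
    intro h2
    have h3 := ((ha'.pow (n c)).pow N).mul hb
    exact mul_ne_zero (pow_ne_zero _ (pow_ne_zero _ ha0)) hb0 (h3.unique h2)
  · exact mul_mem (hxN i) (hh.1 i)
  · rcases eq_or_ne h 0 with rfl | hh0
    · rw [mul_zero, map_zero]
      exact zero_le
    have h0 : x⁻¹ ^ N * h ≠ 0 := mul_ne_zero (pow_ne_zero _ hxi0) hh0
    refine (HP_le_iff P.1 h0 (hr0 P.1)).mpr ?_
    rw [map_mul, P.1.ord_mul (alg_ne (pow_ne_zero _ hxi0)) (alg_ne hh0)]
    rcases hordN P.1 P.2 with ⟨h1, h2⟩ | ⟨h1, h2⟩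
    · have h3 := (HP_le_iff P.1 hh0 (hr0 P.1)).mp (hh.2 ⟨P.1, h1⟩)
      omega
    · have h3 := hN P.1 h1
      have h4 := neg_abs_le (P.1.ord (algebraMap FL F h))
      have h5 := abs_nonneg (P.1.ord (algebraMap FL F (g : FL)))
      have h6 := le_abs_self (P.1.ord (algebraMap FL F (r P.1)))
      linarith
  · have h1 : x⁻¹ ^ N * h - x⁻¹ ^ N * (g : FL) = x⁻¹ ^ N * (h - g) := by ring
    have h2 := hgh i
    rw [chart_W] at h2 ⊢
    rw [h1, map_mul, hval, one_mul]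
    exact h2

section Main

variable (Pt : S.Points x y) (hx : S.IsChart x y) (hx' : S.IsChart x⁻¹ y⁻¹)
  (he2 : S.e 2 = 1) (hq : q.Prime) {m : ℕ} (hm : (m : k) ≠ 0) {f : FL} (hf : f ≠ 0)
  (hres : ∀ i, (S.V i).Res f 1) {D : Divisor K F}
  (hD : ∀ P, P.ord (algebraMap FL F f) = m * D P) {r : Place K F → FL} (hr0 : ∀ P, r P ≠ 0)
  (hr : ∀ P, P.ord (algebraMap FL F (r P)) = D P)
  (hloc : ∀ s : Pt.T, ∃ (h : FL) (ρ : Fin 3 → κ) (γ : k), γ ≠ 0 ∧ (∀ i, (S.V i).Res h (ρ i)) ∧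
      (∀ i, Val (Pt.sp s) (ρ i) γ) ∧ ∀ P ∈ Pt.U s, P.ord (algebraMap FL F h) = D P)

include he2 hq hm hf hres hD hr0 hr hloc in
/-- Finite points are good. -/
theorem good_finite (c : Fin 3) {R : Place k κ} (hR : y ∈ R.toValuationSubring) :
    (S.chart x).Good (fun P => r P.1) (pt hx c hR) := by
  have hm0 : m ≠ 0 := by
    rintro rfl
    simp at hm
  by_cases hs : ∃ s, R = Pt.sp s
  · obtain ⟨s, rfl⟩ := hs
    obtain ⟨h, ρ, γ, hγ, hh, hρ, hP⟩ := hloc s
    have h1 := (Pt.special hx s).good hq hm hf hres hD hr0 hr hγ hh hρ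
      fun P hPn => hP P.1 ((Pt.near_iff hx s P).mp hPn)
    rwa [← (Pt.special hx s).same c] at h1
  · push Not at hs
    exact (Pt.isolated hx he2 hR hs c).good hm0 hf hres hD hr0 hr

include Pt he2 hq hm hf hres hD hr0 hr hloc hx in
/-- **A global section on the first chart.** -/
theorem exists_sec : ∃ h, (S.chart x).Sec (fun P => r P.1) h ∧
    ∀ c, (S.V c).W.valuation (h - 1) < 1 := by
  obtain ⟨h, hh, hh1⟩ := G.Chart.exists_sec_one (S.chart x) (fun P => r P.1) fun n hn hqn => by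
    obtain ⟨c, R, hR, rfl⟩ := exists_pt hx hn hqn
    exact good_finite Pt hx he2 hq hm hf hres hD hr0 hr hloc c hR
  exact ⟨h, hh, hh1⟩

include Pt he2 hq hm hf hres hD hr0 hr hloc hx hx' in
/-- **A global section on the second chart.** -/
theorem exists_sec_inv : ∃ h, (S.chart x⁻¹).Sec (fun P => r P.1) h ∧
    ∀ c, (S.V c).W.valuation (h - 1) < 1 := by
  have hm0 : m ≠ 0 := by
    rintro rfl
    simp at hm
  obtain ⟨h, hh, hh1⟩ := G.Chart.exists_sec_one (S.chart x⁻¹) (fun P => r P.1) fun n hn hqn => by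
    obtain ⟨c, R, hR, rfl⟩ := exists_pt hx' hn hqn
    by_cases hy : y ∈ R.toValuationSubring
    · exact good_inv hx hx' hy hR hr0
        (good_finite Pt hx he2 hq hm hf hres hD hr0 hr hloc c hy)
    · exact (Pt.isolated_inf hx hx' he2 hy hR c).good hm0 hf hres hD hr0 hr
  exact ⟨h, hh, hh1⟩

end Main

end

end Fermat.Agent.DR.S36.Surf
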