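import Mathlib

/-!
# Rigidity (piece R of the S36 blueprint)

An elementary substitute for "a torsion line bundle on a proper arithmetic surface which is
trivial on the reduced special fibre is trivial".
-/

set_option autoImplicit false

noncomputable section

namespace Fermat.Agent.DR.S36

section Torsion

variable {R Q : Type*} [CommRing R] [AddCommGroup Q] [Module R Q]

/-- In a noetherian module the `ϖ`-power torsion is bounded. -/
theorem exists_torsion_bound [IsNoetherian R Q] (ϖ : R) :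
    ∃ c : ℕ, ∀ (k : ℕ) (y : Q), ϖ ^ k • y = 0 → ϖ ^ c • y = 0 := by
  have hmono : Monotone fun n : ℕ => LinearMap.ker (LinearMap.lsmul R Q (ϖ ^ n)) := by
    intro a b hab y hy
    simp only [LinearMap.mem_ker, LinearMap.lsmul_apply] at hy ⊢
    obtain ⟨d, rfl⟩ := Nat.exists_eq_add_of_le hab
    rw [pow_add, mul_comm, mul_smul, hy, smul_zero]
  obtain ⟨c, hc⟩ := monotone_stabilizes_iff_noetherian.mpr ‹IsNoetherian R Q› ⟨_, hmono⟩
  refine ⟨c, fun k y hy => ?_⟩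
  have h1 : y ∈ LinearMap.ker (LinearMap.lsmul R Q (ϖ ^ (max c k))) :=
    hmono (le_max_right c k) (by simpa using hy)
  have h2 : LinearMap.ker (LinearMap.lsmul R Q (ϖ ^ c)) =
    LinearMap.ker (LinearMap.lsmul R Q (ϖ ^ (max c k))) := hc (max c k) (le_max_left c k)
  rw [← h2] at h1
  simpa using h1

end Torsion

section Rigid

variable {R F : Type*} [CommRing R] [Field F] [Algebra R F]

/-- The valuation-theoretic input of the rigidity theorem: `O` is a semilocal ring (functions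
which are integral along all components of the special fibre), `J` its Jacobson radical
(functions vanishing on all components), `ϖ` a uniformizer of the base. -/
structure RadData (R F : Type*) [CommRing R] [Field F] [Algebra R F] where
  ϖ : R
  ϖ_ne : algebraMap R F ϖ ≠ 0
  O : Subring F
  J : AddSubgroup F
  J_le : ∀ t ∈ J, t ∈ O
  J_mul : ∀ s ∈ O, ∀ t ∈ J, s * t ∈ J
  algebraMap_mem : ∀ r : R, algebraMap R F r ∈ O
  ϖ_mem : algebraMap R F ϖ ∈ J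
  unit : ∀ t ∈ J, 1 + t ≠ 0 ∧ (1 + t)⁻¹ ∈ O
  N : ℕ
  J_pow : ∀ t ∈ J, t ^ N / algebraMap R F ϖ ∈ O

namespace RadData

variable (𝓡 : RadData R F)

theorem one_notMem : (1 : F) ∉ 𝓡.J := by
  intro h
  exact (𝓡.unit (-1) (neg_mem h)).1 (by ring)

theorem mem_of_sub_one_mem {u : F} (hu : u - 1 ∈ 𝓡.J) : u ∈ 𝓡.O := by
  have := add_mem (𝓡.J_le _ hu) (one_mem 𝓡.O)
  simpa using this

theorem mul_sub_one_mem {u v : F} (hu : u - 1 ∈ 𝓡.J) (hv : v - 1 ∈ 𝓡.J) :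
    u * v - 1 ∈ 𝓡.J := by
  have h : u * v - 1 = v * (u - 1) + (v - 1) := by ring
  rw [h]
  exact add_mem (𝓡.J_mul _ (𝓡.mem_of_sub_one_mem hv) _ hu) hv

theorem pow_sub_one_mem {u : F} (hu : u - 1 ∈ 𝓡.J) (n : ℕ) : u ^ n - 1 ∈ 𝓡.J := by
  induction n with
  | zero => simp
  | succ n ih => rw [pow_succ]; exact 𝓡.mul_sub_one_mem ih hu

theorem ne_zero_of_sub_one_mem {u : F} (hu : u - 1 ∈ 𝓡.J) : u ≠ 0 := by
  have := (𝓡.unit _ hu).1
  simpa using this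

theorem inv_sub_one_mem {u : F} (hu : u - 1 ∈ 𝓡.J) : u⁻¹ - 1 ∈ 𝓡.J := by
  have h0 := 𝓡.ne_zero_of_sub_one_mem hu
  have h1 : u⁻¹ ∈ 𝓡.O := by simpa using (𝓡.unit _ hu).2
  have h : u⁻¹ - 1 = (-u⁻¹) * (u - 1) := by field_simp; ring
  rw [h]
  exact 𝓡.J_mul _ (neg_mem h1) _ hu

theorem pow_div_mem {t : F} (ht : t ∈ 𝓡.J) (k : ℕ) {n : ℕ} (hn : 𝓡.N * k ≤ n) :
    t ^ n / algebraMap R F 𝓡.ϖ ^ k ∈ 𝓡.O := by
  obtain ⟨d, rfl⟩ := Nat.exists_eq_add_of_le hn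
  have h : t ^ (𝓡.N * k + d) / algebraMap R F 𝓡.ϖ ^ k =
      (t ^ 𝓡.N / algebraMap R F 𝓡.ϖ) ^ k * t ^ d := by
    rw [div_pow, pow_add, pow_mul]; ring
  rw [h]
  exact mul_mem (pow_mem (𝓡.J_pow t ht) k) (pow_mem (𝓡.J_le _ ht) d)

/-- Newton iteration: improving an approximate `m`-th root. -/
theorem newton {m : ℕ} {i : R} (hi : (m : R) * i = 1) {f : F} (hf : f - 1 ∈ 𝓡.J)
    {M : Submodule R F} (hM : ∀ u ∈ M, u * (u ^ m / f) ∈ M) {h : F} (hh : h ∈ M)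
    (hJ : h - 1 ∈ 𝓡.J) (n : ℕ) :
    ∃ u ∈ M, u - 1 ∈ 𝓡.J ∧ ∃ t ∈ 𝓡.O, u ^ m / f - 1 = (h ^ m / f - 1) ^ (2 ^ n) * t := by
  induction n with
  | zero => exact ⟨h, hh, hJ, 1, one_mem _, by simp⟩
  | succ n ih =>
    obtain ⟨u, hu, huJ, t, ht, hut⟩ := ih
    have hiF : (m : F) * algebraMap R F i = 1 := by
      rw [← map_natCast (algebraMap R F), ← map_mul, hi, map_one]
    have hf0 := 𝓡.ne_zero_of_sub_one_mem hf
    set a : F := u ^ m / f - 1 with ha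
    have haJ : a ∈ 𝓡.J := by
      rw [ha, div_eq_mul_inv]
      exact 𝓡.mul_sub_one_mem (𝓡.pow_sub_one_mem huJ m) (𝓡.inv_sub_one_mem hf)
    set c : F := algebraMap R F i with hc
    have hcO : c ∈ 𝓡.O := 𝓡.algebraMap_mem i
    have haO := 𝓡.J_le _ haJ
    refine ⟨u * (1 - c * a), ?_, ?_, ?_⟩
    · have h1 : u * (1 - c * a) = u - i • (u * (u ^ m / f) - u) := by
        rw [Algebra.smul_def, ← hc, ha]; ring
      rw [h1]
      exact sub_mem hu (M.smul_mem _ (sub_mem (hM u hu) hu))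
    · apply 𝓡.mul_sub_one_mem huJ
      have h1 : 1 - c * a - 1 = (-c) * a := by ring
      rw [h1]
      exact 𝓡.J_mul _ (neg_mem hcO) _ haJ
    · obtain ⟨k, hk⟩ := Polynomial.powAddExpansion (1 : 𝓡.O) (⟨-(c * a),
        neg_mem (mul_mem hcO haO)⟩ : 𝓡.O) m
      have hk' : (1 - c * a) ^ m = 1 - a + (k : F) * (c * a) ^ 2 := by
        have h2 := congrArg (Subtype.val : 𝓡.O → F) hk
        push_cast at h2
        rw [sub_eq_add_neg, h2]
        simp only [one_pow, mul_one]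
        linear_combination (-a) * hiF
      refine ⟨t ^ 2 * (-1 + (1 + a) * k * c ^ 2), ?_, ?_⟩
      · refine mul_mem (pow_mem ht 2) (add_mem (neg_mem (one_mem _)) ?_)
        exact mul_mem (mul_mem (add_mem (one_mem _) haO) k.2) (pow_mem hcO 2)
      · have h3 : (u * (1 - c * a)) ^ m / f = (1 + a) * (1 - c * a) ^ m := by
          rw [mul_pow, ha]; ring
        rw [h3, hk', pow_succ 2 n, pow_mul]
        have h4 : (1 + a) * (1 - a + (k : F) * (c * a) ^ 2) - 1 =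
          a ^ 2 * (-1 + (1 + a) * k * c ^ 2) := by ring
        rw [h4]
        have h5 : a ^ 2 = ((h ^ m / f - 1) ^ 2 ^ n) ^ 2 * t ^ 2 := by
          rw [hut]; ring
        rw [h5]; ring

theorem newton' {m : ℕ} {i : R} (hi : (m : R) * i = 1) {f : F} (hf : f - 1 ∈ 𝓡.J)
    {M : Submodule R F} (hM : ∀ u ∈ M, u * (u ^ m / f) ∈ M) {h : F} (hh : h ∈ M)
    (hJ : h - 1 ∈ 𝓡.J) (k : ℕ) :
    ∃ u ∈ M, u - 1 ∈ 𝓡.J ∧ (u ^ m / f - 1) / algebraMap R F 𝓡.ϖ ^ k ∈ 𝓡.O := by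
  obtain ⟨u, hu, huJ, t, ht, hut⟩ := 𝓡.newton hi hf hM hh hJ (𝓡.N * k)
  refine ⟨u, hu, huJ, ?_⟩
  have h1 : h ^ m / f - 1 ∈ 𝓡.J := by
    rw [div_eq_mul_inv]
    exact 𝓡.mul_sub_one_mem (𝓡.pow_sub_one_mem hJ m) (𝓡.inv_sub_one_mem hf)
  have h2 := 𝓡.pow_div_mem h1 k (n := 2 ^ (𝓡.N * k)) (Nat.lt_two_pow_self.le)
  rw [hut, mul_div_right_comm]
  exact mul_mem h2 ht

/-- **Rigidity.** -/
theorem rigid {m : ℕ} {i : R} (hi : (m : R) * i = 1) {f : F} (hf : f - 1 ∈ 𝓡.J)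
    {M₀ M₁ M : Submodule R F} (h₀M : M₀ ≤ M) (h₁M : M₁ ≤ M) (hMO : ∀ u ∈ M, u ∈ 𝓡.O)
    (hsat : ∀ (y : F) (k : ℕ), algebraMap R F 𝓡.ϖ ^ k * y ∈ M → y ∈ 𝓡.O → y ∈ M)
    (hM₀ : ∀ u ∈ M₀, u * (u ^ m / f) ∈ M₀) (hM₁ : ∀ u ∈ M₁, u * (u ^ m / f) ∈ M₁)
    (hfin : IsNoetherian R (M ⧸ (Submodule.comap M.subtype (M₀ ⊔ M₁))))
    {h₀ h₁ : F} (hh₀ : h₀ ∈ M₀) (hh₁ : h₁ ∈ M₁) (hJ₀ : h₀ - 1 ∈ 𝓡.J) (hJ₁ : h₁ - 1 ∈ 𝓡.J) :
    ∃ u ∈ M₀, u ∈ M₁ ∧ u ≠ 0 := by
  set p : F := algebraMap R F 𝓡.ϖ with hp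
  have hp0 : p ≠ 0 := 𝓡.ϖ_ne
  obtain ⟨c, hc⟩ := exists_torsion_bound (R := R)
    (Q := M ⧸ (Submodule.comap M.subtype (M₀ ⊔ M₁))) 𝓡.ϖ
  obtain ⟨u, hu, huJ, hua⟩ := 𝓡.newton' hi hf hM₀ hh₀ hJ₀ (c + 1)
  obtain ⟨v, hv, hvJ, hva⟩ := 𝓡.newton' hi hf hM₁ hh₁ hJ₁ (c + 1)
  rw [← hp] at hua hva
  have hiF : (m : F) * algebraMap R F i = 1 := by
    rw [← map_natCast (algebraMap R F), ← map_mul, hi, map_one]
  have hf0 := 𝓡.ne_zero_of_sub_one_mem hf
  -- the quotient `(u - v) / ϖ^(c+1)` is integral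
  set S : F := ∑ j ∈ Finset.range m, u ^ j * v ^ (m - 1 - j) with hS
  have hSm : S - m ∈ 𝓡.J := by
    have h1 : S - m = ∑ j ∈ Finset.range m, (u ^ j * v ^ (m - 1 - j) - 1) := by
      rw [hS, Finset.sum_sub_distrib]; simp
    rw [h1]
    exact sum_mem fun j _ =>
      𝓡.mul_sub_one_mem (𝓡.pow_sub_one_mem huJ _) (𝓡.pow_sub_one_mem hvJ _)
  have hSi : S * algebraMap R F i - 1 ∈ 𝓡.J := by
    have h1 : S * algebraMap R F i - 1 = algebraMap R F i * (S - m) := by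
      linear_combination (1 : F) * hiF
    rw [h1]
    exact 𝓡.J_mul _ (𝓡.algebraMap_mem i) _ hSm
  have hS0 : S ≠ 0 := by
    intro h0
    apply 𝓡.ne_zero_of_sub_one_mem hSi
    rw [h0, zero_mul]
  have hSinv : S⁻¹ ∈ 𝓡.O := by
    have h1 := 𝓡.mem_of_sub_one_mem (𝓡.inv_sub_one_mem hSi)
    have h2 : S⁻¹ = algebraMap R F i * (S * algebraMap R F i)⁻¹ := by
      have h3 : algebraMap R F i ≠ 0 := right_ne_zero_of_mul (hiF ▸ one_ne_zero)
      field_simp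
    rw [h2]
    exact mul_mem (𝓡.algebraMap_mem i) h1
  have hgeom : (u - v) * S = u ^ m - v ^ m := by
    rw [hS, mul_comm]; exact Commute.geom_sum₂_mul (Commute.all u v) m
  have hw : (u - v) / p ^ (c + 1) ∈ 𝓡.O := by
    have h1 : (u - v) / p ^ (c + 1) = f * S⁻¹ * ((u ^ m / f - 1) / p ^ (c + 1) -
        (v ^ m / f - 1) / p ^ (c + 1)) := by
      have h2 : u - v = (u ^ m - v ^ m) * S⁻¹ := by
        rw [← hgeom, mul_assoc, mul_inv_cancel₀ hS0, mul_one]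
      rw [h2]
      field_simp
      ring
    rw [h1]
    exact mul_mem (mul_mem (𝓡.mem_of_sub_one_mem hf) hSinv) (sub_mem hua hva)
  have hwM : (u - v) / p ^ (c + 1) ∈ M := by
    apply hsat _ (c + 1) _ hw
    rw [mul_div_cancel₀ _ (pow_ne_zero _ hp0)]
    exact sub_mem (h₀M hu) (h₁M hv)
  -- hence `ϖ ^ c • w ∈ M₀ ⊔ M₁`
  have hQ : 𝓡.ϖ ^ (c + 1) • (Submodule.Quotient.mk ⟨(u - v) / p ^ (c + 1), hwM⟩ :
      M ⧸ (Submodule.comap M.subtype (M₀ ⊔ M₁))) = 0 := by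
    rw [← Submodule.Quotient.mk_smul, Submodule.Quotient.mk_eq_zero, Submodule.mem_comap]
    have h1 : M.subtype (𝓡.ϖ ^ (c + 1) • ⟨(u - v) / p ^ (c + 1), hwM⟩) = u - v := by
      simp only [Submodule.subtype_apply, Submodule.coe_smul]
      rw [Algebra.smul_def, map_pow, ← hp, mul_div_cancel₀ _ (pow_ne_zero _ hp0)]
    rw [h1]
    exact sub_mem (Submodule.mem_sup_left hu) (Submodule.mem_sup_right hv)
  have hQ' := hc (c + 1) _ hQ
  rw [← Submodule.Quotient.mk_smul, Submodule.Quotient.mk_eq_zero, Submodule.mem_comap] at hQ'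
  have h2 : M.subtype (𝓡.ϖ ^ c • ⟨(u - v) / p ^ (c + 1), hwM⟩) = (u - v) / p := by
    simp only [Submodule.subtype_apply, Submodule.coe_smul]
    rw [Algebra.smul_def, map_pow, ← hp, pow_succ]
    field_simp
  rw [h2] at hQ'
  obtain ⟨x, hx, y, hy, hxy⟩ := Submodule.mem_sup.mp hQ'
  have h3 : u - p * x = v + p * y := by
    have h4 : u - v = p * (x + y) := by rw [hxy, mul_div_cancel₀ _ hp0]
    linear_combination h4
  have hpM : ∀ (M' : Submodule R F) (z : F), z ∈ M' → p * z ∈ M' := fun M' z hz => by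
    have := M'.smul_mem 𝓡.ϖ hz
    rwa [Algebra.smul_def] at this
  refine ⟨u - p * x, sub_mem hu (hpM _ _ hx), h3 ▸ add_mem hv (hpM _ _ hy), ?_⟩
  intro h4
  apply 𝓡.one_notMem
  have h5 : u ∈ 𝓡.J := by
    rw [sub_eq_zero.mp h4, mul_comm]
    exact 𝓡.J_mul _ (hMO _ (h₀M hx)) _ 𝓡.ϖ_mem
  have h6 := sub_mem h5 huJ
  simpa using h6

end RadData

section Finite

/-- The `H¹` of the two-chart cover is finitely generated. -/
theorem h1_finite {x : F} (hx : x ≠ 0) {M₀ M₁ M : Submodule R F}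
    (hx₀ : ∀ u ∈ M₀, x * u ∈ M₀) (hx₁ : ∀ u ∈ M₁, x⁻¹ * u ∈ M₁)
    (h₁ : ∀ u ∈ M, ∃ n : ℕ, x⁻¹ ^ n * u ∈ M₁) (h₀ : ∀ u ∈ M₁, ∃ n : ℕ, x ^ n * u ∈ M₀)
    (h₁M : M₁ ≤ M) (hxM : ∀ u ∈ M, x * u ∈ M)
    (r : ℕ) (y : Fin r → F) (hy : ∀ j, y j ∈ M₁)
    (hgen : ∀ u ∈ M₁, u ∈ Submodule.span R {z | ∃ (j : Fin r) (k : ℕ), z = x⁻¹ ^ k * y j}) :
    Module.Finite R (M ⧸ (Submodule.comap M.subtype (M₀ ⊔ M₁))) := by
  classical
  choose n hn using fun j => h₀ (y j) (hy j)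
  set N : ℕ := ∑ j, n j with hN
  have hnN : ∀ j, n j ≤ N := fun j => Finset.single_le_sum (fun _ _ => Nat.zero_le _)
    (Finset.mem_univ j)
  have hx0' : ∀ (k : ℕ) (u : F), u ∈ M₀ → x ^ k * u ∈ M₀ := by
    intro k u hu
    induction k with
    | zero => simpa using hu
    | succ k ih => rw [pow_succ', mul_assoc]; exact hx₀ _ ih
  have hx1' : ∀ (k : ℕ) (u : F), u ∈ M₁ → x⁻¹ ^ k * u ∈ M₁ := by
    intro k u hu
    induction k with
    | zero => simpa using hu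
    | succ k ih => rw [pow_succ', mul_assoc]; exact hx₁ _ ih
  have hxM' : ∀ (k : ℕ) (u : F), u ∈ M → x ^ k * u ∈ M := by
    intro k u hu
    induction k with
    | zero => simpa using hu
    | succ k ih => rw [pow_succ', mul_assoc]; exact hxM _ ih
  set T : Set F := Set.range fun q : Fin r × Fin (N + 1) => x ^ (q.2 : ℕ) * y q.1 with hT
  have hTM : ∀ z ∈ T, z ∈ M := by
    rintro _ ⟨q, rfl⟩
    exact hxM' _ _ (h₁M (hy _))
  have hxx : ∀ k : ℕ, x ^ k * x⁻¹ ^ k = 1 := fun k => by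
    rw [← mul_pow, mul_inv_cancel₀ hx, one_pow]
  have key : ∀ (a : ℕ) (u : F),
      u ∈ Submodule.span R {z | ∃ (j : Fin r) (k : ℕ), z = x⁻¹ ^ k * y j} →
      x ^ a * u ∈ (M₀ ⊔ M₁) ⊔ Submodule.span R T := by
    intro a u hu
    induction hu using Submodule.span_induction with
    | mem z hz =>
      obtain ⟨j, k, rfl⟩ := hz
      rcases le_total a k with hak | hak
      · obtain ⟨d, rfl⟩ := Nat.exists_eq_add_of_le hak
        have h1 : x ^ a * (x⁻¹ ^ (a + d) * y j) = x⁻¹ ^ d * y j := by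
          rw [pow_add]
          linear_combination (x⁻¹ ^ d * y j) * hxx a
        rw [h1]
        exact Submodule.mem_sup_left (Submodule.mem_sup_right (hx1' _ _ (hy j)))
      · obtain ⟨d, rfl⟩ := Nat.exists_eq_add_of_le hak
        have h1 : x ^ (k + d) * (x⁻¹ ^ k * y j) = x ^ d * y j := by
          rw [pow_add]
          linear_combination (x ^ d * y j) * hxx k
        rw [h1]
        rcases Nat.lt_or_ge d (N + 1) with hd | hd
        · exact Submodule.mem_sup_right (Submodule.subset_span ⟨(j, ⟨d, hd⟩), rfl⟩)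
        · have h2 : n j ≤ d := (hnN j).trans (by omega)
          obtain ⟨e, rfl⟩ := Nat.exists_eq_add_of_le' h2
          rw [pow_add, mul_assoc]
          exact Submodule.mem_sup_left (Submodule.mem_sup_left (hx0' _ _ (hn j)))
    | zero => simp
    | add v w _ _ hv hw => rw [mul_add]; exact add_mem hv hw
    | smul c v _ hv => rw [mul_smul_comm]; exact Submodule.smul_mem _ _ hv
  have key2 : ∀ u ∈ M, u ∈ (M₀ ⊔ M₁) ⊔ Submodule.span R T := by
    intro u hu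
    obtain ⟨a, ha⟩ := h₁ u hu
    have h2 := key a _ (hgen _ ha)
    have h3 : x ^ a * (x⁻¹ ^ a * u) = u := by rw [← mul_assoc, hxx, one_mul]
    rwa [h3] at h2
  have hTfin : T.Finite := Set.finite_range _
  -- the images of the elements of `T` generate
  refine ⟨⟨(hTfin.toFinset.attach.image fun z => (Submodule.Quotient.mk
    ⟨z.1, hTM _ (hTfin.mem_toFinset.mp z.2)⟩ :
      M ⧸ (Submodule.comap M.subtype (M₀ ⊔ M₁)))), ?_⟩⟩
  rw [eq_top_iff]
  rintro q -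
  obtain ⟨⟨u, hu⟩, rfl⟩ := Submodule.Quotient.mk_surjective _ q
  obtain ⟨v, hv, w, hw, hvw⟩ := Submodule.mem_sup.mp (key2 u hu)
  have hwM : w ∈ M := by
    have : Submodule.span R T ≤ M := Submodule.span_le.mpr hTM
    exact this hw
  have hvM : v ∈ M := by
    have h4 : v = u - w := by rw [← hvw]; ring
    rw [h4]; exact sub_mem hu hwM
  have h5 : (Submodule.Quotient.mk ⟨u, hu⟩ : M ⧸ (Submodule.comap M.subtype (M₀ ⊔ M₁))) =
      Submodule.Quotient.mk ⟨w, hwM⟩ := by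
    rw [Submodule.Quotient.eq, Submodule.mem_comap]
    have h6 : M.subtype (⟨u, hu⟩ - ⟨w, hwM⟩) = v := by
      simp only [Submodule.subtype_apply, Submodule.coe_sub]
      rw [← hvw]; ring
    rw [h6]; exact hv
  rw [h5]
  clear h5 hvw hvM hv v
  induction hw using Submodule.span_induction with
  | mem z hz =>
    apply Submodule.subset_span
    rw [Finset.mem_coe, Finset.mem_image]
    exact ⟨⟨z, hTfin.mem_toFinset.mpr hz⟩, Finset.mem_attach _ _, rfl⟩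
  | zero =>
    have : (Submodule.Quotient.mk ⟨0, hwM⟩ : M ⧸ (Submodule.comap M.subtype (M₀ ⊔ M₁))) = 0 := by
      rw [Submodule.Quotient.mk_eq_zero]; exact zero_mem _
    rw [this]; exact zero_mem _
  | add v w hv hw ihv ihw =>
    have hT : Submodule.span R T ≤ M := Submodule.span_le.mpr hTM
    have := add_mem (ihv (hT hv)) (ihw (hT hw))
    rwa [← Submodule.Quotient.mk_add] at this
  | smul c v hv ih =>
    have hT : Submodule.span R T ≤ M := Submodule.span_le.mpr hTM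
    have := Submodule.smul_mem _ c (ih (hT hv))
    rwa [← Submodule.Quotient.mk_smul] at this

end Finite

end Rigid

end Fermat.Agent.DR.S36
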