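import Fermat.Agent.DR.S36.ChartJ
import Fermat.Agent.DR.S36.Rigid
import Fermat.Agent.RR.Duality

set_option autoImplicit false
set_option linter.unusedSectionVars false

/-!
# Rigidity of arithmetic surfaces
-/

noncomputable section

open AlgebraicCurve Fermat.Agent.RR Polynomial IntermediateField
open Fermat.Agent.DR.Nodes (regAlg mem_regAlg mem_regAlg_of_isIntegral)

namespace Fermat.Agent.DR.S36.Surf

variable {L K FL F k κ : Type*} [Field L] [Field K] [Field FL] [Field F] [Field k] [Field κ]
  [Algebra L K] [Algebra L FL] [Algebra K F] [Algebra FL F] [Algebra k κ]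
  {A₀ : ValuationSubring L} {q : ℕ} (S : Surf L K FL F k κ A₀ q)

/-- The algebra structure over the base. -/
abbrev algA (A₀ : ValuationSubring L) (FL : Type*) [Field FL] [Algebra L FL] : Algebra A₀ FL :=
  ((algebraMap L FL).comp A₀.subtype).toAlgebra

/-- The radical data. -/
def radData : @RadData A₀ FL _ _ (algA A₀ FL) :=
  letI := algA A₀ FL
  { ϖ := (q : A₀)
    ϖ_ne := by
      change algebraMap L FL ((q : A₀) : L) ≠ 0
      have h : algebraMap L FL ((q : A₀) : L) = (q : FL) := map_natCast (algebraMap L FL) q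
      rw [h]
      exact S.q_ne_FL
    O := ⨅ c, (S.V c).W.toSubring
    J :=
      { carrier := {t | ∀ c, 0 < (S.V c).v t}
        zero_mem' := fun c => by simp
        add_mem' := fun {a b} ha hb c => (lt_min (ha c) (hb c)).trans_le ((S.V c).v.map_add a b)
        neg_mem' := fun {a} ha c => by rw [(S.V c).v.map_neg]; exact ha c }
    J_le := by
      intro t ht
      rw [Subring.mem_iInf]
      intro c
      exact le_of_lt (ht c)
    J_mul := by
      intro s hs t ht c
      rw [Subring.mem_iInf] at hs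
      rw [(S.V c).v.map_mul]
      exact lt_of_lt_of_le (ht c) (le_add_of_nonneg_left (hs c))
    algebraMap_mem := by
      intro r
      rw [Subring.mem_iInf]
      intro c
      exact (S.V c).nonneg (S.res_const c r)
    ϖ_mem := by
      intro c
      have h1 := S.res_const c (q : A₀)
      rw [S.π₀_q, map_zero] at h1
      exact (S.V c).res_zero_iff.mp h1
    unit := by
      intro t ht
      have h1 : ∀ c, (S.V c).Res (1 + t) 1 := fun c => by
        have := (S.V c).res_add (S.V c).res_one ((S.V c).res_zero_iff.mpr (ht c))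
        rwa [add_zero] at this
      refine ⟨(S.V 0).ne_zero_of_res (h1 0) one_ne_zero, ?_⟩
      rw [Subring.mem_iInf]
      intro c
      exact (S.V c).nonneg ((S.V c).res_inv (h1 c) one_ne_zero)
    N := ∑ c, S.e c
    J_pow := by
      intro t ht
      rw [Subring.mem_iInf]
      intro c
      have hq : algebraMap A₀ FL (q : A₀) = (q : FL) := map_natCast (algebraMap A₀ FL) q
      rw [hq]
      change t ^ (∑ c, S.e c) / (q : FL) ∈ (S.V c).W
      rw [(S.V c).mem_W']
      rcases eq_or_ne t 0 with rfl | ht0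
      · have h1 : S.e 0 ≤ ∑ c, S.e c := Finset.single_le_sum (fun _ _ => Nat.zero_le _)
          (Finset.mem_univ 0)
        have h2 : ∑ c, S.e c ≠ 0 := by
          have := S.e_pos 0
          omega
        rw [zero_pow h2, zero_div]
        simp
      · rw [(S.V c).w_div (pow_ne_zero _ ht0) S.q_ne_FL, (S.V c).w_pow, S.w_q]
        have h1 : S.e c ≤ ∑ c, S.e c := Finset.single_le_sum (fun _ _ => Nat.zero_le _)
          (Finset.mem_univ c)
        have h2 : 0 < (S.V c).w t := ((S.V c).pos_iff.mp (ht c)).resolve_left ht0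
        have h3 : ((∑ c, S.e c : ℕ) : ℤ) * 1 ≤ (∑ c, S.e c : ℕ) * (S.V c).w t :=
          mul_le_mul_of_nonneg_left (by omega) (Int.natCast_nonneg _)
        omega }

/-- The sections over a set of places. -/
def secT (T : Set (Place K F)) (r : Place K F → FL) : @Submodule A₀ FL _ _
    (algA A₀ FL).toModule :=
  letI := algA A₀ FL
  { carrier := {h | (∀ c, h ∈ (S.V c).W) ∧
      ∀ P ∈ T, (HP FL P).valuation h ≤ (HP FL P).valuation (r P)}
    zero_mem' := ⟨fun _ => zero_mem _, fun P _ => by rw [map_zero]; exact zero_le⟩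
    add_mem' := by
      rintro a b ⟨ha, ha'⟩ ⟨hb, hb'⟩
      exact ⟨fun c => add_mem (ha c) (hb c), fun P hP => (Valuation.map_add _ a b).trans
        (max_le (ha' P hP) (hb' P hP))⟩
    smul_mem' := by
      rintro a b ⟨hb, hb'⟩
      have h1 : a • b = algebraMap L FL a * b := rfl
      rw [h1]
      refine ⟨fun c => mul_mem ((S.V c).nonneg (S.res_const c a)) (hb c), fun P hP => ?_⟩
      rw [map_mul]
      have h2 : (HP FL P).valuation (algebraMap L FL a) ≤ 1 := by
        rw [(HP FL P).valuation_le_one_iff, mem_HP, S.comm]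
        exact P.algebraMap_mem' _
      exact (mul_le_of_le_one_left' h2).trans (hb' P hP) }

theorem mem_secT {T : Set (Place K F)} {r : Place K F → FL} {h : FL} :
    h ∈ S.secT T r ↔ (∀ c, h ∈ (S.V c).W) ∧
      ∀ P ∈ T, (HP FL P).valuation h ≤ (HP FL P).valuation (r P) := Iff.rfl

/-- The places where `x` is regular. -/
def regT (F : Type*) [Field F] [Algebra K F] [Algebra FL F] (x : FL) : Set (Place K F) :=
  {P | algebraMap FL F x ∈ P.toValuationSubring}

variable {S}

theorem mul_mem_secT {T : Set (Place K F)} {r : Place K F → FL} {b h : FL}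
    (hb : ∀ c, b ∈ (S.V c).W) (hb' : ∀ P ∈ T, b ∈ HP FL P) (hh : h ∈ S.secT T r) :
    b * h ∈ S.secT T r := by
  rw [mem_secT] at hh ⊢
  refine ⟨fun c => mul_mem (hb c) (hh.1 c), fun P hP => ?_⟩
  rw [map_mul]
  exact (mul_le_of_le_one_left' (((HP FL P).valuation_le_one_iff _).mpr (hb' P hP))).trans
    (hh.2 P hP)

section

variable [IsAlgClosed K] [FunctionField K F] [IsAlgClosed k] [FunctionField k κ]
  {x : FL} {y : κ} [IsDiscreteValuationRing A₀] [CharZero L]

theorem mem_secT_iff_sec {r : Place K F → FL} {h : FL} :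
    h ∈ S.secT (regT F x) r ↔ (S.chart x).Sec (fun P => r P.1) h := by
  rw [mem_secT]
  constructor
  · rintro ⟨h1, h2⟩
    exact ⟨h1, fun P => h2 P.1 P.2⟩
  · rintro ⟨h1, h2⟩
    exact ⟨h1, fun P hP => h2 ⟨P, hP⟩⟩

/-- multiplying by powers of `x⁻¹` to cross to the other chart -/
theorem exists_pow_mul_mem {x : FL} (hx0 : x ≠ 0) (hxw : ∀ c, (S.V c).w x = 0)
    {r : Place K F → FL} (hr0 : ∀ P, r P ≠ 0) {u : FL}
    (hu : u ∈ S.secT (regT F x ∩ regT F x⁻¹) r) :
    ∃ n : ℕ, x⁻¹ ^ n * u ∈ S.secT (regT F x⁻¹) r := by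
  rcases eq_or_ne u 0 with rfl | hu0
  · exact ⟨0, by rw [mul_zero]; exact zero_mem _⟩
  have hxi0 : x⁻¹ ≠ 0 := inv_ne_zero hx0
  obtain ⟨N, hN⟩ := exists_pow_bound (K := K) (F := F) x fun P =>
    P.ord (algebraMap FL F (r P)) - P.ord (algebraMap FL F u)
  refine ⟨N, ?_, fun P hP => ?_⟩
  · intro c
    refine mul_mem (pow_mem ?_ N) (hu.1 c)
    rw [(S.V c).mem_W', (S.V c).w_inv, hxw, neg_zero]
  · have h0 : x⁻¹ ^ N * u ≠ 0 := mul_ne_zero (pow_ne_zero _ hxi0) hu0
    refine (HP_le_iff P h0 (hr0 P)).mpr ?_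
    have hP' : 0 ≤ -P.ord (algebraMap FL F x) := by
      have h1 : algebraMap FL F x⁻¹ ∈ P.toValuationSubring := hP
      rw [map_inv₀, mem_iff_ord_nonneg, P.ord_inv] at h1
      exact h1
    rw [map_mul, P.ord_mul (alg_ne (pow_ne_zero _ hxi0)) (alg_ne hu0), map_pow, ord_pow,
      map_inv₀, P.ord_inv]
    by_cases h1 : algebraMap FL F x ∈ P.toValuationSubring
    · have h2 := (HP_le_iff P hu0 (hr0 P)).mp (hu.2 P ⟨h1, hP⟩)
      have h3 : (0 : ℤ) ≤ N * (-P.ord (algebraMap FL F x)) :=
        mul_nonneg (Int.natCast_nonneg _) hP'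
      linarith
    · have h2 := hN P h1
      have h3 : 1 ≤ -P.ord (algebraMap FL F x) := by
        rw [mem_iff_ord_nonneg] at h1
        omega
      have h4 : (N : ℤ) * 1 ≤ N * (-P.ord (algebraMap FL F x)) :=
        mul_le_mul_of_nonneg_left h3 (Int.natCast_nonneg _)
      linarith

/-- **Finiteness of the sections over a chart.** -/
theorem exists_generators (hx : S.IsChart x y) {m : ℕ} (hm : m ≠ 0) {f : FL} (hf : f ≠ 0)
    {D : Divisor K F} (hD : ∀ P, P.ord (algebraMap FL F f) = m * D P) {r : Place K F → FL}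
    (hr0 : ∀ P, r P ≠ 0) (hr : ∀ P, P.ord (algebraMap FL F (r P)) = D P) :
    ∃ (n : ℕ) (g : Fin n → FL), (∀ j, g j ∈ S.secT (regT F x) r) ∧
      ∀ u ∈ S.secT (regT F x) r, u ∈ @Submodule.span A₀ FL _ _ (algA A₀ FL).toModule
        {z | ∃ (j : Fin n) (i : ℕ), z = x ^ i * g j} := by
  obtain ⟨CDx⟩ := hx.exists_cd
  obtain ⟨hfin, -, hfrac⟩ := CDx.finite_and
  obtain ⟨d, hd, hdf⟩ := CDx.exists_denominator f
  let _ := algA A₀ FL
  let _ : Algebra A₀[X] (S.chart x).B := CDx.toB.toAlgebra
  let _ : Algebra A₀[X] FL := (evx x).toAlgebra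
  have : IsScalarTower A₀[X] (S.chart x).B FL := IsScalarTower.of_algebraMap_eq fun _ => rfl
  have hfinB : Module.Finite A₀[X] (S.chart x).B := hfin
  set b : FL := evx x d with hb
  have hbB : S.Hol x b := S.mem_chart_B.mp (CDx.toB d).2
  have hb0 : b ≠ 0 := by
    intro h0
    apply hd
    have h1 : aeval x (d.map A₀.subtype) = 0 := h0
    by_contra hne
    exact CDx.trL ⟨d.map A₀.subtype, fun h2 => hne (Polynomial.map_injective _
      A₀.subtype_injective (by rw [h2, Polynomial.map_zero])), h1⟩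
  -- the module of sections over `A₀[X]`
  let N₁ : Submodule A₀[X] FL :=
    { carrier := {h | h ∈ S.secT (regT F x) r}
      zero_mem' := (S.secT (regT F x) r).zero_mem
      add_mem' := fun ha hb => (S.secT (regT F x) r).add_mem ha hb
      smul_mem' := by
        intro p h hh
        have h1 : p • h = evx x p * h := rfl
        rw [h1]
        have h2 := S.mem_chart_B.mp (CDx.toB p).2
        exact mul_mem_secT h2.1 h2.2 hh }
  let B' : Submodule A₀[X] FL := LinearMap.range (IsScalarTower.toAlgHom A₀[X]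
    (S.chart x).B FL).toLinearMap
  have hB'fg : B'.FG := by
    have : Module.Finite A₀[X] B' := Module.Finite.range _
    exact Module.Finite.iff_fg.mp this
  have hB'N : IsNoetherian A₀[X] B' := isNoetherian_of_fg_of_noetherian B' hB'fg
  let φ : FL →ₗ[A₀[X]] FL := LinearMap.mulLeft A₀[X] b
  have hφ : Function.Injective φ := by
    intro u v huv
    exact mul_left_cancel₀ hb0 huv
  have hle : N₁.map φ ≤ B' := by
    rintro _ ⟨h, hh, rfl⟩
    have hh' : h ∈ S.secT (regT F x) r := hh
    refine ⟨⟨b * h, S.mem_chart_B.mpr ⟨fun c => mul_mem (hbB.1 c) (hh'.1 c), fun P hP => ?_⟩⟩, rfl⟩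
    rcases eq_or_ne h 0 with rfl | hh0
    · rw [mul_zero, map_zero]; exact zero_mem _
    rw [mem_iff_ord_nonneg, map_mul, P.ord_mul (alg_ne hb0) (alg_ne hh0)]
    have h1 := (HP_le_iff P hh0 (hr0 P)).mp (hh'.2 P hP)
    rw [hr] at h1
    have h2 := (mem_iff_ord_nonneg P).mp (hbB.2 P hP)
    have h3 := (mem_iff_ord_nonneg P).mp (hdf.2 P hP)
    rw [map_mul, P.ord_mul (alg_ne hb0) (alg_ne hf), hD] at h3
    by_cases hDP : 0 ≤ D P
    · linarith
    · push Not at hDP
      have h4 : (m : ℤ) * D P ≤ 1 * D P :=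
        mul_le_mul_of_nonpos_right (by exact_mod_cast Nat.one_le_iff_ne_zero.mpr hm) hDP.le
      linarith
  have hfg : N₁.FG := by
    have h1 : (N₁.map φ).FG := by
      have h2 : ((N₁.map φ).comap B'.subtype).FG := IsNoetherian.noetherian _
      have h3 := h2.map B'.subtype
      rwa [Submodule.map_comap_subtype, inf_eq_right.mpr hle] at h3
    exact Submodule.fg_of_fg_map_injective φ hφ h1
  obtain ⟨n, g, hg⟩ := Submodule.fg_iff_exists_fin_generating_family.mp hfg
  refine ⟨n, g, fun j => ?_, fun u hu => ?_⟩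
  · have h1 : g j ∈ N₁ := hg ▸ Submodule.subset_span ⟨j, rfl⟩
    exact h1
  · have h1 : u ∈ N₁ := hu
    rw [← hg] at h1
    induction h1 using Submodule.span_induction with
    | mem z hz =>
      obtain ⟨j, rfl⟩ := hz
      exact Submodule.subset_span ⟨j, 0, by simp⟩
    | zero => exact zero_mem _
    | add v w hv hw ihv ihw =>
      have hv' : v ∈ N₁ := hg ▸ hv
      have hw' : w ∈ N₁ := hg ▸ hw
      exact add_mem (ihv hv') (ihw hw')
    | smul p v hv ih =>
      have hv' : v ∈ N₁ := hg ▸ hv
      have h2 := ih hv'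
      clear ih hv hv' hu
      have h3 : ∀ (i : ℕ), x ^ i * v ∈ Submodule.span A₀
          {z | ∃ (j : Fin n) (i : ℕ), z = x ^ i * g j} := by
        intro i
        induction h2 using Submodule.span_induction with
        | mem z hz =>
          obtain ⟨j, i', rfl⟩ := hz
          exact Submodule.subset_span ⟨j, i + i', by rw [pow_add, mul_assoc]⟩
        | zero => rw [mul_zero]; exact zero_mem _
        | add v w _ _ ihv ihw => rw [mul_add]; exact add_mem ihv ihw
        | smul c v _ ih => rw [mul_smul_comm]; exact Submodule.smul_mem _ _ ih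
      have h4 : p • v = evx x p * v := rfl
      rw [h4]
      induction p using Polynomial.induction_on' with
      | add p₁ p₂ hp₁ hp₂ =>
        rw [map_add, add_mul]
        exact add_mem (hp₁ rfl) (hp₂ rfl)
      | monomial i a =>
        have h5 : evx x (monomial i a) = algebraMap L FL a * x ^ i := by
          change aeval x ((monomial i a).map A₀.subtype) = _
          rw [map_monomial, aeval_monomial]
          rfl
        rw [h5, mul_assoc]
        have h6 : algebraMap L FL a * (x ^ i * v) = a • (x ^ i * v) := rfl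
        rw [h6]
        exact Submodule.smul_mem _ _ (h3 i)

end

end Fermat.Agent.DR.S36.Surf
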