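import Fermat.Agent.DR.S36.ChartK

set_option autoImplicit false
set_option linter.unusedSectionVars false

/-!
# Rigidity of arithmetic surfaces: the theorem
-/

noncomputable section

open AlgebraicCurve Fermat.Agent.RR Polynomial IntermediateField
open Fermat.Agent.DR.Nodes (regAlg mem_regAlg mem_regAlg_of_isIntegral)

namespace Fermat.Agent.DR.S36.Surf

variable {L K FL F k κ : Type*} [Field L] [Field K] [Field FL] [Field F] [Field k] [Field κ]
  [Algebra L K] [Algebra L FL] [Algebra K F] [Algebra FL F] [Algebra k κ]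
  {A₀ : ValuationSubring L} {q : ℕ} {S : Surf L K FL F k κ A₀ q}

theorem secT_mono {T T' : Set (Place K F)} (h : T ⊆ T') (r : Place K F → FL) :
    S.secT T' r ≤ S.secT T r := by
  rintro u ⟨h1, h2⟩
  exact ⟨h1, fun P hP => h2 P (h hP)⟩

theorem isUnit_of_ne (S : Surf L K FL F k κ A₀ q) {m : ℕ} (hm : (m : k) ≠ 0) :
    ∃ i : A₀, (m : A₀) * i = 1 := by
  have h1 : IsUnit (m : A₀) := by
    by_contra hcon
    have h2 : (m : A₀) ∈ IsLocalRing.maximalIdeal A₀ := hcon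
    have h3 : (RingHom.ker S.π₀).IsMaximal :=
      RingHom.ker_isMaximal_of_surjective S.π₀ S.π₀_surjective
    rw [← IsLocalRing.eq_maximalIdeal h3, RingHom.mem_ker, map_natCast] at h2
    exact hm h2
  obtain ⟨i, hi⟩ := h1.exists_right_inv
  exact ⟨i, hi⟩

section

variable [IsAlgClosed K] [FunctionField K F] [IsAlgClosed k] [FunctionField k κ]
  {x : FL} {y : κ} [IsDiscreteValuationRing A₀] [CharZero L]

/-- the Newton step preserves the module of sections -/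
theorem newton_mem {T : Set (Place K F)} {m : ℕ} {f : FL} (hf : f ≠ 0)
    (hwf : ∀ c, (S.V c).w f = 0) {D : Divisor K F}
    (hD : ∀ P, P.ord (algebraMap FL F f) = m * D P) {r : Place K F → FL} (hr0 : ∀ P, r P ≠ 0)
    (hr : ∀ P, P.ord (algebraMap FL F (r P)) = D P) (u : FL) (hu : u ∈ S.secT T r) :
    u * (u ^ m / f) ∈ S.secT T r := by
  rcases eq_or_ne u 0 with rfl | hu0
  · rw [zero_mul]; exact zero_mem _
  have hum := pow_ne_zero m hu0
  rw [mul_comm]
  refine mul_mem_secT ?_ ?_ hu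
  · intro c
    rw [(S.V c).mem_W', (S.V c).w_div hum hf, (S.V c).w_pow, hwf, sub_zero]
    exact mul_nonneg (Int.natCast_nonneg _) ((S.V c).mem_W'.mp (hu.1 c))
  · intro P hP
    rw [mem_HP', map_div₀, ord_div P (alg_ne hum) (alg_ne hf), map_pow, ord_pow, hD]
    have h1 := (HP_le_iff P hu0 (hr0 P)).mp (hu.2 P hP)
    rw [hr] at h1
    have h2 : (m : ℤ) * D P ≤ m * P.ord (algebraMap FL F u) :=
      mul_le_mul_of_nonneg_left h1 (Int.natCast_nonneg _)
    linarith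

theorem w_of_isChart (hx : S.IsChart x y) : x ≠ 0 ∧ ∀ c, (S.V c).w x = 0 := by
  obtain ⟨n, hn, -⟩ := hx.deg
  have hy0 : y ≠ 0 := by
    rintro rfl
    exact hx.transcendental isAlgebraic_zero
  exact ⟨(S.V 0).ne_zero_of_res (hn 0).2 (pow_ne_zero _ hy0), fun c =>
    (S.V c).w_eq_zero_of_res (hn c).2 (pow_ne_zero _ hy0)⟩

/-- **Rigidity.** -/
theorem Points.rigid (Pt : S.Points x y) (hx : S.IsChart x y) (hx' : S.IsChart x⁻¹ y⁻¹)
    (he2 : S.e 2 = 1) (hq : q.Prime) {m : ℕ} {f : FL} {D : Divisor K F} (hm : (m : k) ≠ 0)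
    (hdeg : Divisor.degree D = 0) (hD : ∀ P, P.ord (algebraMap FL F f) = m * D P)
    (hres : ∀ i, (S.V i).Res f 1)
    (hloc : ∀ s : Pt.T, ∃ (h : FL) (ρ : Fin 3 → κ) (γ : k), γ ≠ 0 ∧
      (∀ i, (S.V i).Res h (ρ i)) ∧ (∀ i, Val (Pt.sp s) (ρ i) γ) ∧
      ∀ P ∈ Pt.U s, P.ord (algebraMap FL F h) = D P) : D.IsPrincipal := by
  have hf : f ≠ 0 := (S.V 0).ne_zero_of_res (hres 0) one_ne_zero
  have hwf : ∀ c, (S.V c).w f = 0 := fun c => (S.V c).w_eq_zero_of_res (hres c) one_ne_zero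
  have hm0 : m ≠ 0 := by
    rintro rfl
    simp at hm
  obtain ⟨hx0, hxw⟩ := w_of_isChart hx
  have hxi0 : x⁻¹ ≠ 0 := inv_ne_zero hx0
  have hxiw : ∀ c, (S.V c).w x⁻¹ = 0 := fun c => by rw [(S.V c).w_inv, hxw, neg_zero]
  -- local equations
  choose r hr0 hr _ using exists_root_at S.unram hf hD
  obtain ⟨h₀, hs₀, hJ₀⟩ := exists_sec Pt hx he2 hq hm hf hres hD hr0 hr hloc
  obtain ⟨h₁, hs₁, hJ₁⟩ := exists_sec_inv Pt hx hx' he2 hq hm hf hres hD hr0 hr hloc
  obtain ⟨i, hi⟩ := S.isUnit_of_ne hm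
  let _ := algA A₀ FL
  set M₀ := S.secT (regT F x) r with hM₀
  set M₁ := S.secT (regT F x⁻¹) r with hM₁
  set M := S.secT (regT F x ∩ regT F x⁻¹) r with hM
  have h₀M : M₀ ≤ M := secT_mono Set.inter_subset_left r
  have h₁M : M₁ ≤ M := secT_mono Set.inter_subset_right r
  have hJ : ∀ t : FL, (∀ c, (S.V c).W.valuation (t - 1) < 1) → t - 1 ∈ S.radData.J :=
    fun t ht c => (S.V c).valuation_lt_one_iff.mp (ht c)
  have hfJ : f - 1 ∈ S.radData.J := by
    intro c
    have h1 := (S.V c).res_sub (hres c) (S.V c).res_one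
    rw [sub_self] at h1
    exact (S.V c).res_zero_iff.mp h1
  -- units on the overlap
  have hregx : ∀ P ∈ (regT F x : Set (Place K F)), x ∈ HP FL P := fun P hP => hP
  have hregxi : ∀ P ∈ (regT F x⁻¹ : Set (Place K F)), x⁻¹ ∈ HP FL P := fun P hP => hP
  have hxW : ∀ c, x ∈ (S.V c).W := fun c => (S.V c).mem_W'.mpr (hxw c).ge
  have hxiW : ∀ c, x⁻¹ ∈ (S.V c).W := fun c => (S.V c).mem_W'.mpr (hxiw c).ge
  obtain ⟨n, g, hg, hgen⟩ := exists_generators hx' hm0 hf hD hr0 hr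
  have hfinM : Module.Finite A₀ (M ⧸ (Submodule.comap M.subtype (M₀ ⊔ M₁))) := by
    refine h1_finite hx0 ?_ ?_ ?_ ?_ h₁M ?_ n g hg hgen
    · exact fun u hu => mul_mem_secT hxW hregx hu
    · exact fun u hu => mul_mem_secT hxiW hregxi hu
    · exact fun u hu => exists_pow_mul_mem hx0 hxw hr0 hu
    · intro u hu
      have h1 := exists_pow_mul_mem (S := S) (x := x⁻¹) hxi0 hxiw hr0 (u := u) (by
        rw [inv_inv, Set.inter_comm]
        exact h₁M hu)
      rw [inv_inv] at h1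
      exact h1
    · exact fun u hu => mul_mem_secT hxW (fun P hP => hregx P hP.1) hu
  have hNoeth : IsNoetherian A₀ (M ⧸ (Submodule.comap M.subtype (M₀ ⊔ M₁))) :=
    isNoetherian_of_isNoetherianRing_of_finite A₀ _
  obtain ⟨u, hu₀, hu₁, hu0⟩ := S.radData.rigid hi hfJ (M₀ := M₀) (M₁ := M₁) (M := M) h₀M h₁M
    (fun u hu => by
      change u ∈ (⨅ c, (S.V c).W.toSubring : Subring FL)
      rw [Subring.mem_iInf]
      exact hu.1)
    (fun z j hz hzO => by
      have hzO' : z ∈ (⨅ c, (S.V c).W.toSubring : Subring FL) := hzO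
      rw [Subring.mem_iInf] at hzO'
      refine ⟨hzO', fun P hP => ?_⟩
      have h1 := hz.2 P hP
      have h2 : algebraMap A₀ FL S.radData.ϖ = (q : FL) := map_natCast (algebraMap A₀ FL) q
      rw [h2, map_mul, map_pow] at h1
      have h3 : (HP FL P).valuation (q : FL) = 1 :=
        (HP_eq_one_iff P S.q_ne_FL).mpr (S.ord_q P)
      rwa [h3, one_pow, one_mul] at h1)
    (newton_mem hf hwf hD hr0 hr) (newton_mem hf hwf hD hr0 hr) hNoeth
    (mem_secT_iff_sec.mpr hs₀) (mem_secT_iff_sec.mpr hs₁) (hJ _ hJ₀) (hJ _ hJ₁)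
  -- `D ≤ div u`
  have hle : D ≤ divOf (algebraMap FL F u) := by
    intro P
    rw [divOf_apply, ← hr P]
    rcases P.toValuationSubring.mem_or_inv_mem (algebraMap FL F x) with h | h
    · exact (HP_le_iff P hu0 (hr0 P)).mp (hu₀.2 P h)
    · rw [← map_inv₀] at h
      exact (HP_le_iff P hu0 (hr0 P)).mp (hu₁.2 P h)
  have heq := eq_of_le_of_degree_le hle (by rw [degree_divOf, hdeg])
  refine ⟨algebraMap FL F u, alg_ne hu0, fun P => ?_⟩
  rw [heq, divOf_apply]

end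

end Fermat.Agent.DR.S36.Surf
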