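import Mathlib

set_option autoImplicit false

/-!
# Components of a special fibre: discrete valuations with residue maps

`CompVal E κ`: an additive valuation `v : E → ℤ ∪ {∞}` together with a residue map
`{v ≥ 0} → κ`, given as a relation.
-/

noncomputable section

namespace Fermat.Agent.DR.S36

/-- A discrete valuation with residue map, in relational form. -/
structure CompVal (E κ : Type*) [Field E] [Field κ] where
  v : AddValuation E (WithTop ℤ)
  Res : E → κ → Prop
  res_one : Res 1 1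
  res_add : ∀ {f g : E} {a b : κ}, Res f a → Res g b → Res (f + g) (a + b)
  res_mul : ∀ {f g : E} {a b : κ}, Res f a → Res g b → Res (f * g) (a * b)
  res_unique : ∀ {f : E} {a b : κ}, Res f a → Res f b → a = b
  exists_res : ∀ {f : E}, 0 ≤ v f → ∃ u, Res f u
  nonneg : ∀ {f : E} {u : κ}, Res f u → 0 ≤ v f
  res_zero_iff : ∀ {f : E}, Res f 0 ↔ 0 < v f

namespace CompVal

variable {E κ : Type*} [Field E] [Field κ] (V : CompVal E κ)

theorem v_ne_top {f : E} (hf : f ≠ 0) : V.v f ≠ ⊤ := fun h => hf (V.v.top_iff.mp h)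

/-- The value as an integer (`0` at `0`). -/
def w (f : E) : ℤ := (V.v f).untopD 0

theorem coe_w {f : E} (hf : f ≠ 0) : ((V.w f : ℤ) : WithTop ℤ) = V.v f := by
  obtain ⟨n, hn⟩ := WithTop.ne_top_iff_exists.mp (V.v_ne_top hf)
  rw [w, ← hn]
  rfl

@[simp] theorem w_zero : V.w 0 = 0 := by simp [w]

@[simp] theorem w_one : V.w 1 = 0 := by
  have h := V.coe_w (one_ne_zero (α := E))
  rw [V.v.map_one] at h
  exact_mod_cast h

theorem w_mul {f g : E} (hf : f ≠ 0) (hg : g ≠ 0) : V.w (f * g) = V.w f + V.w g := by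
  have h := V.v.map_mul f g
  rw [← V.coe_w hf, ← V.coe_w hg, ← V.coe_w (mul_ne_zero hf hg)] at h
  exact_mod_cast h

theorem w_inv (f : E) : V.w f⁻¹ = -V.w f := by
  rcases eq_or_ne f 0 with rfl | hf
  · simp
  have h := V.w_mul hf (inv_ne_zero hf)
  rw [mul_inv_cancel₀ hf, w_one] at h
  linarith

theorem w_div {f g : E} (hf : f ≠ 0) (hg : g ≠ 0) : V.w (f / g) = V.w f - V.w g := by
  rw [div_eq_mul_inv, V.w_mul hf (inv_ne_zero hg), w_inv]; ring

theorem w_pow (f : E) (n : ℕ) : V.w (f ^ n) = n * V.w f := by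
  rcases eq_or_ne f 0 with rfl | hf
  · rcases Nat.eq_zero_or_pos n with rfl | hn
    · simp
    · rw [zero_pow hn.ne']; simp
  induction n with
  | zero => simp
  | succ n ih => rw [pow_succ, V.w_mul (pow_ne_zero n hf) hf, ih]; push_cast; ring

theorem w_neg (f : E) : V.w (-f) = V.w f := by
  rw [w, w, AddValuation.map_neg]

theorem nonneg_iff {f : E} : 0 ≤ V.v f ↔ f = 0 ∨ 0 ≤ V.w f := by
  rcases eq_or_ne f 0 with rfl | hf
  · simp
  · rw [← V.coe_w hf]
    simp only [hf, false_or]
    exact_mod_cast Iff.rfl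

theorem nonneg_iff' {f : E} : 0 ≤ V.v f ↔ 0 ≤ V.w f := by
  rw [nonneg_iff]
  constructor
  · rintro (rfl | h)
    · simp
    · exact h
  · exact Or.inr

theorem pos_iff {f : E} : 0 < V.v f ↔ f = 0 ∨ 0 < V.w f := by
  rcases eq_or_ne f 0 with rfl | hf
  · simp
  · rw [← V.coe_w hf]
    simp only [hf, false_or]
    exact_mod_cast Iff.rfl

/-- The valuation ring. -/
def W : ValuationSubring E where
  carrier := {f | 0 ≤ V.v f}
  mul_mem' := by
    intro a b ha hb
    simp only [Set.mem_ofPred_eq] at ha hb ⊢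
    rw [V.v.map_mul]
    exact add_nonneg ha hb
  one_mem' := by simp
  add_mem' := by
    intro a b ha hb
    simp only [Set.mem_ofPred_eq] at ha hb ⊢
    exact (le_min ha hb).trans (V.v.map_add a b)
  zero_mem' := by simp
  neg_mem' := by
    intro a ha
    simp only [Set.mem_ofPred_eq] at ha ⊢
    rwa [V.v.map_neg]
  mem_or_inv_mem' := by
    intro x
    rcases eq_or_ne x 0 with rfl | hx
    · left; simp
    · simp only [Set.mem_ofPred_eq]
      rw [V.nonneg_iff', V.nonneg_iff', V.w_inv]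
      rcases le_total 0 (V.w x) with h | h
      · exact Or.inl h
      · exact Or.inr (by linarith)

theorem mem_W {f : E} : f ∈ V.W ↔ 0 ≤ V.v f := Iff.rfl

theorem mem_W' {f : E} : f ∈ V.W ↔ 0 ≤ V.w f := V.nonneg_iff'

theorem valuation_le_iff {f g : E} (hf : f ≠ 0) (hg : g ≠ 0) :
    V.W.valuation f ≤ V.W.valuation g ↔ V.w g ≤ V.w f := by
  have h : V.W.valuation f ≤ V.W.valuation g ↔ V.W.valuation (f / g) ≤ 1 := by
    rw [map_div₀]
    have hg' : 0 < V.W.valuation g := lt_of_le_of_ne zero_le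
      ((Valuation.ne_zero_iff _).mpr hg).symm
    rw [div_le_one₀ hg']
  rw [h, V.W.valuation_le_one_iff, V.mem_W', V.w_div hf hg]
  omega

theorem valuation_lt_one_iff {f : E} : V.W.valuation f < 1 ↔ 0 < V.v f := by
  rcases eq_or_ne f 0 with rfl | hf
  · simp
  rw [V.pos_iff, ← not_iff_not, not_lt, ← map_one V.W.valuation,
    V.valuation_le_iff one_ne_zero hf, w_one]
  simp [hf]

theorem valuation_eq_one_iff {f : E} (hf : f ≠ 0) : V.W.valuation f = 1 ↔ V.w f = 0 := by
  rw [le_antisymm_iff]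
  conv_lhs => rw [← map_one V.W.valuation, V.valuation_le_iff hf one_ne_zero,
    V.valuation_le_iff one_ne_zero hf, w_one]
  omega

/-! ### The residue map -/

theorem res_zero : V.Res 0 0 := V.res_zero_iff.mpr (by simp)

theorem res_neg {f : E} {u : κ} (h : V.Res f u) : V.Res (-f) (-u) := by
  have h0 : 0 ≤ V.v (-f) := by rw [V.v.map_neg]; exact V.nonneg h
  obtain ⟨u', hu'⟩ := V.exists_res h0
  have h1 := V.res_add h hu'
  rw [add_neg_cancel] at h1
  have h2 := V.res_unique h1 V.res_zero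
  rw [eq_neg_of_add_eq_zero_right h2] at hu'
  exact hu'

theorem res_sub {f g : E} {a b : κ} (h : V.Res f a) (h' : V.Res g b) :
    V.Res (f - g) (a - b) := by
  rw [sub_eq_add_neg, sub_eq_add_neg]
  exact V.res_add h (V.res_neg h')

theorem res_pow {f : E} {a : κ} (h : V.Res f a) (n : ℕ) : V.Res (f ^ n) (a ^ n) := by
  induction n with
  | zero => simpa using V.res_one
  | succ n ih => rw [pow_succ, pow_succ]; exact V.res_mul ih h

theorem res_sum {ι : Type*} {s : Finset ι} {f : ι → E} {a : ι → κ}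
    (h : ∀ i ∈ s, V.Res (f i) (a i)) : V.Res (∑ i ∈ s, f i) (∑ i ∈ s, a i) := by
  classical
  induction s using Finset.induction_on with
  | empty => simpa using V.res_zero
  | insert i s his ih =>
    rw [Finset.sum_insert his, Finset.sum_insert his]
    exact V.res_add (h i (Finset.mem_insert_self i s))
      (ih fun j hj => h j (Finset.mem_insert_of_mem hj))

theorem res_prod {ι : Type*} {s : Finset ι} {f : ι → E} {a : ι → κ}
    (h : ∀ i ∈ s, V.Res (f i) (a i)) : V.Res (∏ i ∈ s, f i) (∏ i ∈ s, a i) := by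
  classical
  induction s using Finset.induction_on with
  | empty => simpa using V.res_one
  | insert i s his ih =>
    rw [Finset.prod_insert his, Finset.prod_insert his]
    exact V.res_mul (h i (Finset.mem_insert_self i s))
      (ih fun j hj => h j (Finset.mem_insert_of_mem hj))

theorem ne_zero_of_res {f : E} {u : κ} (h : V.Res f u) (hu : u ≠ 0) : f ≠ 0 := by
  rintro rfl
  exact hu (V.res_unique h V.res_zero)

theorem w_eq_zero_of_res {f : E} {u : κ} (h : V.Res f u) (hu : u ≠ 0) : V.w f = 0 := by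
  have h1 : 0 ≤ V.w f := V.nonneg_iff'.mp (V.nonneg h)
  by_contra hne
  have h2 : 0 < V.v f := V.pos_iff.mpr (Or.inr (lt_of_le_of_ne h1 (Ne.symm hne)))
  exact hu (V.res_unique h (V.res_zero_iff.mpr h2))

theorem exists_res_of_w {f : E} (hf : f ≠ 0) (h : V.w f = 0) : ∃ u, u ≠ 0 ∧ V.Res f u := by
  obtain ⟨u, hu⟩ := V.exists_res (V.nonneg_iff'.mpr h.ge)
  refine ⟨u, ?_, hu⟩
  rintro rfl
  have := V.pos_iff.mp (V.res_zero_iff.mp hu)
  simp [hf, h] at this

theorem res_inv {f : E} {u : κ} (h : V.Res f u) (hu : u ≠ 0) : V.Res f⁻¹ u⁻¹ := by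
  have hf := V.ne_zero_of_res h hu
  obtain ⟨u', -, hu'⟩ := V.exists_res_of_w (inv_ne_zero hf)
    (by rw [V.w_inv, V.w_eq_zero_of_res h hu, neg_zero])
  have h1 := V.res_mul h hu'
  rw [mul_inv_cancel₀ hf] at h1
  have h2 := V.res_unique h1 V.res_one
  rwa [eq_inv_of_mul_eq_one_right h2] at hu'

theorem res_div {f g : E} {a b : κ} (h : V.Res f a) (h' : V.Res g b) (hb : b ≠ 0) :
    V.Res (f / g) (a / b) := by
  rw [div_eq_mul_inv, div_eq_mul_inv]
  exact V.res_mul h (V.res_inv h' hb)

/-- The residue map as a ring homomorphism. -/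
def ρ : V.W →+* κ where
  toFun f := (V.exists_res f.2).choose
  map_one' := V.res_unique (V.exists_res (1 : V.W).2).choose_spec V.res_one
  map_mul' a b := V.res_unique (V.exists_res (a * b).2).choose_spec
    (V.res_mul (V.exists_res a.2).choose_spec (V.exists_res b.2).choose_spec)
  map_zero' := V.res_unique (V.exists_res (0 : V.W).2).choose_spec V.res_zero
  map_add' a b := V.res_unique (V.exists_res (a + b).2).choose_spec
    (V.res_add (V.exists_res a.2).choose_spec (V.exists_res b.2).choose_spec)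

theorem res_ρ (f : V.W) : V.Res (f : E) (V.ρ f) := (V.exists_res f.2).choose_spec

theorem ρ_eq {f : V.W} {u : κ} (h : V.Res (f : E) u) : V.ρ f = u :=
  V.res_unique (V.res_ρ f) h

theorem ρ_eq_iff {f : V.W} {u : κ} : V.ρ f = u ↔ V.Res (f : E) u :=
  ⟨fun h => h ▸ V.res_ρ f, V.ρ_eq⟩

theorem ρ_eq_zero_iff (f : V.W) : V.ρ f = 0 ↔ V.W.valuation (f : E) < 1 := by
  rw [V.ρ_eq_iff, V.res_zero_iff, V.valuation_lt_one_iff]

end CompVal

end Fermat.Agent.DR.S36
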