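import Fermat.Agent.DR.ModGal.NodeFrob
import Fermat.Agent.DR.Mono.Node

/-!
# S36: all zeros of the reduction of a unit are nodes; widths are one

* `exists_node_of_ord_pos`: if `u` is a unit outside the poles of `x`, then every zero of its first
  reduction outside the poles of `x₁` is (the first branch of) a node.
* `sum_node_ord`: the orders of the first reduction at the nodes sum up to the degree of its divisor
  of zeros.
* `width_one`: the numerical lemma.
-/

set_option autoImplicit false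
set_option linter.unusedSectionVars false

noncomputable section

open AlgebraicCurve Fermat.Agent.RR Fermat.Agent.JRED

namespace Fermat.Agent.DR.S36

open Fermat.Agent.DR
open Fermat.Agent.DR.Nodes (regAlg mem_regAlg exists_mem_of_mem_regAlg mem_regAlg_of_mem)

section Zero

variable {K F k F₁ F₂ : Type*} [Field K] [Field F] [Algebra K F] [Field k] [Field F₁] [Field F₂]
  [Algebra k F₁] [Algebra k F₂] [IsAlgClosed K] [IsAlgClosed k] [FunctionField K F]
  [FunctionField k F₁] [FunctionField k F₂] {A : ValuationSubring K} {π : A →+* k}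
  {X : NodalDatum K F k F₁ F₂ A π}

/-- **Zeros of the reduction of a unit are nodes.** -/
theorem exists_node_of_ord_pos (hX : ModGal.NodalComplete X) (hπ : Function.Surjective π)
    (hA : Mono.Arch π) {u : F} {u₁ : F₁} (hu : u⁻¹ ∈ regAlg K X.x) (h1 : X.R₁.Red u u₁)
    (hu1 : u₁ ≠ 0) {P : Place k F₁} (hP : X.x₁ ∈ P.toValuationSubring) (hPu : 0 < P.ord u₁) :
    ∃ s ∈ X.nodes, s.1 = P := by
  classical
  by_contra hcon
  push Not at hcon
  have ho : 0 ≤ P.ord X.x₁ := Fermat.FF.ord_nonneg_of_mem _ hP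
  obtain ⟨f, hf, hval⟩ := ModGal.exists_regAlg_val X.transcendental₁
    (insert P (X.nodes.image Prod.fst)) (by
      intro Q hQ
      rw [Finset.mem_insert, Finset.mem_image] at hQ
      rcases hQ with rfl | ⟨s, hs, rfl⟩
      · exact ho
      · exact (X.ord_x₁ s hs).ge) (fun Q => if Q = P then 1 else 0)
  have hfP := hval P (Finset.mem_insert_self _ _)
  rw [if_pos rfl] at hfP
  have hf0 : f ≠ 0 := (hfP.ord_eq_zero one_ne_zero).1
  have hford : P.ord f = 0 := (hfP.ord_eq_zero one_ne_zero).2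
  obtain ⟨n₀, hn₀⟩ := hX
  obtain ⟨n₁, hn₁⟩ := exists_mem_of_mem_regAlg hf
  obtain ⟨h, hh, hr⟩ := hn₀ (max n₀ n₁) (le_max_left _ _) (f, 0)
    (ModGal.mem_poles_mono' (le_max_right _ _) hn₁) (Submodule.zero_mem _) (fun s hs => ⟨0, by
      have := hval s.1 (Finset.mem_insert_of_mem (Finset.mem_image_of_mem _ hs))
      rwa [if_neg (hcon s hs)] at this, Val.zero⟩)
  obtain ⟨m, v, hv⟩ := Mono.exists_pow_red hπ hA X.R₂ hr.2 u⁻¹
  have h2 : X.R₁.Red (h ^ m * u⁻¹) (f ^ m * u₁⁻¹) :=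
    X.R₁.mul (RedDatum.pow hr.1 m) (RedDatum.inv hπ h1 hu1)
  have h3 : h ^ m * u⁻¹ ∈ regAlg K X.x := mul_mem (pow_mem (mem_regAlg_of_mem hh) m) hu
  obtain ⟨n, hn⟩ := exists_mem_of_mem_regAlg h3
  have h4 := X.mem₁ n _ (f ^ m * u₁⁻¹, v) hn ⟨h2, hv⟩
  have h5 : f ^ m * u₁⁻¹ ∈ P.toValuationSubring := mem_regAlg_of_mem h4 P hP
  have h6 := Fermat.FF.ord_nonneg_of_mem _ h5
  rw [P.ord_mul (pow_ne_zero _ hf0) (inv_ne_zero hu1), P.ord_inv, ord_pow, hford] at h6
  simp only [mul_zero, zero_add] at h6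
  omega

/-- The orders at the nodes sum up to the number of zeros. -/
theorem sum_node_ord (hX : ModGal.NodalComplete X) (hπ : Function.Surjective π)
    (hA : Mono.Arch π) {u : F} {u₁ : F₁} (hu' : u ∈ regAlg K X.x)
    (hu : u⁻¹ ∈ regAlg K X.x) (h1 : X.R₁.Red u u₁)
    {u₂ : F₂} (h2 : X.R₂.Red u u₂) (hu1 : u₁ ≠ 0)
    (hpole : ∀ P : Place k F₁, P.ord X.x₁ < 0 → P.ord u₁ ≤ 0) :
    ∑ s ∈ X.nodes, s.1.ord u₁ = Divisor.degree (polesOf (K := k) u₁) := by
  classical
  obtain ⟨n, hn⟩ := exists_mem_of_mem_regAlg hu'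
  have hreg : ∀ P : Place k F₁, X.x₁ ∈ P.toValuationSubring → 0 ≤ P.ord u₁ := fun P hP =>
    Fermat.FF.ord_nonneg_of_mem _ (mem_regAlg_of_mem (X.mem₁ n _ (u₁, u₂) hn ⟨h1, h2⟩) P hP)
  have hx₁ : X.x₁ ≠ 0 := fun h0 => X.transcendental₁ (h0 ▸ isAlgebraic_zero)
  have hdeg := degree_divOf (K := k) u₁
  have hdecomp : divOf (K := k) u₁ = polesOf (K := k) u₁⁻¹ - polesOf (K := k) u₁ := by
    ext P
    rw [Finsupp.sub_apply, polesOf_apply, polesOf_apply, divOf_apply, P.ord_inv]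
    omega
  rw [hdecomp, map_sub, sub_eq_zero] at hdeg
  rw [← hdeg, degree_eq_sum]
  have hnode : ∀ s ∈ X.nodes, 0 ≤ s.1.ord u₁ := fun s hs =>
    hreg s.1 ((Fermat.FF.mem_iff_ord _ hx₁).mpr (X.ord_x₁ s hs).ge)
  rw [Finsupp.sum_of_support_subset (s := X.nodes.image Prod.fst)]
  · rw [Finset.sum_image fun a ha b hb h => X.injOn_fst ha hb h]
    refine Finset.sum_congr rfl fun s hs => ?_
    rw [polesOf_apply, Place.ord_inv, neg_neg, max_eq_left (hnode s hs)]
  · intro P hP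
    rw [Finsupp.mem_support_iff, polesOf_apply, P.ord_inv, neg_neg] at hP
    have hpos : 0 < P.ord u₁ := by
      by_contra hle
      push Not at hle
      exact hP (max_eq_right hle)
    have hPx : X.x₁ ∈ P.toValuationSubring := by
      rw [Fermat.FF.mem_iff_ord _ hx₁]
      by_contra hlt
      push Not at hlt
      have := hpole P hlt
      omega
    obtain ⟨s, hs, rfl⟩ := exists_node_of_ord_pos hX hπ hA hu h1 hu1 hPx hpos
    exact Finset.mem_image_of_mem _ hs
  · intro P _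
    rfl

end Zero

/-- the numerical lemma -/
theorem width_one {ι : Type*} (T : Finset ι) (m : ι → ℤ) (w : ι → ℕ) (hw : ∀ s ∈ T, 0 < w s)
    (hmw : ∀ s ∈ T, m s * w s = 12) (hsum : ∑ s ∈ T, m s = 12 * T.card) :
    ∀ s ∈ T, w s = 1 ∧ m s = 12 := by
  have hm : ∀ s ∈ T, m s ≤ 12 := by
    intro s hs
    have h1 := hmw s hs
    have h2 : (1 : ℤ) ≤ w s := by exact_mod_cast hw s hs
    by_contra hlt
    push Not at hlt
    nlinarith
  have h1 : ∑ s ∈ T, (12 - m s) = 0 := by
    rw [Finset.sum_sub_distrib, hsum, Finset.sum_const, nsmul_eq_mul]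
    ring
  have h2 := (Finset.sum_eq_zero_iff_of_nonneg (fun s hs => sub_nonneg.mpr (hm s hs))).mp h1
  intro s hs
  have h3 : m s = 12 := by
    have := h2 s hs
    omega
  have h4 := hmw s hs
  rw [h3] at h4
  exact ⟨by omega, h3⟩

end Fermat.Agent.DR.S36
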