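import Fermat.Agent.DR.S36.ChartJ
import Fermat.Agent.DR.Mono.Ord

set_option autoImplicit false
set_option linter.unusedSectionVars false

/-!
# Polynomials in a holomorphic function on an arithmetic surface
-/

noncomputable section

open AlgebraicCurve Fermat.Agent.RR Polynomial

namespace Fermat.Agent.DR.S36.Surf

variable {L K FL F k κ : Type*} [Field L] [Field K] [Field FL] [Field F] [Field k] [Field κ]
  [Algebra L K] [Algebra L FL] [Algebra K F] [Algebra FL F] [Algebra k κ]
  {A₀ : ValuationSubring L} {q : ℕ} (S : Surf L K FL F k κ A₀ q)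

include S in
/-- evaluation of a polynomial over `A₀` at a function -/
def evP (_S : Surf L K FL F k κ A₀ q) (p : A₀[X]) (z : FL) : FL :=
  p.eval₂ ((algebraMap L FL).comp A₀.subtype) z

theorem evP_C (a : A₀) (z : FL) : S.evP (C a) z = algebraMap L FL a := by
  unfold evP
  rw [eval₂_C]
  rfl

theorem evP_add (p r : A₀[X]) (z : FL) : S.evP (p + r) z = S.evP p z + S.evP r z :=
  eval₂_add _ _

theorem evP_monomial_succ (n : ℕ) (a : A₀) (z : FL) :
    S.evP (C a * X ^ (n + 1)) z = S.evP (C a * X ^ n) z * z := by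
  unfold evP
  rw [pow_succ, ← mul_assoc, eval₂_mul, eval₂_X]

theorem hol_const (x : FL) (a : A₀) : S.Hol x (algebraMap L FL a) := by
  refine ⟨fun c => (S.V c).nonneg (S.res_const c a), fun P _ => ?_⟩
  rw [S.comm]
  exact P.algebraMap_mem' _

theorem Hol.add' {S : Surf L K FL F k κ A₀ q} {x b b' : FL} (h : S.Hol x b) (h' : S.Hol x b') :
    S.Hol x (b + b') := by
  refine ⟨fun c => ?_, fun P hP => ?_⟩
  · obtain ⟨u, hu⟩ := (S.V c).exists_res (h.1 c)
    obtain ⟨u', hu'⟩ := (S.V c).exists_res (h'.1 c)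
    exact (S.V c).nonneg ((S.V c).res_add hu hu')
  · rw [map_add]
    exact add_mem (h.2 P hP) (h'.2 P hP)

theorem Hol.mul' {S : Surf L K FL F k κ A₀ q} {x b b' : FL} (h : S.Hol x b) (h' : S.Hol x b') :
    S.Hol x (b * b') := by
  refine ⟨fun c => ?_, fun P hP => ?_⟩
  · obtain ⟨u, hu⟩ := (S.V c).exists_res (h.1 c)
    obtain ⟨u', hu'⟩ := (S.V c).exists_res (h'.1 c)
    exact (S.V c).nonneg ((S.V c).res_mul hu hu')
  · rw [map_mul]
    exact mul_mem (h.2 P hP) (h'.2 P hP)

theorem hol_evP {x z : FL} (hz : S.Hol x z) (p : A₀[X]) : S.Hol x (S.evP p z) := by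
  induction p using Polynomial.induction_on with
  | C a => rw [evP_C]; exact S.hol_const x a
  | add p r hp hr => rw [evP_add]; exact hp.add' hr
  | monomial n a h => rw [evP_monomial_succ]; exact h.mul' hz

theorem res_evP {c : Fin 3} {z : FL} {u : κ} (hz : (S.V c).Res z u) (p : A₀[X]) :
    (S.V c).Res (S.evP p z) ((p.map S.π₀).eval₂ (algebraMap k κ) u) := by
  induction p using Polynomial.induction_on with
  | C a =>
    rw [evP_C, map_C, eval₂_C]
    exact S.res_const c a
  | add p r hp hr =>
    rw [evP_add, Polynomial.map_add, eval₂_add]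
    exact (S.V c).res_add hp hr
  | monomial n a h =>
    have e : ((C a * X ^ (n + 1)).map S.π₀).eval₂ (algebraMap k κ) u =
        ((C a * X ^ n).map S.π₀).eval₂ (algebraMap k κ) u * u := by
      rw [pow_succ, ← mul_assoc, Polynomial.map_mul, eval₂_mul, map_X, eval₂_X]
    rw [evP_monomial_succ, e]
    exact (S.V c).res_mul h hz

theorem val_evP {P : Place K F} {z : FL} {t : K} (hz : Val P (algebraMap FL F z) t) (p : A₀[X]) :
    Val P (algebraMap FL F (S.evP p z)) (p.eval₂ ((algebraMap L K).comp A₀.subtype) t) := by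
  induction p using Polynomial.induction_on with
  | C a =>
    rw [evP_C, eval₂_C, S.comm]
    exact Mono.val_const _
  | add p r hp hr =>
    rw [evP_add, map_add, eval₂_add]
    exact hp.add hr
  | monomial n a h =>
    have e : (C a * X ^ (n + 1)).eval₂ ((algebraMap L K).comp A₀.subtype) t =
        (C a * X ^ n).eval₂ ((algebraMap L K).comp A₀.subtype) t * t := by
      rw [pow_succ, ← mul_assoc, eval₂_mul, eval₂_X]
    rw [evP_monomial_succ, map_mul, e]
    exact h.mul hz

variable [IsAlgClosed K] [FunctionField K F]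

/-- A holomorphic function whose value at `P` is a zero of a polynomial over `A₀` congruent to a
power of `X` (resp. `1`) -/
theorem not_zeroFree {x z : FL} (hz : S.Hol x z) {P : Place K F} {t : K}
    (ht : Val P (algebraMap FL F z) t) {u : κ} (hu : (S.V 0).Res z u) {p : A₀[X]}
    (hp : p.eval₂ ((algebraMap L K).comp A₀.subtype) t = 0) {R : Place k κ}
    (hR : ¬ Val R ((p.map S.π₀).eval₂ (algebraMap k κ) u) 0)
    (H : ∀ b u, S.Hol x b → (S.V 0).Res b u → ¬ Val R u 0 → P.ord (algebraMap FL F b) = 0) :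
    False := by
  have h1 := S.val_evP ht p
  rw [hp] at h1
  have h2 := S.res_evP hu p
  have h3 := H _ _ (S.hol_evP hz p) h2 hR
  have hu0 : (p.map S.π₀).eval₂ (algebraMap k κ) u ≠ 0 := by
    intro h0
    rw [h0] at hR
    exact hR (Mono.val_zero_iff.mpr (Or.inl rfl))
  have hb0 : S.evP p z ≠ 0 := (S.V 0).ne_zero_of_res h2 hu0
  rcases Mono.val_zero_iff.mp h1 with h4 | h4
  · exact hb0 (by simpa using h4)
  · omega

end Fermat.Agent.DR.S36.Surf
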