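import Fermat.Agent.Q2.OrdInst

/-!
# The components are disjoint at the cusps (`Surf.Points.sep_inf`)
-/

set_option autoImplicit false
set_option linter.unusedSectionVars false

noncomputable section

namespace Fermat.Agent.DR.S36

open AlgebraicCurve ModularCurve Fermat.Agent.RR Fermat.Agent.JRED Fermat.Agent.DR
  Fermat.Agent.S28 Fermat.Agent.FunField Fermat.Agent.Q2 Fermat.Agent.Q2.Ord

attribute [local instance 2000] algFull

local notation "ℚbar" => AlgebraicClosure ℚ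

variable {L : Type} [Field L] [Algebra L ℚbar] [CharZero L]
  {k : Type} [Field k] {N q : ℕ} [hq : Fact q.Prime] [CharP k q]
  {A : ValuationSubring ℚbar} {π : A →+* k}
  {F : Type*} [Field F] [Algebra ℚbar F]
  [Algebra (modularFunctionFieldFullC L (N * q * q)) F]
  {A₀ : ValuationSubring L}
  (S : Surf L ℚbar (modularFunctionFieldFullC L (N * q * q)) F k
    (modularFunctionFieldFullC k N) A₀ q)
  {emb : Fin 3 → modularFunctionFieldFullC L (N * q * q) →+* LaurentSeries ℚbar}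
  {ζ : ℚbarˣ} {a b c : modularFunctionFieldFullC L (N * q * q)}
  (hJ : EmbJ q emb ζ a b c) (hE : EmbRes S π emb) (hπ : Function.Surjective π)
  (hA : A.LiesOverPrime q) (hζ : IsPrimitiveRoot (ζ : ℚbar) q)

theorem jRed_ne : (jRed k N : modularFunctionFieldFullC k N) ≠ 0 := jRed_ne_zero

/-- The reductions of `j(E₁)`, `j(E₂)`, `j(E₃)` along the components. -/
theorem jt_char_q : jt (1 : kˣ) q = jqModC k ^ q := by
  have hne : NeZero q := ⟨hq.out.ne_zero⟩
  have hexp : ExpChar k q := ExpChar.prime hq.out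
  rw [jt_one_eq]
  have := Mod.qExpand_jqModC_pow_char (k := k) q 1
  rw [qExpand_one_apply] at this
  exact this.symm

theorem jt_char_qq : jt (1 : kˣ) (q * q) = jqModC k ^ (q * q) := by
  have hne : NeZero q := ⟨hq.out.ne_zero⟩
  have hexp : ExpChar k q := ExpChar.prime hq.out
  rw [jt_one_eq, ← qExpand_qExpand]
  have := Mod.qExpand_jqModC_pow_char (k := k) q 1
  rw [qExpand_one_apply] at this
  rw [← this, map_pow, ← this, pow_mul]

include hJ hπ hA hζ in
/-- reductions of `j(E₁)` and `j(E₃)`: exponents `(1, 1, q²)`, `(q², 1, 1)`. -/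
theorem EmbJ.gred (i : Fin 3) :
    GRed π (emb i a) (jqModC k ^ (![1, 1, q * q] : Fin 3 → ℕ) i) ∧
      GRed π (emb i c) (jqModC k ^ (![q * q, 1, 1] : Fin 3 → ℕ) i) := by
  fin_cases i
  · constructor
    · change GRed π (emb 0 a) (jqModC k ^ 1)
      rw [pow_one, hJ.a₀, ← jt_one_one]
      exact gRed_jt 1
    · change GRed π (emb 0 c) (jqModC k ^ (q * q))
      rw [hJ.c₀, ← jt_char_qq]
      exact gRed_jt _
  · constructor
    · change GRed π (emb 1 a) (jqModC k ^ 1)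
      rw [pow_one, hJ.a₁, ← jt_one_one]
      exact gRed_jt 1
    · change GRed π (emb 1 c) (jqModC k ^ 1)
      rw [pow_one, hJ.c₁, ← jt_one_one]
      exact gRed_twist_jt hπ hA hζ
  · constructor
    · change GRed π (emb 2 a) (jqModC k ^ (q * q))
      rw [hJ.a₂, ← jt_char_qq]
      exact gRed_jt _
    · change GRed π (emb 2 c) (jqModC k ^ 1)
      rw [pow_one, hJ.c₂, ← jt_one_one]
      exact gRed_jt 1

include hJ hE hπ hA hζ in
/-- The residues of `j(E₁)`, `j(E₃)`. -/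
theorem EmbJ.res (i : Fin 3) :
    (S.V i).Res a (jRed k N ^ (![1, 1, q * q] : Fin 3 → ℕ) i) ∧
      (S.V i).Res c (jRed k N ^ (![q * q, 1, 1] : Fin 3 → ℕ) i) := by
  obtain ⟨h1, h2⟩ := EmbJ.gred hJ hπ hA hζ i
  obtain ⟨u, hu, hu'⟩ := hE _ _ _ h1
  obtain ⟨v, hv, hv'⟩ := hE _ _ _ h2
  have e1 : u = jRed k N ^ (![1, 1, q * q] : Fin 3 → ℕ) i := Subtype.ext hu
  have e2 : v = jRed k N ^ (![q * q, 1, 1] : Fin 3 → ℕ) i := Subtype.ext hv
  exact ⟨e1 ▸ hu', e2 ▸ hv'⟩

theorem val_cusp {R : Place k (modularFunctionFieldFullC k N)}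
    (hR : jRed k N ∉ R.toValuationSubring) {m n : ℕ} (hmn : m < n) :
    Val R (jRed k N ^ m * (jRed k N)⁻¹ ^ n) 0 := by
  have h0 : jRed k N ≠ 0 := jRed_ne
  have h1 : R.ord (jRed k N) < 0 := by
    by_contra h
    exact hR ((Fermat.FF.mem_iff_ord R h0).mpr (not_lt.mp h))
  apply val_of_ord
  rw [R.ord_mul (pow_ne_zero _ h0) (pow_ne_zero _ (inv_ne_zero h0)), Fermat.FF.ord_pow,
    Fermat.FF.ord_pow, R.ord_inv]
  have h2 : (m : ℤ) < n := by exact_mod_cast hmn
  nlinarith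

include hJ hE hπ hA hζ in
/-- **The components are disjoint at infinity.** -/
theorem EmbJ.sep_inf {i i' : Fin 3} {R R' : Place k (modularFunctionFieldFullC k N)}
    (hii : i ≠ i') (hR : jRed k N ∉ R.toValuationSubring)
    (hR' : jRed k N ∉ R'.toValuationSubring) : ¬ S.SamePt (a * c)⁻¹ i R i' R' := by
  have ha0 := hJ.a_ne
  have hc0 := hJ.c_ne
  have hb0 := hJ.b_ne
  have hq1 : 1 < q := hq.out.one_lt
  have hqq : 1 < q * q := by nlinarith
  have hj0 : (jRed k N : modularFunctionFieldFullC k N) ≠ 0 := jRed_ne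
  have h1 : S.Hol (a * c)⁻¹ (c * a⁻¹ ^ (q * q)) :=
    hJ.hol_inv S hE hπ hA hζ fun V ha _ => hJ.ab.scaled_mem_two hJ.bc ha0 hb0 ha
  have h3 : S.Hol (a * c)⁻¹ (a * c⁻¹ ^ (q * q)) :=
    hJ.hol_inv S hE hπ hA hζ fun V _ hc => hJ.cb.scaled_mem_two hJ.ba hc0 hb0 hc
  have res1 : ∀ i, (S.V i).Res (c * a⁻¹ ^ (q * q)) (jRed k N ^ (![q * q, 1, 1] : Fin 3 → ℕ) i *
      (jRed k N)⁻¹ ^ ((![1, 1, q * q] : Fin 3 → ℕ) i * (q * q))) := by
    intro i
    obtain ⟨e1, e2⟩ := EmbJ.res S hJ hE hπ hA hζ i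
    have e3 := (S.V i).res_mul e2 ((S.V i).res_pow ((S.V i).res_inv e1 (pow_ne_zero _ hj0)) (q * q))
    rwa [← inv_pow, ← pow_mul] at e3
  have res3 : ∀ i, (S.V i).Res (a * c⁻¹ ^ (q * q)) (jRed k N ^ (![1, 1, q * q] : Fin 3 → ℕ) i *
      (jRed k N)⁻¹ ^ ((![q * q, 1, 1] : Fin 3 → ℕ) i * (q * q))) := by
    intro i
    obtain ⟨e1, e2⟩ := EmbJ.res S hJ hE hπ hA hζ i
    have e3 := (S.V i).res_mul e1 ((S.V i).res_pow ((S.V i).res_inv e2 (pow_ne_zero _ hj0)) (q * q))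
    rwa [← inv_pow, ← pow_mul] at e3
  have one1 : (S.V 0).Res (c * a⁻¹ ^ (q * q)) 1 := by
    have := res1 0
    change (S.V 0).Res _ (jRed k N ^ (q * q) * (jRed k N)⁻¹ ^ (1 * (q * q))) at this
    rwa [one_mul, ← mul_pow, mul_inv_cancel₀ hj0, one_pow] at this
  have one3 : (S.V 2).Res (a * c⁻¹ ^ (q * q)) 1 := by
    have := res3 2
    change (S.V 2).Res _ (jRed k N ^ (q * q) * (jRed k N)⁻¹ ^ (1 * (q * q))) at this
    rwa [one_mul, ← mul_pow, mul_inv_cancel₀ hj0, one_pow] at this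
  have hlt : 1 < q * q * (q * q) := by nlinarith
  -- vanishing at the other components
  have van1 : ∀ i, i ≠ 0 → ∀ R : Place k (modularFunctionFieldFullC k N),
      jRed k N ∉ R.toValuationSubring → Val R (jRed k N ^ (![q * q, 1, 1] : Fin 3 → ℕ) i *
      (jRed k N)⁻¹ ^ ((![1, 1, q * q] : Fin 3 → ℕ) i * (q * q))) 0 := by
    intro i hi R hR
    fin_cases i
    · exact absurd rfl hi
    · exact val_cusp hR (m := 1) (n := 1 * (q * q)) (by omega)
    · exact val_cusp hR (m := 1) (n := q * q * (q * q)) hlt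
  have van3 : ∀ i, i ≠ 2 → ∀ R : Place k (modularFunctionFieldFullC k N),
      jRed k N ∉ R.toValuationSubring → Val R (jRed k N ^ (![1, 1, q * q] : Fin 3 → ℕ) i *
      (jRed k N)⁻¹ ^ ((![q * q, 1, 1] : Fin 3 → ℕ) i * (q * q))) 0 := by
    intro i hi R hR
    fin_cases i
    · exact val_cusp hR (m := 1) (n := q * q * (q * q)) hlt
    · exact val_cusp hR (m := 1) (n := 1 * (q * q)) (by omega)
    · exact absurd rfl hi
  intro hsame
  have none : ∀ R : Place k (modularFunctionFieldFullC k N), ¬ Val R 1 0 := fun R h =>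
    one_ne_zero (Val.one.unique h)
  by_cases hi0 : i = 0
  · subst hi0
    exact none R ((hsame _ _ _ h1 one1 (res1 i')).mpr (van1 i' (Ne.symm hii) R' hR'))
  by_cases hi0' : i' = 0
  · subst hi0'
    exact none R' ((hsame _ _ _ h1 (res1 i) one1).mp (van1 i hi0 R hR))
  by_cases hi2 : i = 2
  · subst hi2
    exact none R ((hsame _ _ _ h3 one3 (res3 i')).mpr (van3 i' (Ne.symm hii) R' hR'))
  have h4 : ∀ i i' : Fin 3, i ≠ i' → ¬ i = 0 → ¬ i' = 0 → ¬ i = 2 → i' = 2 := by decide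
  have hi2' : i' = 2 := h4 i i' hii hi0 hi0' hi2
  subst hi2'
  exact none R' ((hsame _ _ _ h3 (res3 i) one3).mp (van3 i hi2 R hR))

end Fermat.Agent.DR.S36
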