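import Fermat.Agent.DR.S36.CompVal
import Fermat.Agent.DR.Nodal.Basic
import Fermat.Agent.DR.Nodes.RegAlg

set_option autoImplicit false

/-!
# Arithmetic surfaces given by valuations

`Surf`: a function field `F / K` (`K` algebraically closed), with a descent `FL / L`, `A₀ ⊂ L` a
discrete valuation ring with uniformizer `q` and residue field `k`, and three "components" `V c`
(valuations of `FL` with residue field `κ`, a function field over `k`).

`IsChart x y`: the function `x` gives an affine chart of the surface; on each component its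
residue is a power of `y`.
-/

noncomputable section

open AlgebraicCurve Fermat.Agent.RR

namespace Fermat.Agent.DR.S36

/-- The generic and special fibre. -/
structure Surf (L K FL F k κ : Type*) [Field L] [Field K] [Field FL] [Field F] [Field k] [Field κ]
    [Algebra L K] [Algebra L FL] [Algebra K F] [Algebra FL F] [Algebra k κ]
    (A₀ : ValuationSubring L) (q : ℕ) where
  /-- `L ⊂ FL ⊂ F` and `L ⊂ K ⊂ F` -/
  comm : ∀ a : L, algebraMap FL F (algebraMap L FL a) = algebraMap K F (algebraMap L K a)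
  /-- linear disjointness of `FL` and `K` over `L` -/
  disj : ∀ (n : ℕ) (b : Fin n → FL), LinearIndependent L b →
    LinearIndependent K fun i => algebraMap FL F (b i)
  /-- constant field extensions are unramified -/
  unram : ∀ P : Place K F, ∃ t : FL, P.ord (algebraMap FL F t) = 1
  algebraic : Algebra.IsAlgebraic L K
  /-- the base -/
  π₀ : A₀ →+* k
  π₀_surjective : Function.Surjective π₀
  π₀_eq_zero : ∀ a : A₀, π₀ a = 0 → (q : A₀) ∣ a
  π₀_q : π₀ (q : A₀) = 0
  q_ne : (q : L) ≠ 0
  exists_zpow : ∀ a : L, a ≠ 0 → ∃ (n : ℤ) (u : A₀ˣ), a = ((u : A₀) : L) * (q : L) ^ n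
  /-- the components -/
  V : Fin 3 → CompVal FL κ
  e : Fin 3 → ℕ
  e_pos : ∀ c, 0 < e c
  e_zero : e 0 = 1
  w_q : ∀ c, (V c).w (q : FL) = e c
  unif : ∀ c, ∃ s, (V c).w s = 1
  approx : ∀ u : Fin 3 → κ, ∃ f : FL, ∀ c, (V c).Res f (u c)
  res_const : ∀ c (a : A₀), (V c).Res (algebraMap L FL a) (algebraMap k κ (π₀ a))

namespace Surf

variable {L K FL F k κ : Type*} [Field L] [Field K] [Field FL] [Field F] [Field k] [Field κ]
  [Algebra L K] [Algebra L FL] [Algebra K F] [Algebra FL F] [Algebra k κ]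
  {A₀ : ValuationSubring L} {q : ℕ} (S : Surf L K FL F k κ A₀ q)

/-- `b` is integral along the components and regular wherever `x` is regular. -/
def Hol (x b : FL) : Prop :=
  (∀ c, 0 ≤ (S.V c).v b) ∧ ∀ P : Place K F, algebraMap FL F x ∈ P.toValuationSubring →
    algebraMap FL F b ∈ P.toValuationSubring

/-- `g` belongs to the local ring of the point `(c, R)` (in the chart `x`). -/
def InLoc (x : FL) (c : Fin 3) (R : Place k κ) (g : FL) : Prop :=
  ∃ a b : FL, S.Hol x a ∧ S.Hol x b ∧ (∃ u, (S.V c).Res b u ∧ ¬ Val R u 0) ∧ b * g = a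

/-- The points `(c, R)` and `(c', R')` coincide (in the chart `x`). -/
def SamePt (x : FL) (c : Fin 3) (R : Place k κ) (c' : Fin 3) (R' : Place k κ) : Prop :=
  ∀ (b : FL) (u u' : κ), S.Hol x b → (S.V c).Res b u → (S.V c').Res b u' →
    (Val R u 0 ↔ Val R' u' 0)

/-- The function `x` defines an affine chart. -/
structure IsChart [HasPrincipalDivisors K F] [HasPrincipalDivisors k κ] (x : FL) (y : κ) :
    Prop where
  transcendental : Transcendental k y
  deg : ∃ n : Fin 3 → ℕ, (∀ c, 0 < n c ∧ (S.V c).Res x (y ^ n c)) ∧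
    Divisor.degree (polesOf (K := K) (algebraMap FL F x)) =
      ∑ c, (S.e c * n c : ℕ) * Divisor.degree (polesOf (K := k) y)
  /-- functions on the components lift -/
  lift : ∀ c (u : κ), (∀ R : Place k κ, y ∈ R.toValuationSubring → u ∈ R.toValuationSubring) →
    ∃ b, S.Hol x b ∧ (S.V c).Res b u

/-- The special points of the surface: where the components meet. -/
structure Points (x : FL) (y : κ) where
  T : Type
  U : T → Set (Place K F)
  sp : T → Place k κ
  y_mem : ∀ s, y ∈ (sp s).toValuationSubring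
  /-- the three branches through `s` are glued -/
  glue : ∀ s b, S.Hol x b → ∃ a : k, ∀ c u, (S.V c).Res b u → Val (sp s) u a
  /-- the horizontal divisors through `s` are the `P ∈ U s` -/
  U_iff : ∀ s P, P ∈ U s ↔ (algebraMap FL F x ∈ P.toValuationSubring ∧
    ∀ b u, S.Hol x b → (S.V 0).Res b u → ¬ Val (sp s) u 0 → P.ord (algebraMap FL F b) = 0)
  /-- equation of the last component at `s` -/
  exists_z : ∀ s, ∃ z : FL, (S.V 0).w z = 0 ∧ (S.V 1).w z = 0 ∧ (S.V 2).w z = 1 ∧
    ∀ P ∈ U s, P.ord (algebraMap FL F z) = 0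
  /-- the components are disjoint elsewhere -/
  sep : ∀ c c' R, c ≠ c' → y ∈ R.toValuationSubring → (∀ s, R ≠ sp s) →
    ∃ b u, S.Hol x b ∧ (S.V c).Res b u ∧ ¬ Val R u 0 ∧ 0 < (S.V c').v b
  /-- and at infinity -/
  sep_inf : ∀ c c' R R', c ≠ c' → y ∉ R.toValuationSubring → y ∉ R'.toValuationSubring →
    ¬ S.SamePt x⁻¹ c R c' R'
  /-- equation of the middle component elsewhere -/
  exists_δ : ∀ R, y ∈ R.toValuationSubring → (∀ s, R ≠ sp s) → ∃ δ : FL, (S.V 1).w δ = 1 ∧
    S.InLoc x 1 R (δ ^ S.e 1 / q) ∧ S.InLoc x 1 R (q / δ ^ S.e 1)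
  exists_δ_inf : ∀ R, y ∉ R.toValuationSubring → ∃ δ : FL, (S.V 1).w δ = 1 ∧
    S.InLoc x⁻¹ 1 R (δ ^ S.e 1 / q) ∧ S.InLoc x⁻¹ 1 R (q / δ ^ S.e 1)

end Surf

end Fermat.Agent.DR.S36
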