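import Fermat.Agent.DR.S36.UnitCount
import Fermat.Agent.DR.S36.Level2Norm

/-!
# The modular units `α u`, `β u` at level `N q²`
-/

set_option autoImplicit false
set_option linter.unusedSectionVars false

noncomputable section

open AlgebraicCurve ModularCurve Polynomial
open Fermat.Agent.FunField Fermat.Agent.S28 Fermat.Agent.S28.ModPoly Fermat.Agent.JRED
open Fermat.Agent.DR Fermat.Agent.Q2.Ord
open Fermat.Agent.DR.Mod (IsAL root_red map_root)

namespace Fermat.Agent.DR.S36.Unit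

section Val

variable {K : Type*} [Field K] {F : IntermediateField K (LaurentSeries K)} (p : ℕ)
  [hp : Fact p.Prime] {x₁ x₂ x₃ u₁ u₂ : F} (h1 : (x₁ : LaurentSeries K) = jqModC K)
  (h2 : (x₂ : LaurentSeries K) = qExpand K p (jqModC K))
  (h3 : (x₃ : LaurentSeries K) = qExpand K p (qExpand K p (jqModC K)))
  (hu₁ : (u₁ : LaurentSeries K) = uL K p) (hu₂ : (u₂ : LaurentSeries K) = qExpand K p (uL K p))
  (A : ValuationSubring F)

omit hp in
theorem rel_qExpand [NeZero p] {x y : LaurentSeries K} {P : ℤ[X][X]}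
    (h : P.eval₂ (evJ K x) y = 0) : P.eval₂ (evJ K (qExpand K p x)) (qExpand K p y) = 0 := by
  have h1 := congrArg (qExpand K p) h
  rwa [map_zero, hom_eval₂, comp_evJ] at h1

include h2 h3 in
theorem j3_mem_of_j2_mem (h : x₂ ∈ A) : x₃ ∈ A := by
  refine mem_of_int_rel A h (modPoly_monic p) (rel_of_coe ?_)
  rw [h2, h3]
  exact rel_qExpand p (modPoly_rel K p)

include h2 h3 in
theorem j2_mem_of_j3_mem (h : x₃ ∈ A) : x₂ ∈ A := by
  refine mem_of_int_rel A h (modPoly_monic p) (rel_of_coe ?_)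
  rw [h2, h3]
  exact rel_qExpand p (modPoly_rel' K p)

include h1 h2 h3 in
/-- if `j(E₁) j(E₃)` is regular then so are all `j(E_i)`. -/
theorem mem_of_prod_mem (h : x₁ * x₃ ∈ A) : x₁ ∈ A ∧ x₂ ∈ A ∧ x₃ ∈ A := by
  have key : x₁ ∈ A := by
    by_contra hcon
    have h4 : x₁⁻¹ ∈ A := (A.mem_or_inv_mem x₁).resolve_left hcon
    have h5 : x₁ ≠ 0 := fun h0 => hcon (h0 ▸ A.zero_mem)
    have h6 : x₃ ∈ A := by
      have := mul_mem h4 h
      rwa [inv_mul_cancel_left₀ h5] at this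
    exact hcon (j_mem_of_jq_mem p h1 h2 A (j2_mem_of_j3_mem p h2 h3 A h6))
  have h7 := jq_mem_of_j_mem p h1 h2 A key
  exact ⟨key, h7, j3_mem_of_j2_mem p h2 h3 A h7⟩

include h2 h3 hu₂ in
theorem u2_mem (h : x₂ ∈ A) : u₂ ∈ A := by
  refine mem_of_int_rel A (j3_mem_of_j2_mem p h2 h3 A h) (deltaPoly_monic p) (rel_of_coe ?_)
  rw [h3, hu₂, uL_eq]
  exact rel_qExpand p (deltaPoly_rel' K p)

include h2 hu₂ in
theorem u2_inv_mem (h : x₂ ∈ A) : (p : F) ^ 12 * u₂⁻¹ ∈ A := by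
  refine mem_of_int_rel A h (deltaPoly_monic p) (rel_of_coe ?_)
  have : (((p : F) ^ 12 * u₂⁻¹ : F) : LaurentSeries K) =
      (p : LaurentSeries K) ^ 12 * (u₂ : LaurentSeries K)⁻¹ := rfl
  have h4 : (p : LaurentSeries K) ^ 12 * (qExpand K p (uL K p))⁻¹ = qExpand K p
      ((p : LaurentSeries K) ^ 12 * (uL K p)⁻¹) := by
    rw [map_mul, map_pow, map_natCast, map_inv₀]
  rw [this, h2, hu₂, h4, uL_inv_eq]
  exact rel_qExpand p (deltaPoly_rel K p)

end Val

section Place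

variable {K : Type*} [Field K] {F : IntermediateField K (LaurentSeries K)}

/-- a unit up to `p^12` has order zero at a place over a field of characteristic zero -/
theorem ord_eq_zero_of [CharZero K] (p : ℕ) (hp : p ≠ 0) (v : Place K F) {u : F}
    (h1 : u ∈ v.toValuationSubring) (h2 : (p : F) ^ 12 * u⁻¹ ∈ v.toValuationSubring) :
    v.ord u = 0 := by
  have hq0 : (p : K) ≠ 0 := Nat.cast_ne_zero.mpr hp
  have hu2 : u⁻¹ ∈ v.toValuationSubring := by
    have h1 := mul_mem (v.algebraMap_mem' ((p : K) ^ 12)⁻¹) h2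
    rw [map_inv₀, map_pow, map_natCast, inv_mul_cancel_left₀] at h1
    · exact h1
    · exact pow_ne_zero _ (by
        rw [← map_natCast (algebraMap K _), Ne, map_eq_zero]; exact hq0)
  have h1 := Fermat.FF.ord_nonneg_of_mem v h1
  have h2 := Fermat.FF.ord_nonneg_of_mem v hu2
  rw [Place.ord_inv] at h2
  omega

end Place

section L2

variable (L : Type) [Field L] [Algebra ℚ L] (N q : ℕ) [NeZero N] [hq : Fact q.Prime]

/-- `u(E₁ → E₂) = Δ(t)/Δ(t^q)` -/
def uA : laurentBaseChange L (modularFunctionFieldFull (N * q * q)) :=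
  heckeAlphaBar L (N * q) q (uF L N q)

/-- `u(E₂ → E₃) = Δ(t^q)/Δ(t^{q²})` -/
def uB : laurentBaseChange L (modularFunctionFieldFull (N * q * q)) :=
  heckeBetaBar L (N * q) q (uF L N q)

theorem coe_uA : (uA L N q : LaurentSeries L) = uL L q := by
  rw [uA, coe_heckeAlphaBar, coe_uF]

theorem coe_uB : (uB L N q : LaurentSeries L) = qExpand L q (uL L q) := by
  rw [uB, coe_heckeBetaBar, coe_uF]

theorem uA_ne_zero : uA L N q ≠ 0 := (_root_.map_ne_zero _).mpr (uF_ne_zero L N q)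

theorem uB_ne_zero : uB L N q ≠ 0 := (_root_.map_ne_zero _).mpr (uF_ne_zero L N q)

/-- `j(E₁)` -/
def jE1 : laurentBaseChange L (modularFunctionFieldFull (N * q * q)) :=
  Fermat.Agent.JRED.jL L (N * q * q)

/-- `j(E₂)` -/
def jE2 : laurentBaseChange L (modularFunctionFieldFull (N * q * q)) :=
  heckeBetaBar L (N * q) q (Fermat.Agent.JRED.jL L (N * q))

/-- `j(E₃)` -/
def jE3 : laurentBaseChange L (modularFunctionFieldFull (N * q * q)) :=
  heckeBetaBar L (N * q) q (heckeBetaBar L N q (Fermat.Agent.JRED.jL L N))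

theorem coe_jE1 : (jE1 L N q : LaurentSeries L) = jqModC L := coe_jL _

theorem coe_jE2 : (jE2 L N q : LaurentSeries L) = qExpand L q (jqModC L) := by
  rw [jE2, coe_heckeBetaBar, coe_jL]

theorem coe_jE3 : (jE3 L N q : LaurentSeries L) = qExpand L q (qExpand L q (jqModC L)) := by
  rw [jE3, coe_heckeBetaBar, coe_heckeBetaBar, coe_jL]

variable {L N q}

theorem jE_mem (A : ValuationSubring (laurentBaseChange L (modularFunctionFieldFull (N * q * q))))
    (h : jE1 L N q * jE3 L N q ∈ A) : jE1 L N q ∈ A ∧ jE2 L N q ∈ A ∧ jE3 L N q ∈ A :=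
  mem_of_prod_mem q (coe_jE1 L N q) (coe_jE2 L N q) (coe_jE3 L N q) A h

theorem ord_uA (v : Place L (laurentBaseChange L (modularFunctionFieldFull (N * q * q))))
    (hv : jE1 L N q ∈ v.toValuationSubring) : v.ord (uA L N q) = 0 := by
  have h0 : CharZero L := algebraRat.charZero L
  exact ord_eq_zero_of q hq.out.ne_zero v
    (u_mem q (coe_jE1 L N q) (coe_jE2 L N q) (coe_uA L N q) _ hv)
    (u_inv_mem q (coe_jE1 L N q) (coe_uA L N q) _ hv)

theorem ord_uB (v : Place L (laurentBaseChange L (modularFunctionFieldFull (N * q * q))))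
    (hv : jE2 L N q ∈ v.toValuationSubring) : v.ord (uB L N q) = 0 := by
  have h0 : CharZero L := algebraRat.charZero L
  exact ord_eq_zero_of q hq.out.ne_zero v
    (u2_mem q (coe_jE2 L N q) (coe_jE3 L N q) (coe_uB L N q) _ hv)
    (u2_inv_mem q (coe_jE2 L N q) (coe_uB L N q) _ hv)

/-- `u_α`, `u_β` are units where `j(E₁) j(E₃)` is finite. -/
theorem ord_units (v : Place L (laurentBaseChange L (modularFunctionFieldFull (N * q * q))))
    (hv : jE1 L N q * jE3 L N q ∈ v.toValuationSubring) :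
    v.ord (uA L N q) = 0 ∧ v.ord (uB L N q) = 0 := by
  obtain ⟨h1, h2, -⟩ := jE_mem _ hv
  exact ⟨ord_uA v h1, ord_uB v h2⟩

end L2

section Red

variable {L : Type} [Field L] [Algebra ℚ L] {N q : ℕ} [NeZero N] [hq : Fact q.Prime]
  {k : Type} [Field k] {A : ValuationSubring L} {π : A →+* k} [CharP k q]
  {w₁ : laurentBaseChange L (modularFunctionFieldFull (N * q)) ≃ₐ[L]
      laurentBaseChange L (modularFunctionFieldFull (N * q))}
  {w₂ : laurentBaseChange L (modularFunctionFieldFull (N * q * q)) ≃ₐ[L]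
      laurentBaseChange L (modularFunctionFieldFull (N * q * q))}

theorem uL_ne_zero' : uL k q ≠ 0 := uL_ne_zero k q

/-- `ū(t^q) = ū(t)^q` -/
theorem qExpand_uL : qExpand k q (uL k q) = uL k q ^ q := by
  rw [uL_charP, map_pow, qExpand_dInv_eq_pow, ← pow_mul, ← pow_mul, mul_comm]

/-- component 0: `u_α ↦ ū` -/
theorem gred_uA : GRed π (uA L N q : LaurentSeries L) (uL k q) := by
  rw [coe_uA]
  exact gred_uL q

/-- component 0: `u_β ↦ ū^q` -/
theorem gred_uB : GRed π (uB L N q : LaurentSeries L) (uL k q ^ q) := by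
  rw [coe_uB, ← qExpand_uL]
  exact Fermat.Agent.DR.Mod.GRed.qExpand (gred_uL q) q

/-- middle component: `u_α ↦ ū` -/
theorem midRed_uA : MidRed π w₁ (uA L N q) (uL k q) := by
  intro z hz hz1 ι hι
  rw [uA, hι.alpha, coe_uF]
  exact gred_uL q

theorem algebraMap_q_inv (F : IntermediateField L (LaurentSeries L)) :
    algebraMap L F ((q : L) ^ 12)⁻¹ = ((q : F) ^ 12)⁻¹ := by
  rw [map_inv₀, map_pow, map_natCast]

/-- `w₁ (q^{-12} u) = u⁻¹` -/
theorem w_scaled (hw : IsAL w₁) : w₁ (algebraMap L _ ((q : L) ^ 12)⁻¹ * uF L N q) =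
    (uF L N q)⁻¹ := by
  rw [map_mul, AlgEquiv.commutes, w_uF hw, algebraMap_q_inv, inv_mul_cancel_left₀]
  exact pow_ne_zero _ natCast_F_ne_zero

/-- middle component: `q^{-12} u_β ↦ ū⁻¹` -/
theorem midRed_uB [IsAlgClosed L] [ExpChar k q] (hw : IsAL w₁) :
    MidRed π w₁ (algebraMap L _ ((q : L) ^ 12)⁻¹ * uB L N q) (uL k q)⁻¹ := by
  intro z hz hz1 ι hι
  have h0 : CharZero L := algebraRat.charZero L
  have h1 : algebraMap L _ ((q : L) ^ 12)⁻¹ * uB L N q =
      heckeBetaBar L (N * q) q (algebraMap L _ ((q : L) ^ 12)⁻¹ * uF L N q) := by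
    rw [map_mul, AlgHom.commutes, uB]
  rw [h1, hι.beta, w_scaled hw]
  obtain ⟨ζ, hζ⟩ := Fermat.Agent.DR.Mod.exists_primitiveRoot_unit A q
  have hζL := IsPrimitiveRoot.coe_units_iff.mpr (map_root (A := A) hζ)
  obtain ⟨i, -, hi⟩ := hζL.eq_pow_of_pow_eq_one (ξ := (z : L)) (by
    rw [← Units.val_pow_eq_pow_val, hz, Units.val_one])
  have hi' : (Units.map A.subtype.toMonoidHom ζ) ^ i = z :=
    Units.ext (by rw [Units.val_pow_eq_pow_val]; exact hi)
  rw [← hi', ← map_pow]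
  exact Fermat.Agent.DR.Mod.GRed.twist (gred_uL_inv q) (ζ ^ i) (root_red hζ i)

/-- component 2: `q^{-12} u_α ↦ ū^{-q}` -/
theorem gred_w_uA (hw : IsAL w₁) (h2 : IsAL2 w₁ w₂) :
    GRed π (w₂ (algebraMap L _ ((q : L) ^ 12)⁻¹ * uA L N q) : LaurentSeries L)
      (uL k q ^ q)⁻¹ := by
  have h1 : algebraMap L _ ((q : L) ^ 12)⁻¹ * uA L N q =
      heckeAlphaBar L (N * q) q (algebraMap L _ ((q : L) ^ 12)⁻¹ * uF L N q) := by
    rw [map_mul, AlgHom.commutes, uA]
  rw [h1, h2.alpha, w_scaled hw, coe_heckeBetaBar, ← qExpand_uL, ← map_inv₀]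
  exact Fermat.Agent.DR.Mod.GRed.qExpand (gred_uL_inv q) q

/-- component 2: `q^{-12} u_β ↦ ū⁻¹` -/
theorem gred_w_uB (hw : IsAL w₁) (h2 : IsAL2 w₁ w₂) :
    GRed π (w₂ (algebraMap L _ ((q : L) ^ 12)⁻¹ * uB L N q) : LaurentSeries L)
      (uL k q)⁻¹ := by
  have h1 : algebraMap L _ ((q : L) ^ 12)⁻¹ * uB L N q =
      heckeBetaBar L (N * q) q (algebraMap L _ ((q : L) ^ 12)⁻¹ * uF L N q) := by
    rw [map_mul, AlgHom.commutes, uB]
  rw [h1, h2.beta, w_scaled hw, coe_heckeAlphaBar]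
  exact gred_uL_inv q

end Red

end Fermat.Agent.DR.S36.Unit
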