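import Fermat.Agent.Q2.W2Surf
import Fermat.Agent.DR.S36.Surf
import Fermat.Agent.DR.S36.LPair
import Fermat.Agent.DR.S36.UnitL2
import Fermat.Agent.DR.S36.AuxLevel

/-!
# The arithmetic surface of `X₀(Nq²)` over the inertia field, and its two charts

`surf c L`, `isChart`, `isChart_inv` (charts `x = j(E₁) j(E₃)` and `x⁻¹`).
-/

set_option autoImplicit false
set_option linter.unusedSectionVars false

noncomputable section

open AlgebraicCurve ModularCurve Fermat.Agent.RR Fermat.Agent.JRED

namespace Fermat.Agent.DR.S36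

open Fermat.Agent.DR Fermat.Agent.DR.Mod Fermat.Agent.DR.S36.L Fermat.Agent.Q2
open Fermat.Agent.JRED.ES (inclL inclL_apply)
open Fermat.Agent.S28 (jt jt_one_one)

attribute [local instance] Fermat.Agent.DR.S36.L.algInc

section

variable {A : ValuationSubring (AlgebraicClosure ℚ)} {k : Type} [Field k] {π : A →+* k}
  {N q : ℕ} [NeZero N] [NeZero q] [hq : Fact q.Prime] [hchar : CharP k q]
  {w₁ : laurentBaseChange (AlgebraicClosure ℚ) (modularFunctionFieldFull (N * q))
      ≃ₐ[AlgebraicClosure ℚ]
      laurentBaseChange (AlgebraicClosure ℚ) (modularFunctionFieldFull (N * q))}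
  {w₂ : laurentBaseChange (AlgebraicClosure ℚ) (modularFunctionFieldFull (N * q * q))
      ≃ₐ[AlgebraicClosure ℚ]
      laurentBaseChange (AlgebraicClosure ℚ) (modularFunctionFieldFull (N * q * q))}

/-- **The arithmetic surface.** -/
def surf (c : Ctx π w₁ w₂) (L : Type) [Field L] [Algebra L (AlgebraicClosure ℚ)]
    [IsInertiaField A L] :
    Surf L (AlgebraicClosure ℚ) (modularFunctionFieldFullC L (N * q * q))
      (modularFunctionFieldBar (N * q * q)) k (modularFunctionFieldFullC k N) (A0 A L) q where
  comm := surf_comm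
  disj := surf_disj
  unram := surf_unram A
  algebraic := Fermat.Agent.DR.S36.L.algebraic L
  π₀ := π0 L π
  π₀_surjective := π0_surjective π hq.out c.hA c.S.surj
  π₀_eq_zero := surf_π₀_eq_zero hq.out c.hA c.S.surj
  π₀_q := surf_π₀_q c.hA c.S.surj
  q_ne := natCast_ne_zero L hq.out
  exists_zpow := surf_exists_zpow hq.out c.hA
  V := c.comp L
  e := Ctx.mult q
  e_pos := Ctx.mult_pos
  e_zero := rfl
  w_q := c.comp_w_q
  unif := c.comp_unif
  approx := c.comp_approx
  res_const := c.comp_res_const

end

end Fermat.Agent.DR.S36
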