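import Fermat.Agent.DR.S36.SSCoord
import Fermat.Agent.DR.S36.UnitCount

/-!
# S36-SS: the modular unit as a `NodeUnit`
-/

set_option autoImplicit false
set_option linter.unusedSectionVars false

noncomputable section

open AlgebraicCurve ModularCurve Fermat.Agent.RR Fermat.Agent.JRED

namespace Fermat.Agent.DR.S36

open Fermat.Agent.DR Fermat.Agent.DR.Mod Fermat.Agent.Q2.Ord
open S36.L S36.Unit

theorem uF_mem_F0 {L : Type*} [Field L] [Algebra L (AlgebraicClosure ℚ)] {M q : ℕ} [NeZero M]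
    [NeZero q] : uF (AlgebraicClosure ℚ) M q ∈ F0 L (M * q) := by
  rw [mem_F0_iff_coeff]
  intro n
  rw [coe_uF, ← coeffMap_uL q (algebraMap L (AlgebraicClosure ℚ)), coeffMap_coeff]
  exact ⟨_, rfl⟩

variable {A : ValuationSubring (AlgebraicClosure ℚ)} {k : Type} [Field k] {π : A →+* k}
  {M q : ℕ} [NeZero M] [hq : Fact q.Prime]
  {w : laurentBaseChange (AlgebraicClosure ℚ) (modularFunctionFieldFull (M * q)) ≃ₐ[AlgebraicClosure ℚ]
      laurentBaseChange (AlgebraicClosure ℚ) (modularFunctionFieldFull (M * q))}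
  [FunctionField (AlgebraicClosure ℚ) (modularFunctionFieldBar (M * q))]
  [FunctionField (AlgebraicClosure ℚ) (modularFunctionFieldBar M)]
  [FunctionField k (modularFunctionFieldFullC k M)] [IsAlgClosed k] [CharP k q]

variable (L : Type) [Field L] [Algebra L (AlgebraicClosure ℚ)]

/-- The modular unit `u = Δ(z)/Δ(qz)`. -/
def nodeUnit (S : Setup π w) (hqM : ¬ q ∣ M) : NodeUnit S (F0 L (M * q)) where
  u := uF (AlgebraicClosure ℚ) M q
  u₁ := ssj k q M
  u₂ := (ssj k q M)⁻¹
  ne_zero := uF_ne_zero _ M q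
  ord P hP := ord_uF _ M q P hP
  mem := uF_mem_F0
  u₁_ne := ssj_ne_zero
  u₂_ne := inv_ne_zero ssj_ne_zero
  red₁ := redOne_uF S
  red₂ := by
    have h := redTwo_uF S
    rw [map_inv₀, map_zpow₀, map_natCast, zpow_natCast]
    rwa [mul_comm (uF (AlgebraicClosure ℚ) M q)] at h
  pole P hP := by
    rw [ord_ssj_of_pole P hP]
    have : 0 ≤ ((q - 1 : ℕ) : ℤ) := Int.natCast_nonneg _
    nlinarith
  deg := degree_polesOf_ssj (natCast_ne_zero_of_not_dvd k q M hqM)

end Fermat.Agent.DR.S36
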