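import Fermat.Agent.DR.S36.Surf
import Fermat.Agent.FF.Line

/-!
# The modular units separate the components of `X₀(q²N)` at the ordinary points
-/

set_option autoImplicit false

noncomputable section

open AlgebraicCurve Fermat.Agent.RR

namespace Fermat.Agent.DR.S36

namespace Surf

variable {L K FL F k κ : Type*} [Field L] [Field K] [Field FL] [Field F] [Field k] [Field κ]
  [Algebra L K] [Algebra L FL] [Algebra K F] [Algebra FL F] [Algebra k κ]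
  {A₀ : ValuationSubring L} {q : ℕ} (S : Surf L K FL F k κ A₀ q)

/-- The modular units: `U₁ = α u`, `U₂ = β u`, `ub` the reduction of `u`. -/
structure Units (x : FL) where
  U₁ : FL
  U₂ : FL
  ub : κ
  ub_ne : ub ≠ 0
  res₀₁ : (S.V 0).Res U₁ ub
  res₁₁ : (S.V 1).Res U₁ ub
  res₂₁ : (S.V 2).Res (((q : FL) ^ 12)⁻¹ * U₁) (ub ^ q)⁻¹
  res₀₂ : (S.V 0).Res U₂ (ub ^ q)
  res₁₂ : (S.V 1).Res (((q : FL) ^ 12)⁻¹ * U₂) ub⁻¹
  res₂₂ : (S.V 2).Res (((q : FL) ^ 12)⁻¹ * U₂) ub⁻¹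
  ord : ∀ P : Place K F, algebraMap FL F x ∈ P.toValuationSubring →
    P.ord (algebraMap FL F U₁) = 0 ∧ P.ord (algebraMap FL F U₂) = 0

variable {S} {x : FL} (U : S.Units x)

namespace Units

include S in
theorem q_ne_zero : (q : FL) ≠ 0 := by
  intro h
  have h1 := S.w_q 0
  rw [h, CompVal.w_zero] at h1
  have := S.e_pos 0
  omega

include S in
theorem q12_ne_zero : (q : FL) ^ 12 ≠ 0 := pow_ne_zero _ (q_ne_zero (S := S))

theorem U₁_ne : U.U₁ ≠ 0 := (S.V 0).ne_zero_of_res U.res₀₁ U.ub_ne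

theorem U₂_ne : U.U₂ ≠ 0 := (S.V 0).ne_zero_of_res U.res₀₂ (pow_ne_zero _ U.ub_ne)

/-- the value of a function with known residue after scaling by `q^{-12}` -/
theorem w_of_res (c : Fin 3) {f : FL} {u : κ} (hu : u ≠ 0)
    (h : (S.V c).Res (((q : FL) ^ 12)⁻¹ * f) u) : (S.V c).w f = 12 * S.e c := by
  have h1 := (S.V c).w_eq_zero_of_res h hu
  have hf : f ≠ 0 := by
    rintro rfl
    rw [mul_zero] at h
    exact (S.V c).ne_zero_of_res h hu rfl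
  rw [(S.V c).w_mul (inv_ne_zero (q12_ne_zero (S := S))) hf, (S.V c).w_inv, (S.V c).w_pow,
    S.w_q] at h1
  push_cast at h1
  linarith

theorem w₀₁ : (S.V 0).w U.U₁ = 0 := (S.V 0).w_eq_zero_of_res U.res₀₁ U.ub_ne

theorem w₁₁ : (S.V 1).w U.U₁ = 0 := (S.V 1).w_eq_zero_of_res U.res₁₁ U.ub_ne

theorem w₂₁ : (S.V 2).w U.U₁ = 12 * S.e 2 :=
  w_of_res 2 (inv_ne_zero (pow_ne_zero _ U.ub_ne)) U.res₂₁

theorem w₀₂ : (S.V 0).w U.U₂ = 0 := (S.V 0).w_eq_zero_of_res U.res₀₂ (pow_ne_zero _ U.ub_ne)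

theorem w₁₂ : (S.V 1).w U.U₂ = 12 * S.e 1 := w_of_res 1 (inv_ne_zero U.ub_ne) U.res₁₂

theorem w₂₂ : (S.V 2).w U.U₂ = 12 * S.e 2 := w_of_res 2 (inv_ne_zero U.ub_ne) U.res₂₂

theorem w_q12 (c : Fin 3) : (S.V c).w ((q : FL) ^ 12) = 12 * S.e c := by
  rw [(S.V c).w_pow, S.w_q]; push_cast; ring

/-- `q^12 / U` -/
def dual (q : ℕ) (f : FL) : FL := (q : FL) ^ 12 * f⁻¹

include S in
theorem dual_ne {f : FL} (hf : f ≠ 0) : dual q f ≠ 0 :=
  mul_ne_zero (q12_ne_zero (S := S)) (inv_ne_zero hf)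

theorem w_dual (c : Fin 3) {f : FL} (hf : f ≠ 0) :
    (S.V c).w (dual q f) = 12 * S.e c - (S.V c).w f := by
  rw [dual, (S.V c).w_mul (q12_ne_zero (S := S)) (inv_ne_zero hf), (S.V c).w_inv, w_q12]
  ring

theorem res_dual (c : Fin 3) {f : FL} {u : κ} (hu : u ≠ 0)
    (h : (S.V c).Res (((q : FL) ^ 12)⁻¹ * f) u) : (S.V c).Res (dual q f) u⁻¹ := by
  have h1 := (S.V c).res_inv h hu
  rwa [mul_inv, inv_inv] at h1

include S in
theorem algebraMap_q12 : ∃ c : K, c ≠ 0 ∧ algebraMap FL F ((q : FL) ^ 12) = algebraMap K F c := by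
  have h0 : algebraMap FL F ((q : FL) ^ 12) = algebraMap K F ((q : K) ^ 12) := by
    rw [map_pow, map_pow, map_natCast, map_natCast]
  refine ⟨(q : K) ^ 12, fun hc => ?_, h0⟩
  rw [hc, map_zero] at h0
  exact q12_ne_zero (S := S) ((map_eq_zero (algebraMap FL F)).mp h0)

theorem hol_of {f : FL} (hw : ∀ c, 0 ≤ (S.V c).w f)
    (ho : ∀ P : Place K F, algebraMap FL F x ∈ P.toValuationSubring →
      0 ≤ P.ord (algebraMap FL F f)) (hf : f ≠ 0) : S.Hol x f :=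
  ⟨fun c => (S.V c).nonneg_iff'.mpr (hw c), fun P hP =>
    (Fermat.FF.mem_iff_ord P ((_root_.map_ne_zero _).mpr hf)).mpr (ho P hP)⟩

theorem hol₁ : S.Hol x U.U₁ := by
  refine hol_of (fun c => ?_) (fun P hP => (U.ord P hP).1.ge) U.U₁_ne
  fin_cases c
  · exact U.w₀₁.ge
  · exact U.w₁₁.ge
  · refine le_of_le_of_eq ?_ U.w₂₁.symm; positivity

theorem hol₂ : S.Hol x U.U₂ := by
  refine hol_of (fun c => ?_) (fun P hP => (U.ord P hP).2.ge) U.U₂_ne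
  fin_cases c
  · exact U.w₀₂.ge
  · refine le_of_le_of_eq ?_ U.w₁₂.symm; positivity
  · refine le_of_le_of_eq ?_ U.w₂₂.symm; positivity

include S in
theorem ord_dual {f : FL} (hf : f ≠ 0) (P : Place K F) (h : P.ord (algebraMap FL F f) = 0) :
    P.ord (algebraMap FL F (dual q f)) = 0 := by
  obtain ⟨c, hc, hc'⟩ := algebraMap_q12 (S := S)
  rw [dual, map_mul, hc', map_inv₀, P.ord_mul ((_root_.map_ne_zero _).mpr hc)
    (inv_ne_zero ((_root_.map_ne_zero _).mpr hf)), P.ord_inv, h, Fermat.FF.ord_algebraMap]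
  rfl

theorem hol_dual₁ : S.Hol x (dual q U.U₁) := by
  refine hol_of (fun c => ?_) (fun P hP => (ord_dual (S := S) U.U₁_ne P (U.ord P hP).1).ge)
    (dual_ne (S := S) U.U₁_ne)
  rw [w_dual c U.U₁_ne]
  fin_cases c
  · change 0 ≤ 12 * (S.e 0 : ℤ) - (S.V 0).w U.U₁
    rw [U.w₀₁]; simp
  · change 0 ≤ 12 * (S.e 1 : ℤ) - (S.V 1).w U.U₁
    rw [U.w₁₁]; simp
  · change 0 ≤ 12 * (S.e 2 : ℤ) - (S.V 2).w U.U₁
    rw [U.w₂₁]; simp

theorem hol_dual₂ : S.Hol x (dual q U.U₂) := by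
  refine hol_of (fun c => ?_) (fun P hP => (ord_dual (S := S) U.U₂_ne P (U.ord P hP).2).ge)
    (dual_ne (S := S) U.U₂_ne)
  rw [w_dual c U.U₂_ne]
  fin_cases c
  · change 0 ≤ 12 * (S.e 0 : ℤ) - (S.V 0).w U.U₂
    rw [U.w₀₂]; simp
  · change 0 ≤ 12 * (S.e 1 : ℤ) - (S.V 1).w U.U₂
    rw [U.w₁₂]; simp
  · change 0 ≤ 12 * (S.e 2 : ℤ) - (S.V 2).w U.U₂
    rw [U.w₂₂]; simp

theorem not_val_zero {R : Place k κ} {u : κ} (hu : u ≠ 0) (h : R.ord u = 0) : ¬ Val R u 0 := by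
  intro hv
  unfold Val at hv
  rw [map_zero, sub_zero, Fermat.FF.val_lt_one_iff] at hv
  rcases hv with hv | hv
  · exact hu hv
  · omega

theorem pos_of_w {c : Fin 3} {f : FL} (h : (S.V c).w f = 12 * S.e c) : 0 < (S.V c).v f := by
  refine (S.V c).pos_iff.mpr (Or.inr ?_)
  rw [h]
  have := S.e_pos c
  positivity

/-- **Separation of the components at ordinary points.** -/
theorem sep (c c' : Fin 3) (R : Place k κ) (hne : c ≠ c') (hR : R.ord U.ub = 0) :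
    ∃ b u, S.Hol x b ∧ (S.V c).Res b u ∧ ¬ Val R u 0 ∧ 0 < (S.V c').v b := by
  have hb := U.ub_ne
  have hbq : U.ub ^ q ≠ 0 := pow_ne_zero _ hb
  have hRq : R.ord (U.ub ^ q) = 0 := by rw [Fermat.FF.ord_pow, hR, mul_zero]
  have key₁ : (S.V 1).Res (dual q U.U₂) U.ub := by
    have := res_dual 1 (inv_ne_zero hb) U.res₁₂
    rwa [inv_inv] at this
  have key₂ : (S.V 2).Res (dual q U.U₂) U.ub := by
    have := res_dual 2 (inv_ne_zero hb) U.res₂₂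
    rwa [inv_inv] at this
  have key₃ : (S.V 2).Res (dual q U.U₁) (U.ub ^ q) := by
    have := res_dual 2 (inv_ne_zero hbq) U.res₂₁
    rwa [inv_inv] at this
  have p0 : 0 < (S.V 0).v (dual q U.U₂) := pos_of_w (by rw [w_dual 0 U.U₂_ne, U.w₀₂, sub_zero])
  have p1 : 0 < (S.V 1).v (dual q U.U₁) := pos_of_w (by rw [w_dual 1 U.U₁_ne, U.w₁₁, sub_zero])
  fin_cases c <;> fin_cases c'
  · exact absurd rfl hne
  · exact ⟨_, _, U.hol₂, U.res₀₂, not_val_zero hbq hRq, pos_of_w U.w₁₂⟩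
  · exact ⟨_, _, U.hol₂, U.res₀₂, not_val_zero hbq hRq, pos_of_w U.w₂₂⟩
  · exact ⟨_, _, U.hol_dual₂, key₁, not_val_zero hb hR, p0⟩
  · exact absurd rfl hne
  · exact ⟨_, _, U.hol₁, U.res₁₁, not_val_zero hb hR, pos_of_w U.w₂₁⟩
  · exact ⟨_, _, U.hol_dual₂, key₂, not_val_zero hb hR, p0⟩
  · exact ⟨_, _, U.hol_dual₁, key₃, not_val_zero hbq hRq, p1⟩
  · exact absurd rfl hne

end Units

end Surf

end Fermat.Agent.DR.S36
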