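import Fermat.Agent.Q2.W2Surf
import Fermat.Agent.DR.S36.UnitL2
import Fermat.Agent.DR.S36.UnitSep
import Fermat.Agent.DR.S36.SSUnit

/-!
# The modular units over `L` and their values at the three components; separation
-/

set_option autoImplicit false
set_option linter.unusedSectionVars false

noncomputable section

open AlgebraicCurve ModularCurve Fermat.Agent.RR Fermat.Agent.JRED

namespace Fermat.Agent.DR.S36.Unit

open Fermat.Agent.DR Fermat.Agent.DR.Mod Fermat.Agent.Q2.Ord Fermat.Agent.Q2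
open Fermat.Agent.DR.S36.L
open Fermat.Agent.DR.Nodes (regAlg mem_regAlg)

local notation "ℚbar" => AlgebraicClosure ℚ

section Elements

variable (L : Type) [Field L] [Algebra L ℚbar] (N q : ℕ) [NeZero N] [hq : Fact q.Prime]

theorem uF_mem_range : uF ℚbar (N) q ∈ (inc L (N * q)).fieldRange := uF_mem_F0

theorem exists_uAL : ∃ z : modularFunctionFieldFullC L (N * q * q),
    inc L (N * q * q) z = uA ℚbar N q := exists_inc_alpha (uF_mem_range L N q)

theorem exists_uBL : ∃ z : modularFunctionFieldFullC L (N * q * q),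
    inc L (N * q * q) z = uB ℚbar N q := exists_inc_beta (uF_mem_range L N q)

/-- `u_α` as a function defined over `L` -/
def uAL : modularFunctionFieldFullC L (N * q * q) := (exists_uAL L N q).choose

/-- `u_β` as a function defined over `L` -/
def uBL : modularFunctionFieldFullC L (N * q * q) := (exists_uBL L N q).choose

theorem inc_uAL : inc L (N * q * q) (uAL L N q) = uA ℚbar N q := (exists_uAL L N q).choose_spec

theorem inc_uBL : inc L (N * q * q) (uBL L N q) = uB ℚbar N q := (exists_uBL L N q).choose_spec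

theorem inc_scaled (f : modularFunctionFieldFullC L (N * q * q)) :
    inc L (N * q * q) (((q : modularFunctionFieldFullC L (N * q * q)) ^ 12)⁻¹ * f) =
      algebraMap ℚbar _ ((q : ℚbar) ^ 12)⁻¹ * inc L (N * q * q) f := by
  rw [map_mul, map_inv₀, map_pow, map_natCast, map_inv₀, map_pow, map_natCast]

end Elements

section Ctx

variable {A : ValuationSubring ℚbar} {k : Type} [Field k] {π : A →+* k}
  {N q : ℕ} [NeZero N] [hq : Fact q.Prime] [hchar : CharP k q]
  {w₁ : laurentBaseChange ℚbar (modularFunctionFieldFull (N * q)) ≃ₐ[ℚbar]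
      laurentBaseChange ℚbar (modularFunctionFieldFull (N * q))}
  {w₂ : laurentBaseChange ℚbar (modularFunctionFieldFull (N * q * q)) ≃ₐ[ℚbar]
      laurentBaseChange ℚbar (modularFunctionFieldFull (N * q * q))}
  (c : Ctx π w₁ w₂) (L : Type) [Field L] [Algebra L ℚbar] [IsInertiaField A L]

include c in
theorem expChar_k : ExpChar k q := inferInstance

theorem coe_ssj_pow : ((ssj k q N ^ q : modularFunctionFieldFullC k N) : LaurentSeries k) =
    uL k q ^ q := by
  rw [uL_eq_ssj k q N]; rfl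

theorem res0_uAL : (c.comp L 0).Res (uAL L N q) (ssj k q N) := by
  refine c.res0_iff.mpr ?_
  rw [inc_uAL, ← uL_eq_ssj k q N]
  exact gred_uA

theorem res0_uBL : (c.comp L 0).Res (uBL L N q) (ssj k q N ^ q) := by
  refine c.res0_iff.mpr ?_
  rw [inc_uBL, coe_ssj_pow]
  exact gred_uB

theorem res1_uAL : (c.comp L 1).Res (uAL L N q) (ssj k q N) := by
  refine c.res1_iff.mpr ?_
  rw [inc_uAL, ← uL_eq_ssj k q N]
  exact midRed_uA

theorem res1_uBL : (c.comp L 1).Res
    (((q : modularFunctionFieldFullC L (N * q * q)) ^ 12)⁻¹ * uBL L N q) (ssj k q N)⁻¹ := by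
  refine c.res1_iff.mpr ?_
  have h : (((ssj k q N)⁻¹ : modularFunctionFieldFullC k N) : LaurentSeries k) =
      (uL k q)⁻¹ := by rw [uL_eq_ssj k q N]; rfl
  rw [inc_scaled, inc_uBL, h]
  exact midRed_uB c.S.al

theorem res2_uAL : (c.comp L 2).Res
    (((q : modularFunctionFieldFullC L (N * q * q)) ^ 12)⁻¹ * uAL L N q)
      (ssj k q N ^ q)⁻¹ := by
  refine c.res2_iff.mpr ?_
  have h : (((ssj k q N ^ q)⁻¹ : modularFunctionFieldFullC k N) : LaurentSeries k) =
      (uL k q ^ q)⁻¹ := by rw [← coe_ssj_pow (N := N)]; rfl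
  rw [inc_scaled, inc_uAL, h]
  exact gred_w_uA c.S.al c.al2

theorem res2_uBL : (c.comp L 2).Res
    (((q : modularFunctionFieldFullC L (N * q * q)) ^ 12)⁻¹ * uBL L N q) (ssj k q N)⁻¹ := by
  refine c.res2_iff.mpr ?_
  have h : (((ssj k q N)⁻¹ : modularFunctionFieldFullC k N) : LaurentSeries k) =
      (uL k q)⁻¹ := by rw [uL_eq_ssj k q N]; rfl
  rw [inc_scaled, inc_uBL, h]
  exact gred_w_uB c.S.al c.al2

/-- `j(E₁) j(E₃)` over `L` -/
theorem ord_units_inc (P : Place ℚbar (modularFunctionFieldBar (N * q * q)))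
    {x : modularFunctionFieldFullC L (N * q * q)}
    (hx : inc L (N * q * q) x = jE1 ℚbar N q * jE3 ℚbar N q)
    (hP : inc L (N * q * q) x ∈ P.toValuationSubring) :
    P.ord (inc L (N * q * q) (uAL L N q)) = 0 ∧ P.ord (inc L (N * q * q) (uBL L N q)) = 0 := by
  rw [inc_uAL, inc_uBL]
  rw [hx] at hP
  exact ord_units P hP

/-- **The modular units of the surface.** -/
def surfUnits [Algebra (modularFunctionFieldFullC L (N * q * q))
      (modularFunctionFieldBar (N * q * q))]
    (halg : ∀ f, algebraMap (modularFunctionFieldFullC L (N * q * q))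
      (modularFunctionFieldBar (N * q * q)) f = inc L (N * q * q) f)
    {A₀ : ValuationSubring L}
    (S : Surf L ℚbar (modularFunctionFieldFullC L (N * q * q))
      (modularFunctionFieldBar (N * q * q)) k (modularFunctionFieldFullC k N) A₀ q)
    (hV : ∀ i, S.V i = c.comp L i) {x : modularFunctionFieldFullC L (N * q * q)}
    (hx : inc L (N * q * q) x = jE1 ℚbar N q * jE3 ℚbar N q) : S.Units x where
  U₁ := uAL L N q
  U₂ := uBL L N q
  ub := ssj k q N
  ub_ne := ssj_ne_zero
  res₀₁ := by rw [hV]; exact res0_uAL c L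
  res₁₁ := by rw [hV]; exact res1_uAL c L
  res₂₁ := by rw [hV]; exact res2_uAL c L
  res₀₂ := by rw [hV]; exact res0_uBL c L
  res₁₂ := by rw [hV]; exact res1_uBL c L
  res₂₂ := by rw [hV]; exact res2_uBL c L
  ord P hP := by
    rw [halg] at hP ⊢
    rw [halg]
    exact ord_units_inc L P hx hP

theorem w_of_res' (i : Fin 3) {f : modularFunctionFieldFullC L (N * q * q)}
    {u : modularFunctionFieldFullC k N} (hu : u ≠ 0)
    (h : (c.comp L i).Res (((q : modularFunctionFieldFullC L (N * q * q)) ^ 12)⁻¹ * f) u) :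
    (c.comp L i).w f = 12 * Ctx.mult q i := by
  have h1 := (c.comp L i).w_eq_zero_of_res h hu
  have hf : f ≠ 0 := by
    rintro rfl
    rw [mul_zero] at h
    exact (c.comp L i).ne_zero_of_res h hu rfl
  rw [(c.comp L i).w_mul (inv_ne_zero (pow_ne_zero _ (Ctx.q_ne L))) hf, (c.comp L i).w_inv,
    (c.comp L i).w_pow, c.comp_w_q] at h1
  push_cast at h1
  linarith

/-- **The values of `u_α`** (`Core.w_uα`). -/
theorem w_uAL : (c.V L).w 0 (uAL L N q) = 0 ∧ (c.V L).w 1 (uAL L N q) = 0 ∧
    (c.V L).w 2 (uAL L N q) = 12 := by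
  rw [← c.comp_w, ← c.comp_w, ← c.comp_w]
  refine ⟨(c.comp L 0).w_eq_zero_of_res (res0_uAL c L) ssj_ne_zero,
    (c.comp L 1).w_eq_zero_of_res (res1_uAL c L) ssj_ne_zero, ?_⟩
  rw [w_of_res' c L 2 (inv_ne_zero (pow_ne_zero _ ssj_ne_zero)) (res2_uAL c L)]
  rfl

/-- **The values of `u_β`** (`Core.w_uβ`). -/
theorem w_uBL : (c.V L).w 0 (uBL L N q) = 0 ∧ (c.V L).w 1 (uBL L N q) = 12 * (q - 1) ∧
    (c.V L).w 2 (uBL L N q) = 12 := by
  rw [← c.comp_w, ← c.comp_w, ← c.comp_w]
  refine ⟨(c.comp L 0).w_eq_zero_of_res (res0_uBL c L) (pow_ne_zero _ ssj_ne_zero), ?_, ?_⟩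
  · rw [w_of_res' c L 1 (inv_ne_zero ssj_ne_zero) (res1_uBL c L)]
    have := hq.out.one_lt
    change (12 : ℤ) * ((q - 1 : ℕ) : ℤ) = _
    rw [Nat.cast_sub this.le, Nat.cast_one]
  · rw [w_of_res' c L 2 (inv_ne_zero ssj_ne_zero) (res2_uBL c L)]
    rfl

theorem uAL_ne : uAL L N q ≠ 0 := by
  intro h
  have := inc_uAL L N q
  rw [h, map_zero] at this
  exact uA_ne_zero ℚbar N q this.symm

theorem uBL_ne : uBL L N q ≠ 0 := by
  intro h
  have := inc_uBL L N q
  rw [h, map_zero] at this
  exact uB_ne_zero ℚbar N q this.symm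

end Ctx

section Ordinary

variable {A : ValuationSubring ℚbar} {k : Type} [Field k] {π : A →+* k}
  {M q : ℕ} [NeZero M] [hq : Fact q.Prime]
  {w : laurentBaseChange ℚbar (modularFunctionFieldFull (M * q)) ≃ₐ[ℚbar]
      laurentBaseChange ℚbar (modularFunctionFieldFull (M * q))}
  [FunctionField ℚbar (modularFunctionFieldBar (M * q))]
  [FunctionField ℚbar (modularFunctionFieldBar M)]
  [FunctionField k (modularFunctionFieldFullC k M)] [IsAlgClosed k] [CharP k q]

/-- `ū` is a unit at the finite places which are not nodes. -/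
theorem ord_ssj_eq_zero {S : Setup π w} (hπ : Function.Surjective π) (hA : Mono.Arch π)
    {X : NodalDatum ℚbar (modularFunctionFieldBar (M * q)) k
      (modularFunctionFieldFullC k M) (modularFunctionFieldFullC k M) A π}
    (hX : IsModularNodal S X) {R : Place k (modularFunctionFieldFullC k M)}
    (hR : jRed k M ∈ R.toValuationSubring) (hne : ∀ s ∈ X.nodes, s.1 ≠ R) :
    R.ord (ssj k q M) = 0 := by
  have h1 := ord_ssj_nonneg (q := q) R (Fermat.FF.ord_nonneg_of_mem R hR)
  by_contra hcon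
  have h2 : 0 < R.ord (ssj k q M) := lt_of_le_of_ne h1 (Ne.symm hcon)
  obtain ⟨a, ha, ha1, ha2⟩ := hX.shift
  obtain ⟨s, hs, hsR⟩ := exists_node_of_ord_pos hX.complete hπ hA
    (u := uF ℚbar M q) (u₁ := ssj k q M) (by
      rw [ha, regAlg_sub_const]; exact uF_inv_mem_regAlg _ M q)
    (by rw [hX.eq₁]; exact redOne_uF S) ssj_ne_zero (P := R) (by
      rw [ha1, mem_sub_const_iff]; exact hR) h2
  exact hne s hs hsR

end Ordinary

end Fermat.Agent.DR.S36.Unit
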