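import Fermat.Agent.Q2.W2Compat
import Fermat.Agent.Q2.OrdInst
import Fermat.Agent.DR.S36.SurfInst
import Fermat.Agent.DR.S36.SepInf
import Fermat.Agent.DR.S36.UnitCtx

/-!
# The points of the arithmetic surface: `exists_δ`, `exists_δ_inf`, `sep_inf` for `surf c L`
-/

set_option autoImplicit false
set_option linter.unusedSectionVars false

noncomputable section

open AlgebraicCurve ModularCurve Fermat.Agent.RR Fermat.Agent.JRED

namespace Fermat.Agent.DR.S36

open Fermat.Agent.DR Fermat.Agent.DR.Mod Fermat.Agent.DR.S36.L Fermat.Agent.Q2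
open Fermat.Agent.JRED.ES (inclL inclL_apply)
open Fermat.Agent.S28 (jt jt_one_one)
open Fermat.Agent.Q2.Ord (StdEmb EmbRes SepAt jE₁ jE₂ jE₃ ssj)

attribute [local instance] Fermat.Agent.DR.S36.L.algInc

section

variable {A : ValuationSubring (AlgebraicClosure ℚ)} {k : Type} [Field k] {π : A →+* k}
  {N q : ℕ} [NeZero N] [NeZero q] [hq : Fact q.Prime] [hchar : CharP k q]
  {w₁ : laurentBaseChange (AlgebraicClosure ℚ) (modularFunctionFieldFull (N * q))
      ≃ₐ[AlgebraicClosure ℚ]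
      laurentBaseChange (AlgebraicClosure ℚ) (modularFunctionFieldFull (N * q))}
  {w₂ : laurentBaseChange (AlgebraicClosure ℚ) (modularFunctionFieldFull (N * q * q))
      ≃ₐ[AlgebraicClosure ℚ]
      laurentBaseChange (AlgebraicClosure ℚ) (modularFunctionFieldFull (N * q * q))}
  (c : Ctx π w₁ w₂) (L : Type) [Field L] [Algebra L (AlgebraicClosure ℚ)]
  [IsInertiaField A L]

/-- The middle embedding on `F_{Nq²}(ℚ̄) ⊂ ℚ̄((t))`. -/
def ctxι : modularFunctionFieldFullC (AlgebraicClosure ℚ) (N * q * q) →+*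
    LaurentSeries (AlgebraicClosure ℚ) :=
  c.ι.comp (castC (AlgebraicClosure ℚ) (N * q * q) (N * q * q) rfl)

theorem ctxι_jg {d : ℕ} (hd : d ∣ N * q * q)
    (h : jt (1 : (AlgebraicClosure ℚ)ˣ) d ∈
      modularFunctionFieldFullC (AlgebraicClosure ℚ) (N * q * q)) :
    ctxι c ⟨jt 1 d, h⟩ = c.ι (jg (AlgebraicClosure ℚ) (N * q * q) hd) :=
  congrArg c.ι (Subtype.ext (coe_castC (AlgebraicClosure ℚ) rfl _))

theorem ctx_isMidAt : IsMidAt (AlgebraicClosure ℚ) N q (N * q * q) c.ζ (ctxι c) where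
  of_mem x h hx := by
    have h1 : castC (AlgebraicClosure ℚ) (N * q * q) (N * q * q) rfl ⟨x, h⟩ =
        heckeAlphaBar (AlgebraicClosure ℚ) (N * q) q
          (castC (AlgebraicClosure ℚ) (N * q) (N * q) rfl ⟨x, hx⟩) := by
      apply Subtype.ext
      rw [coe_castC, coe_heckeAlphaBar, coe_castC]
    change c.ι (castC (AlgebraicClosure ℚ) (N * q * q) (N * q * q) rfl ⟨x, h⟩) = x
    rw [h1, c.mid.alpha, coe_castC]
  jt_top d h hd := by
    have h1 : d * q ^ 2 = q * (q * d) := by ring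
    have key : ∀ (m : ℕ) (_ : m = q * (q * d))
        (h : jt (1 : (AlgebraicClosure ℚ)ˣ) m ∈
          modularFunctionFieldFullC (AlgebraicClosure ℚ) (N * q * q)),
        ctxι c ⟨jt 1 m, h⟩ = jt (c.ζ ^ d) d := by
      rintro m rfl h
      rw [ctxι_jg c (dvd_top hd), mid_high c.S.al c.mid hd]
    exact key _ h1 h

theorem ctx_stdEmb : StdEmb (L := L) (N := N) (q := q) c.ζ (ctxι c) (fun i => (c.X L i).e) where
  mid := ctx_isMidAt c
  e₀ _ := rfl
  e₁ f := by
    change c.ι (inc L _ f) = c.ι (castC (AlgebraicClosure ℚ) (N * q * q) (N * q * q) rfl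
      (inclF (algebraMap L (AlgebraicClosure ℚ)) (N * q * q) f))
    congr 1
  e₂_jE₁ := by
    have h := Ctx.e2_jL_low c (L := L) (one_dvd N) (one_dvd (N * q * q))
    rw [mul_one] at h
    exact h
  e₂_jE₃ := by
    have h1 : q * (q * 1) = q * q := by rw [mul_one]
    have key : ∀ (m : ℕ) (_ : m = q * (q * 1)) (hm : m ∣ N * q * q),
        (c.X L 2).e (Ctx.jL L hm) = jt 1 1 := by
      rintro m rfl hm
      exact Ctx.e2_jL_high c (one_dvd N) hm
    exact key (q * q) h1.symm ⟨N, by ring⟩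

theorem ctx_embRes : EmbRes (surf c L) π (fun i => (c.X L i).e) := by
  intro i f u hu
  exact ⟨⟨u, (c.X L i).res f u hu⟩, rfl, hu⟩

omit [NeZero q] in
theorem charZero_L (L : Type) [Field L] [Algebra L (AlgebraicClosure ℚ)] : CharZero L :=
  (RingHom.charZero_iff (algebraMap L (AlgebraicClosure ℚ)).injective).mpr inferInstance

/-- **The components are disjoint away from the nodes.** -/
theorem ctx_sep {i i' : Fin 3} (hii : i ≠ i') {R : Place k (modularFunctionFieldFullC k N)}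
    (hss : R.ord (ssj k q N) = 0) :
    ∃ (b : modularFunctionFieldFullC L (N * q * q)) (u : modularFunctionFieldFullC k N),
      (surf c L).Hol (jE₁ L N q * jE₃ L N q) b ∧ ((surf c L).V i).Res b u ∧ ¬ Val R u 0 ∧
        0 < ((surf c L).V i').v b := by
  refine (Unit.surfUnits c L (fun _ => rfl) (surf c L) (fun _ => rfl) ?_).sep i i' R hii hss
  have h1 : inc L (N * q * q) (jE₁ L N q) = Unit.jE1 (AlgebraicClosure ℚ) N q := by
    apply Subtype.ext
    rw [Unit.coe_jE1, ← jt_one_one]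
    exact coeffMap_jt_one (algebraMap L (AlgebraicClosure ℚ)) 1
  have h3 : inc L (N * q * q) (jE₃ L N q) = Unit.jE3 (AlgebraicClosure ℚ) N q := by
    apply Subtype.ext
    rw [Unit.coe_jE3, ← jt_one_one, Fermat.Agent.S28.qExpand_jt, Fermat.Agent.S28.qExpand_jt,
      mul_one]
    exact coeffMap_jt_one (algebraMap L (AlgebraicClosure ℚ)) (q * q)
  rw [map_mul, h1, h3]

/-- **`Points.exists_δ` for `surf c L`.** -/
theorem ctx_exists_δ (h4 : q = 2 ∨ q = 3 ∨ 4 ∣ N) {R : Place k (modularFunctionFieldFullC k N)}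
    (hy : jRed k N ∈ R.toValuationSubring) (hss : R.ord (ssj k q N) = 0) :
    ∃ δ : modularFunctionFieldFullC L (N * q * q), ((surf c L).V 1).w δ = 1 ∧
      (surf c L).InLoc (jE₁ L N q * jE₃ L N q) 1 R (δ ^ (surf c L).e 1 / q) ∧
      (surf c L).InLoc (jE₁ L N q * jE₃ L N q) 1 R (q / δ ^ (surf c L).e 1) := by
  have := charZero_L L
  exact (ctx_stdEmb c L).exists_delta (surf c L) (ctx_embRes c L) c.S.surj c.hA c.hζ rfl h4 hy hss
    (fun c' hc' => ctx_sep c L (Ne.symm hc') hss)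

/-- **`Points.exists_δ_inf` for `surf c L`.** -/
theorem ctx_exists_δ_inf {R : Place k (modularFunctionFieldFullC k N)}
    (hy : jRed k N ∉ R.toValuationSubring) :
    ∃ δ : modularFunctionFieldFullC L (N * q * q), ((surf c L).V 1).w δ = 1 ∧
      (surf c L).InLoc (jE₁ L N q * jE₃ L N q)⁻¹ 1 R (δ ^ (surf c L).e 1 / q) ∧
      (surf c L).InLoc (jE₁ L N q * jE₃ L N q)⁻¹ 1 R (q / δ ^ (surf c L).e 1) := by
  have := charZero_L L
  exact (ctx_stdEmb c L).exists_delta_inf (surf c L) (ctx_embRes c L) c.S.surj c.hA c.hζ rfl hy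

/-- **`Points.sep_inf` for `surf c L`.** -/
theorem ctx_sep_inf {i i' : Fin 3} {R R' : Place k (modularFunctionFieldFullC k N)}
    (hii : i ≠ i') (hR : jRed k N ∉ R.toValuationSubring)
    (hR' : jRed k N ∉ R'.toValuationSubring) :
    ¬ (surf c L).SamePt (jE₁ L N q * jE₃ L N q)⁻¹ i R i' R' := by
  have := charZero_L L
  exact EmbJ.sep_inf (surf c L) (ctx_stdEmb c L).embJ (ctx_embRes c L) c.S.surj c.hA c.hζ hii hR
    hR'

end

end Fermat.Agent.DR.S36
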