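import Fermat.Agent.DR.S36.Build3
import Fermat.Agent.DR.S36.SurfInst
import Fermat.Agent.DR.S36.UnitCtx
import Fermat.Agent.Q2.OrdInst

/-!
# The special points of the surface of `X₀(Nq²)`: the fields of `Surf.Points`

`pts_y_mem`, `pts_glue`, `pts_exists_z` for `surf c L`, `T = nodes`, `U`, `sp` of `ctxNodes`.
-/

set_option autoImplicit false
set_option linter.unusedSectionVars false

noncomputable section

open AlgebraicCurve ModularCurve Fermat.Agent.RR Fermat.Agent.JRED

namespace Fermat.Agent.DR.S36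

open Fermat.Agent.DR Fermat.Agent.DR.Mod Fermat.Agent.DR.Mod2 Fermat.Agent.DR.ModGal
open Fermat.Agent.JRED.ESGalois Fermat.Agent.JRED.ESSemi Fermat.Agent.Q2.Ord
open S36.L S36.Unit
open Fermat.Agent.Q2 (Ctx)

local notation "ℚbar" => AlgebraicClosure ℚ

attribute [local instance] Fermat.Agent.DR.S36.L.algInc

theorem mem_restrictAlong_iff' {K F F' : Type*} [Field K] [Field F] [Field F'] [Algebra K F]
    [Algebra K F'] (φ : F →ₐ[K] F') (hφ : φ.toRingHom.IsIntegral) (P : Place K F') {f : F} :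
    f ∈ (P.restrictAlong φ hφ).toValuationSubring ↔ φ f ∈ P.toValuationSubring := Iff.rfl

variable {A : ValuationSubring ℚbar} {k : Type} [Field k]
  {N q : ℕ} [NeZero N] [hq : Fact q.Prime] [hchar : CharP k q] [IsAlgClosed k]
  {π : A →+* k}
  {w₁ : laurentBaseChange ℚbar (modularFunctionFieldFull (N * q)) ≃ₐ[ℚbar]
      laurentBaseChange ℚbar (modularFunctionFieldFull (N * q))}
  {w₂ : laurentBaseChange ℚbar (modularFunctionFieldFull (N * q * q)) ≃ₐ[ℚbar]
      laurentBaseChange ℚbar (modularFunctionFieldFull (N * q * q))}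
  (c : Ctx π w₁ w₂) {L : Type} [Field L] [Algebra L ℚbar] [IsInertiaField A L]
  [FunctionField ℚbar (modularFunctionFieldBar (N * q * q))]
  [FunctionField ℚbar (modularFunctionFieldBar (N * q))]
  [FunctionField ℚbar (modularFunctionFieldBar N)]
  [FunctionField k (modularFunctionFieldFullC k N)]
  {X : NodalDatum ℚbar (modularFunctionFieldBar (N * q)) k
      (modularFunctionFieldFullC k N) (modularFunctionFieldFullC k N) A π}
  {r : Place ℚbar (modularFunctionFieldBar N) → Place k (modularFunctionFieldFullC k N)}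
  (hdeg : DegreeInput N k) (hgood : GoodReduction N k)
  (hr : PlaceRed (hdeg.redDatum c.S.surj) r) (hX : IsModularNodal c.S X)
  (hα : (heckeAlphaBar ℚbar (N * q) q).toRingHom.IsIntegral)
  (hβ : (heckeBetaBar ℚbar (N * q) q).toRingHom.IsIntegral)

theorem pts_y_mem (s : (ctxNodes c L hdeg hgood hr hX hα hβ).S) :
    jRed k N ∈ ((ctxNodes c L hdeg hgood hr hX hα hβ).sp s).toValuationSubring :=
  mem_node_fst hX s

/-- The chart function is regular on `U s`. -/
theorem jE1_mem_of_mem_U (s : (ctxNodes c L hdeg hgood hr hX hα hβ).S)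
    {P : Place ℚbar (modularFunctionFieldBar (N * q * q))}
    (hP : P ∈ (ctxNodes c L hdeg hgood hr hX hα hβ).U s) :
    jE1 ℚbar N q ∈ P.toValuationSubring := by
  have h1 := (mem_ctxU c hdeg hgood hr hX hα hβ s P).mp hP
  have h2 := (modMono c.S c.hqN hdeg hgood hr).αx_mem (mem_node_fst hX s) h1
  have h3 : (modMono c.S c.hqN hdeg hgood hr).α (modMono c.S c.hqN hdeg hgood hr).x =
      Fermat.Agent.JRED.jL ℚbar (N * q) := alpha_jBar
  rw [h3] at h2
  have h4 : heckeAlphaBar ℚbar (N * q) q (Fermat.Agent.JRED.jL ℚbar (N * q)) ∈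
    P.toValuationSubring := (mem_restrictAlong_iff' _ hα P).mp h2
  rwa [alpha_jL] at h4

theorem jE_mem_of_mem_U (s : (ctxNodes c L hdeg hgood hr hX hα hβ).S)
    {P : Place ℚbar (modularFunctionFieldBar (N * q * q))}
    (hP : P ∈ (ctxNodes c L hdeg hgood hr hX hα hβ).U s) :
    jE1 ℚbar N q * jE3 ℚbar N q ∈ P.toValuationSubring := by
  have h1 := jE1_mem_of_mem_U c hdeg hgood hr hX hα hβ s hP
  have h2 := jq_mem_of_j_mem q (coe_jE1 ℚbar N q) (coe_jE2 ℚbar N q) _ h1
  exact mul_mem h1 (j3_mem_of_j2_mem q (coe_jE2 ℚbar N q) (coe_jE3 ℚbar N q) _ h2)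

theorem inc_jE₁' (L : Type) [Field L] [Algebra L ℚbar] (N q : ℕ) [NeZero N] [Fact q.Prime] :
    inc L (N * q * q) (jE₁ L N q) = jE1 ℚbar N q := by
  apply Subtype.ext
  rw [coe_inc, coe_jE₁, coe_jE1]
  exact coeffMap_jqModC _

theorem inc_jE₃' (L : Type) [Field L] [Algebra L ℚbar] (N q : ℕ) [NeZero N] [Fact q.Prime] :
    inc L (N * q * q) (jE₃ L N q) = jE3 ℚbar N q := by
  apply Subtype.ext
  rw [coe_inc, coe_jE₃, coe_jE3]
  have h : coeffMap (algebraMap L ℚbar) (qExpand L (q * q) (jqModC L)) =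
      qExpand ℚbar q (qExpand ℚbar q (jqModC ℚbar)) := by
    rw [coeffMap_qExpand, coeffMap_jqModC, qExpand_qExpand]
  exact h

theorem inc_chart (L : Type) [Field L] [Algebra L ℚbar] (N q : ℕ) [NeZero N] [Fact q.Prime] :
    inc L (N * q * q) (jE₁ L N q * jE₃ L N q) = jE1 ℚbar N q * jE3 ℚbar N q := by
  rw [map_mul, inc_jE₁', inc_jE₃']

/-- **Points.glue** -/
theorem pts_glue (s : (ctxNodes c L hdeg hgood hr hX hα hβ).S)
    (b : modularFunctionFieldFullC L (N * q * q))
    (hb : (surf c L).Hol (jE₁ L N q * jE₃ L N q) b) :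
    ∃ a : k, ∀ i u, ((surf c L).V i).Res b u →
      Val ((ctxNodes c L hdeg hgood hr hX hα hβ).sp s) u a := by
  choose g hg using fun i => (c.comp L i).exists_res (hb.1 i)
  obtain ⟨a, ha⟩ := ctx_glue_reg c hdeg hgood hr hX hα hβ s b g hg (fun P hP => by
    refine hb.2 P ?_
    have h1 := jE_mem_of_mem_U c hdeg hgood hr hX hα hβ s hP
    rw [← inc_chart L N q] at h1
    exact h1)
  refine ⟨a, fun i u hu => ?_⟩
  rw [(c.comp L i).res_unique hu (hg i)]
  exact ha i

/-- **Points.exists_z** -/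
theorem pts_exists_z (hM : Rigid N) (s : (ctxNodes c L hdeg hgood hr hX hα hβ).S) :
    ∃ z : modularFunctionFieldFullC L (N * q * q), ((surf c L).V 0).w z = 0 ∧
      ((surf c L).V 1).w z = 0 ∧ ((surf c L).V 2).w z = 1 ∧
      ∀ P ∈ (ctxNodes c L hdeg hgood hr hX hα hβ).U s,
        P.ord (algebraMap (modularFunctionFieldFullC L (N * q * q))
          (modularFunctionFieldBar (N * q * q)) z) = 0 := by
  obtain ⟨z, -, Z, -⟩ := (ctxCoords c hdeg hgood hr hX hα hβ hM).exists_z c.S.surj c.w_q.1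
    c.w_q.2.2.2 s
  refine ⟨z, Z.w₀, ?_, Z.w₂, Z.ord⟩
  have h := Z.w₁
  rw [mul_zero] at h
  exact h

end Fermat.Agent.DR.S36
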