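import Fermat.Agent.DR.S36.SurfInst
import Fermat.Agent.Q2.OrdInst
import Fermat.Agent.JRED.DescentMain
import Fermat.Agent.JAN.Degree

/-!
# The two charts of the arithmetic surface of `X₀(Nq²)`: `x = j(E₁) j(E₃)` and `x⁻¹`
-/

set_option autoImplicit false
set_option linter.unusedSectionVars false

noncomputable section

open AlgebraicCurve ModularCurve Fermat.Agent.RR Fermat.Agent.JRED

namespace Fermat.Agent.DR.S36

open Fermat.Agent.DR Fermat.Agent.DR.Mod Fermat.Agent.DR.S36.L Fermat.Agent.Q2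
open Fermat.Agent.JRED.ES (inclL inclL_apply)
open Fermat.Agent.S28 (jt jt_one_one)
open Fermat.Agent.Q2.Ord (jE₁ jE₂ jE₃)

attribute [local instance] Fermat.Agent.DR.S36.L.algInc

section Poles

variable {K F F' : Type*} [Field K] [Field F] [Field F'] [Algebra K F] [Algebra K F']
  [FunctionField K F] [FunctionField K F']

theorem polesOf_mul_of {f g : F} (hf : f ≠ 0) (hg : g ≠ 0)
    (h : ∀ v : Place K F, (0 ≤ v.ord f ∧ 0 ≤ v.ord g) ∨ (v.ord f ≤ 0 ∧ v.ord g ≤ 0)) :
    polesOf (K := K) (f * g) = polesOf (K := K) f + polesOf (K := K) g := by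
  ext v
  rw [Finsupp.add_apply, polesOf_apply, polesOf_apply, polesOf_apply, v.ord_mul hf hg]
  rcases h v with ⟨h1, h2⟩ | ⟨h1, h2⟩ <;> omega

theorem degree_polesOf_along [IsAlgClosed K] (φ : F →ₐ[K] F') (hfin : FiniteAlong K φ) (x : F) :
    Divisor.degree (polesOf (K := K) (φ x)) =
      finrankAlong K φ * Divisor.degree (polesOf (K := K) x) := by
  let _ := algebraAlong φ
  have : IsScalarTower K F F' := isScalarTower_along φ
  have : FiniteDimensional F F' := hfin
  exact DescentB.degree_polesOf_algebraMap (K := K) (F₁ := F') x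

end Poles

section JJ

variable (L : Type) [Field L] [Algebra ℚ L] [IsAlgClosed L] (N q : ℕ) [NeZero N] [NeZero q]
  [hq : Fact q.Prime]

open Fermat.Agent.DR.S36.Unit

theorem jE_mem_iff (V : ValuationSubring (laurentBaseChange L (modularFunctionFieldFull (N * q * q)))) :
    jE1 L N q ∈ V ↔ jE3 L N q ∈ V := by
  rw [j_mem_iff_jq_mem q (coe_jE1 L N q) (coe_jE2 L N q) V]
  exact ⟨j3_mem_of_j2_mem q (coe_jE2 L N q) (coe_jE3 L N q) V,
    j2_mem_of_j3_mem q (coe_jE2 L N q) (coe_jE3 L N q) V⟩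

theorem jE1_ne_zero : jE1 L N q ≠ 0 := by
  intro h
  have h1 := coe_jE1 L N q
  rw [h] at h1
  exact jqModC_ne_zero h1.symm

theorem jE3_ne_zero : jE3 L N q ≠ 0 := by
  intro h
  have h1 := coe_jE3 L N q
  rw [h] at h1
  exact (_root_.map_ne_zero _).mpr ((_root_.map_ne_zero _).mpr jqModC_ne_zero) h1.symm

theorem jE_prod_inv_mem (v : Place L (laurentBaseChange L (modularFunctionFieldFull (N * q * q))))
    (h : (jE1 L N q * jE3 L N q)⁻¹ ∈ v.toValuationSubring) :
    (jE1 L N q)⁻¹ ∈ v.toValuationSubring ∧ (jE3 L N q)⁻¹ ∈ v.toValuationSubring := by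
  have h1 := jE1_ne_zero L N q
  have h3 := jE3_ne_zero L N q
  have hiff := jE_mem_iff L N q v.toValuationSubring
  rw [mem_iff_ord_nonneg, mem_iff_ord_nonneg] at hiff
  rw [mem_iff_ord_nonneg, v.ord_inv, v.ord_mul h1 h3] at h
  rw [mem_iff_ord_nonneg, mem_iff_ord_nonneg, v.ord_inv, v.ord_inv]
  constructor <;> by_contra hcon <;> push Not at hcon
  · have h4 := hiff.mp (by omega)
    omega
  · have h4 := hiff.mpr (by omega)
    omega

end JJ

section Main

variable {A : ValuationSubring (AlgebraicClosure ℚ)} {k : Type} [Field k] {π : A →+* k}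
  {N q : ℕ} [NeZero N] [NeZero q] [hq : Fact q.Prime] [hchar : CharP k q]
  {w₁ : laurentBaseChange (AlgebraicClosure ℚ) (modularFunctionFieldFull (N * q))
      ≃ₐ[AlgebraicClosure ℚ]
      laurentBaseChange (AlgebraicClosure ℚ) (modularFunctionFieldFull (N * q))}
  {w₂ : laurentBaseChange (AlgebraicClosure ℚ) (modularFunctionFieldFull (N * q * q))
      ≃ₐ[AlgebraicClosure ℚ]
      laurentBaseChange (AlgebraicClosure ℚ) (modularFunctionFieldFull (N * q * q))}
  (c : Ctx π w₁ w₂) (L : Type) [Field L] [Algebra L (AlgebraicClosure ℚ)] [IsInertiaField A L]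

local notation "ℚbar" => AlgebraicClosure ℚ

theorem jL_one : Ctx.jL L (((one_dvd N).mul_right q).mul_right q) = jE₁ L N q := rfl

theorem jL_top : Ctx.jL L (dvd_top (N := N) (q := q) (one_dvd N)) = jE₃ L N q :=
  Subtype.ext (by
    change jt 1 (q * (q * 1)) = jt 1 (q * q)
    rw [mul_one])

theorem inc_jE₁ : inc L (N * q * q) (jE₁ L N q) = Unit.jE1 ℚbar N q := by
  apply Subtype.ext
  rw [Unit.coe_jE1, ← jL_one L, Ctx.inc_jL, coe_jg, jt_one_one]

theorem inc_jE₃ : inc L (N * q * q) (jE₃ L N q) = Unit.jE3 ℚbar N q := by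
  have h1 : inc L (N * q * q) (jE₃ L N q) =
      heckeBetaBar ℚbar (N * q) q (heckeBetaBar ℚbar N q (jg ℚbar N (one_dvd N))) := by
    rw [← jL_top L, Ctx.inc_jL, beta_jg, beta_jg]
  rw [h1, Unit.jE3]
  congr 2
  apply Subtype.ext
  rw [coe_jg, jt_one_one]
  exact (Unit.coe_jL _).symm

theorem jE1_eq : Unit.jE1 ℚbar N q =
    heckeAlphaBar ℚbar (N * q) q (heckeAlphaBar ℚbar N q (jBar N)) := by
  apply Subtype.ext
  rw [Unit.coe_jE1, coe_heckeAlphaBar, coe_heckeAlphaBar, coe_jBar]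

theorem jE3_eq : Unit.jE3 ℚbar N q =
    heckeBetaBar ℚbar (N * q) q (heckeBetaBar ℚbar N q (jBar N)) := by
  apply Subtype.ext
  rw [Unit.coe_jE3, coe_heckeBetaBar, coe_heckeBetaBar, coe_jBar]

variable {L}

theorem res_jE₁ : (c.X L 0).Res (jE₁ L N q) (jRed k N) ∧
    (c.X L 1).Res (jE₁ L N q) (jRed k N) ∧
    (c.X L 2).Res (jE₁ L N q) (jRed k N ^ (q * q)) := by
  obtain ⟨h0, h1, h2⟩ := c.red_low (L := L) (one_dvd N)
  rw [Ctx.jt_pow_char₂, jt_one_one] at h2
  rw [jt_one_one] at h0 h1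
  exact ⟨h0, h1, h2⟩

theorem res_jE₃ : (c.X L 0).Res (jE₃ L N q) (jRed k N ^ (q * q)) ∧
    (c.X L 1).Res (jE₃ L N q) (jRed k N) ∧
    (c.X L 2).Res (jE₃ L N q) (jRed k N) := by
  obtain ⟨h0, h1, h2⟩ := c.red_top (L := L) (one_dvd N)
  rw [Ctx.jt_pow_char₂, jt_one_one, jL_top] at h0
  rw [jt_one_one, jL_top] at h1 h2
  exact ⟨h0, h1, h2⟩

variable (q) in
/-- exponents of the residues of `x` -/
def nExp : Fin 3 → ℕ := ![1 + q * q, 2, q * q + 1]

theorem nExp_pos (i : Fin 3) : 0 < nExp q i := by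
  fin_cases i
  · change 0 < 1 + q * q
    omega
  · exact two_pos
  · change 0 < q * q + 1
    omega

theorem res_x (i : Fin 3) :
    (c.X L i).Res (jE₁ L N q * jE₃ L N q) (jRed k N ^ nExp q i) := by
  obtain ⟨a0, a1, a2⟩ := res_jE₁ c (L := L)
  obtain ⟨b0, b1, b2⟩ := res_jE₃ c (L := L)
  fin_cases i
  · have h := EmbV.Res.mul _ a0 b0
    rw [← pow_succ'] at h
    change (c.X L 0).Res _ (jRed k N ^ (1 + q * q))
    rwa [add_comm]
  · have h := EmbV.Res.mul _ a1 b1
    rw [← sq] at h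
    exact h
  · have h := EmbV.Res.mul _ a2 b2
    rw [← pow_succ] at h
    exact h

theorem jRed_ne_chart : jRed k N ≠ 0 := fun h =>
  Fermat.Agent.JRED.transcendental_jRed k N (h ▸ isAlgebraic_zero)

theorem res_x_inv (i : Fin 3) :
    (c.X L i).Res (jE₁ L N q * jE₃ L N q)⁻¹ ((jRed k N)⁻¹ ^ nExp q i) := by
  rw [inv_pow]
  exact EmbV.Res.inv _ (res_x c i) (pow_ne_zero _ jRed_ne_chart)

variable (L) in
theorem exists_low (f : modularFunctionFieldFullC L N) {u : modularFunctionFieldFullC k N}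
    (hf : GRed π (inc L N f : LaurentSeries ℚbar) (u : LaurentSeries k)) :
    ∃ b : modularFunctionFieldFullC L (N * q * q),
      inc L (N * q * q) b =
        heckeAlphaBar ℚbar (N * q) q (heckeAlphaBar ℚbar N q (inc L N f)) ∧
      (c.X L 0).Res b u ∧ (c.X L 1).Res b u ∧ ∃ v, (c.X L 2).Res b v := by
  obtain ⟨z, hz⟩ := exists_inc_alpha (L := L) (M := N) (q := q) (x := inc L N f) ⟨f, rfl⟩
  obtain ⟨b, hb⟩ := exists_inc_alpha (L := L) (M := N * q) (q := q) (x := inc L (N * q) z)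
    ⟨z, rfl⟩
  rw [hz] at hb
  refine ⟨b, hb, ?_, ?_, ?_⟩
  · rw [c.res0_iff, hb, coe_heckeAlphaBar, coe_heckeAlphaBar]
    exact hf
  · rw [c.res1_iff', hb, c.mid.alpha, coe_heckeAlphaBar]
    exact hf
  · have h1 : GRed π (w₂ (inc L _ b) : LaurentSeries ℚbar)
        (qExpand k q (qExpand k q (u : LaurentSeries k))) := by
      rw [hb, c.al2.alpha, c.S.al.alpha, coe_heckeBetaBar, coe_heckeBetaBar]
      exact Mod.GRed.qExpand (Mod.GRed.qExpand hf q) q
    exact ⟨⟨_, c.res_mem 2 b _ h1⟩, h1⟩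

variable (L) in
theorem exists_top (f : modularFunctionFieldFullC L N) {u : modularFunctionFieldFullC k N}
    (hf : GRed π (inc L N f : LaurentSeries ℚbar) (u : LaurentSeries k)) :
    ∃ b : modularFunctionFieldFullC L (N * q * q),
      inc L (N * q * q) b =
        heckeBetaBar ℚbar (N * q) q (heckeBetaBar ℚbar N q (inc L N f)) ∧
      (∃ v, (c.X L 0).Res b v) ∧ (c.X L 1).Res b u ∧ (c.X L 2).Res b u := by
  obtain ⟨z, hz⟩ := exists_inc_beta (L := L) (M := N) (q := q) (x := inc L N f) ⟨f, rfl⟩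
  obtain ⟨b, hb⟩ := exists_inc_beta (L := L) (M := N * q) (q := q) (x := inc L (N * q) z)
    ⟨z, rfl⟩
  rw [hz] at hb
  refine ⟨b, hb, ?_, ?_, ?_⟩
  · have h1 : GRed π (inc L _ b : LaurentSeries ℚbar)
        (qExpand k q (qExpand k q (u : LaurentSeries k))) := by
      rw [hb, coe_heckeBetaBar, coe_heckeBetaBar]
      exact Mod.GRed.qExpand (Mod.GRed.qExpand hf q) q
    exact ⟨⟨_, c.res_mem 0 b _ h1⟩, h1⟩
  · refine c.beta1 hb ?_
    change GRed π (w₁ (heckeBetaBar ℚbar N q (inc L N f)) : LaurentSeries ℚbar) _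
    rw [c.S.al.beta, coe_heckeAlphaBar]
    exact hf
  · rw [c.res2_iff, hb, c.al2.beta, c.S.al.beta, coe_heckeAlphaBar, coe_heckeAlphaBar]
    exact hf

theorem algMap_eq (f : modularFunctionFieldFullC L (N * q * q)) :
    algebraMap (modularFunctionFieldFullC L (N * q * q)) (modularFunctionFieldBar (N * q * q)) f =
      inc L (N * q * q) f := rfl

theorem nonneg_of_res {i : Fin 3} {b : modularFunctionFieldFullC L (N * q * q)}
    {u : modularFunctionFieldFullC k N} (h : (c.X L i).Res b u) :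
    0 ≤ ((surf c L).V i).v b := ((surf c L).V i).nonneg h

theorem hol_of {x b : modularFunctionFieldFullC L (N * q * q)}
    (h0 : ∃ u, (c.X L 0).Res b u) (h1 : ∃ u, (c.X L 1).Res b u) (h2 : ∃ u, (c.X L 2).Res b u)
    (h : ∀ P : Place ℚbar (modularFunctionFieldBar (N * q * q)),
      inc L (N * q * q) x ∈ P.toValuationSubring → inc L (N * q * q) b ∈ P.toValuationSubring) :
    (surf c L).Hol x b := by
  refine ⟨fun i => ?_, h⟩
  fin_cases i
  · exact nonneg_of_res c h0.choose_spec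
  · exact nonneg_of_res c h1.choose_spec
  · exact nonneg_of_res c h2.choose_spec

/-- functions regular where `φ(x)` is -/
theorem mem_of_regAlg {M M' : ℕ} [NeZero M] [NeZero M']
    (φ : modularFunctionFieldBar M →ₐ[ℚbar] modularFunctionFieldBar M')
    {x f : modularFunctionFieldBar M} (hf : f ∈ Nodes.regAlg ℚbar x)
    (P : Place ℚbar (modularFunctionFieldBar M')) (hP : φ x ∈ P.toValuationSubring) :
    φ f ∈ P.toValuationSubring :=
  hf (P.restrictAlong φ (isIntegral_modular ℚbar φ)) hP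

variable (hdeg : DegreeInput N k) (hgood : GoodReduction N k)

include hdeg hgood in
/-- Lifting functions on the components, chart `x`. -/
theorem exists_lift_x (i : Fin 3) {u : modularFunctionFieldFullC k N}
    (hu : u ∈ Nodes.regAlg k (jRed k N)) :
    ∃ b, (surf c L).Hol (jE₁ L N q * jE₃ L N q) b ∧ (c.X L i).Res b u := by
  obtain ⟨f, hf, hfu⟩ := exists_lift_j L hq.out c.hA hdeg c.S.surj hgood hu
  have key : ∀ P : Place ℚbar (modularFunctionFieldBar (N * q * q)),
      inc L (N * q * q) (jE₁ L N q * jE₃ L N q) ∈ P.toValuationSubring →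
      Unit.jE1 ℚbar N q ∈ P.toValuationSubring ∧ Unit.jE3 ℚbar N q ∈ P.toValuationSubring := by
    intro P hP
    rw [map_mul, inc_jE₁, inc_jE₃] at hP
    exact ⟨(Unit.jE_mem _ hP).1, (Unit.jE_mem _ hP).2.2⟩
  obtain ⟨b, hb, b0, b1, b2⟩ := exists_low c L f hfu
  obtain ⟨b', hb', b0', b1', b2'⟩ := exists_top c L f hfu
  have hol : (surf c L).Hol (jE₁ L N q * jE₃ L N q) b := by
    refine hol_of c ⟨_, b0⟩ ⟨_, b1⟩ b2 fun P hP => ?_
    rw [hb]
    refine mem_of_regAlg ((heckeAlphaBar ℚbar (N * q) q).comp (heckeAlphaBar ℚbar N q)) hf P ?_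
    rw [AlgHom.comp_apply, ← jE1_eq]
    exact (key P hP).1
  have hol' : (surf c L).Hol (jE₁ L N q * jE₃ L N q) b' := by
    refine hol_of c b0' ⟨_, b1'⟩ ⟨_, b2'⟩ fun P hP => ?_
    rw [hb']
    refine mem_of_regAlg ((heckeBetaBar ℚbar (N * q) q).comp (heckeBetaBar ℚbar N q)) hf P ?_
    rw [AlgHom.comp_apply, ← jE3_eq]
    exact (key P hP).2
  fin_cases i
  · exact ⟨b, hol, b0⟩
  · exact ⟨b, hol, b1⟩
  · exact ⟨b', hol', b2'⟩

include hdeg hgood in
/-- Lifting functions on the components, chart `x⁻¹`. -/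
theorem exists_lift_x_inv (i : Fin 3) {u : modularFunctionFieldFullC k N}
    (hu : u ∈ Nodes.regAlg k (jRed k N)⁻¹) :
    ∃ b, (surf c L).Hol (jE₁ L N q * jE₃ L N q)⁻¹ b ∧ (c.X L i).Res b u := by
  obtain ⟨f, hf, hfu⟩ := exists_lift_j_inv L hq.out c.hA hdeg c.S.surj hgood hu
  have key : ∀ P : Place ℚbar (modularFunctionFieldBar (N * q * q)),
      inc L (N * q * q) (jE₁ L N q * jE₃ L N q)⁻¹ ∈ P.toValuationSubring →
      (Unit.jE1 ℚbar N q)⁻¹ ∈ P.toValuationSubring ∧
        (Unit.jE3 ℚbar N q)⁻¹ ∈ P.toValuationSubring := by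
    intro P hP
    rw [map_inv₀, map_mul, inc_jE₁, inc_jE₃] at hP
    exact jE_prod_inv_mem ℚbar N q P hP
  obtain ⟨b, hb, b0, b1, b2⟩ := exists_low c L f hfu
  obtain ⟨b', hb', b0', b1', b2'⟩ := exists_top c L f hfu
  have hol : (surf c L).Hol (jE₁ L N q * jE₃ L N q)⁻¹ b := by
    refine hol_of c ⟨_, b0⟩ ⟨_, b1⟩ b2 fun P hP => ?_
    rw [hb]
    refine mem_of_regAlg ((heckeAlphaBar ℚbar (N * q) q).comp (heckeAlphaBar ℚbar N q)) hf P ?_
    rw [map_inv₀, AlgHom.comp_apply, ← jE1_eq]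
    exact (key P hP).1
  have hol' : (surf c L).Hol (jE₁ L N q * jE₃ L N q)⁻¹ b' := by
    refine hol_of c b0' ⟨_, b1'⟩ ⟨_, b2'⟩ fun P hP => ?_
    rw [hb']
    refine mem_of_regAlg ((heckeBetaBar ℚbar (N * q) q).comp (heckeBetaBar ℚbar N q)) hf P ?_
    rw [map_inv₀, AlgHom.comp_apply, ← jE3_eq]
    exact (key P hP).2
  fin_cases i
  · exact ⟨b, hol, b0⟩
  · exact ⟨b, hol, b1⟩
  · exact ⟨b', hol', b2'⟩

section Deg

variable [IsAlgClosed k] [FunctionField ℚbar (modularFunctionFieldBar (N * q * q))]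
  [FunctionField ℚbar (modularFunctionFieldBar (N * q))]
  [FunctionField ℚbar (modularFunctionFieldBar N)]
  [FunctionField k (modularFunctionFieldFullC k N)]

include hdeg in
omit [NeZero N] [NeZero q] hq hchar
  [FunctionField ℚbar (modularFunctionFieldBar (N * q * q))]
  [FunctionField ℚbar (modularFunctionFieldBar (N * q))] in
theorem degree_jBar (hπ : Function.Surjective π) :
    Divisor.degree (polesOf (K := ℚbar) (jBar N)) =
      Divisor.degree (polesOf (K := k) (jRed k N)) := by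
  apply le_antisymm
  · rw [DescentB.degree_polesOf (transcendental_jBar N), DescentB.degree_polesOf
      (jRed_transcendental k N)]
    exact_mod_cast hdeg.2
  · exact DescentB.degree_polesOf_le (R := hdeg.redDatum hπ) hπ (hdeg.redDatum_surjective hπ)
      (redL_j π N) (jRed_transcendental k N)

theorem degree_jE1 (hqN : ¬ q ∣ N) :
    Divisor.degree (polesOf (K := ℚbar) (Unit.jE1 ℚbar N q)) =
      q * ((q + 1) * Divisor.degree (polesOf (K := ℚbar) (jBar N))) := by
  rw [jE1_eq, degree_polesOf_along _ (finiteAlong_modular ℚbar _),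
    degree_polesOf_along _ (finiteAlong_modular ℚbar _),
    JAN.Degree.alphaDegree ℚbar (N * q) q hq.out, JAN.Degree.alphaDegree ℚbar N q hq.out,
    if_pos (dvd_mul_left q N), if_neg hqN]
  push_cast
  ring

theorem degree_jE3 (hqN : ¬ q ∣ N) :
    Divisor.degree (polesOf (K := ℚbar) (Unit.jE3 ℚbar N q)) =
      q * ((q + 1) * Divisor.degree (polesOf (K := ℚbar) (jBar N))) := by
  rw [jE3_eq, degree_polesOf_along _ (finiteAlong_modular ℚbar _),
    degree_polesOf_along _ (finiteAlong_modular ℚbar _), finrankAlong_beta, finrankAlong_beta,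
    JAN.Degree.alphaDegree ℚbar (N * q) q hq.out, JAN.Degree.alphaDegree ℚbar N q hq.out,
    if_pos (dvd_mul_left q N), if_neg hqN]
  push_cast
  ring

theorem degree_x (hqN : ¬ q ∣ N) :
    Divisor.degree (polesOf (K := ℚbar) (Unit.jE1 ℚbar N q * Unit.jE3 ℚbar N q)) =
      2 * (q * ((q + 1) * Divisor.degree (polesOf (K := ℚbar) (jBar N)))) := by
  rw [polesOf_mul_of (jE1_ne_zero ℚbar N q) (jE3_ne_zero ℚbar N q), map_add, degree_jE1 hqN,
    degree_jE3 hqN]
  · ring
  · intro v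
    have h := jE_mem_iff ℚbar N q v.toValuationSubring
    rw [mem_iff_ord_nonneg, mem_iff_ord_nonneg] at h
    by_cases h1 : 0 ≤ v.ord (Unit.jE1 ℚbar N q)
    · exact Or.inl ⟨h1, h.mp h1⟩
    · refine Or.inr ⟨by omega, ?_⟩
      by_contra h2
      exact h1 (h.mpr (by omega))

theorem sum_exp : ∑ i : Fin 3, ((Ctx.mult q i * nExp q i : ℕ) : ℤ) = 2 * (q * (q + 1)) := by
  have h1 : ((q - 1 : ℕ) : ℤ) = (q : ℤ) - 1 := by
    have := hq.out.one_le
    push_cast [Nat.cast_sub this]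
    ring
  rw [Fin.sum_univ_three]
  change ((1 * (1 + q * q) : ℕ) : ℤ) + (((q - 1) * 2 : ℕ) : ℤ) + ((1 * (q * q + 1) : ℕ) : ℤ) = _
  push_cast
  rw [h1]
  ring

include hdeg hgood in
/-- **The chart `x = j(E₁) j(E₃)`.** -/
theorem isChart : (surf c L).IsChart (jE₁ L N q * jE₃ L N q) (jRed k N) where
  transcendental := jRed_transcendental k N
  deg := by
    refine ⟨nExp q, fun i => ⟨nExp_pos i, res_x c i⟩, ?_⟩
    rw [algMap_eq, map_mul, inc_jE₁, inc_jE₃, degree_x c.hqN, degree_jBar hdeg c.S.surj,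
      ← Finset.sum_mul]
    change _ = (∑ i : Fin 3, ((Ctx.mult q i * nExp q i : ℕ) : ℤ)) * _
    rw [sum_exp]
    ring
  lift i u hu := exists_lift_x c hdeg hgood i hu

theorem transcendental_inc {x : modularFunctionFieldBar (N * q * q)}
    (h : 0 < Divisor.degree (polesOf (K := ℚbar) x)) : Transcendental ℚbar x := by
  intro halg
  obtain ⟨a, rfl⟩ : ∃ a, algebraMap ℚbar _ a = x := by
    have h3 := IsAlgClosed.degree_eq_one_of_irreducible ℚbar (minpoly.irreducible halg.isIntegral)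
    exact minpoly.mem_range_of_degree_eq_one ℚbar x h3
  have h1 : polesOf (K := ℚbar) (algebraMap ℚbar (modularFunctionFieldBar (N * q * q)) a) = 0 := by
    ext v
    rw [polesOf_apply, Finsupp.zero_apply]
    have h2 := ord_nonneg_of_mem v (v.algebraMap_mem' a)
    omega
  rw [h1, map_zero] at h
  exact lt_irrefl _ h

include hdeg hgood in
/-- **The chart `x⁻¹`.** -/
theorem isChart_inv : (surf c L).IsChart (jE₁ L N q * jE₃ L N q)⁻¹ (jRed k N)⁻¹ where
  transcendental := fun h => jRed_transcendental k N (by simpa using h.inv)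
  deg := by
    refine ⟨nExp q, fun i => ⟨nExp_pos i, res_x_inv c i⟩, ?_⟩
    have hpos : 0 < Divisor.degree (polesOf (K := k) (jRed k N)) := by
      rw [DescentB.degree_polesOf (jRed_transcendental k N)]
      have := DescentB.finiteDimensional_adjoin (jRed_transcendental k N)
      exact_mod_cast Module.finrank_pos
    have hx := degree_x (N := N) (q := q) c.hqN
    rw [degree_jBar hdeg c.S.surj] at hx
    have hq0 : (0 : ℤ) < q := by exact_mod_cast hq.out.pos
    have htr : Transcendental ℚbar (Unit.jE1 ℚbar N q * Unit.jE3 ℚbar N q) := by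
      apply transcendental_inc
      rw [hx]
      positivity
    rw [algMap_eq, map_inv₀, map_mul, inc_jE₁, inc_jE₃, DescentB.degree_polesOf_inv htr, hx,
      DescentB.degree_polesOf_inv (jRed_transcendental k N), ← Finset.sum_mul]
    change _ = (∑ i : Fin 3, ((Ctx.mult q i * nExp q i : ℕ) : ℤ)) * _
    rw [sum_exp]
    ring
  lift i u hu := exists_lift_x_inv c hdeg hgood i hu

end Deg

end Main

end Fermat.Agent.DR.S36
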