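import Fermat.Agent.DR.S36.LField
import Fermat.Agent.EllRed.Equivariance

set_option autoImplicit false
set_option linter.unusedSectionVars false

/-!
# Polynomials over the inertia field with a given root in the maximal ideal
-/

noncomputable section

open Polynomial

namespace Fermat.Agent.DR.S36.L

open Fermat.Agent.EllRed Fermat.Agent.RedHom

local notation "ℚbar" => AlgebraicClosure ℚ

variable {A : ValuationSubring ℚbar} {L : Type*} [Field L] [Algebra L ℚbar] [IsInertiaField A L]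
  {k : Type*} [Field k] {π : A →+* k}

theorem orbit_finite (A : ValuationSubring ℚbar) (t : ℚbar) :
    {x : ℚbar | ∃ σ ∈ A.inertiaSubgroupIn ℚ, σ t = x}.Finite := by
  refine (((minpoly ℚ t).rootSet_finite ℚbar)).subset ?_
  rintro x ⟨σ, -, rfl⟩
  have halg : IsAlgebraic ℚ t := Algebra.IsAlgebraic.isAlgebraic t
  rw [Polynomial.mem_rootSet]
  refine ⟨minpoly.ne_zero halg.isIntegral, ?_⟩
  rw [Polynomial.aeval_algHom_apply, minpoly.aeval, map_zero]

/-- **Polynomials over `A₀` with a root `t` in the maximal ideal of `A`**, congruent to a power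
of `X`. -/
theorem exists_poly_root (hπ : Function.Surjective π) {t : ℚbar} (ht : t ∈ A)
    (h0 : π ⟨t, ht⟩ = 0) : ∃ g : (A0 A L)[X], g.Monic ∧ g.map (π0 L π) = X ^ g.natDegree ∧
      g.eval₂ ((algebraMap L ℚbar).comp (A0 A L).subtype) t = 0 := by
  classical
  have hloc : IsLocalHom π := Function.Surjective.isLocalHom π hπ
  set O := (orbit_finite A t).toFinset with hO
  have hmem : ∀ x, x ∈ O ↔ ∃ σ ∈ A.inertiaSubgroupIn ℚ, σ t = x := fun x => by
    rw [hO, Set.Finite.mem_toFinset, Set.mem_ofPred_eq]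
  have hred : ∀ x ∈ O, RedTo π x 0 := by
    intro x hx
    obtain ⟨σ, hσ, rfl⟩ := (hmem x).mp hx
    exact redTo_smul_inertia hσ ⟨ht, h0⟩
  have htO : t ∈ O := (hmem t).mpr ⟨1, one_mem _, rfl⟩
  -- the polynomial over `A`
  set G : A[X] := ∏ x ∈ O.attach, (X - C (⟨x.1, (hred x.1 x.2).1⟩ : A)) with hG
  have hGmap : G.map A.subtype = ∏ x ∈ O, (X - C x) := by
    rw [hG, Polynomial.map_prod, ← Finset.prod_attach O]
    refine Finset.prod_congr rfl fun x _ => ?_
    rw [Polynomial.map_sub, map_X, map_C]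
    rfl
  have hGπ : G.map π = X ^ O.card := by
    rw [hG, Polynomial.map_prod]
    have h1 : ∀ x ∈ O.attach, (X - C (⟨x.1, (hred x.1 x.2).1⟩ : A)).map π = X := by
      intro x _
      rw [Polynomial.map_sub, map_X, map_C]
      obtain ⟨h, h'⟩ := hred x.1 x.2
      rw [h', C_0, sub_zero]
    rw [Finset.prod_congr rfl h1, Finset.prod_const, Finset.card_attach]
  -- invariance
  have hfix : ∀ σ ∈ A.inertiaSubgroupIn ℚ, (G.map A.subtype).map (σ : ℚbar →+* ℚbar) =
      G.map A.subtype := by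
    intro σ hσ
    rw [hGmap, Polynomial.map_prod]
    refine Finset.prod_nbij (fun x => σ x) ?_ ?_ ?_ ?_
    · intro x hx
      obtain ⟨τ, hτ, rfl⟩ := (hmem x).mp hx
      exact (hmem _).mpr ⟨σ * τ, mul_mem hσ hτ, rfl⟩
    · exact fun x _ y _ h => σ.injective h
    · intro x hx
      obtain ⟨τ, hτ, rfl⟩ := (hmem x).mp hx
      refine ⟨(σ⁻¹ * τ) t, Finset.mem_coe.mpr ((hmem _).mpr ⟨σ⁻¹ * τ,
        mul_mem (inv_mem hσ) hτ, rfl⟩), ?_⟩
      change (σ * (σ⁻¹ * τ)) t = τ t
      rw [mul_inv_cancel_left]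
    · intro x _
      rw [Polynomial.map_sub, map_X, map_C]
      rfl
  -- descent to `A₀`
  have hcoef : ∀ n, ∃ a : A0 A L, incl A L a = G.coeff n := by
    intro n
    have h1 : ((G.coeff n : A) : ℚbar) ∈ Set.range (algebraMap L ℚbar) := by
      rw [IsInertiaField.mem_range_iff (A := A)]
      intro σ hσ
      have h2 := congrArg (fun p : ℚbar[X] => p.coeff n) (hfix σ hσ)
      rw [coeff_map, coeff_map] at h2
      exact h2
    obtain ⟨a, ha⟩ := h1
    refine ⟨⟨a, ?_⟩, Subtype.ext ha⟩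
    rw [mem_A0, ha]
    exact (G.coeff n).2
  have hlift : G ∈ Polynomial.lifts (incl A L) := by
    rw [Polynomial.lifts_iff_coeff_lifts]
    exact fun n => hcoef n
  have hGm : G.Monic := monic_prod_of_monic _ _ fun x _ => monic_X_sub_C _
  obtain ⟨g, hg, -, hgm⟩ := Polynomial.lifts_and_natDegree_eq_and_monic hlift hGm
  have hgπ : g.map (π0 L π) = X ^ O.card := by
    change g.map (π.comp (incl A L)) = _
    rw [← Polynomial.map_map, hg, hGπ]
  refine ⟨g, hgm, ?_, ?_⟩
  · have h5 : g.natDegree = O.card := by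
      rw [← hgm.natDegree_map (π0 L π), hgπ, natDegree_X_pow]
    rw [hgπ, h5]
  · have h3 : (g.map (A0 A L).subtype).map (algebraMap L ℚbar) = ∏ x ∈ O, (X - C x) := by
      rw [← hGmap, ← hg, Polynomial.map_map, Polynomial.map_map]
      rfl
    rw [← Polynomial.eval_map, ← Polynomial.map_map, h3, Polynomial.eval_prod]
    exact Finset.prod_eq_zero htO (by simp)

end Fermat.Agent.DR.S36.L
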