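import Fermat.Agent.DR.S36.UFwd
import Fermat.Agent.DR.S36.SurfChart
import Fermat.Agent.DR.S36.OrbitPoly
import Fermat.Agent.DR.S36.EvalPoly

/-!
# `Points.U_iff`, direction `⇐`
-/

set_option autoImplicit false
set_option linter.unusedSectionVars false

noncomputable section

open AlgebraicCurve ModularCurve Fermat.Agent.RR Fermat.Agent.JRED

namespace Fermat.Agent.DR.S36

open Fermat.Agent.DR Fermat.Agent.DR.Mod Fermat.Agent.DR.Mod2 Fermat.Agent.DR.ModGal
open Fermat.Agent.JRED.ESGalois Fermat.Agent.JRED.ESSemi Fermat.Agent.Q2.Ord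
open S36.L S36.Unit
open Fermat.Agent.Q2 (Ctx)
open Fermat.Agent.DR.Nodes (regAlg mem_regAlg)

local notation "ℚbar" => AlgebraicClosure ℚ

attribute [local instance] Fermat.Agent.DR.S36.L.algInc

section Abs

theorem val_of_restrict {K F F' : Type*} [Field K] [Field F] [Field F'] [Algebra K F]
    [Algebra K F'] (φ : F →ₐ[K] F') (hφ : φ.toRingHom.IsIntegral) {P : Place K F'} {f : F} {t : K}
    (h : Val (P.restrictAlong φ hφ) f t) : Val P (φ f) t := by
  unfold Val at *
  rw [Mono.MonoPair.val_lt_one_iff_inv] at *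
  rw [← AlgHom.commutes φ, ← map_sub, map_eq_zero, ← map_inv₀]
  exact h

/-- the reversed polynomial -/
theorem reverse_root {R K k : Type*} [CommRing R] [Field K] [Field k] {i : R →+* K} {π : R →+* k}
    {g : Polynomial R} (hg : g.map π = Polynomial.X ^ g.natDegree) {t : K} (ht : t ≠ 0)
    (h : g.eval₂ i t⁻¹ = 0) : g.reverse.eval₂ i t = 0 ∧ g.reverse.map π = 1 := by
  constructor
  · let _ : Invertible t⁻¹ := invertibleOfNonzero (inv_ne_zero ht)
    have h1 := Polynomial.eval₂_reverse_mul_pow i t⁻¹ g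
    rw [h, invOf_eq_inv, inv_inv] at h1
    exact (mul_eq_zero.mp h1).resolve_right (pow_ne_zero _ (inv_ne_zero ht))
  · unfold Polynomial.reverse
    rw [← Polynomial.reflect_map, hg]
    have h2 := Polynomial.reflect_C_mul_X_pow (R := k) g.natDegree g.natDegree (c := 1)
    rw [Polynomial.C_1, one_mul, one_mul, Polynomial.revAt_le le_rfl, Nat.sub_self,
      pow_zero] at h2
    exact h2

end Abs

variable {A : ValuationSubring ℚbar} {k : Type} [Field k]
  {N q : ℕ} [NeZero N] [hq : Fact q.Prime] [hchar : CharP k q] [IsAlgClosed k]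
  {π : A →+* k}
  {w₁ : laurentBaseChange ℚbar (modularFunctionFieldFull (N * q)) ≃ₐ[ℚbar]
      laurentBaseChange ℚbar (modularFunctionFieldFull (N * q))}
  {w₂ : laurentBaseChange ℚbar (modularFunctionFieldFull (N * q * q)) ≃ₐ[ℚbar]
      laurentBaseChange ℚbar (modularFunctionFieldFull (N * q * q))}
  (c : Ctx π w₁ w₂) {L : Type} [Field L] [Algebra L ℚbar] [IsInertiaField A L]
  [FunctionField ℚbar (modularFunctionFieldBar (N * q * q))]
  [FunctionField ℚbar (modularFunctionFieldBar (N * q))]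
  [FunctionField ℚbar (modularFunctionFieldBar N)]
  [FunctionField k (modularFunctionFieldFullC k N)]
  {X : NodalDatum ℚbar (modularFunctionFieldBar (N * q)) k
      (modularFunctionFieldFullC k N) (modularFunctionFieldFullC k N) A π}
  {r : Place ℚbar (modularFunctionFieldBar N) → Place k (modularFunctionFieldFullC k N)}
  (hdeg : DegreeInput N k) (hgood : GoodReduction N k)
  (hr : PlaceRed (hdeg.redDatum c.S.surj) r) (hX : IsModularNodal c.S X)
  (hα : (heckeAlphaBar ℚbar (N * q) q).toRingHom.IsIntegral)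
  (hβ : (heckeBetaBar ℚbar (N * q) q).toRingHom.IsIntegral)

/-- `r` of the image of `P` in level `N` -/
def lowPt (P : Place ℚbar (modularFunctionFieldBar (N * q * q))) :
    Place ℚbar (modularFunctionFieldBar N) :=
  (modMono c.S c.hqN hdeg hgood hr).pα (P.restrictAlong (heckeAlphaBar ℚbar (N * q) q) hα)

theorem mem_ctxU_iff_lowPt (s : (ctxNodes c L hdeg hgood hr hX hα hβ).S)
    (P : Place ℚbar (modularFunctionFieldBar (N * q * q))) :
    P ∈ (ctxNodes c L hdeg hgood hr hX hα hβ).U s ↔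
      r (lowPt c hdeg hgood hr hα P) = (ctxNodes c L hdeg hgood hr hX hα hβ).sp s :=
  mem_ctxU c hdeg hgood hr hX hα hβ s P

theorem val_low {P : Place ℚbar (modularFunctionFieldBar (N * q * q))}
    {f : modularFunctionFieldBar N} {t : ℚbar}
    (h : Val (lowPt c hdeg hgood hr hα P) f t) :
    Val P (heckeAlphaBar ℚbar (N * q) q (heckeAlphaBar ℚbar N q f)) t :=
  val_of_restrict _ hα ((modMono c.S c.hqN hdeg hgood hr).val_α h)

/-- the hypothesis of the backward direction -/
def NoZero (P : Place ℚbar (modularFunctionFieldBar (N * q * q)))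
    (R : Place k (modularFunctionFieldFullC k N)) : Prop :=
  ∀ b u, (surf c L).Hol (jE₁ L N q * jE₃ L N q) b → ((surf c L).V 0).Res b u →
      ¬ Val R u 0 →
      P.ord (algebraMap (modularFunctionFieldFullC L (N * q * q))
        (modularFunctionFieldBar (N * q * q)) b) = 0

theorem jBar_mem_low {P : Place ℚbar (modularFunctionFieldBar (N * q * q))}
    (hx : algebraMap (modularFunctionFieldFullC L (N * q * q))
      (modularFunctionFieldBar (N * q * q)) (jE₁ L N q * jE₃ L N q) ∈ P.toValuationSubring) :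
    jBar N ∈ (lowPt c hdeg hgood hr hα P).toValuationSubring := by
  rw [algMap_eq, inc_chart L N q] at hx
  have h1 := (Unit.jE_mem _ hx).1
  rw [jE1_eq] at h1
  have h2 : heckeAlphaBar ℚbar N q (jBar N) ∈
      (P.restrictAlong (heckeAlphaBar ℚbar (N * q) q) hα).toValuationSubring :=
    (mem_restrictAlong_iff' _ hα P).mpr h1
  exact (modMono c.S c.hqN hdeg hgood hr).mem_pα.mpr h2

/-- a function from level `N`, as a function on the surface -/
theorem exists_low_hol (f : modularFunctionFieldFullC L N) {u : modularFunctionFieldFullC k N}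
    (hfu : (hdeg.redDatum c.S.surj).Red (inc L N f) u)
    (hf : inc L N f ∈ regAlg ℚbar (jBar N)) :
    ∃ b : modularFunctionFieldFullC L (N * q * q),
      inc L (N * q * q) b =
        heckeAlphaBar ℚbar (N * q) q (heckeAlphaBar ℚbar N q (inc L N f)) ∧
      (surf c L).Hol (jE₁ L N q * jE₃ L N q) b ∧ ((surf c L).V 0).Res b u := by
  obtain ⟨b, hb, b0, b1, b2⟩ := exists_low c L f hfu
  refine ⟨b, hb, hol_of c ⟨_, b0⟩ ⟨_, b1⟩ b2 fun P hP => ?_, b0⟩
  rw [hb]
  refine mem_of_regAlg ((heckeAlphaBar ℚbar (N * q) q).comp (heckeAlphaBar ℚbar N q)) hf P ?_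
  rw [AlgHom.comp_apply, ← jE1_eq]
  rw [inc_chart L N q] at hP
  exact (Unit.jE_mem _ hP).1

theorem low_cusp {P : Place ℚbar (modularFunctionFieldBar (N * q * q))}
    {R : Place k (modularFunctionFieldFullC k N)}
    (hx : jBar N ∈ (lowPt c hdeg hgood hr hα P).toValuationSubring)
    (H : NoZero (L := L) c P R) :
    jRed k N ∈ (r (lowPt c hdeg hgood hr hα P)).toValuationSubring := by
  by_contra hcon
  set Y := modMono c.S c.hqN hdeg hgood hr with hY
  set P0 := lowPt c hdeg hgood hr hα P with hP0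
  have hxi : (jBar N)⁻¹ ∈ P0.toValuationSubring := Y.x_inv_mem hcon
  obtain ⟨t, ht⟩ := Surf.val_of_mem hx
  obtain ⟨t', ht'⟩ := Surf.val_of_mem hxi
  have hredj : (hdeg.redDatum c.S.surj).Red (jBar N) (jRed k N) := redL_j π N
  have hj0 : jBar N ≠ 0 := RedDatum.ne_zero_of_red hredj jRed_ne_chart
  have htt : t * t' = 1 := by
    have h1 := ht.mul ht'
    rw [mul_inv_cancel₀ hj0] at h1
    exact h1.unique Val.one
  have ht0 : t ≠ 0 := left_ne_zero_of_mul (htt ▸ one_ne_zero)
  have htinv : t' = t⁻¹ := eq_inv_of_mul_eq_one_right htt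
  have hred : (hdeg.redDatum c.S.surj).Red (jBar N)⁻¹ (jRed k N)⁻¹ :=
    RedDatum.inv c.S.surj hredj jRed_ne_chart
  obtain ⟨htA, hval⟩ := value_mem c.S.surj hr hred
    (fun Q hQ => Y.x_inv_mem (by rw [show Y.r Q = r P0 from hQ]; exact hcon)) ht'
  have hπ0 : π ⟨t', htA⟩ = 0 :=
    Val.unique (P := r P0) hval (Surf.val_inv_zero hcon)
  obtain ⟨g, hgm, hg, hg0⟩ := exists_poly_root (L := L) c.S.surj htA hπ0
  rw [htinv] at hg0
  obtain ⟨e1, e2⟩ := reverse_root hg ht0 hg0
  obtain ⟨b, hb, hol, hres⟩ := exists_low_hol c hdeg (jRed L N) (u := jRed k N)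
    (by rw [inc_jRed]; exact redL_j π N) (by rw [inc_jRed]; exact Nodes.self_mem_regAlg _)
  refine (surf c L).not_zeroFree hol (t := t) ?_ hres e1 (R := R) ?_ H
  · rw [algMap_eq, hb, inc_jRed]
    exact val_low c hdeg hgood hr hα ht
  · have e3 : (surf c L).π₀ = π0 L π := rfl
    rw [e3, e2, Polynomial.eval₂_one]
    exact fun h => one_ne_zero (Val.one.unique h)

theorem low_eq {P : Place ℚbar (modularFunctionFieldBar (N * q * q))}
    {R : Place k (modularFunctionFieldFullC k N)} (hR : jRed k N ∈ R.toValuationSubring)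
    (hx : jBar N ∈ (lowPt c hdeg hgood hr hα P).toValuationSubring)
    (H : NoZero (L := L) c P R) : r (lowPt c hdeg hgood hr hα P) = R := by
  classical
  have hR0 := low_cusp c hdeg hgood hr hα hx H
  by_contra hne
  set Y := modMono c.S c.hqN hdeg hgood hr with hY
  set P0 := lowPt c hdeg hgood hr hα P with hP0
  obtain ⟨u, hu, hval⟩ := Y.exists_regAlg_val {r P0, R} (by
    intro Q hQ
    rw [Finset.mem_insert, Finset.mem_singleton] at hQ
    rcases hQ with rfl | rfl
    · exact hR0
    · exact hR) (fun Q => if Q = r P0 then 0 else 1)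
  have h1 := hval (r P0) (by simp)
  have h2 := hval R (by simp)
  rw [if_pos rfl] at h1
  rw [if_neg (Ne.symm hne)] at h2
  obtain ⟨f, hf, hfu⟩ := exists_lift_j L hq.out c.hA hdeg c.S.surj hgood hu
  obtain ⟨t, ht⟩ := Surf.val_of_mem (hf P0 hx)
  obtain ⟨htA, hv⟩ := value_mem c.S.surj hr hfu (Y.regOn hf hR0) ht
  have hπ0 : π ⟨t, htA⟩ = 0 := Val.unique (P := r P0) hv h1
  obtain ⟨g, hgm, hg, hg0⟩ := exists_poly_root (L := L) c.S.surj htA hπ0
  obtain ⟨b, hb, hol, hres⟩ := exists_low_hol c hdeg f hfu hf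
  refine (surf c L).not_zeroFree hol (t := t) ?_ hres hg0 (R := R) ?_ H
  · rw [algMap_eq, hb]
    exact val_low c hdeg hgood hr hα ht
  · have e3 : (surf c L).π₀ = π0 L π := rfl
    rw [e3, hg, Polynomial.eval₂_X_pow]
    intro h
    have h3 := (h2.pow g.natDegree).unique h
    rw [one_pow] at h3
    exact one_ne_zero h3

/-- **`Points.U_iff`, direction `⇐`.** -/
theorem pts_U_bwd (s : (ctxNodes c L hdeg hgood hr hX hα hβ).S)
    (P : Place ℚbar (modularFunctionFieldBar (N * q * q)))
    (hP : algebraMap (modularFunctionFieldFullC L (N * q * q))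
        (modularFunctionFieldBar (N * q * q)) (jE₁ L N q * jE₃ L N q) ∈ P.toValuationSubring ∧
      ∀ b u, (surf c L).Hol (jE₁ L N q * jE₃ L N q) b → ((surf c L).V 0).Res b u →
        ¬ Val ((ctxNodes c L hdeg hgood hr hX hα hβ).sp s) u 0 →
        P.ord (algebraMap (modularFunctionFieldFullC L (N * q * q))
          (modularFunctionFieldBar (N * q * q)) b) = 0) :
    P ∈ (ctxNodes c L hdeg hgood hr hX hα hβ).U s := by
  rw [mem_ctxU_iff_lowPt]
  exact low_eq c hdeg hgood hr hα (pts_y_mem c hdeg hgood hr hX hα hβ s)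
    (jBar_mem_low c hdeg hgood hr hα hP.1) hP.2

/-- **`Points.U_iff`.** -/
theorem pts_U_iff (s : (ctxNodes c L hdeg hgood hr hX hα hβ).S)
    (P : Place ℚbar (modularFunctionFieldBar (N * q * q))) :
    P ∈ (ctxNodes c L hdeg hgood hr hX hα hβ).U s ↔
    (algebraMap (modularFunctionFieldFullC L (N * q * q))
        (modularFunctionFieldBar (N * q * q)) (jE₁ L N q * jE₃ L N q) ∈ P.toValuationSubring ∧
      ∀ b u, (surf c L).Hol (jE₁ L N q * jE₃ L N q) b → ((surf c L).V 0).Res b u →
        ¬ Val ((ctxNodes c L hdeg hgood hr hX hα hβ).sp s) u 0 →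
        P.ord (algebraMap (modularFunctionFieldFullC L (N * q * q))
          (modularFunctionFieldBar (N * q * q)) b) = 0) :=
  ⟨pts_U_fwd c hdeg hgood hr hX hα hβ s P, pts_U_bwd c hdeg hgood hr hX hα hβ s P⟩

end Fermat.Agent.DR.S36
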