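import Fermat.Agent.DR.S36.SurfChart
import Fermat.Agent.DR.S36.UnitCtx

/-!
# The modular units of the surface `surf c L`; `Points.sep`
-/

set_option autoImplicit false
set_option linter.unusedSectionVars false

noncomputable section

open AlgebraicCurve ModularCurve Fermat.Agent.RR Fermat.Agent.JRED

namespace Fermat.Agent.DR.S36

open Fermat.Agent.DR Fermat.Agent.DR.Mod Fermat.Agent.DR.S36.L Fermat.Agent.Q2
open Fermat.Agent.Q2.Ord (ssj jE₁ jE₃)

attribute [local instance] Fermat.Agent.DR.S36.L.algInc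

local notation "ℚbar" => AlgebraicClosure ℚ

variable {A : ValuationSubring ℚbar} {k : Type} [Field k] {π : A →+* k}
  {N q : ℕ} [NeZero N] [hq : Fact q.Prime] [hchar : CharP k q]
  {w₁ : laurentBaseChange ℚbar (modularFunctionFieldFull (N * q)) ≃ₐ[ℚbar]
      laurentBaseChange ℚbar (modularFunctionFieldFull (N * q))}
  {w₂ : laurentBaseChange ℚbar (modularFunctionFieldFull (N * q * q)) ≃ₐ[ℚbar]
      laurentBaseChange ℚbar (modularFunctionFieldFull (N * q * q))}

/-- **The modular units of `surf c L`** in the chart `x = j(E₁) j(E₃)`. -/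
def unitsInst (c : Ctx π w₁ w₂) (L : Type) [Field L] [Algebra L ℚbar] [IsInertiaField A L] :
    (surf c L).Units (jE₁ L N q * jE₃ L N q) :=
  Unit.surfUnits c L (algebraMap_algInc L (N * q * q)) (surf c L) (fun _ => rfl)
    (by rw [map_mul, inc_jE₁, inc_jE₃])

/-- **`Points.sep`**, for `R` with `ū` a unit at `R`. -/
theorem ctx_sep_units (c : Ctx π w₁ w₂) (L : Type) [Field L] [Algebra L ℚbar] [IsInertiaField A L]
    (i i' : Fin 3) (R : Place k (modularFunctionFieldFullC k N)) (hne : i ≠ i')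
    (hR : R.ord (ssj k q N) = 0) :
    ∃ b u, (surf c L).Hol (jE₁ L N q * jE₃ L N q) b ∧ ((surf c L).V i).Res b u ∧
      ¬ Val R u 0 ∧ 0 < ((surf c L).V i').v b :=
  (unitsInst c L).sep i i' R hne hR

/-- **`Points.sep`**, for `R` finite and not (the first component of) a node. -/
theorem ctx_sep_node [IsAlgClosed k] [FunctionField ℚbar (modularFunctionFieldBar (N * q))]
    [FunctionField ℚbar (modularFunctionFieldBar N)]
    [FunctionField k (modularFunctionFieldFullC k N)]
    (c : Ctx π w₁ w₂) (L : Type) [Field L] [Algebra L ℚbar] [IsInertiaField A L]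
    {X : NodalDatum ℚbar (modularFunctionFieldBar (N * q)) k
      (modularFunctionFieldFullC k N) (modularFunctionFieldFullC k N) A π}
    (hX : IsModularNodal c.S X)
    (i i' : Fin 3) (R : Place k (modularFunctionFieldFullC k N)) (hne : i ≠ i')
    (hR : jRed k N ∈ R.toValuationSubring) (hs : ∀ s : X.nodes, R ≠ s.1.1) :
    R.ord (ssj k q N) = 0 ∧ ∃ b u, (surf c L).Hol (jE₁ L N q * jE₃ L N q) b ∧
      ((surf c L).V i).Res b u ∧ ¬ Val R u 0 ∧ 0 < ((surf c L).V i').v b := by
  have h0 : R.ord (ssj k q N) = 0 := Unit.ord_ssj_eq_zero c.S.surj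
    (Mono.arch c.hA c.S.surj) hX hR
    (fun s hs' h => hs ⟨s, hs'⟩ h.symm)
  exact ⟨h0, ctx_sep_units c L i i' R hne h0⟩

end Fermat.Agent.DR.S36
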