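import Fermat.Agent.DR.S36.Build4
import Fermat.Agent.DR.S36.ChartL
import Fermat.Agent.DR.S36.SepInf
import Fermat.Agent.DR.S36.UnitCtx
import Fermat.Agent.DR.S36.SurfChart
import Fermat.Agent.DR.S36.PtsCtx
import Fermat.Agent.DR.S36.UnitsInst
import Fermat.Agent.DR.S36.OrdCtx
import Fermat.Agent.DR.S36.UBwd
import Fermat.Agent.CMP.S36Assembly
import Fermat.Agent.DR.AllInputs

/-!
# S36
-/

set_option autoImplicit false
set_option linter.unusedSectionVars false

noncomputable section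

open AlgebraicCurve ModularCurve Fermat.Agent.RR Fermat.Agent.JRED

namespace Fermat.Agent.DR.S36

open Fermat.Agent.DR Fermat.Agent.DR.Mod Fermat.Agent.DR.Mod2 Fermat.Agent.DR.ModGal
open S36.L S36.Unit
open Fermat.Agent.Q2 (Ctx)
open Fermat.Agent.Q2.Ord (jE₁ jE₂ jE₃ ssj)
open Fermat.Agent.Jan.HeckeInputs (heckeAlphaBarIntegral heckeBetaBarIntegral)

local notation "ℚbar" => AlgebraicClosure ℚ

attribute [local instance] Fermat.Agent.DR.S36.L.algInc

section

variable {A : ValuationSubring ℚbar} {k : Type} [Field k]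
  {N q : ℕ} [NeZero N] [hq : Fact q.Prime] [hchar : CharP k q] [IsAlgClosed k]
  {π : A →+* k}
  {w₁ : laurentBaseChange ℚbar (modularFunctionFieldFull (N * q)) ≃ₐ[ℚbar]
      laurentBaseChange ℚbar (modularFunctionFieldFull (N * q))}
  {w₂ : laurentBaseChange ℚbar (modularFunctionFieldFull (N * q * q)) ≃ₐ[ℚbar]
      laurentBaseChange ℚbar (modularFunctionFieldFull (N * q * q))}
  (c : Ctx π w₁ w₂) {L : Type} [Field L] [Algebra L ℚbar] [IsInertiaField A L]
  [FunctionField ℚbar (modularFunctionFieldBar (N * q * q))]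
  [FunctionField ℚbar (modularFunctionFieldBar (N * q))]
  [FunctionField ℚbar (modularFunctionFieldBar N)]
  [FunctionField k (modularFunctionFieldFullC k N)]
  {X : NodalDatum ℚbar (modularFunctionFieldBar (N * q)) k
      (modularFunctionFieldFullC k N) (modularFunctionFieldFullC k N) A π}
  {r : Place ℚbar (modularFunctionFieldBar N) → Place k (modularFunctionFieldFullC k N)}
  (hdeg : DegreeInput N k) (hgood : GoodReduction N k)
  (hr : PlaceRed (hdeg.redDatum c.S.surj) r) (hX : IsModularNodal c.S X)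
  (hα : (heckeAlphaBar ℚbar (N * q) q).toRingHom.IsIntegral)
  (hβ : (heckeBetaBar ℚbar (N * q) q).toRingHom.IsIntegral)

theorem ne_node {R : Place k (modularFunctionFieldFullC k N)}
    (hs : ∀ s : (ctxNodes c L hdeg hgood hr hX hα hβ).S,
      R ≠ (ctxNodes c L hdeg hgood hr hX hα hβ).sp s) (s : X.nodes) : R ≠ s.1.1 := hs s

/-- The special points of the arithmetic surface. -/
def ptsOf (hM : Rigid N) (h4 : q = 2 ∨ q = 3 ∨ 4 ∣ N) :
    (surf c L).Points (jE₁ L N q * jE₃ L N q) (jRed k N) where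
  T := (ctxNodes c L hdeg hgood hr hX hα hβ).S
  U := (ctxNodes c L hdeg hgood hr hX hα hβ).U
  sp := (ctxNodes c L hdeg hgood hr hX hα hβ).sp
  y_mem := pts_y_mem c hdeg hgood hr hX hα hβ
  glue := pts_glue c hdeg hgood hr hX hα hβ
  U_iff s P := pts_U_iff c hdeg hgood hr hX hα hβ s P
  exists_z := pts_exists_z c hdeg hgood hr hX hα hβ hM
  sep i i' R hne hR hs := (ctx_sep_node c L hX i i' R hne hR
    (ne_node c hdeg hgood hr hX hα hβ hs)).2
  sep_inf _ _ _ _ hne hR hR' := ctx_sep_inf c L hne hR hR'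
  exists_δ R hR hs := ctx_exists_δ c L h4 hR (ctx_sep_node c L hX 0 1 R (by decide) hR
    (ne_node c hdeg hgood hr hX hα hβ hs)).1
  exists_δ_inf R hR := ctx_exists_δ_inf c L hR

/-- The local and global statements from the points of the surface. -/
theorem geom_of_points
    (Pt : (surf c L).Points (jE₁ L N q * jE₃ L N q) (jRed k N))
    (e : (ctxNodes c L hdeg hgood hr hX hα hβ).S → Pt.T)
    (hU : ∀ s, Pt.U (e s) = (ctxNodes c L hdeg hgood hr hX hα hβ).U s)
    (hsp : ∀ s, Pt.sp (e s) = (ctxNodes c L hdeg hgood hr hX hα hβ).sp s)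
    (he : Function.Surjective e) :
    LocalGen (L := L) c hdeg hgood hr hα hβ hX ∧ IsRigid (L := L) c hdeg hgood hr hα hβ hX := by
  have := isDiscreteValuationRing (L := L) hq.out c.hA
  have := charZero_of_algebra L
  have hx := isChart c hdeg hgood (L := L)
  have hx' := isChart_inv c hdeg hgood (L := L)
  refine ⟨fun s m f D hm hf hD => ?_, fun m f D hm hD0 hD hres hloc => ?_⟩
  · obtain ⟨h, h0, hw, hP⟩ := Pt.localgen hx (e s) hm hf hD
    rw [hU] at hP
    exact ⟨h, h0, hw, hP⟩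
  · refine Pt.rigid hx hx' rfl hq.out hm hD0 hD hres fun s' => ?_
    obtain ⟨s, rfl⟩ := he s'
    obtain ⟨h, g, γ, h0, h1, h2, h3⟩ := hloc s
    rw [hU, hsp]
    exact ⟨h, g, γ, h0, h1, h2, h3⟩

end

/-- **The geometric input.** -/
theorem geomInput (N q : ℕ) [NeZero N] [Fact q.Prime] (_hqN : ¬ q ∣ N) (hM : Rigid N)
    (h4 : q = 2 ∨ q = 3 ∨ 4 ∣ N) : GeomInput N q := by
  intro A k _ _ _ π w₁ w₂ c L _ _ _ _ _ _ _ X r hdeg hgood hr hX hα hβ
  exact geom_of_points c hdeg hgood hr hX hα hβ (ptsOf c hdeg hgood hr hX hα hβ hM h4) id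
    (fun _ => rfl) (fun _ => rfl) Function.surjective_id

/-- **S36'** from the geometric input (`4 ∣ N` or `q = 2`). -/
theorem s36Prime_of_geom
    (H : ∀ (N q : ℕ) [NeZero N] [Fact q.Prime], ¬ q ∣ N → Rigid N →
      (q = 2 ∨ q = 3 ∨ 4 ∣ N) → GeomInput N q)
    (N q : ℕ) [NeZero N] [NeZero q] (hq : q.Prime) (hqN : ¬ q ∣ N) : S36Prime N q := by
  have : Fact q.Prime := ⟨hq⟩
  refine S36Prime.of_rigid hq hqN (fun h2 => ?_) (fun h2 => ?_)
  · have h4 : ¬ q ∣ N * 4 := by
      intro h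
      rcases hq.dvd_mul.mp h with h | h
      · exact hqN h
      · have h3 : q ∣ 2 := hq.dvd_of_dvd_pow (show q ∣ 2 ^ 2 by simpa using h)
        exact h2 ((Nat.prime_dvd_prime_iff_eq hq Nat.prime_two).mp h3)
    have : NeZero (N * 4) := ⟨by have := NeZero.ne N; omega⟩
    exact s36Prime_of_geomInput h4 (rigid_of_four (dvd_mul_left 4 N)) (H _ _ h4
      (rigid_of_four (dvd_mul_left 4 N)) (Or.inr (Or.inr (dvd_mul_left 4 N))))
  · have h9 : ¬ q ∣ N * 9 := by
      intro h
      rcases hq.dvd_mul.mp h with h | h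
      · exact hqN h
      · rw [h2] at h
        omega
    have : NeZero (N * 9) := ⟨by have := NeZero.ne N; omega⟩
    exact s36Prime_of_geomInput h9 (rigid_of_nine (dvd_mul_left 9 N)) (H _ _ h9
      (rigid_of_nine (dvd_mul_left 9 N)) (Or.inl h2))

/-- **S36** from the geometric input. -/
theorem s36Prop_of_geom
    (H : ∀ (N q : ℕ) [NeZero N] [Fact q.Prime], ¬ q ∣ N → Rigid N →
      (q = 2 ∨ q = 3 ∨ 4 ∣ N) → GeomInput N q) : Fermat.Agent.CMP.S58Assembly.S36Prop :=
  Fermat.Agent.CMP.S36Assembly.s36_of_s37 Fermat.Agent.DR.allInputs.s37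
    fun N q _ _ hq hqN => s36Prime_of_geom H N q hq hqN

/-- **S36.** -/
theorem s36Prop : Fermat.Agent.CMP.S58Assembly.S36Prop :=
  s36Prop_of_geom fun N q _ _ hqN hM h4 => geomInput N q hqN hM h4

end Fermat.Agent.DR.S36
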