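import Mathlib

set_option autoImplicit false

/-!
# Local factoriality (S36-G, part 1)

* `ufd_of_quotient` (Lemma U): a noetherian local domain `S` with a prime element `z` such that
  `S ⧸ (z)` is a principal ideal ring is factorial.
* `ufd_of_surjective`: the same from a surjection onto a principal ideal domain with kernel `(z)`.
* `isPrincipal_or_eq_maximalIdeal`: prime ideals of such rings are principal or maximal.
-/

namespace Fermat.Agent.DR.S36.G

open IsLocalRing

section LemmaU

variable {S : Type*} [CommRing S] [IsDomain S] [IsNoetherianRing S] [IsLocalRing S]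

/-- Primes not containing `z` are principal. -/
theorem exists_span_of_notMem (z : S) (hz : Prime z)
    (hprin : ∀ I : Ideal (S ⧸ Ideal.span {z}), Submodule.IsPrincipal I)
    (I : Ideal S) (hIp : I.IsPrime) (hzI : z ∉ I) : ∃ g, I = Ideal.span {g} := by
  classical
  -- the image of `I` is principal
  obtain ⟨gbar, hg⟩ := (hprin (I.map (Ideal.Quotient.mk (Ideal.span {z})))).principal
  have hgmem : gbar ∈ I.map (Ideal.Quotient.mk (Ideal.span {z})) := by
    rw [hg]; exact Submodule.mem_span_singleton_self gbar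
  obtain ⟨g, hgI, rfl⟩ := (Ideal.mem_map_iff_of_surjective _ Ideal.Quotient.mk_surjective).mp hgmem
  have hle : I ≤ Ideal.span {g} ⊔ (Ideal.span {z} : Ideal S) • I := by
    intro s hs
    have h1 : Ideal.Quotient.mk (Ideal.span {z}) s ∈ Submodule.span (S ⧸ Ideal.span {z})
        {Ideal.Quotient.mk (Ideal.span {z}) g} := by
      rw [← hg]; exact Ideal.mem_map_of_mem _ hs
    obtain ⟨abar, ha⟩ := Submodule.mem_span_singleton.mp h1
    obtain ⟨a, rfl⟩ := Ideal.Quotient.mk_surjective abar
    rw [smul_eq_mul, ← map_mul, Ideal.Quotient.eq, Ideal.mem_span_singleton] at ha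
    obtain ⟨b, hb⟩ := ha
    have hbI : b ∈ I := by
      have h2 : z * b ∈ I := by
        rw [← hb]
        exact I.sub_mem (I.mul_mem_left _ hgI) hs
      exact (hIp.mem_or_mem h2).resolve_left hzI
    have h3 : s = a * g - z * b := by rw [← hb]; ring
    rw [h3]
    refine sub_mem (Ideal.mem_sup_left (Ideal.mul_mem_left _ _ (Ideal.mem_span_singleton_self g))) ?_
    refine Ideal.mem_sup_right ?_
    exact Submodule.smul_mem_smul (Ideal.mem_span_singleton_self z) hbI
  have hzj : (Ideal.span {z} : Ideal S) ≤ Ideal.jacobson ⊥ := by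
    rw [IsLocalRing.jacobson_eq_maximalIdeal ⊥ bot_ne_top, Ideal.span_singleton_le_iff_mem]
    exact (mem_maximalIdeal z).mpr hz.not_isUnit
  have hfin : I ≤ Ideal.span {g} :=
    Submodule.le_of_le_smul_of_le_jacobson_bot (IsNoetherian.noetherian I) hzj hle
  exact ⟨g, le_antisymm hfin ((Ideal.span_singleton_le_iff_mem _).mpr hgI)⟩

/-- **Lemma U.** -/
theorem ufd_of_quotient (z : S) (hz : Prime z)
    (hprin : ∀ I : Ideal (S ⧸ Ideal.span {z}), Submodule.IsPrincipal I) :
    UniqueFactorizationMonoid S := by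
  rw [UniqueFactorizationMonoid.iff_exists_prime_mem_of_isPrime]
  intro I hI hIp
  by_cases hzI : z ∈ I
  · exact ⟨z, hzI, hz⟩
  obtain ⟨g, hIg⟩ := exists_span_of_notMem z hz hprin I hIp hzI
  have hg0 : g ≠ 0 := by
    rintro rfl
    apply hI
    rw [hIg, Ideal.span_singleton_eq_bot]
  exact ⟨g, hIg ▸ Ideal.mem_span_singleton_self g,
    (Ideal.span_singleton_prime hg0).mp (hIg ▸ hIp)⟩

variable {O : Type*} [CommRing O] [IsDomain O] [IsPrincipalIdealRing O]
    (ρ : S →+* O) (hρ : Function.Surjective ρ) (z : S) (hz : z ≠ 0)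
    (hker : RingHom.ker ρ = Ideal.span {z})

include hz hker in
omit [IsNoetherianRing S] [IsLocalRing S] [IsPrincipalIdealRing O] in
theorem prime_of_ker : Prime z := by
  rw [← Ideal.span_singleton_prime hz, ← hker]
  exact RingHom.ker_isPrime ρ

include hρ hker in
omit [IsDomain S] [IsNoetherianRing S] [IsLocalRing S] [IsDomain O] in
theorem isPrincipal_quotient (I : Ideal (S ⧸ Ideal.span {z})) : Submodule.IsPrincipal I := by
  let e : (S ⧸ Ideal.span {z}) ≃+* O :=
    (Ideal.quotEquivOfEq hker.symm).trans (RingHom.quotientKerEquivOfSurjective hρ)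
  have : IsPrincipalIdealRing (S ⧸ Ideal.span {z}) :=
    IsPrincipalIdealRing.of_surjective e.symm.toRingHom e.symm.surjective
  exact IsPrincipalIdealRing.principal I

include hρ hz hker in
/-- Lemma U for a surjection onto a principal ideal domain. -/
theorem ufd_of_surjective : UniqueFactorizationMonoid S :=
  ufd_of_quotient z (prime_of_ker ρ z hz hker) (isPrincipal_quotient ρ hρ z hker)

include hρ hz hker in
/-- Prime ideals are principal or maximal. -/
theorem isPrincipal_or_eq_maximalIdeal [IsLocalRing O] (I : Ideal S) (hI : I.IsPrime) :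
    (∃ g, I = Ideal.span {g}) ∨ I = maximalIdeal S := by
  by_cases hzI : z ∈ I
  · have hle : RingHom.ker ρ ≤ I := by
      rw [hker]; exact (Ideal.span_singleton_le_iff_mem _).mpr hzI
    have hJ : (I.map ρ).IsPrime := Ideal.map_isPrime_of_surjective hρ hle
    by_cases hJ0 : I.map ρ = ⊥
    · left
      refine ⟨z, le_antisymm ?_ ((Ideal.span_singleton_le_iff_mem _).mpr hzI)⟩
      rw [← hker]
      exact (Ideal.map_eq_bot_iff_le_ker ρ).mp hJ0
    · right
      have hmax : (I.map ρ).IsMaximal := hJ.isMaximal hJ0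
      have h1 : I = (I.map ρ).comap ρ := by
        rw [Ideal.comap_map_of_surjective' ρ hρ, sup_eq_left.mpr hle]
      have h2 : ((I.map ρ).comap ρ).IsMaximal := Ideal.comap_isMaximal_of_surjective ρ hρ
      exact h1.trans (IsLocalRing.eq_maximalIdeal h2)
  · exact Or.inl (exists_span_of_notMem z (prime_of_ker ρ z hz hker)
      (isPrincipal_quotient ρ hρ z hker) I hI hzI)

end LemmaU

end Fermat.Agent.DR.S36.G
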