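import Mathlib

set_option autoImplicit false

/-!
# Extraction of roots in factorial rings (S36-G, part 2)

`S` factorial with fraction field `F`, `V i` valuation subrings of `F` with `S = ⋂ V i`, such that
every `V i` is centered at a principal prime (or trivial).  If `f ∈ Fˣ` has, at every `V i`, the
value of an `m`-th power, then `f = u h ^ m` with `u ∈ Sˣ`.
-/

namespace Fermat.Agent.DR.S36.G

section Assoc

variable {S : Type*} [CommRing S] [IsDomain S] [UniqueFactorizationMonoid S]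

/-- An element all of whose multiplicities are divisible by `m` is an `m`-th power up to a
unit. -/
theorem exists_associated_pow {m : ℕ} (hm : m ≠ 0) (a : S)
    (ha : ∀ p : S, Prime p → ∀ k : ℕ, p ^ k ∣ a → ¬ p ^ (k + 1) ∣ a → m ∣ k) :
    ∃ c : S, Associated a (c ^ m) := by
  revert ha
  refine UniqueFactorizationMonoid.induction_on_coprime (P := fun a =>
    (∀ p : S, Prime p → ∀ k : ℕ, p ^ k ∣ a → ¬ p ^ (k + 1) ∣ a → m ∣ k) →
      ∃ c : S, Associated a (c ^ m)) a ?_ ?_ ?_ ?_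
  · intro _
    exact ⟨0, by rw [zero_pow hm]⟩
  · intro x hx _
    exact ⟨1, by rw [one_pow]; exact associated_one_iff_isUnit.mpr hx⟩
  · intro p i hp h
    have h1 : ¬ p ^ (i + 1) ∣ p ^ i := by
      intro hd
      exact absurd ((pow_dvd_pow_iff hp.ne_zero hp.not_isUnit).mp hd) (by omega)
    obtain ⟨j, rfl⟩ := h p hp i dvd_rfl h1
    exact ⟨p ^ j, by rw [← pow_mul, mul_comm]⟩
  · intro x y hxy hx hy h
    have key : ∀ x y : S, IsRelPrime x y →
        (∀ p : S, Prime p → ∀ k : ℕ, p ^ k ∣ x * y → ¬ p ^ (k + 1) ∣ x * y → m ∣ k) →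
        ∀ p : S, Prime p → ∀ k : ℕ, p ^ k ∣ x → ¬ p ^ (k + 1) ∣ x → m ∣ k := by
      intro x y hxy h p hp k hk hk'
      rcases Nat.eq_zero_or_pos k with rfl | hk0
      · exact dvd_zero _
      have hpx : p ∣ x := (dvd_pow_self p hk0.ne').trans hk
      have hpy : ¬ p ∣ y := fun hpy => hp.not_isUnit (hxy hpx hpy)
      refine h p hp k (hk.mul_right y) fun hd => hk' ?_
      rw [mul_comm] at hd
      exact hp.pow_dvd_of_dvd_mul_left _ hpy hd
    obtain ⟨c, hc⟩ := hx (key x y hxy h)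
    obtain ⟨d, hd⟩ := hy (key y x hxy.symm (by simpa only [mul_comm y x] using h))
    exact ⟨c * d, by rw [mul_pow]; exact hc.mul_mul hd⟩

end Assoc

section Root

variable {S : Type*} [CommRing S] [IsDomain S] [UniqueFactorizationMonoid S]
  {F : Type*} [Field F] [Algebra S F] [IsFractionRing S F]
  {ι : Type*} (V : ι → ValuationSubring F)

omit [IsFractionRing S F] in
/-- values of elements of `S` at a `V i` centered at `(p)`. -/
theorem exists_eq_pow_mul {i : ι} {p : S} (hp : Prime p)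
    (hS : ∀ s : S, algebraMap S F s ∈ V i)
    (hc : ∀ s : S, (V i).valuation (algebraMap S F s) < 1 → p ∣ s) {s : S} (hs : s ≠ 0) :
    ∃ k : ℕ, p ^ k ∣ s ∧ ¬ p ^ (k + 1) ∣ s ∧
      (V i).valuation (algebraMap S F s) = (V i).valuation (algebraMap S F p) ^ k := by
  obtain ⟨k, c, hpc, hs'⟩ := WfDvdMonoid.max_power_factor hs hp.irreducible
  refine ⟨k, ⟨c, hs'⟩, ?_, ?_⟩
  · intro hd
    apply hpc
    rw [hs', pow_succ] at hd
    exact (mul_dvd_mul_iff_left (pow_ne_zero k hp.ne_zero)).mp hd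
  · have h1 : (V i).valuation (algebraMap S F c) = 1 := by
      refine le_antisymm (((V i).valuation_le_one_iff _).mpr (hS c)) ?_
      by_contra hcon
      exact hpc (hc c (not_le.mp hcon))
    rw [hs', map_mul, map_mul, map_pow, map_pow, h1, mul_one]

/-- **Root extraction.** -/
theorem exists_root (hS : ∀ i, ∀ s : S, algebraMap S F s ∈ V i)
    (hmem : ∀ x : F, (∀ i, x ∈ V i) → ∃ s : S, algebraMap S F s = x)
    (hc : ∀ i, ∀ p : S, Prime p → (V i).valuation (algebraMap S F p) < 1 →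
      ∀ s : S, (V i).valuation (algebraMap S F s) < 1 → p ∣ s)
    {m : ℕ} (hm : m ≠ 0) {f : F} (hf : f ≠ 0)
    (hroot : ∀ i, ∃ h : F, h ≠ 0 ∧ (V i).valuation f = (V i).valuation h ^ m) :
    ∃ (h : F) (u : Sˣ), h ≠ 0 ∧ f = algebraMap S F u * h ^ m := by
  classical
  obtain ⟨a, b, hab, hfab⟩ := IsFractionRing.exists_reduced_fraction (A := S) f
  have hb0 : (b : S) ≠ 0 := nonZeroDivisors.coe_ne_zero b
  have hinj : Function.Injective (algebraMap S F) := IsFractionRing.injective S F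
  have hfab' : f = algebraMap S F a / algebraMap S F b := by
    rw [← hfab, IsFractionRing.mk'_eq_div]
  have ha0 : a ≠ 0 := by
    rintro rfl
    apply hf
    rw [hfab', map_zero, zero_div]
  -- every prime has a center
  have hcenter : ∀ p : S, Prime p → ∃ i, (V i).valuation (algebraMap S F p) < 1 := by
    intro p hp
    by_contra hcon
    push Not at hcon
    obtain ⟨s, hs⟩ := hmem (algebraMap S F p)⁻¹ fun i => by
      rw [← (V i).valuation_le_one_iff, map_inv₀]
      exact inv_le_one_of_one_le₀ (hcon i)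
    have hp0 : algebraMap S F p ≠ 0 := fun h => hp.ne_zero (hinj (by rw [h, map_zero]))
    have h1 : p * s = 1 := hinj (by rw [map_mul, hs, mul_inv_cancel₀ hp0, map_one])
    exact hp.not_isUnit (IsUnit.of_mul_eq_one _ h1)
  -- the multiplicities of a prime in `a` and `b`
  have hmult : ∀ p : S, Prime p → ∀ ka kb : ℕ, p ^ ka ∣ a → ¬ p ^ (ka + 1) ∣ a →
      p ^ kb ∣ (b : S) → ¬ p ^ (kb + 1) ∣ (b : S) → (m : ℤ) ∣ (ka : ℤ) - kb := by
    intro p hp ka kb hka hka' hkb hkb'
    obtain ⟨i, hi⟩ := hcenter p hp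
    have hci := hc i p hp hi
    have huniq : ∀ {s : S} {k l : ℕ}, p ^ k ∣ s → ¬ p ^ (k + 1) ∣ s → p ^ l ∣ s →
        ¬ p ^ (l + 1) ∣ s → k = l := by
      intro s k l h1 h2 h3 h4
      rcases lt_trichotomy k l with h | h | h
      · exact absurd ((pow_dvd_pow p h).trans h3) h2
      · exact h
      · exact absurd ((pow_dvd_pow p h).trans h1) h4
    obtain ⟨k1, h11, h12, h13⟩ := exists_eq_pow_mul V hp (hS i) hci ha0
    obtain ⟨k2, h21, h22, h23⟩ := exists_eq_pow_mul V hp (hS i) hci hb0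
    obtain rfl := huniq hka hka' h11 h12
    obtain rfl := huniq hkb hkb' h21 h22
    obtain ⟨h, hh0, hh⟩ := hroot i
    obtain ⟨c, d, hcd⟩ := IsFractionRing.div_surjective (A := S) h
    obtain ⟨hd0, hcd⟩ := hcd
    have hd0' : d ≠ 0 := nonZeroDivisors.ne_zero hd0
    have hc0' : c ≠ 0 := by
      rintro rfl
      apply hh0
      rw [← hcd, map_zero, zero_div]
    obtain ⟨k3, -, -, h33⟩ := exists_eq_pow_mul V hp (hS i) hci hc0'
    obtain ⟨k4, -, -, h43⟩ := exists_eq_pow_mul V hp (hS i) hci hd0'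
    set v := (V i).valuation (algebraMap S F p) with hv
    have hv0 : v ≠ 0 := by
      rw [hv, Valuation.ne_zero_iff]
      exact fun h => hp.ne_zero (hinj (by rw [h, map_zero]))
    have e1 : v ^ ((ka : ℤ) - kb) = v ^ (((k3 : ℤ) - k4) * m) := by
      have e2 : (V i).valuation f = v ^ ((ka : ℤ) - kb) := by
        rw [hfab', map_div₀, h13, h23, zpow_sub₀ hv0, zpow_natCast, zpow_natCast]
      have e3 : (V i).valuation h = v ^ ((k3 : ℤ) - k4) := by
        rw [← hcd, map_div₀, h33, h43, zpow_sub₀ hv0, zpow_natCast, zpow_natCast]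
      rw [← e2, hh, e3, zpow_mul, zpow_natCast]
    have e4 : (ka : ℤ) - kb = ((k3 : ℤ) - k4) * m :=
      zpow_right_injective₀ (lt_of_le_of_ne zero_le hv0.symm) hi.ne e1
    exact ⟨(k3 : ℤ) - k4, by rw [e4]; ring⟩
  have hmaxpow : ∀ (p s : S), Prime p → s ≠ 0 → ∃ k : ℕ, p ^ k ∣ s ∧ ¬ p ^ (k + 1) ∣ s := by
    intro p s hp hs
    obtain ⟨k, c, hpc, hs'⟩ := WfDvdMonoid.max_power_factor hs hp.irreducible
    refine ⟨k, ⟨c, hs'⟩, fun hd => hpc ?_⟩
    rw [hs', pow_succ] at hd
    exact (mul_dvd_mul_iff_left (pow_ne_zero k hp.ne_zero)).mp hd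
  obtain ⟨c, hac⟩ := exists_associated_pow hm a (by
    intro p hp k hk hk'
    rcases Nat.eq_zero_or_pos k with rfl | hk0
    · exact dvd_zero _
    have hpa : p ∣ a := (dvd_pow_self p hk0.ne').trans hk
    have hpb : ¬ p ∣ (b : S) := fun h => hp.not_isUnit (hab hpa h)
    have h1 := hmult p hp k 0 hk hk' (by simp) (by simpa using hpb)
    simpa [Int.natCast_dvd_natCast] using h1)
  obtain ⟨d, hbd⟩ := exists_associated_pow hm (b : S) (by
    intro p hp k hk hk'
    rcases Nat.eq_zero_or_pos k with rfl | hk0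
    · exact dvd_zero _
    have hpb : p ∣ (b : S) := (dvd_pow_self p hk0.ne').trans hk
    have hpa : ¬ p ∣ a := fun h => hp.not_isUnit (hab h hpb)
    have h1 := hmult p hp 0 k (by simp) (by simpa using hpa) hk hk'
    simpa [Int.natCast_dvd_natCast] using h1)
  obtain ⟨u, hu⟩ := hac.symm
  obtain ⟨w, hw⟩ := hbd.symm
  have hc0 : c ≠ 0 := by
    rintro rfl
    rw [zero_pow hm, zero_mul] at hu
    exact ha0 hu.symm
  have hd0 : d ≠ 0 := by
    rintro rfl
    rw [zero_pow hm, zero_mul] at hw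
    exact hb0 hw.symm
  have hc0' : algebraMap S F c ≠ 0 := fun h => hc0 (hinj (by rw [h, map_zero]))
  have hd0' : algebraMap S F d ≠ 0 := fun h => hd0 (hinj (by rw [h, map_zero]))
  refine ⟨algebraMap S F c / algebraMap S F d, u * w⁻¹, div_ne_zero hc0' hd0', ?_⟩
  have hw1 : algebraMap S F (w : S) * algebraMap S F ((w⁻¹ : Sˣ) : S) = 1 := by
    rw [← map_mul, Units.mul_inv, map_one]
  have hw0 : algebraMap S F (w : S) ≠ 0 := left_ne_zero_of_mul_eq_one hw1
  have hwi : algebraMap S F ((w⁻¹ : Sˣ) : S) = (algebraMap S F (w : S))⁻¹ :=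
    eq_inv_of_mul_eq_one_right hw1
  rw [hfab', ← hu, ← hw, Units.val_mul, map_mul, map_mul, map_mul, map_pow, map_pow, hwi, div_pow]
  field_simp

end Root

end Fermat.Agent.DR.S36.G
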