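import Fermat.Agent.DR.S36.G1
import Fermat.Agent.DR.S36.G2

set_option autoImplicit false

/-!
# Local generators (S36-G, part 3)

`B = ⋂ V i` for a family (of finite character) of rank one valuation subrings of a field `F`,
`B` noetherian with fraction field `F`, `n` a maximal ideal of `B`.  The localisation `Bₙ` is the
intersection of the `V i` which are centered inside `n` (`near V n`).  If `Bₙ` surjects onto a
discrete valuation ring with principal kernel, then `Bₙ` is factorial, and roots can be extracted: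
`exists_local_root`.
-/

set_option linter.unusedSectionVars false

noncomputable section

namespace Fermat.Agent.DR.S36.G

open IsLocalRing

section Near

variable {F : Type*} [Field F] {ι : Type*} (V : ι → ValuationSubring F) {B : Subring F}

/-- The members of the family centered inside `n`. -/
def near (n : Ideal B) : Set ι := {i | ∀ b : B, b ∉ n → (V i).valuation (b : F) = 1}

variable {V}

theorem exists_lt_of_notMem_near (hB : ∀ x : F, x ∈ B ↔ ∀ i, x ∈ V i) {n : Ideal B} {i : ι}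
    (hi : i ∉ near V n) : ∃ b : B, b ∉ n ∧ (V i).valuation (b : F) < 1 := by
  simp only [near, Set.mem_ofPred_eq, not_forall] at hi
  obtain ⟨b, hb, hb1⟩ := hi
  exact ⟨b, hb, lt_of_le_of_ne (((V i).valuation_le_one_iff _).mpr ((hB _).mp b.2 i)) hb1⟩

/-- **Description of the localisation.** -/
theorem exists_mul_mem (hB : ∀ x : F, x ∈ B ↔ ∀ i, x ∈ V i)
    (hfc : ∀ x : F, {i | x ∉ V i}.Finite)
    (hr : ∀ (i : ι) (g h : F), (V i).valuation g < 1 → ∃ N : ℕ, g ^ N * h ∈ V i)
    {n : Ideal B} (hn : n.IsPrime) {x : F} (hx : ∀ i ∈ near V n, x ∈ V i) :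
    ∃ g : B, g ∉ n ∧ (g : F) * x ∈ B := by
  classical
  let T := (hfc x).toFinset
  have hT : ∀ i ∈ T, ∃ c : B, c ∉ n ∧ (c : F) * x ∈ V i := by
    intro i hi
    have hxi : x ∉ V i := (hfc x).mem_toFinset.mp hi
    have hin : i ∉ near V n := fun h => hxi (hx i h)
    obtain ⟨b, hb, hb1⟩ := exists_lt_of_notMem_near hB hin
    obtain ⟨N, hN⟩ := hr i b x hb1
    exact ⟨b ^ N, fun h => hb (hn.mem_of_pow_mem N h), by simpa using hN⟩
  choose! c hc hcx using hT
  refine ⟨∏ i ∈ T, c i, ?_, ?_⟩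
  · intro h
    obtain ⟨i, hi, hi'⟩ := (Ideal.IsPrime.prod_mem_iff (hp := hn)).mp h
    exact hc i hi hi'
  · rw [hB]
    intro j
    have hmem : ∀ y : B, (y : F) ∈ V j := fun y => (hB _).mp y.2 j
    by_cases hj : j ∈ T
    · rw [← Finset.mul_prod_erase T c hj, Subring.coe_mul, mul_right_comm]
      exact mul_mem (hcx j hj) (hmem _)
    · have hxj : x ∈ V j := by
        by_contra h
        exact hj ((hfc x).mem_toFinset.mpr h)
      exact mul_mem (hmem _) hxj

/-- the localisation of `B` at `n` inside `F` -/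
abbrev Loc (B : Subring F) [IsFractionRing B F] (n : Ideal B) [n.IsPrime] : Subalgebra B F :=
  Localization.subalgebra.ofField F n.primeCompl n.primeCompl_le_nonZeroDivisors

variable [IsFractionRing B F] {n : Ideal B} [hn : n.IsPrime]

theorem mem_loc {x : F} : x ∈ Loc B n ↔ ∃ a b : B, b ∉ n ∧ (b : F) * x = a := by
  constructor
  · rintro ⟨a, s, hs, rfl⟩
    have hs0 : (s : F) ≠ 0 := by
      intro h
      have : s = 0 := Subtype.ext h
      exact hs (this ▸ n.zero_mem)
    refine ⟨a, s, hs, ?_⟩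
    change (s : F) * ((a : F) * (s : F)⁻¹) = a
    rw [mul_comm (a : F), ← mul_assoc, mul_inv_cancel₀ hs0, one_mul]
  · rintro ⟨a, s, hs, h⟩
    have hs0 : (s : F) ≠ 0 := by
      intro h
      have : s = 0 := Subtype.ext h
      exact hs (this ▸ n.zero_mem)
    refine ⟨a, s, hs, ?_⟩
    change x = (a : F) * (s : F)⁻¹
    rw [← h, mul_comm (s : F), mul_assoc, mul_inv_cancel₀ hs0, mul_one]

theorem mem_loc_iff (hB : ∀ x : F, x ∈ B ↔ ∀ i, x ∈ V i)
    (hfc : ∀ x : F, {i | x ∉ V i}.Finite)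
    (hr : ∀ (i : ι) (g h : F), (V i).valuation g < 1 → ∃ N : ℕ, g ^ N * h ∈ V i) {x : F} :
    x ∈ Loc B n ↔ ∀ i ∈ near V n, x ∈ V i := by
  rw [mem_loc]
  constructor
  · rintro ⟨a, b, hb, h⟩ i hi
    have h1 : (V i).valuation (b : F) = 1 := hi b hb
    rw [← (V i).valuation_le_one_iff]
    have h2 : (V i).valuation x = (V i).valuation (a : F) := by
      rw [← h, map_mul, h1, one_mul]
    rw [h2]
    exact ((V i).valuation_le_one_iff _).mpr ((hB _).mp a.2 i)
  · intro hx
    obtain ⟨g, hg, hgx⟩ := exists_mul_mem hB hfc hr hn hx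
    exact ⟨⟨_, hgx⟩, g, hg, rfl⟩

end Near

section Main

variable {F : Type*} [Field F] {ι : Type*} {V : ι → ValuationSubring F} {B : Subring F}
  [IsFractionRing B F] [IsNoetherianRing B]

/-- The data which make `Bₙ` factorial: one component `i₀` through `n` whose ideal is generated by
`z` near `n`, with residue ring a discrete valuation ring `O ⊂ κ`. -/
structure LocalData (V : ι → ValuationSubring F) (n : Ideal B) (i₀ : ι) (κ : Type*) [Field κ]
    where
  mem_near : i₀ ∈ near V n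
  z : F
  z_ne : z ≠ 0
  z_lt : (V i₀).valuation z < 1
  z_gen : ∀ x : F, (V i₀).valuation x < 1 → (V i₀).valuation x ≤ (V i₀).valuation z
  z_unit : ∀ i ∈ near V n, i ≠ i₀ → (V i).valuation z = 1
  ρ : V i₀ →+* κ
  ρ_eq_zero : ∀ x : V i₀, ρ x = 0 ↔ (V i₀).valuation (x : F) < 1
  O : ValuationSubring κ
  principal : IsPrincipalIdealRing O
  mem_O : ∀ (b : F) (hb : b ∈ V i₀), b ∈ B → ρ ⟨b, hb⟩ ∈ O
  unit_O : ∀ (b : B) (hb : (b : F) ∈ V i₀), b ∉ n → (ρ ⟨b, hb⟩)⁻¹ ∈ O
  surj_O : ∀ y ∈ O, ∃ (a b : B) (ha : (a : F) ∈ V i₀) (hb : (b : F) ∈ V i₀), b ∉ n ∧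
    ρ ⟨b, hb⟩ * y = ρ ⟨a, ha⟩

variable {n : Ideal B} [hn : n.IsMaximal] {i₀ : ι} {κ : Type*} [Field κ]

namespace LocalData

variable (D : LocalData V n i₀ κ)
  (hB : ∀ x : F, x ∈ B ↔ ∀ i, x ∈ V i)
  (hfc : ∀ x : F, {i | x ∉ V i}.Finite)
  (hr : ∀ (i : ι) (g h : F), (V i).valuation g < 1 → ∃ N : ℕ, g ^ N * h ∈ V i)

include hB hfc hr in
theorem coe_mem {x : F} (hx : x ∈ Loc B n) {i : ι} (hi : i ∈ near V n) : x ∈ V i :=
  (mem_loc_iff hB hfc hr).mp hx i hi

/-- The residue map on `Bₙ`. -/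
def resHom : Loc B n →+* κ where
  toFun x := D.ρ ⟨x, coe_mem hB hfc hr x.2 D.mem_near⟩
  map_one' := by exact map_one D.ρ
  map_mul' x y := by exact map_mul D.ρ ⟨x, _⟩ ⟨y, _⟩
  map_zero' := by exact map_zero D.ρ
  map_add' x y := by exact map_add D.ρ ⟨x, _⟩ ⟨y, _⟩

theorem resHom_apply (x : Loc B n) :
    D.resHom hB hfc hr x = D.ρ ⟨x, coe_mem hB hfc hr x.2 D.mem_near⟩ := rfl

theorem resHom_mem (x : Loc B n) : D.resHom hB hfc hr x ∈ D.O := by
  obtain ⟨a, b, hb, h⟩ := mem_loc.mp x.2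
  have hbV : (b : F) ∈ V i₀ := (hB _).mp b.2 i₀
  have haV : (a : F) ∈ V i₀ := (hB _).mp a.2 i₀
  have hxV := coe_mem hB hfc hr x.2 D.mem_near
  have h1 : D.ρ ⟨b, hbV⟩ * D.ρ ⟨x, hxV⟩ = D.ρ ⟨a, haV⟩ := by
    rw [← map_mul]
    exact congrArg D.ρ (Subtype.ext h)
  have hb0 : D.ρ ⟨b, hbV⟩ ≠ 0 := by
    rw [Ne, D.ρ_eq_zero]
    exact (D.mem_near b hb).not_lt
  rw [resHom_apply]
  have h2 : D.ρ ⟨x, hxV⟩ = (D.ρ ⟨b, hbV⟩)⁻¹ * D.ρ ⟨a, haV⟩ := by
    rw [← h1, ← mul_assoc, inv_mul_cancel₀ hb0, one_mul]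
  rw [h2]
  exact mul_mem (D.unit_O b hbV hb) (D.mem_O _ haV a.2)

/-- The residue map `Bₙ → O`. -/
def resO : Loc B n →+* D.O :=
  (D.resHom hB hfc hr).codRestrict D.O.toSubring (D.resHom_mem hB hfc hr)

theorem resO_surjective : Function.Surjective (D.resO hB hfc hr) := by
  rintro ⟨y, hy⟩
  obtain ⟨a, b, ha, hb, hbn, h⟩ := D.surj_O y hy
  have hb0 : D.ρ ⟨b, hb⟩ ≠ 0 := by
    rw [Ne, D.ρ_eq_zero]
    exact (D.mem_near b hbn).not_lt
  have hb0' : (b : F) ≠ 0 := by
    intro h0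
    exact hbn ((Subtype.ext h0 : b = 0) ▸ n.zero_mem)
  have hx : (a : F) * (b : F)⁻¹ ∈ Loc B n := mem_loc.mpr ⟨a, b, hbn, by
    rw [mul_comm (a : F), ← mul_assoc, mul_inv_cancel₀ hb0', one_mul]⟩
  refine ⟨⟨_, hx⟩, Subtype.ext ?_⟩
  change D.ρ ⟨(a : F) * (b : F)⁻¹, _⟩ = y
  have hxV := coe_mem hB hfc hr hx D.mem_near
  have h1 : D.ρ ⟨b, hb⟩ * D.ρ ⟨(a : F) * (b : F)⁻¹, hxV⟩ = D.ρ ⟨b, hb⟩ * y := by
    rw [h, ← map_mul]
    refine congrArg D.ρ (Subtype.ext ?_)
    change (b : F) * ((a : F) * (b : F)⁻¹) = a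
    rw [mul_comm (a : F), ← mul_assoc, mul_inv_cancel₀ hb0', one_mul]
  exact mul_left_cancel₀ hb0 h1

include hB hfc hr in
theorem z_mem : D.z ∈ Loc B n := by
  rw [mem_loc_iff hB hfc hr]
  intro i hi
  rw [← (V i).valuation_le_one_iff]
  by_cases h : i = i₀
  · subst h; exact D.z_lt.le
  · exact (D.z_unit i hi h).le

theorem ker_resO : RingHom.ker (D.resO hB hfc hr) =
    Ideal.span {(⟨D.z, D.z_mem hB hfc hr⟩ : Loc B n)} := by
  have hker : ∀ x : Loc B n, x ∈ RingHom.ker (D.resO hB hfc hr) ↔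
      (V i₀).valuation (x : F) < 1 := by
    intro x
    rw [RingHom.mem_ker]
    constructor
    · intro h
      exact (D.ρ_eq_zero _).mp (congrArg Subtype.val h)
    · intro h
      exact Subtype.ext ((D.ρ_eq_zero ⟨x, coe_mem hB hfc hr x.2 D.mem_near⟩).mpr h)
  apply le_antisymm
  · intro x hx
    rw [hker] at hx
    have h1 : (x : F) / D.z ∈ Loc B n := by
      rw [mem_loc_iff hB hfc hr]
      intro i hi
      rw [← (V i).valuation_le_one_iff, map_div₀]
      by_cases h : i = i₀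
      · subst h
        exact div_le_one_of_le₀ (D.z_gen _ hx) zero_le
      · rw [D.z_unit i hi h, div_one]
        exact ((V i).valuation_le_one_iff _).mpr (coe_mem hB hfc hr x.2 hi)
    rw [Ideal.mem_span_singleton]
    refine ⟨⟨_, h1⟩, Subtype.ext ?_⟩
    change (x : F) = D.z * ((x : F) / D.z)
    rw [mul_div_cancel₀ _ D.z_ne]
  · rw [Ideal.span_singleton_le_iff_mem, hker]
    exact D.z_lt

include D hB hfc hr in
theorem ufd : UniqueFactorizationMonoid (Loc B n) := by
  have := D.principal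
  have hloc : IsLocalRing (Loc B n) := IsLocalization.AtPrime.isLocalRing (Loc B n) n
  have hnoeth : IsNoetherianRing (Loc B n) :=
    IsLocalization.isNoetherianRing n.primeCompl (Loc B n) inferInstance
  exact ufd_of_surjective (D.resO hB hfc hr) (D.resO_surjective hB hfc hr) _
    (fun h => D.z_ne (congrArg Subtype.val h)) (D.ker_resO hB hfc hr)

include D hB hfc hr in
/-- **Extraction of local roots.** -/
theorem exists_root (hcent : ∀ i ∈ near V n, ∃ b ∈ n, (V i).valuation (b : F) = 1)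
    {m : ℕ} (hm : m ≠ 0) {f : F} (hf : f ≠ 0)
    (hroot : ∀ i ∈ near V n, ∃ h : F, h ≠ 0 ∧ (V i).valuation f = (V i).valuation h ^ m) :
    ∃ h : F, h ≠ 0 ∧ f / h ^ m ∈ Loc B n ∧ h ^ m / f ∈ Loc B n := by
  have hprinc := D.principal
  have hloc : IsLocalRing (Loc B n) := IsLocalization.AtPrime.isLocalRing (Loc B n) n
  have hnoeth : IsNoetherianRing (Loc B n) :=
    IsLocalization.isNoetherianRing n.primeCompl (Loc B n) inferInstance
  have hufd := D.ufd hB hfc hr
  have hmemloc := fun {x : F} => mem_loc_iff (V := V) (n := n) (x := x) hB hfc hr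
  have hcond : ∀ (i : near V n) (p : Loc B n), Prime p →
      (V i).valuation (algebraMap (Loc B n) F p) < 1 →
      ∀ s : Loc B n, (V i).valuation (algebraMap (Loc B n) F s) < 1 → p ∣ s := by
    rintro ⟨i, hi⟩ p hp hpi s hs
    -- the center of `V i`
    let I : Ideal (Loc B n) :=
      { carrier := {s | (V i).valuation (s : F) < 1}
        zero_mem' := by simp
        add_mem' := fun {a b} ha hb => by
          have ha' : (V i).valuation (a : F) < 1 := ha
          have hb' : (V i).valuation (b : F) < 1 := hb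
          exact Valuation.map_add_lt _ ha' hb'
        smul_mem' := fun c x hx => by
          change (V i).valuation ((c : F) * x) < 1
          rw [map_mul]
          exact (mul_le_of_le_one_left' (((V i).valuation_le_one_iff _).mpr
            (coe_mem hB hfc hr c.2 hi))).trans_lt hx }
    have hIp : I.IsPrime := by
      refine ⟨?_, ?_⟩
      · rw [Ideal.ne_top_iff_one]
        change ¬ (V i).valuation ((1 : Loc B n) : F) < 1
        simp
      · intro a b hab
        change (V i).valuation ((a : F) * b) < 1 at hab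
        by_contra hcon
        push Not at hcon
        obtain ⟨h1, h2⟩ := hcon
        have h1' : (V i).valuation (a : F) = 1 :=
          le_antisymm (((V i).valuation_le_one_iff _).mpr (coe_mem hB hfc hr a.2 hi))
            (not_lt.mp h1)
        rw [map_mul, h1', one_mul] at hab
        exact h2 hab
    rcases isPrincipal_or_eq_maximalIdeal (D.resO hB hfc hr) (D.resO_surjective hB hfc hr) _
      (fun h => D.z_ne (congrArg Subtype.val h)) (D.ker_resO hB hfc hr) I hIp with ⟨g, hg⟩ | hmax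
    · have hpI : p ∈ I := hpi
      have hsI : s ∈ I := hs
      rw [hg, Ideal.mem_span_singleton] at hpI hsI
      have hgu : ¬ IsUnit g := by
        intro hu
        apply hIp.ne_top
        rw [hg, Ideal.span_singleton_eq_top]
        exact hu
      have hassoc : Associated p g :=
        (hp.irreducible.dvd_iff.mp hpI).resolve_left hgu
      exact hassoc.dvd.trans hsI
    · exfalso
      obtain ⟨b, hb, hb1⟩ := hcent i hi
      have hbL : (b : F) ∈ Loc B n := mem_loc.mpr ⟨b, 1, fun h => hn.ne_top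
        (Ideal.eq_top_of_isUnit_mem _ h isUnit_one), by simp⟩
      have hbm : (⟨b, hbL⟩ : Loc B n) ∈ maximalIdeal (Loc B n) := by
        have h1 := IsLocalization.AtPrime.to_map_mem_maximal_iff (Loc B n) n b
        exact h1.mpr hb
      rw [← hmax] at hbm
      change (V i).valuation (b : F) < 1 at hbm
      exact hbm.ne hb1
  obtain ⟨h, u, hh0, hfu⟩ := Fermat.Agent.DR.S36.G.exists_root (S := Loc B n)
    (fun i : near V n => V i) (fun i s => coe_mem hB hfc hr s.2 i.2)
    (fun x hx => ⟨⟨x, hmemloc.mpr fun i hi => hx ⟨i, hi⟩⟩, rfl⟩) hcond hm hf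
    (fun i => hroot i i.2)
  have hh : h ^ m ≠ 0 := pow_ne_zero m hh0
  have hu : ((u : Loc B n) : F) * ((u⁻¹ : (Loc B n)ˣ) : Loc B n) = 1 :=
    congrArg Subtype.val (Units.mul_inv u)
  have hu0 : ((u : Loc B n) : F) ≠ 0 := left_ne_zero_of_mul_eq_one hu
  have hfu' : f = ((u : Loc B n) : F) * h ^ m := hfu
  refine ⟨h, hh0, ?_, ?_⟩
  · have h1 : f / h ^ m = ((u : Loc B n) : F) := by
      rw [hfu', mul_div_cancel_right₀ _ hh]
    rw [h1]; exact (u : Loc B n).2
  · have h1 : h ^ m / f = (((u⁻¹ : (Loc B n)ˣ) : Loc B n) : F) := by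
      rw [hfu', div_eq_iff (mul_ne_zero hu0 hh)]
      have h2 : (((u⁻¹ : (Loc B n)ˣ) : Loc B n) : F) * (((u : Loc B n) : F) * h ^ m) =
          (((u : Loc B n) : F) * ((u⁻¹ : (Loc B n)ˣ) : Loc B n)) * h ^ m := by ring
      rw [h2, hu, one_mul]
    rw [h1]; exact ((u⁻¹ : (Loc B n)ˣ) : Loc B n).2

end LocalData

end Main

end Fermat.Agent.DR.S36.G
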