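import Mathlib
import Fermat.Agent.DR.InertiaValue
import Fermat.Agent.EllRed.ResidueField

/-!
# The inertia field

`A` a place of `ℚ̄` over `q`, `L = ℚ̄^I` the fixed field of the inertia group,
`A0 A L = A ∩ L`: a discrete valuation ring with uniformizer `q` and the same residue field
as `A`.
-/

set_option autoImplicit false

noncomputable section

open Polynomial

namespace Fermat.Agent.DR.S36.L

/-- `L` is the fixed field of the inertia group of the place `A` of `ℚ̄`. -/
class IsInertiaField (A : ValuationSubring (AlgebraicClosure ℚ)) (L : Type*) [Field L]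
    [Algebra L (AlgebraicClosure ℚ)] : Prop where
  mem_range_iff : ∀ x : AlgebraicClosure ℚ,
    x ∈ Set.range (algebraMap L (AlgebraicClosure ℚ)) ↔ ∀ σ ∈ A.inertiaSubgroupIn ℚ, σ x = x

section Concrete

variable (A : ValuationSubring (AlgebraicClosure ℚ))

/-- The fixed field of the inertia group of `A`. -/
def K0 : IntermediateField ℚ (AlgebraicClosure ℚ) :=
  IntermediateField.fixedField (A.inertiaSubgroupIn ℚ)

variable {A} in
theorem mem_K0 {x : AlgebraicClosure ℚ} :
    x ∈ K0 A ↔ ∀ σ ∈ A.inertiaSubgroupIn ℚ, σ x = x := by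
  unfold K0
  rw [IntermediateField.mem_fixedField_iff]

instance instIsInertiaFieldK0 : IsInertiaField A (K0 A) where
  mem_range_iff x := by
    rw [← mem_K0]
    constructor
    · rintro ⟨y, rfl⟩
      exact y.2
    · intro h
      exact ⟨⟨x, h⟩, rfl⟩

theorem exists_inertiaField : ∃ (L : Type) (_ : Field L) (_ : Algebra L (AlgebraicClosure ℚ)),
    IsInertiaField A L := ⟨K0 A, inferInstance, inferInstance, inferInstance⟩

end Concrete

variable (A : ValuationSubring (AlgebraicClosure ℚ)) (L : Type*) [Field L]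
  [Algebra L (AlgebraicClosure ℚ)]

/-- The valuation ring `A ∩ L`. -/
def A0 : ValuationSubring L := A.comap (algebraMap L (AlgebraicClosure ℚ))

variable {A L}

theorem mem_A0 {x : L} : x ∈ A0 A L ↔ algebraMap L (AlgebraicClosure ℚ) x ∈ A := Iff.rfl

variable (A L) in
/-- The inclusion `A0 A L → A`. -/
def incl : A0 A L →+* A where
  toFun x := ⟨algebraMap L (AlgebraicClosure ℚ) (x : L), x.2⟩
  map_one' := Subtype.ext (map_one _)
  map_mul' _ _ := Subtype.ext (map_mul _ _ _)
  map_zero' := Subtype.ext (map_zero _)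
  map_add' _ _ := Subtype.ext (map_add _ _ _)

@[simp]
theorem coe_incl (x : A0 A L) :
    ((incl A L x : A) : AlgebraicClosure ℚ) = algebraMap L (AlgebraicClosure ℚ) (x : L) := rfl

theorem incl_injective : Function.Injective (incl A L) := fun x y h => by
  apply Subtype.ext
  apply (algebraMap L (AlgebraicClosure ℚ)).injective
  exact congrArg (fun z : A => (z : AlgebraicClosure ℚ)) h

variable {q : ℕ}

theorem natCast_mem_A0 (q : ℕ) : (q : L) ∈ A0 A L := natCast_mem (A0 A L) q

variable (L) in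
theorem natCast_ne_zero (hq : q.Prime) : (q : L) ≠ 0 := by
  intro h
  have h1 := congrArg (algebraMap L (AlgebraicClosure ℚ)) h
  rw [map_natCast, map_zero] at h1
  exact hq.ne_zero (by exact_mod_cast h1)

theorem fixed_algebraMap [IsInertiaField A L] (x : L)
    {σ : AlgebraicClosure ℚ ≃ₐ[ℚ] AlgebraicClosure ℚ} (hσ : σ ∈ A.inertiaSubgroupIn ℚ) :
    σ (algebraMap L (AlgebraicClosure ℚ) x) = algebraMap L (AlgebraicClosure ℚ) x :=
  (IsInertiaField.mem_range_iff (A := A) (L := L) _).mp ⟨x, rfl⟩ σ hσ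

/-- Every element of the inertia field is a power of `q` times a unit. -/
theorem exists_zpow [IsInertiaField A L] (hq : q.Prime) (hA : A.LiesOverPrime q) {x : L}
    (hx : x ≠ 0) : ∃ (k : ℤ) (u : (A0 A L)ˣ), x = ((u : A0 A L) : L) * (q : L) ^ k := by
  have hx' : algebraMap L (AlgebraicClosure ℚ) x ≠ 0 := by simpa using hx
  obtain ⟨k, hk⟩ := InertiaValue.exists_zpow_of_inertia_fixed A hq hA hx'
    (fun σ hσ => fixed_algebraMap x hσ)
  have hq0 : (q : L) ≠ 0 := natCast_ne_zero L hq
  have hy0 : x * (q : L) ^ k ≠ 0 := mul_ne_zero hx (zpow_ne_zero _ hq0)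
  have e1 : algebraMap L (AlgebraicClosure ℚ) (x * (q : L) ^ k) =
      algebraMap L (AlgebraicClosure ℚ) x * (q : AlgebraicClosure ℚ) ^ k := by
    rw [map_mul, map_zpow₀, map_natCast]
  have h1 : x * (q : L) ^ k ∈ A0 A L := by
    rw [mem_A0, e1, ← A.valuation_le_one_iff]
    exact hk.le
  have h2 : (x * (q : L) ^ k)⁻¹ ∈ A0 A L := by
    rw [mem_A0, map_inv₀, e1, ← A.valuation_le_one_iff, map_inv₀, hk, inv_one]
  refine ⟨-k, ⟨⟨_, h1⟩, ⟨_, h2⟩, Subtype.ext (mul_inv_cancel₀ hy0),
    Subtype.ext (inv_mul_cancel₀ hy0)⟩, ?_⟩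
  show x = x * (q : L) ^ k * (q : L) ^ (-k)
  rw [mul_assoc, ← zpow_add₀ hq0, add_neg_cancel, zpow_zero, mul_one]

theorem natCast_not_isUnit (hA : A.LiesOverPrime q) : ¬ IsUnit ((q : ℕ) : A0 A L) := by
  intro h
  have h1 : IsUnit (incl A L ((q : ℕ) : A0 A L)) := h.map _
  rw [map_natCast] at h1
  have h2 : (q : AlgebraicClosure ℚ) ∈ A.nonunits := hA
  rw [ValuationSubring.mem_nonunits_iff_exists_mem_maximalIdeal] at h2
  obtain ⟨h3, h4⟩ := h2
  exact h4 h1

theorem pow_not_isUnit (hA : A.LiesOverPrime q) {n : ℕ} (hn : n ≠ 0) :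
    ¬ IsUnit (((q : ℕ) : A0 A L) ^ n) := by
  rw [isUnit_pow_iff hn]
  exact natCast_not_isUnit hA

/-- If `u q^k` is integral then `k ≥ 0`. -/
theorem nonneg_of_mem [IsInertiaField A L] (hq : q.Prime) (hA : A.LiesOverPrime q) {k : ℤ} (u : (A0 A L)ˣ)
    (h : ((u : A0 A L) : L) * (q : L) ^ k ∈ A0 A L) : 0 ≤ k := by
  have hq0 : (q : L) ≠ 0 := natCast_ne_zero L hq
  by_contra hk
  push Not at hk
  obtain ⟨n, hn⟩ : ∃ n : ℕ, k = -(n : ℤ) := ⟨k.natAbs, by omega⟩
  have hn0 : n ≠ 0 := by omega
  have h1 : (q : L) ^ k ∈ A0 A L := by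
    have := (A0 A L).mul_mem _ _ ((u⁻¹ : (A0 A L)ˣ) : A0 A L).2 h
    rw [← mul_assoc] at this
    have e : (((u⁻¹ : (A0 A L)ˣ) : A0 A L) : L) * ((u : A0 A L) : L) = 1 :=
      congrArg Subtype.val u.inv_mul
    rwa [e, one_mul] at this
  apply pow_not_isUnit (L := L) hA hn0
  rw [isUnit_iff_exists_inv]
  refine ⟨⟨_, h1⟩, Subtype.ext ?_⟩
  show (q : L) ^ n * (q : L) ^ k = 1
  rw [hn, zpow_neg, zpow_natCast, mul_inv_cancel₀ (pow_ne_zero _ hq0)]

/-- Every nonzero element of `A0 A L` is associated to a power of `q`. -/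
theorem exists_pow [IsInertiaField A L] (hq : q.Prime) (hA : A.LiesOverPrime q) {x : A0 A L} (hx : x ≠ 0) :
    ∃ (n : ℕ) (u : (A0 A L)ˣ), x = (u : A0 A L) * ((q : ℕ) : A0 A L) ^ n := by
  have hx' : (x : L) ≠ 0 := fun h => hx (Subtype.ext h)
  obtain ⟨k, u, hk⟩ := exists_zpow hq hA hx'
  have h0 : 0 ≤ k := nonneg_of_mem hq hA u (hk ▸ x.2)
  obtain ⟨n, rfl⟩ := Int.eq_ofNat_of_zero_le h0
  refine ⟨n, u, Subtype.ext ?_⟩
  rw [hk, zpow_natCast]
  rfl

theorem irreducible_natCast [IsInertiaField A L] (hq : q.Prime) (hA : A.LiesOverPrime q) :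
    Irreducible ((q : ℕ) : A0 A L) := by
  refine ⟨natCast_not_isUnit hA, ?_⟩
  intro a b hab
  have hq0 : ((q : ℕ) : A0 A L) ≠ 0 := by
    intro h
    exact natCast_ne_zero L hq (congrArg Subtype.val h)
  have ha : a ≠ 0 := by rintro rfl; rw [zero_mul] at hab; exact hq0 hab
  have hb : b ≠ 0 := by rintro rfl; rw [mul_zero] at hab; exact hq0 hab
  obtain ⟨m, u, rfl⟩ := exists_pow hq hA ha
  obtain ⟨n, v, rfl⟩ := exists_pow hq hA hb
  rcases Nat.eq_zero_or_pos m with rfl | hm
  · left; rw [pow_zero, mul_one]; exact u.isUnit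
  rcases Nat.eq_zero_or_pos n with rfl | hn
  · right; rw [pow_zero, mul_one]; exact v.isUnit
  exfalso
  obtain ⟨m, rfl⟩ := Nat.exists_eq_succ_of_ne_zero hm.ne'
  obtain ⟨n, rfl⟩ := Nat.exists_eq_succ_of_ne_zero hn.ne'
  have h1 : ((q : ℕ) : A0 A L) * 1 = ((q : ℕ) : A0 A L) *
      ((u * v : (A0 A L)ˣ) * ((q : ℕ) : A0 A L) ^ (m + n + 1)) := by
    rw [mul_one]
    conv_lhs => rw [hab]
    rw [Units.val_mul, Nat.succ_eq_add_one, Nat.succ_eq_add_one]
    ring
  have h2 := mul_left_cancel₀ hq0 h1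
  apply natCast_not_isUnit (L := L) hA
  rw [isUnit_iff_exists_inv]
  refine ⟨((u * v : (A0 A L)ˣ) : A0 A L) * ((q : ℕ) : A0 A L) ^ (m + n), ?_⟩
  rw [h2]
  ring

/-- `A0 A L` is a discrete valuation ring. -/
theorem isDiscreteValuationRing [IsInertiaField A L] (hq : q.Prime) (hA : A.LiesOverPrime q) :
    IsDiscreteValuationRing (A0 A L) := by
  apply IsDiscreteValuationRing.ofHasUnitMulPowIrreducibleFactorization
  refine ⟨((q : ℕ) : A0 A L), irreducible_natCast hq hA, ?_⟩
  intro x hx
  obtain ⟨n, u, rfl⟩ := exists_pow hq hA hx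
  exact ⟨n, u, mul_comm _ _⟩

theorem maximalIdeal_eq [IsInertiaField A L] (hq : q.Prime) (hA : A.LiesOverPrime q) :
    IsLocalRing.maximalIdeal (A0 A L) = Ideal.span {((q : ℕ) : A0 A L)} := by
  have := isDiscreteValuationRing (L := L) hq hA
  exact (irreducible_natCast hq hA).maximalIdeal_eq

section Residue

variable {k : Type*} [Field k] (π : A →+* k)

theorem ker_eq (hπ : Function.Surjective π) : RingHom.ker π = IsLocalRing.maximalIdeal A :=
  IsLocalRing.eq_maximalIdeal (RingHom.ker_isMaximal_of_surjective π hπ)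

theorem map_eq_zero_iff' (hπ : Function.Surjective π) {a : A} :
    π a = 0 ↔ ¬ IsUnit a := by
  rw [← RingHom.mem_ker, ker_eq π hπ]
  rfl

theorem map_natCast_eq_zero (hA : A.LiesOverPrime q) (hπ : Function.Surjective π) :
    ((q : ℕ) : k) = 0 := by
  have h2 : (q : AlgebraicClosure ℚ) ∈ A.nonunits := hA
  rw [ValuationSubring.mem_nonunits_iff_exists_mem_maximalIdeal] at h2
  obtain ⟨h3, h4⟩ := h2
  rw [← ker_eq π hπ, RingHom.mem_ker] at h4
  rw [← map_natCast π]
  exact h4

theorem charP (hq : q.Prime) (hA : A.LiesOverPrime q) (hπ : Function.Surjective π) :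
    CharP k q :=
  (CharP.charP_iff_prime_eq_zero hq).mpr (map_natCast_eq_zero π hA hπ)

/-- The elements of the residue field are algebraic over the prime field. -/
theorem exists_pow_eq_one (hq : q.Prime) (hA : A.LiesOverPrime q) (hπ : Function.Surjective π)
    {c : k} (hc : c ≠ 0) : ∃ n : ℕ, ¬ q ∣ n ∧ c ^ n = 1 := by
  have hchar := charP π hq hA hπ
  have : Fact q.Prime := ⟨hq⟩
  let _ : Algebra (ZMod q) k := ZMod.algebra k q
  obtain ⟨a, rfl⟩ := hπ c
  obtain ⟨g, hg, hga⟩ := ResField.exists_polynomial_zmod (A := A) hq (IsLocalRing.residue A a)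
  -- `π` factors through the residue field
  have hker : ∀ b : A, IsLocalRing.residue A b = 0 → π b = 0 := by
    intro b hb
    rw [← RingHom.mem_ker, ker_eq π hπ]
    exact (IsLocalRing.residue_eq_zero_iff b).mp hb
  have h1 : aeval (π a) g = 0 := by
    have h2 : aeval (π a) g = π (aeval a g) := by
      rw [aeval_def, aeval_def, hom_eval₂]
      congr 1
      exact RingHom.ext_int _ _
    rw [h2]
    apply hker
    have h3 : IsLocalRing.residue A (aeval a g) = aeval (IsLocalRing.residue A a) g := by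
      rw [aeval_def, aeval_def, hom_eval₂]
      congr 1
    rw [h3, hga]
  have halg : IsAlgebraic (ZMod q) (π a) := by
    refine ⟨g.map (Int.castRingHom (ZMod q)), hg, ?_⟩
    rw [aeval_def, eval₂_map]
    rw [aeval_def] at h1
    rw [← h1]
    congr 1
    exact RingHom.ext_int _ _
  have hint : IsIntegral (ZMod q) (π a) := halg.isIntegral
  let E := IntermediateField.adjoin (ZMod q) {π a}
  have hfin : FiniteDimensional (ZMod q) E := IntermediateField.adjoin.finiteDimensional hint
  have hE : Finite E := Module.finite_of_finite (ZMod q)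
  let _ : Fintype E := Fintype.ofFinite E
  let x : E := ⟨π a, IntermediateField.mem_adjoin_simple_self _ _⟩
  have hx : x ≠ 0 := fun h => hc (congrArg Subtype.val h)
  have h4 := FiniteField.pow_card_sub_one_eq_one x hx
  refine ⟨Fintype.card E - 1, ?_, ?_⟩
  · intro hdvd
    have hcard : 1 < Fintype.card E := Fintype.one_lt_card
    have hqc : q ∣ Fintype.card E := by
      obtain ⟨n, -, hn⟩ := FiniteField.card E q
      rw [hn]
      exact dvd_pow_self _ n.2.ne'
    have h5 : q ∣ 1 := by
      have : Fintype.card E = (Fintype.card E - 1) + 1 := by omega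
      rw [this] at hqc
      exact (Nat.dvd_add_right hdvd).mp hqc
    exact hq.one_lt.ne' (Nat.dvd_one.mp h5)
  · exact congrArg Subtype.val h4

/-- Roots of unity of order prime to `q` are fixed by inertia. -/
theorem mem_range_of_pow_eq_one [IsInertiaField A L] (hq : q.Prime) (hA : A.LiesOverPrime q) {n : ℕ} (hn : ¬ q ∣ n)
    {x : AlgebraicClosure ℚ} (hx : x ^ n = 1) : x ∈ Set.range (algebraMap L (AlgebraicClosure ℚ)) := by
  rw [IsInertiaField.mem_range_iff (A := A)]
  intro σ hσ
  have hn0 : n ≠ 0 := by rintro rfl; exact hn (dvd_zero q)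
  have hmemU : ∀ y : AlgebraicClosure ℚ, y ^ n = 1 → y ∈ A := by
    intro y hy
    by_contra hcon
    have h1 := (A.mem_or_inv_mem y).resolve_left hcon
    apply hcon
    have hy0 : y ≠ 0 := by rintro rfl; rw [zero_pow hn0] at hy; exact zero_ne_one hy
    have : y = (y⁻¹) ^ (n - 1) := by
      rw [inv_pow]
      apply eq_inv_of_mul_eq_one_right
      rw [← pow_succ, Nat.sub_add_cancel (Nat.one_le_iff_ne_zero.mpr hn0), hy]
    rw [this]
    exact pow_mem h1 _
  have hxA := hmemU x hx
  have hσx : (σ x) ^ n = 1 := by rw [← map_pow, hx, map_one]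
  have hσA := hmemU _ hσx
  have h1 := FlatOrd.InertiaLift.sub_mem_nonunits_of_mem_inertia A hσ hxA
  by_contra hne
  -- reduce `(X^n - 1)/(X - x)` at `σ x`
  let κ := IsLocalRing.ResidueField A
  have hchar : CharP κ q := ResField.charP_residueField hq hA
  let xA : A := ⟨x, hxA⟩
  let yA : A := ⟨σ x, hσA⟩
  have hres : IsLocalRing.residue A xA = IsLocalRing.residue A yA := by
    rw [← sub_eq_zero, ← map_sub, IsLocalRing.residue_eq_zero_iff, ← neg_sub, Ideal.neg_mem_iff,
      ← ValuationSubring.coe_mem_nonunits_iff]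
    exact h1
  have h2 : (∑ i ∈ Finset.range n, yA ^ i * xA ^ (n - 1 - i)) * (yA - xA) = 0 := by
    rw [Commute.geom_sum₂_mul (Commute.all _ _)]
    apply Subtype.ext
    show (σ x) ^ n - x ^ n = 0
    rw [hσx, hx, sub_self]
  have h3 : yA - xA ≠ 0 := by
    intro h
    apply hne
    have := congrArg Subtype.val (sub_eq_zero.mp h)
    exact this
  have h4 := (mul_eq_zero.mp h2).resolve_right h3
  have h5 := congrArg (IsLocalRing.residue A) h4
  rw [map_sum, map_zero] at h5
  have h6 : ∀ i ∈ Finset.range n, IsLocalRing.residue A (yA ^ i * xA ^ (n - 1 - i)) =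
      (IsLocalRing.residue A xA) ^ (n - 1) := by
    intro i hi
    rw [map_mul, map_pow, map_pow, ← hres, ← pow_add]
    congr 1
    have := Finset.mem_range.mp hi
    omega
  rw [Finset.sum_congr rfl h6, Finset.sum_const, Finset.card_range, nsmul_eq_mul] at h5
  rcases mul_eq_zero.mp h5 with h7 | h7
  · exact hn ((CharP.cast_eq_zero_iff κ q n).mp h7)
  · have h8 : (IsLocalRing.residue A xA) ^ n = 1 := by
      rw [← map_pow]
      have : xA ^ n = 1 := Subtype.ext hx
      rw [this, map_one]
    have h9 : (IsLocalRing.residue A xA) ^ n = 0 := by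
      have : n = (n - 1) + 1 := by omega
      rw [this, pow_succ, h7, zero_mul]
    exact one_ne_zero (h8.symm.trans h9)

/-- **Teichmüller lifts**: `A0 A L` has the same residue field as `A`. -/
theorem exists_lift [IsInertiaField A L] (hq : q.Prime) (hA : A.LiesOverPrime q) (hπ : Function.Surjective π) (c : k) :
    ∃ a : A0 A L, π (incl A L a) = c := by
  rcases eq_or_ne c 0 with rfl | hc
  · exact ⟨0, by rw [map_zero, map_zero]⟩
  obtain ⟨n, hn, hcn⟩ := exists_pow_eq_one π hq hA hπ hc
  have hn0 : n ≠ 0 := by rintro rfl; exact hn (dvd_zero q)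
  obtain ⟨a, rfl⟩ := hπ c
  have hspl : (X ^ n - 1 : (AlgebraicClosure ℚ)[X]).Splits := IsAlgClosed.splits _
  have hmon : (X ^ n - 1 : (AlgebraicClosure ℚ)[X]).Monic := monic_X_pow_sub_C 1 hn0
  have hprod := hspl.eq_prod_roots_of_monic hmon
  have h1 := congrArg (Polynomial.eval (a : AlgebraicClosure ℚ)) hprod
  rw [Polynomial.eval_multiset_prod, Multiset.map_map] at h1
  simp only [eval_sub, eval_pow, eval_X, eval_one, Function.comp_apply, eval_C] at h1
  -- one of the factors is a nonunit
  have h2 : (a : AlgebraicClosure ℚ) ^ n - 1 ∈ A.nonunits := by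
    have h3 : a ^ n - 1 ∈ IsLocalRing.maximalIdeal A := by
      rw [← ker_eq π hπ, RingHom.mem_ker, map_sub, map_pow, map_one, hcn, sub_self]
    exact (ValuationSubring.coe_mem_nonunits_iff (A := A) (a := a ^ n - 1)).mpr h3
  by_contra hcon
  push Not at hcon
  have h4 : ∀ s : Multiset (AlgebraicClosure ℚ), (∀ y ∈ s, y ^ n = 1) →
      (Multiset.map (fun y => (a : AlgebraicClosure ℚ) - y) s).prod ∉ A.nonunits := by
    intro s
    induction s using Multiset.induction_on with
    | empty =>
      intro _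
      rw [Multiset.map_zero, Multiset.prod_zero, ValuationSubring.mem_nonunits_iff, map_one]
      exact lt_irrefl 1
    | cons y s ih =>
      intro hs
      have hy := hs y (Multiset.mem_cons_self y s)
      obtain ⟨y0, hy0⟩ := mem_range_of_pow_eq_one (L := L) hq hA hn hy
      have hyA : y ∈ A := by
        have h7 : A.valuation y = 1 := by
          have h8 := congrArg A.valuation hy
          rw [map_pow, map_one] at h8
          exact (pow_eq_one_iff_of_nonneg zero_le hn0).mp h8
        rw [← A.valuation_le_one_iff]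
        exact h7.le
      have ih' := ih fun z hz => hs z (Multiset.mem_cons_of_mem hz)
      rw [Multiset.map_cons, Multiset.prod_cons]
      rw [ValuationSubring.mem_nonunits_iff] at ih' ⊢
      rw [map_mul]
      have h5 : ¬ A.valuation ((a : AlgebraicClosure ℚ) - y) < 1 := by
        intro h6
        have hy0A : y0 ∈ A0 A L := by rw [mem_A0, hy0]; exact hyA
        apply hcon ⟨y0, hy0A⟩
        have h7 : a - ⟨y, hyA⟩ ∈ IsLocalRing.maximalIdeal A := by
          rw [← ValuationSubring.coe_mem_nonunits_iff, ValuationSubring.mem_nonunits_iff]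
          exact h6
        rw [← ker_eq π hπ, RingHom.mem_ker, map_sub, sub_eq_zero] at h7
        rw [h7]
        congr 1
        exact Subtype.ext hy0
      push Not at h5 ih' ⊢
      exact one_le_mul h5 ih'
  apply h4 (X ^ n - 1 : (AlgebraicClosure ℚ)[X]).roots
  · intro y hy
    have h5 := (Polynomial.mem_roots'.mp hy).2
    rw [IsRoot.def] at h5
    simpa [sub_eq_zero] using h5
  · rw [← h1]
    exact h2

variable (L) in
/-- The reduction map of the inertia ring. -/
def π0 : A0 A L →+* k := π.comp (incl A L)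

theorem π0_apply (a : A0 A L) : π0 L π a = π (incl A L a) := rfl

theorem π0_surjective [IsInertiaField A L] (hq : q.Prime) (hA : A.LiesOverPrime q)
    (hπ : Function.Surjective π) : Function.Surjective (π0 L π) :=
  fun c => exists_lift π hq hA hπ c

theorem ker_π0 [IsInertiaField A L] (hq : q.Prime) (hA : A.LiesOverPrime q)
    (hπ : Function.Surjective π) :
    RingHom.ker (π0 L π) = Ideal.span {((q : ℕ) : A0 A L)} := by
  rw [← maximalIdeal_eq hq hA]
  exact IsLocalRing.eq_maximalIdeal
    (RingHom.ker_isMaximal_of_surjective (π0 L π) (π0_surjective π hq hA hπ))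

end Residue

end Fermat.Agent.DR.S36.L
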