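import Fermat.Agent.DR.S36.LFun
import Fermat.Agent.JRED.XInt
import Fermat.Agent.JRED.Degree

/-!
# Integrality over `L[x]`

If `h ∈ F_N(L)` is regular outside the poles of `x ∈ F_N(L)` on `X₀(N)_{ℚ̄}`, then `h` is integral
over `L[x]`.
-/

set_option autoImplicit false

noncomputable section

open ModularCurve AlgebraicCurve Polynomial

namespace Fermat.Agent.DR.S36.L

open Fermat.Agent.MFF Fermat.Agent.RR Fermat.Agent.JRED.IntRed

variable {L : Type*} [Field L] [Algebra L (AlgebraicClosure ℚ)] {N : ℕ}

/-- `φ` applied to the coefficients of a polynomial. -/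
def polyMap (φ : AlgebraicClosure ℚ →ₗ[L] L) (P : (AlgebraicClosure ℚ)[X]) : L[X] :=
  ∑ l ∈ Finset.range (P.natDegree + 1), Polynomial.monomial l (φ (P.coeff l))

theorem natDegree_polyMap_le (φ : AlgebraicClosure ℚ →ₗ[L] L) (P : (AlgebraicClosure ℚ)[X]) :
    (polyMap φ P).natDegree ≤ P.natDegree := by
  unfold polyMap
  refine Polynomial.natDegree_sum_le_of_forall_le _ _ fun l hl => ?_
  exact (Polynomial.natDegree_monomial_le _).trans (by
    have := Finset.mem_range.mp hl
    omega)

theorem coeffLin_aeval_mul (φ : AlgebraicClosure ℚ →ₗ[L] L) (P : (AlgebraicClosure ℚ)[X])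
    (x z : LaurentSeries L) :
    coeffLin φ (aeval (emb L (AlgebraicClosure ℚ) x) P * emb L (AlgebraicClosure ℚ) z) =
      aeval x (polyMap φ P) * z := by
  have h1 : aeval (emb L (AlgebraicClosure ℚ) x) P * emb L (AlgebraicClosure ℚ) z =
      ∑ l ∈ Finset.range (P.natDegree + 1),
        algebraMap (AlgebraicClosure ℚ) (LaurentSeries (AlgebraicClosure ℚ)) (P.coeff l) *
          emb L (AlgebraicClosure ℚ) (x ^ l * z) := by
    rw [aeval_eq_sum_range, Finset.sum_mul]
    refine Finset.sum_congr rfl fun l _ => ?_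
    rw [Algebra.smul_def, map_mul, map_pow, mul_assoc]
  rw [h1, map_sum, polyMap, map_sum, Finset.sum_mul]
  refine Finset.sum_congr rfl fun l _ => ?_
  rw [coeffLin_algebraMap_mul_emb, aeval_monomial, mul_assoc]

theorem coe_aeval {K : Type*} [Field K] (F : IntermediateField K (LaurentSeries K)) (x : F)
    (P : K[X]) : ((aeval x P : F) : LaurentSeries K) = aeval (x : LaurentSeries K) P := by
  have := Polynomial.aeval_algHom_apply F.val x P
  exact this.symm

theorem coe_equation {K : Type*} [Field K] (F : IntermediateField K (LaurentSeries K)) (x h : F)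
    (n : ℕ) (P : ℕ → K[X]) :
    ((h ^ n + ∑ i ∈ Finset.Icc 1 n, aeval x (P i) * h ^ (n - i) : F) : LaurentSeries K) =
      (h : LaurentSeries K) ^ n + ∑ i ∈ Finset.Icc 1 n,
        aeval (x : LaurentSeries K) (P i) * (h : LaurentSeries K) ^ (n - i) := by
  obtain ⟨v, hv⟩ : ∃ v : F →+* LaurentSeries K, ∀ z, v z = (z : LaurentSeries K) :=
    ⟨F.toSubfield.subtype, fun _ => rfl⟩
  rw [← hv, map_add, map_pow, map_sum, hv]
  congr 1
  refine Finset.sum_congr rfl fun i _ => ?_
  rw [map_mul, map_pow, hv, hv, coe_aeval]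

theorem coeffLin_emb (φ : AlgebraicClosure ℚ →ₗ[L] L) (hφ : φ 1 = 1) (z : LaurentSeries L) :
    coeffLin φ (emb L (AlgebraicClosure ℚ) z) = z := by
  have h := coeffLin_algebraMap_mul_emb φ 1 z
  rwa [map_one, one_mul, hφ, map_one, one_mul] at h

/-- **Descent of integral equations with degree bounds.** -/
theorem xInt_desc {x h : modularFunctionFieldFullC L N} {m : ℕ}
    (hx : XInt (AlgebraicClosure ℚ) (inc L N x) m (inc L N h)) : XInt L x m h := by
  obtain ⟨n, P, hn, hdeg, heq⟩ := hx
  obtain ⟨φ, hφ⟩ := exists_retraction L (AlgebraicClosure ℚ)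
  refine ⟨n, fun i => polyMap φ (P i), hn,
    fun i hi => (natDegree_polyMap_le φ (P i)).trans (hdeg i hi), ?_⟩
  apply Subtype.ext
  have h1 : coeffLin φ ((inc L N h ^ n + ∑ i ∈ Finset.Icc 1 n,
      aeval (inc L N x) (P i) * inc L N h ^ (n - i) : modularFunctionFieldBar N) :
        LaurentSeries (AlgebraicClosure ℚ)) = 0 := by
    rw [heq]; exact map_zero _
  rw [coe_equation, map_add, map_sum, coe_inc, coe_inc, ← map_pow, coeffLin_emb φ hφ] at h1
  simp only [← map_pow, coeffLin_aeval_mul] at h1
  rw [coe_equation]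
  exact h1

theorem exists_xInt_of_isIntegral {K F : Type*} [Field K] [Field F] [Algebra K F] {x y : F}
    (h : IsIntegral (Algebra.adjoin K {x}) y) : ∃ m, XInt K x m y := by
  obtain ⟨p, hp, hpy⟩ := h
  have hP0 : ∀ z : F, z ∈ Algebra.adjoin K {x} → ∃ P : K[X], aeval x P = z := by
    intro z hz
    rw [Algebra.adjoin_singleton_eq_range_aeval] at hz
    exact hz
  have hP : ∀ i : ℕ, ∃ P : K[X], aeval x P = ((p.coeff i : Algebra.adjoin K {x}) : F) :=
    fun i => hP0 _ (p.coeff i).2
  choose P hP using hP
  have hn : 0 < p.natDegree := by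
    rw [Nat.pos_iff_ne_zero]
    intro h0
    rw [Polynomial.natDegree_eq_zero_iff_degree_le_zero] at h0
    have h1 := Polynomial.eq_C_of_degree_le_zero h0
    have h2 : p = 1 := hp.degree_le_zero_iff_eq_one.mp h0
    rw [h2, Polynomial.eval₂_one] at hpy
    exact one_ne_zero hpy
  refine ⟨(Finset.range (p.natDegree + 1)).sup fun i => (P i).natDegree, p.natDegree,
    fun i => P (p.natDegree - i), hn, ?_, ?_⟩
  · intro i hi
    rw [Finset.mem_Icc] at hi
    have h1 : (P (p.natDegree - i)).natDegree ≤
        (Finset.range (p.natDegree + 1)).sup fun i => (P i).natDegree :=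
      Finset.le_sup (f := fun i => (P i).natDegree) (Finset.mem_range.mpr (by omega))
    exact h1.trans (Nat.le_mul_of_pos_right _ hi.1)
  · rw [sum_Icc_flip']
    rw [Polynomial.eval₂_eq_sum_range, Finset.sum_range_succ, hp.coeff_natDegree, map_one,
      one_mul] at hpy
    rw [← hpy, add_comm]
    congr 1
    refine Finset.sum_congr rfl fun i hi => ?_
    have hi' := Finset.mem_range.mp hi
    rw [hP]
    simp only [show p.natDegree - (p.natDegree - i) = i by omega]
    rfl

/-- `h` is integral over `L[x]` if it is integral over `ℚ̄[x]`. -/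
theorem isIntegral_desc {x h : modularFunctionFieldFullC L N}
    (hx : IsIntegral (Algebra.adjoin (AlgebraicClosure ℚ) {inc L N x}) (inc L N h)) :
    IsIntegral (Algebra.adjoin L {x}) h := by
  obtain ⟨m, hm⟩ := exists_xInt_of_isIntegral hx
  exact (xInt_desc hm).isIntegral

theorem transcendental_inc {x : modularFunctionFieldFullC L N} (hx : Transcendental L x) :
    Transcendental (AlgebraicClosure ℚ) (inc L N x) := by
  rw [transcendental_iff_injective] at hx ⊢
  rw [injective_iff_map_eq_zero] at hx ⊢
  intro P hP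
  obtain ⟨φ₀, hφ₀⟩ := exists_retraction L (AlgebraicClosure ℚ)
  ext n
  rw [Polynomial.coeff_zero, ← Module.forall_dual_apply_eq_zero_iff L (P.coeff n)]
  intro φ
  have h1 : coeffLin φ (aeval (emb L (AlgebraicClosure ℚ) (x : LaurentSeries L)) P *
      emb L (AlgebraicClosure ℚ) 1) = 0 := by
    have h2 : aeval (emb L (AlgebraicClosure ℚ) (x : LaurentSeries L)) P = 0 := by
      have h3 := congrArg (fun z : modularFunctionFieldBar N =>
        (z : LaurentSeries (AlgebraicClosure ℚ))) hP
      simp only [coe_aeval, coe_inc] at h3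
      exact h3
    rw [h2, zero_mul, map_zero]
  rw [coeffLin_aeval_mul, mul_one, ← coe_aeval] at h1
  have h4 : aeval x (polyMap φ P) = 0 := Subtype.ext h1
  have h5 := hx _ h4
  have h6 : (polyMap φ P).coeff n = φ (P.coeff n) := by
    unfold polyMap
    rw [Polynomial.finsetSum_coeff]
    simp only [Polynomial.coeff_monomial]
    rw [Finset.sum_ite_eq']
    split_ifs with h7
    · rfl
    · rw [Finset.mem_range, not_lt] at h7
      rw [Polynomial.coeff_eq_zero_of_natDegree_lt (by omega), map_zero]
  rw [← h6, h5, Polynomial.coeff_zero]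

section Reg

variable [NeZero N]

open Fermat.Agent.JRED.Descent

/-- **A function over `L` which is regular on `X₀(N)_{ℚ̄}` off the poles of `x` is integral over
`L[x]`.** -/
theorem isIntegral_of_reg {x h : modularFunctionFieldFullC L N} (hx : Transcendental L x)
    (hreg : ∀ v : Place (AlgebraicClosure ℚ) (modularFunctionFieldBar N),
      inc L N x ∈ v.toValuationSubring → inc L N h ∈ v.toValuationSubring) :
    IsIntegral (Algebra.adjoin L {x}) h :=
  isIntegral_desc (isIntegral_of_mem_regOff (transcendental_inc hx) hreg)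

omit [NeZero N] in
/-- The converse. -/
theorem reg_of_isIntegral {x h : modularFunctionFieldFullC L N}
    (hint : IsIntegral (Algebra.adjoin L {x}) h)
    (v : Place (AlgebraicClosure ℚ) (modularFunctionFieldBar N))
    (hv : inc L N x ∈ v.toValuationSubring) : inc L N h ∈ v.toValuationSubring := by
  have hsub : ∀ z ∈ Algebra.adjoin L {x}, inc L N z ∈ v.toValuationSubring := by
    intro z hz
    induction hz using Algebra.adjoin_induction with
    | mem y hy =>
      rw [Set.mem_singleton_iff] at hy
      rw [hy]; exact hv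
    | algebraMap c => rw [inc_algebraMap]; exact v.algebraMap_mem' _
    | add y z _ _ hy hz => rw [map_add]; exact add_mem hy hz
    | mul y z _ _ hy hz => rw [map_mul]; exact mul_mem hy hz
  let g : Algebra.adjoin L {x} →+* v.toValuationSubring :=
    { toFun := fun z => ⟨inc L N z, hsub _ z.2⟩
      map_one' := Subtype.ext (map_one _)
      map_mul' := fun a b => Subtype.ext (map_mul (inc L N) _ _)
      map_zero' := Subtype.ext (map_zero _)
      map_add' := fun a b => Subtype.ext (map_add (inc L N) _ _) }
  have h1 : IsIntegral v.toValuationSubring (inc L N h) := by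
    obtain ⟨p, hp, hpy⟩ := hint
    refine ⟨p.map g, hp.map g, ?_⟩
    have h2 := congrArg (inc L N) hpy
    rw [Polynomial.hom_eval₂, map_zero] at h2
    rw [Polynomial.eval₂_map]
    exact h2
  obtain ⟨y, hy⟩ := IsIntegrallyClosed.isIntegral_iff.mp h1
  rw [← hy]
  exact y.2

end Reg

section Field

/-- `F_N(L)` is a function field over `L`. -/
theorem functionField_L (L : Type) [Field L] [Algebra L (AlgebraicClosure ℚ)] (N : ℕ) [NeZero N] :
    Fermat.Agent.RR.FunctionField L (modularFunctionFieldFullC L N) := by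
  have hN : (N : L) ≠ 0 := by
    intro h
    have h1 := congrArg (algebraMap L (AlgebraicClosure ℚ)) h
    rw [map_natCast, map_zero] at h1
    exact NeZero.ne N (by exact_mod_cast h1)
  have h1 := Fermat.Agent.JRED.finrank_full_jRed (K := L) (N := N) hN
  apply Fermat.Agent.JRED.functionField_of_finite (Fermat.Agent.JRED.transcendental_jRed L N)
  apply FiniteDimensional.of_finrank_pos
  rw [h1]
  exact Nat.pos_of_ne_zero (Fermat.Agent.S28.dedekindPsi_ne_zero (NeZero.ne N))

end Field

end Fermat.Agent.DR.S36.L
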