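import Fermat.Agent.DR.S36.LInt
import Fermat.Agent.JRED.ModularRedExists
import Fermat.Agent.DR.Mod.Residue
import Fermat.Agent.DR.ModGal.Galois
import Fermat.Agent.DR.Mono.Coord

/-!
# Gauss reductions over the inertia field

Functions over the inertia field `L` can be normalised by powers of `q`.
-/

set_option autoImplicit false

noncomputable section

open ModularCurve AlgebraicCurve

namespace Fermat.Agent.DR.S36.L

open Fermat.Agent.MFF Fermat.Agent.RR Fermat.Agent.JRED

theorem charZero_of_algebra (L : Type*) [Field L] [Algebra L (AlgebraicClosure ℚ)] : CharZero L :=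
  (algebraMap L (AlgebraicClosure ℚ)).charZero

section Series

variable {A : ValuationSubring (AlgebraicClosure ℚ)} {L : Type*} [Field L]
  [Algebra L (AlgebraicClosure ℚ)] {k : Type*} [Field k] {π : A →+* k}

theorem emb_coeffMap_A0 (y : LaurentSeries (A0 A L)) :
    emb L (AlgebraicClosure ℚ) (coeffMap (A0 A L).subtype y) =
      coeffMap A.subtype (coeffMap (incl A L) y) := by
  ext n
  simp only [coeffMap_coeff]
  rfl

theorem coeffMap_π_incl (y : LaurentSeries (A0 A L)) :
    coeffMap π (coeffMap (incl A L) y) = coeffMap (π0 L π) y := by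
  ext n
  simp only [coeffMap_coeff]
  rfl

/-- Reduction over `L` and over `ℚ̄` are compatible. -/
theorem GRed_emb {f : LaurentSeries L} {u : LaurentSeries k} (h : GRed (π0 L π) f u) :
    GRed π (emb L (AlgebraicClosure ℚ) f) u := by
  obtain ⟨a, b, hb, h1, h2⟩ := h
  refine ⟨coeffMap (incl A L) a, coeffMap (incl A L) b, ?_, ?_, ?_⟩
  · rwa [coeffMap_π_incl]
  · rw [← emb_coeffMap_A0, ← emb_coeffMap_A0, ← map_mul, h1]
  · rw [coeffMap_π_incl, coeffMap_π_incl, h2]

end Series

section Normalize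

variable {A : ValuationSubring (AlgebraicClosure ℚ)} {L : Type*} [Field L]
  [Algebra L (AlgebraicClosure ℚ)] {k : Type*} [Field k] (π : A →+* k) {N : ℕ} {q : ℕ}

/-- Functions over `L` can be normalised by constants of `L`. -/
theorem exists_GRed {f : LaurentSeries L} (hf : f ∈ modularFunctionFieldFullC L N) (hf0 : f ≠ 0) :
    ∃ c : L, c ≠ 0 ∧ ∃ u : LaurentSeries k, u ≠ 0 ∧
      GRed (π0 L π) (algebraMap L (LaurentSeries L) c * f) u := by
  have := charZero_of_algebra L
  rw [← laurentBaseChange_full] at hf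
  obtain ⟨c, hc, u, hu, h⟩ := (Fermat.Agent.JRED.redL (π0 L π) N).normalize ⟨f, hf⟩
    (fun h => hf0 (congrArg Subtype.val h))
  exact ⟨c, hc, u, hu, h⟩

/-- **Discreteness**: functions over the inertia field can be normalised by powers of `q`. -/
theorem exists_GRed_zpow [IsInertiaField A L] (hq : q.Prime) (hA : A.LiesOverPrime q)
    {f : LaurentSeries L} (hf : f ∈ modularFunctionFieldFullC L N) (hf0 : f ≠ 0) :
    ∃ a : ℤ, ∃ u : LaurentSeries k, u ≠ 0 ∧
      GRed (π0 L π) (algebraMap L (LaurentSeries L) (((q : L) ^ a)⁻¹) * f) u := by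
  obtain ⟨c, hc, u, hu, h⟩ := exists_GRed π hf hf0
  obtain ⟨a, e, hce⟩ := exists_zpow hq hA (inv_ne_zero hc)
  have h1 : GRed (π0 L π) (algebraMap L (LaurentSeries L) ((e : A0 A L) : L) *
      (algebraMap L (LaurentSeries L) c * f))
      (algebraMap k (LaurentSeries k) (π0 L π (e : A0 A L)) * u) := (GRed.const _).mul h
  have h2 : algebraMap L (LaurentSeries L) ((e : A0 A L) : L) *
      (algebraMap L (LaurentSeries L) c * f) =
      algebraMap L (LaurentSeries L) (((q : L) ^ a)⁻¹) * f := by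
    rw [← mul_assoc, ← map_mul]
    congr 2
    have hq0 : (q : L) ≠ 0 := natCast_ne_zero L hq
    have h3 : ((e : A0 A L) : L) * (q : L) ^ a * c = 1 := by
      rw [← hce, inv_mul_cancel₀ hc]
    have h4 : (q : L) ^ a ≠ 0 := zpow_ne_zero _ hq0
    field_simp
    linear_combination h3
  rw [h2] at h1
  refine ⟨a, _, mul_ne_zero ?_ hu, h1⟩
  have h3 : (π0 L π (e : A0 A L)) ≠ 0 := (e.isUnit.map (π0 L π)).ne_zero
  simpa using h3

theorem inc_GRed {f : modularFunctionFieldFullC L N} {u : LaurentSeries k}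
    (h : GRed (π0 L π) (f : LaurentSeries L) u) :
    GRed π (inc L N f : LaurentSeries (AlgebraicClosure ℚ)) u := GRed_emb h

end Normalize

section Sub

variable (L : Type*) [Field L] [Algebra L (AlgebraicClosure ℚ)] (N : ℕ)

/-- The subfield of `F_N(ℚ̄)` of functions over `L`. -/
def F0 : Subfield (modularFunctionFieldBar N) := (inc L N).fieldRange

variable {L N}

theorem mem_F0 {x : modularFunctionFieldBar N} : x ∈ F0 L N ↔ ∃ f, inc L N f = x := Iff.rfl

theorem mem_F0_iff {A : ValuationSubring (AlgebraicClosure ℚ)} [IsInertiaField A L]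
    {x : modularFunctionFieldBar N} : x ∈ F0 L N ↔
      ∀ σ ∈ A.inertiaSubgroupIn ℚ, arithmeticGalois (modularFunctionFieldFull N) σ • x = x :=
  exists_inc_eq_iff

theorem inc_mem_F0 (f : modularFunctionFieldFullC L N) : inc L N f ∈ F0 L N := ⟨f, rfl⟩

theorem algebraMap_mem_F0 (c : L) : algebraMap (AlgebraicClosure ℚ) (modularFunctionFieldBar N)
    (algebraMap L (AlgebraicClosure ℚ) c) ∈ F0 L N :=
  ⟨_, inc_algebraMap c⟩

theorem natCast_mem_F0 (n : ℕ) : algebraMap (AlgebraicClosure ℚ) (modularFunctionFieldBar N)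
    (n : AlgebraicClosure ℚ) ∈ F0 L N := by
  rw [map_natCast]
  exact natCast_mem _ n

end Sub

section Disc

open Fermat.Agent.DR.Mod Fermat.Agent.DR.Mono

variable {A : ValuationSubring (AlgebraicClosure ℚ)} {L : Type*} [Field L]
  [Algebra L (AlgebraicClosure ℚ)] {k : Type*} [Field k] {π : A →+* k}
  {M q : ℕ} [NeZero M] [NeZero q]
  {w : modularFunctionFieldBar (M * q) ≃ₐ[AlgebraicClosure ℚ] modularFunctionFieldBar (M * q)}

variable (A) in
/-- The Atkin–Lehner automorphism preserves the functions over `L`. -/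
theorem w_mem_F0 [IsInertiaField A L] (hq : q.Prime) (hw : IsAL w) {f : modularFunctionFieldBar (M * q)}
    (hf : f ∈ F0 L (M * q)) : w f ∈ F0 L (M * q) := by
  rw [mem_F0_iff (A := A)] at hf ⊢
  intro σ hσ
  rw [← Fermat.Agent.DR.ModGal.galois_w hq hw, hf σ hσ]

omit [NeZero q] in
theorem disc_of_mem [IsInertiaField A L] (hq : q.Prime) (hA : A.LiesOverPrime q) (π : A →+* k) {N : ℕ}
    {y : modularFunctionFieldBar N} (hy : y ∈ F0 L N) (hy0 : y ≠ 0) :
    ∃ a : ℤ, ∃ u : LaurentSeries k, u ≠ 0 ∧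
      GRed π ((algebraMap (AlgebraicClosure ℚ) (modularFunctionFieldBar N)
        ((q : AlgebraicClosure ℚ) ^ a)⁻¹ * y : modularFunctionFieldBar N) :
          LaurentSeries (AlgebraicClosure ℚ)) u := by
  obtain ⟨f, rfl⟩ := hy
  have hf0 : (f : LaurentSeries L) ≠ 0 := by
    intro h
    apply hy0
    have : f = 0 := Subtype.ext h
    rw [this, map_zero]
  obtain ⟨a, u, hu, h⟩ := exists_GRed_zpow (A := A) π hq hA f.2 hf0
  refine ⟨a, u, hu, ?_⟩
  have h1 := inc_GRed π (f := algebraMap L (modularFunctionFieldFullC L N) (((q : L) ^ a)⁻¹) * f)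
    (N := N) h
  rw [map_mul, inc_algebraMap, map_inv₀, map_zpow₀, map_natCast] at h1
  exact h1

variable [ExpChar k q] (S : Setup π w)

/-- Discreteness of the first valuation on `F_{Mq}(L)`. -/
theorem discData_one [IsInertiaField A L] (hq : q.Prime) (hA : A.LiesOverPrime q) :
    DiscData (redOne S) (F0 L (M * q)) (q : AlgebraicClosure ℚ) where
  ne_zero := by exact_mod_cast hq.ne_zero
  mem := natCast_mem A q
  res := (map_natCast π q).trans (map_natCast_eq_zero π hA S.surj)
  mem_F₀ := natCast_mem_F0 q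
  disc y hy hy0 := by
    obtain ⟨a, u, hu, h⟩ := disc_of_mem (L := L) hq hA π hy hy0
    exact ⟨a, ⟨u, S.mem_full_of_red1 h⟩, fun h0 => hu (congrArg Subtype.val h0), h⟩

/-- Discreteness of the second valuation on `F_{Mq}(L)`. -/
theorem discData_two [IsInertiaField A L] (hq : q.Prime) (hA : A.LiesOverPrime q) :
    DiscData (redTwo S) (F0 L (M * q)) (q : AlgebraicClosure ℚ) where
  ne_zero := by exact_mod_cast hq.ne_zero
  mem := natCast_mem A q
  res := (map_natCast π q).trans (map_natCast_eq_zero π hA S.surj)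
  mem_F₀ := natCast_mem_F0 q
  disc y hy hy0 := by
    obtain ⟨a, u, hu, h⟩ := disc_of_mem (L := L) hq hA π (w_mem_F0 A hq S.al hy)
      ((_root_.map_ne_zero w).mpr hy0)
    have h' : (R2L π w).Red (algebraMap (AlgebraicClosure ℚ) (modularFunctionFieldBar (M * q))
        ((q : AlgebraicClosure ℚ) ^ a)⁻¹ * y) u := by
      rw [R2L_red, map_mul, AlgEquiv.commutes]
      exact h
    exact ⟨a, ⟨u, S.mem_full_of_red2 h'⟩, fun h0 => hu (congrArg Subtype.val h0), h'⟩

end Disc

end Fermat.Agent.DR.S36.L
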