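import Fermat.Agent.DR.S36.SS
import Fermat.Agent.DR.S36.Assemble
import Fermat.Agent.Jan.HeckeNorm
import Fermat.Agent.Jan.DegreeWiring

/-!
# S36-SS: modular instance

* `norm_ord`: push-forward of the divisor of `f` is the divisor of the norm;
* `normL`: the norm map from `L`-rational functions;
* `restrict_beta_alpha`: `α₀ ∘ β = β₀ ∘ α` on places.
-/

set_option autoImplicit false
set_option linter.style.haveILetI false

noncomputable section

open AlgebraicCurve ModularCurve Fermat.Agent.RR Fermat.Agent.JRED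

namespace Fermat.Agent.DR.S36

open Fermat.Agent.DR Fermat.Agent.Jan.HeckeNorm

section Norm

variable {K F1 F FL : Type*} [Field K] [Field F1] [Field F] [Field FL] [Algebra K F1] [Algebra K F]
  [Algebra FL F]

theorem norm_ord [IsAlgClosed K] [FunctionField K F] (α : F1 →ₐ[K] F)
    (hα : α.toRingHom.IsIntegral) (hfin : FiniteAlong K α) (hN : NormFormulaAlong K α hfin)
    {f : F} (hf : f ≠ 0) {E : Divisor K F} (hE : ∀ P, E P = P.ord f) (P' : Place K F1) :
    Finsupp.mapDomain (fun P : Place K F => P.restrictAlong α hα) E P' =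
      P'.ord (normAlong α f) := by
  rw [← pushforwardAlong_eq_mapDomain]
  exact hN f hf E hE P'

variable (FL) in
/-- The norm of `L`-rational functions. -/
def normL (α : F1 →ₐ[K] F) (hfin : FiniteAlong K α) : FL →*₀ F1 where
  toFun f := normAlong α (algebraMap FL F f)
  map_zero' := by
    letI := algebraAlong α
    haveI : FiniteDimensional F1 F := hfin
    rw [map_zero]
    exact Algebra.norm_zero
  map_one' := by rw [map_one, map_one]
  map_mul' x y := by rw [map_mul, map_mul]

theorem normL_apply (α : F1 →ₐ[K] F) (hfin : FiniteAlong K α) (f : FL) :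
    normL FL α hfin f = normAlong α (algebraMap FL F f) := rfl

theorem normL_ord [IsAlgClosed K] [FunctionField K F] (α : F1 →ₐ[K] F)
    (hα : α.toRingHom.IsIntegral) (hfin : FiniteAlong K α) (hN : NormFormulaAlong K α hfin)
    (f : FL) (hf : f ≠ 0) (E : Divisor K F) (hE : ∀ P, E P = P.ord (algebraMap FL F f))
    (P' : Place K F1) :
    Finsupp.mapDomain (fun P : Place K F => P.restrictAlong α hα) E P' =
      P'.ord (normL FL α hfin f) :=
  norm_ord α hα hfin hN (by simpa using hf) hE P'

/-- norm of a natural number -/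
theorem normL_natCast (α : F1 →ₐ[K] F) (hfin : FiniteAlong K α) (n : ℕ) :
    normL FL α hfin (n : FL) = (n : F1) ^ finrankAlong K α := by
  letI := algebraAlong α
  haveI : FiniteDimensional F1 F := hfin
  rw [normL_apply, map_natCast]
  have h : (n : F) = algebraMap F1 F (n : F1) := (map_natCast (algebraMap F1 F) n).symm
  rw [h]
  exact Algebra.norm_algebraMap _

end Norm

section Congr

variable {K F F' : Type*} [Field K] [Field F] [Field F'] [Algebra K F] [Algebra K F']

theorem restrictAlong_congr {φ φ' : F →ₐ[K] F'} (h : φ = φ')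
    (hφ : φ.toRingHom.IsIntegral) (hφ' : φ'.toRingHom.IsIntegral) (w : Place K F') :
    w.restrictAlong φ hφ = w.restrictAlong φ' hφ' := by
  subst h; rfl

end Congr

section Places

variable {N q : ℕ} [NeZero N] [NeZero q] {L : Type*} [Field L] [Algebra ℚ L]

theorem alpha_beta_comp :
    (heckeAlphaBar L (N * q) q).comp (heckeBetaBar L N q) =
      (heckeBetaBar L (N * q) q).comp (heckeAlphaBar L N q) := by
  apply AlgHom.ext
  intro x
  apply Subtype.ext
  change ((heckeAlphaBar L (N * q) q (heckeBetaBar L N q x) : _) : LaurentSeries L) =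
    ((heckeBetaBar L (N * q) q (heckeAlphaBar L N q x) : _) : LaurentSeries L)
  rw [coe_heckeAlphaBar, coe_heckeBetaBar, coe_heckeBetaBar, coe_heckeAlphaBar]

variable (hα : (heckeAlphaBar L (N * q) q).toRingHom.IsIntegral)
  (hβ : (heckeBetaBar L (N * q) q).toRingHom.IsIntegral)
  (hα₀ : (heckeAlphaBar L N q).toRingHom.IsIntegral)
  (hβ₀ : (heckeBetaBar L N q).toRingHom.IsIntegral)

/-- The middle curve `E₂`: `β₀ ∘ α = α₀ ∘ β` on places. -/
theorem restrict_alpha_beta (P : Place L (laurentBaseChange L
    (modularFunctionFieldFull (N * q * q)))) :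
    (P.restrictAlong (heckeAlphaBar L (N * q) q) hα).restrictAlong (heckeBetaBar L N q) hβ₀ =
      (P.restrictAlong (heckeBetaBar L (N * q) q) hβ).restrictAlong (heckeAlphaBar L N q) hα₀ := by
  have hc1 := Fermat.Agent.Jan.PushPull.isIntegral_comp (heckeBetaBar L N q)
    (heckeAlphaBar L (N * q) q) hβ₀ hα
  have hc2 := Fermat.Agent.Jan.PushPull.isIntegral_comp (heckeAlphaBar L N q)
    (heckeBetaBar L (N * q) q) hα₀ hβ
  have e1 := Fermat.Agent.Jan.PushPull.restrictAlong_comp _ _ hβ₀ hα hc1 P
  have e2 := Fermat.Agent.Jan.PushPull.restrictAlong_comp _ _ hα₀ hβ hc2 P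
  exact e1.symm.trans ((restrictAlong_congr alpha_beta_comp hc1 hc2 P).trans e2)

/-- `U_α ⇔ U_β` from the two descriptions of the annuli of level `qN`. -/
theorem mem_ann_iff {S : Type*} (fr : S → S)
    (Ann : S → Set (Place L (laurentBaseChange L (modularFunctionFieldFull (N * q)))))
    (D : S → Set (Place L (laurentBaseChange L (modularFunctionFieldFull N))))
    (h1 : ∀ s P', P' ∈ Ann s ↔ P'.restrictAlong (heckeAlphaBar L N q) hα₀ ∈ D s)
    (h2 : ∀ s P', P' ∈ Ann s ↔ P'.restrictAlong (heckeBetaBar L N q) hβ₀ ∈ D (fr s))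
    (s : S) (P : Place L (laurentBaseChange L (modularFunctionFieldFull (N * q * q)))) :
    P.restrictAlong (heckeAlphaBar L (N * q) q) hα ∈ Ann s ↔
      P.restrictAlong (heckeBetaBar L (N * q) q) hβ ∈ Ann (fr s) := by
  rw [h2, h1, restrict_alpha_beta hα hβ hα₀ hβ₀]

end Places

end Fermat.Agent.DR.S36
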