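import Fermat.Agent.DR.S36.CompVal
import Fermat.Agent.DR.S36.Level2Graded
import Fermat.Agent.DR.S36.LInput
import Fermat.Agent.DR.S36.SSMod
import Fermat.Agent.DR.Mod.Final

/-!
# Norm reductions for the `Core` instance
-/

set_option autoImplicit false
set_option linter.unusedSectionVars false

noncomputable section

open AlgebraicCurve ModularCurve Fermat.Agent.RR Fermat.Agent.JRED

namespace Fermat.Agent.DR.S36

open Fermat.Agent.DR Fermat.Agent.DR.Mod Fermat.Agent.DR.S36.L
open Fermat.Agent.Jan.HeckeNorm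

/-- `ResVals` from three discrete valuations with residue maps. -/
def ResVals.ofComp {E κ : Type*} [Field E] [Field κ] (V : Fin 3 → CompVal E κ) :
    ResVals E κ where
  w c := (V c).w
  Res c := (V c).Res
  w_mul i _ _ hf hg := (V i).w_mul hf hg
  res_one i := (V i).res_one
  res_mul i _ _ _ _ h h' := (V i).res_mul h h'
  res_unique i _ _ _ h h' := (V i).res_unique h h'
  exists_res i _ hf h := (V i).exists_res_of_w hf h
  w_eq_zero i _ _ h hu := ⟨(V i).ne_zero_of_res h hu, (V i).w_eq_zero_of_res h hu⟩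

section Norm

variable {A : ValuationSubring (AlgebraicClosure ℚ)} {L : Type} [Field L]
  [Algebra L (AlgebraicClosure ℚ)] {N q : ℕ} [NeZero N] [NeZero q] [hq : Fact q.Prime]
  {k : Type} [Field k] [IsAlgClosed k] [CharP k q] {π : A →+* k}
  {w₁ : laurentBaseChange (AlgebraicClosure ℚ) (modularFunctionFieldFull (N * q)) ≃ₐ[AlgebraicClosure ℚ]
      laurentBaseChange (AlgebraicClosure ℚ) (modularFunctionFieldFull (N * q))}
  {w₂ : laurentBaseChange (AlgebraicClosure ℚ) (modularFunctionFieldFull (N * q * q)) ≃ₐ[AlgebraicClosure ℚ]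
      laurentBaseChange (AlgebraicClosure ℚ) (modularFunctionFieldFull (N * q * q))}

/-- The three residue maps are given by `q`-expansions at the three types of cusps. -/
structure ResSpec (π : A →+* k)
    (w₁ : laurentBaseChange (AlgebraicClosure ℚ) (modularFunctionFieldFull (N * q))
      ≃ₐ[AlgebraicClosure ℚ]
      laurentBaseChange (AlgebraicClosure ℚ) (modularFunctionFieldFull (N * q)))
    (w₂ : laurentBaseChange (AlgebraicClosure ℚ) (modularFunctionFieldFull (N * q * q))
      ≃ₐ[AlgebraicClosure ℚ]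
      laurentBaseChange (AlgebraicClosure ℚ) (modularFunctionFieldFull (N * q * q)))
    (V : Fin 3 → CompVal (modularFunctionFieldFullC L (N * q * q)) (modularFunctionFieldFullC k N)) :
    Prop where
  r0 : ∀ {f u}, (V 0).Res f u →
    GRed π (inc L (N * q * q) f : LaurentSeries (AlgebraicClosure ℚ)) (u : LaurentSeries k)
  r1 : ∀ {f u}, (V 1).Res f u → MidRed π w₁ (inc L (N * q * q) f) (u : LaurentSeries k)
  r2 : ∀ {f u}, (V 2).Res f u →
    GRed π (w₂ (inc L (N * q * q) f) : LaurentSeries (AlgebraicClosure ℚ)) (u : LaurentSeries k)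

variable {V : Fin 3 → CompVal (modularFunctionFieldFullC L (N * q * q))
  (modularFunctionFieldFullC k N)} (hV : ResSpec π w₁ w₂ V)

theorem inc_zpow_mul (M : ℕ) (n : ℤ) (f : modularFunctionFieldFullC L M) :
    inc L M ((q : modularFunctionFieldFullC L M) ^ n * f) =
      algebraMap (AlgebraicClosure ℚ) _ ((q : AlgebraicClosure ℚ) ^ n) * inc L M f := by
  rw [map_mul, map_zpow₀, map_natCast, map_zpow₀, map_natCast]

theorem algebraMap_zpow_q (M : ℕ) (n : ℤ) :
    algebraMap (AlgebraicClosure ℚ) (modularFunctionFieldBar M) ((q : AlgebraicClosure ℚ) ^ n) =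
      (q : modularFunctionFieldBar M) ^ n := by
  rw [map_zpow₀, map_natCast]

include hV

theorem core_normα₁ (hqN : ¬ q ∣ N) (S : Setup π w₁) (f : modularFunctionFieldFullC L (N * q * q))
    (a b : ℤ) (u v : modularFunctionFieldFullC k N)
    (h0 : (V 0).Res ((q : modularFunctionFieldFullC L (N * q * q)) ^ a * f) u)
    (h1 : (V 1).Res ((q : modularFunctionFieldFullC L (N * q * q)) ^ b * f) v) :
    (redOne S).Red ((q : modularFunctionFieldBar (N * q)) ^ (a + (q - 1) * b) *
      normAlong (heckeAlphaBar (AlgebraicClosure ℚ) (N * q) q) (inc L (N * q * q) f))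
      (u * v ^ (q - 1)) := by
  have h2 := hV.r0 h0
  have h3 := hV.r1 h1
  rw [inc_zpow_mul] at h2 h3
  have h4 := red_norm_alpha₁ hqN S.al h2 h3
  have h5 : (q : AlgebraicClosure ℚ) ^ a * ((q : AlgebraicClosure ℚ) ^ b) ^ (q - 1) =
      (q : AlgebraicClosure ℚ) ^ (a + (q - 1) * b) := by
    have hq1 : ((q - 1 : ℕ) : ℤ) = (q : ℤ) - 1 := by
      have := hq.out.one_le
      push_cast [Nat.cast_sub this]
      ring
    rw [← zpow_natCast ((q : AlgebraicClosure ℚ) ^ b), ← zpow_mul, hq1,
      ← zpow_add₀ (by exact_mod_cast hq.out.ne_zero)]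
    congr 1
    ring
  rw [h5, algebraMap_zpow_q] at h4
  exact h4

theorem core_normβ₂ (hqN : ¬ q ∣ N) (S : Setup π w₁) (h2w : IsAL2 w₁ w₂)
    (f : modularFunctionFieldFullC L (N * q * q))
    (a b : ℤ) (u v : modularFunctionFieldFullC k N)
    (h0 : (V 2).Res ((q : modularFunctionFieldFullC L (N * q * q)) ^ a * f) u)
    (h1 : (V 1).Res ((q : modularFunctionFieldFullC L (N * q * q)) ^ b * f) v) :
    (redTwo S).Red ((q : modularFunctionFieldBar (N * q)) ^ (a + (q - 1) * b) *
      normAlong (heckeBetaBar (AlgebraicClosure ℚ) (N * q) q) (inc L (N * q * q) f))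
      (u * v ^ (q - 1)) := by
  have h2 := hV.r2 h0
  have h3 := hV.r1 h1
  rw [inc_zpow_mul] at h2 h3
  have h4 := red_norm_beta₂ hqN S.al h2w h2 h3
  have h5 : (q : AlgebraicClosure ℚ) ^ a * ((q : AlgebraicClosure ℚ) ^ b) ^ (q - 1) =
      (q : AlgebraicClosure ℚ) ^ (a + (q - 1) * b) := by
    have hq1 : ((q - 1 : ℕ) : ℤ) = (q : ℤ) - 1 := by
      have := hq.out.one_le
      push_cast [Nat.cast_sub this]
      ring
    rw [← zpow_natCast ((q : AlgebraicClosure ℚ) ^ b), ← zpow_mul, hq1,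
      ← zpow_add₀ (by exact_mod_cast hq.out.ne_zero)]
    congr 1
    ring
  rw [h5, algebraMap_zpow_q] at h4
  exact h4

theorem core_normα₂ (hqN : ¬ q ∣ N) (S : Setup π w₁) (h2w : IsAL2 w₁ w₂)
    (f : modularFunctionFieldFullC L (N * q * q)) (a : ℤ) (u : modularFunctionFieldFullC k N)
    (h0 : (V 2).Res ((q : modularFunctionFieldFullC L (N * q * q)) ^ a * f) u) :
    (redTwo S).Red ((q : modularFunctionFieldBar (N * q)) ^ (q * a) *
      normAlong (heckeAlphaBar (AlgebraicClosure ℚ) (N * q) q) (inc L (N * q * q) f))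
      (frobSemi k N q • u) := by
  have h2 := hV.r2 h0
  rw [inc_zpow_mul] at h2
  have h4 := red_norm_alpha₂ hqN S.al h2w h2
  have h5 : ((q : AlgebraicClosure ℚ) ^ a) ^ q = (q : AlgebraicClosure ℚ) ^ ((q : ℤ) * a) := by
    rw [← zpow_natCast ((q : AlgebraicClosure ℚ) ^ a), ← zpow_mul, mul_comm]
  rw [h5, algebraMap_zpow_q] at h4
  exact h4

theorem core_normβ₁ (hqN : ¬ q ∣ N) (S : Setup π w₁) (h2w : IsAL2 w₁ w₂)
    (f : modularFunctionFieldFullC L (N * q * q)) (a : ℤ) (u : modularFunctionFieldFullC k N)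
    (h0 : (V 0).Res ((q : modularFunctionFieldFullC L (N * q * q)) ^ a * f) u) :
    (redOne S).Red ((q : modularFunctionFieldBar (N * q)) ^ (q * a) *
      normAlong (heckeBetaBar (AlgebraicClosure ℚ) (N * q) q) (inc L (N * q * q) f))
      (frobSemi k N q • u) := by
  have h2 := hV.r0 h0
  rw [inc_zpow_mul] at h2
  have h4 := red_norm_beta₁ hqN S.al h2w h2
  have h5 : ((q : AlgebraicClosure ℚ) ^ a) ^ q = (q : AlgebraicClosure ℚ) ^ ((q : ℤ) * a) := by
    rw [← zpow_natCast ((q : AlgebraicClosure ℚ) ^ a), ← zpow_mul, mul_comm]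
  rw [h5, algebraMap_zpow_q] at h4
  exact h4

end Norm

end Fermat.Agent.DR.S36
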