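import Fermat.Agent.Jan.GaloisHecke
import Fermat.Agent.Jan.DegreeWiring

/-!
# Pull-back and push-forward on `Pic⁰` along embeddings of function fields
-/

set_option autoImplicit false

noncomputable section

open AlgebraicCurve SemilinearAut

namespace Fermat.Agent.DR.S36

section Defs

variable {K F F' : Type*} [Field K] [Field F] [Field F'] [Algebra K F] [Algebra K F']
variable (φ : F →ₐ[K] F') (hφ : φ.toRingHom.IsIntegral)

/-- Pull-back of degree zero divisors. -/
def degZeroPull [HasPrincipalDivisors K F'] (hFI : FundamentalIdentityAlong K φ hφ) :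
    Divisor.degZero (K := K) (F := F) →+ Divisor.degZero (K := K) (F := F') :=
  ((Divisor.pullbackAlong φ hφ).domRestrict (Divisor.degZero (K := K) (F := F))).codRestrict _
    (fun D => Divisor.pullbackAlong_mem_degZero φ hφ hFI D.2)

/-- Pull-back on `Pic⁰`. -/
def picPull [HasPrincipalDivisors K F'] (hFI : FundamentalIdentityAlong K φ hφ) :
    Pic0 K F →+ Pic0 K F' :=
  QuotientAddGroup.map _ _ (degZeroPull φ hφ hFI) (by
    rintro ⟨D, hD0⟩ hD
    simp only [AddSubgroup.mem_addSubgroupOf] at hD ⊢
    exact Divisor.isPrincipal_pullbackAlong φ hφ hD)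

theorem picPull_mk [HasPrincipalDivisors K F'] (hFI : FundamentalIdentityAlong K φ hφ)
    (D : Divisor.degZero (K := K) (F := F)) :
    picPull φ hφ hFI (Pic0.mk D) = Pic0.mk (degZeroPull φ hφ hFI D) := rfl

theorem coe_degZeroPull [HasPrincipalDivisors K F'] (hFI : FundamentalIdentityAlong K φ hφ)
    (D : Divisor.degZero (K := K) (F := F)) :
    (degZeroPull φ hφ hFI D : Divisor K F') = Divisor.pullbackAlong φ hφ (D : Divisor K F) := rfl

/-- Push-forward of degree zero divisors. -/
def degZeroPush :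
    Divisor.degZero (K := K) (F := F') →+ Divisor.degZero (K := K) (F := F) :=
  ((Divisor.pushforwardAlong φ hφ).domRestrict (Divisor.degZero (K := K) (F := F'))).codRestrict _
    (fun D => Divisor.pushforwardAlong_mem_degZero φ hφ D.2)

/-- Push-forward on `Pic⁰`. -/
def picPush (hfin : FiniteAlong K φ) (hN : NormFormulaAlong K φ hfin) :
    Pic0 K F' →+ Pic0 K F :=
  QuotientAddGroup.map _ _ (degZeroPush φ hφ) (by
    rintro ⟨D, hD0⟩ hD
    simp only [AddSubgroup.mem_addSubgroupOf] at hD ⊢
    exact Divisor.isPrincipal_pushforwardAlong φ hφ hfin hN hD)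

theorem picPush_mk (hfin : FiniteAlong K φ) (hN : NormFormulaAlong K φ hfin)
    (D : Divisor.degZero (K := K) (F := F')) :
    picPush φ hφ hfin hN (Pic0.mk D) = Pic0.mk (degZeroPush φ hφ D) := rfl

theorem coe_degZeroPush (D : Divisor.degZero (K := K) (F := F')) :
    (degZeroPush φ hφ D : Divisor K F) = Divisor.pushforwardAlong φ hφ (D : Divisor K F') := rfl

theorem pic0_mk_eq_zero_iff {K F : Type*} [Field K] [Field F] [Algebra K F]
    (D : Divisor.degZero (K := K) (F := F)) :
    Pic0.mk D = 0 ↔ (D : Divisor K F).IsPrincipal := by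
  show (QuotientAddGroup.mk D : Pic0 K F) = 0 ↔ _
  rw [QuotientAddGroup.eq_zero_iff, AddSubgroup.mem_addSubgroupOf]
  rfl

/-- `φ_* φ^* = [F' : F]`, on divisors (all places of degree one). -/
theorem pushforward_pullback [HasPrincipalDivisors K F']
    (hFI : FundamentalIdentityAlong K φ hφ) (hdeg : ∀ w : Place K F', w.deg = 1)
    (hdeg' : ∀ w : Place K F, w.deg = 1) (D : Divisor K F) :
    Divisor.pushforwardAlong φ hφ (Divisor.pullbackAlong φ hφ D) = finrankAlong K φ • D := by
  induction D using Finsupp.induction with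
  | zero => simp
  | single_add v n D _ _ ih =>
    rw [map_add, map_add, ih, smul_add]
    congr 1
    rw [Divisor.pullbackAlong_single, map_sum]
    have h1 : ∀ W ∈ Place.fiberAlong φ hφ v,
        Divisor.pushforwardAlong φ hφ (Finsupp.single W (n * W.ramificationIndexAlong φ)) =
          Finsupp.single v (n * W.ramificationIndexAlong φ) := by
      intro W hW
      rw [Divisor.pushforwardAlong_single, Place.mem_fiberAlong.mp hW,
        Fermat.Agent.Jan.PushPull.inertiaDegAlong_eq_one φ hφ (hdeg W), Nat.cast_one, mul_one]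
    rw [Finset.sum_congr rfl h1]
    have h2 := Divisor.degree_pullbackAlong φ hφ hFI (Finsupp.single v n)
    rw [Divisor.pullbackAlong_single, map_sum, Divisor.degree_single] at h2
    have h3 : ∀ W ∈ Place.fiberAlong φ hφ v,
        Divisor.degree (K := K) (Finsupp.single W (n * (W.ramificationIndexAlong φ : ℤ))) =
          n * (W.ramificationIndexAlong φ : ℤ) := by
      intro W hW
      rw [Divisor.degree_single, hdeg W, Nat.cast_one, mul_one]
    rw [Finset.sum_congr rfl h3, hdeg' v, Nat.cast_one, mul_one] at h2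
    rw [← Finsupp.single_finsetSum, h2, Finsupp.smul_single, nsmul_eq_mul]

/-- `φ_* φ^* = [F' : F]` on `Pic⁰`. -/
theorem picPush_picPull [HasPrincipalDivisors K F'] (hFI : FundamentalIdentityAlong K φ hφ)
    (hfin : FiniteAlong K φ) (hN : NormFormulaAlong K φ hfin)
    (hdeg : ∀ w : Place K F', w.deg = 1) (hdeg' : ∀ w : Place K F, w.deg = 1) (x : Pic0 K F) :
    picPush φ hφ hfin hN (picPull φ hφ hFI x) = finrankAlong K φ • x := by
  obtain ⟨D, rfl⟩ := Pic0.mk_surjective x
  rw [picPull_mk, picPush_mk]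
  show _ = Pic0.mk (finrankAlong K φ • D)
  refine congrArg Pic0.mk (Subtype.ext ?_)
  rw [coe_degZeroPush, coe_degZeroPull, pushforward_pullback φ hφ hFI hdeg hdeg']
  rfl

theorem picPull_smul [HasPrincipalDivisors K F'] (hFI : FundamentalIdentityAlong K φ hφ)
    {g : SemilinearAut K F} {g' : SemilinearAut K F'}
    (h : IntertwinesAlong (φ : F →+* F') g g') (x : Pic0 K F) :
    picPull φ hφ hFI (g • x) = g' • picPull φ hφ hFI x := by
  obtain ⟨D, rfl⟩ := Pic0.mk_surjective x
  rw [picPull_mk, pic0_smul_mk, pic0_smul_mk, picPull_mk]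
  refine congrArg Pic0.mk (Subtype.ext ?_)
  rw [coe_degZeroPull, coe_degZeroSMulHom, coe_degZeroSMulHom, coe_degZeroPull]
  exact Fermat.Agent.Jan.GaloisHecke.pullbackAlong_smul φ hφ h _

theorem picPush_smul (hfin : FiniteAlong K φ) (hN : NormFormulaAlong K φ hfin)
    {g : SemilinearAut K F} {g' : SemilinearAut K F'}
    (h : IntertwinesAlong (φ : F →+* F') g g') (x : Pic0 K F') :
    picPush φ hφ hfin hN (g' • x) = g • picPush φ hφ hfin hN x := by
  obtain ⟨D, rfl⟩ := Pic0.mk_surjective x
  rw [picPush_mk, pic0_smul_mk, pic0_smul_mk, picPush_mk]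
  refine congrArg Pic0.mk (Subtype.ext ?_)
  rw [coe_degZeroPush, coe_degZeroSMulHom, coe_degZeroSMulHom, coe_degZeroPush]
  exact Fermat.Agent.Jan.GaloisHecke.pushforwardAlong_smul φ hφ h _

end Defs

end Fermat.Agent.DR.S36
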