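import Fermat.Agent.DR.S36.SSInst2

/-!
# S36-SS: coordinates of width one

* `width_node`: the coordinates of all annuli of level `qM` have width one, `M` rigid;
* `exists_coord_one`: coordinates of width one;
* `ssCoords`: the structure `SSCoords` for `X₀(M q²)`.
-/

set_option autoImplicit false
set_option linter.unusedSectionVars false

noncomputable section

open AlgebraicCurve ModularCurve Fermat.Agent.RR Fermat.Agent.JRED

namespace Fermat.Agent.DR.S36

open Fermat.Agent.DR Fermat.Agent.DR.Mod Fermat.Agent.DR.Mod2 Fermat.Agent.DR.ModGal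
open Fermat.Agent.JRED.ESGalois Fermat.Agent.JRED.ESSemi
open Fermat.Agent.DR.Nodes (regAlg mem_regAlg exists_mem_of_mem_regAlg mem_regAlg_of_mem)
open S36.L

variable {A : ValuationSubring (AlgebraicClosure ℚ)} {k : Type} [Field k] {π : A →+* k}
  {M q : ℕ} [NeZero M] [hq : Fact q.Prime]
  {w : laurentBaseChange (AlgebraicClosure ℚ) (modularFunctionFieldFull (M * q)) ≃ₐ[AlgebraicClosure ℚ]
      laurentBaseChange (AlgebraicClosure ℚ) (modularFunctionFieldFull (M * q))}
  [FunctionField (AlgebraicClosure ℚ) (modularFunctionFieldBar (M * q))]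
  [FunctionField (AlgebraicClosure ℚ) (modularFunctionFieldBar M)]
  [FunctionField k (modularFunctionFieldFullC k M)] [IsAlgClosed k] [CharP k q]
  {S : Setup π w}
  {X : NodalDatum (AlgebraicClosure ℚ) (modularFunctionFieldBar (M * q)) k
      (modularFunctionFieldFullC k M) (modularFunctionFieldFullC k M) A π}
  {r : Place (AlgebraicClosure ℚ) (modularFunctionFieldBar M) →
    Place k (modularFunctionFieldFullC k M)}
  (hqM : ¬ q ∣ M) (hdeg : DegreeInput M k) (hgood : GoodReduction M k)
  (hr : PlaceRed (hdeg.redDatum S.surj) r)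
  {L : Type} [Field L] [Algebra L (AlgebraicClosure ℚ)] [IsInertiaField A L]

theorem exists_coord_one (hM : Rigid M) (V : NodeUnit S (F0 L (M * q))) (hX : IsModularNodal S X)
    (hA : A.LiesOverPrime q) (s : X.nodes) :
    ∃ C : Mono.Coord (nodePair S hqM hdeg hgood hr s) (q : AlgebraicClosure ℚ),
      C.y ∈ F0 L (M * q) ∧ C.w = 1 := by
  classical
  choose C hC hCw using fun s : X.nodes => exists_coord_node hqM hdeg hgood hr V hX hA s
  obtain ⟨a, -, ha, -⟩ := hX.shift
  have h := width_eq_one hqM hgood hM S.surj (Mono.arch hA S.surj) hX (u := V.u) (u₁ := V.u₁)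
    (u₂ := 0) (by rw [regAlg_eq hX]; exact V.mem_regAlg)
    (by rw [regAlg_eq hX]; exact V.inv_mem_regAlg) (by rw [hX.eq₁]; exact V.red₁)
    (by rw [hX.eq₂]; exact V.red₂_zero) V.u₁_ne (by
      intro P hP
      refine V.pole P ?_
      have h1 : jRed k M ≠ 0 := fun h0 => jRed_transcendental k M (h0 ▸ isAlgebraic_zero)
      have h2 : X.x₁ ≠ 0 := fun h0 => X.transcendental₁ (h0 ▸ isAlgebraic_zero)
      rw [← Fermat.FF.not_mem_iff_ord] at hP ⊢
      rwa [ha, Nodes.mem_sub_algebraMap_iff] at hP) V.deg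
    (fun s => if h : s ∈ X.nodes then (C ⟨s, h⟩).w else 1)
    (by
      intro s hs
      simp only [hs, dif_pos]
      exact (C ⟨s, hs⟩).w_pos)
    (by
      intro s hs
      simp only [hs, dif_pos]
      exact hCw ⟨s, hs⟩)
  refine ⟨C s, hC s, ?_⟩
  have h1 := (h s.1 s.2).1
  simpa only [s.2, dif_pos] using h1

/-- **`SSCoords` for `X₀(M q²)`.** -/
def ssCoords (hM : Rigid M) (V : NodeUnit S (F0 L (M * q))) (hX : IsModularNodal S X)
    (hA : A.LiesOverPrime q)
    (hα : (heckeAlphaBar (AlgebraicClosure ℚ) (M * q) q).toRingHom.IsIntegral)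
    (hβ : (heckeBetaBar (AlgebraicClosure ℚ) (M * q) q).toRingHom.IsIntegral)
    {FL : Type} [Field FL] [Algebra FL (modularFunctionFieldBar (M * q * q))]
    {W : ResVals FL (modularFunctionFieldFullC k M)}
    (D : DegenRes (AlgebraicClosure ℚ) (modularFunctionFieldBar (M * q * q))
      (modularFunctionFieldBar (M * q)) FL k (modularFunctionFieldFullC k M) W (redOne S)
      (redTwo S))
    (hDα : D.α = heckeAlphaBar (AlgebraicClosure ℚ) (M * q) q)
    (hDβ : D.β = heckeBetaBar (AlgebraicClosure ℚ) (M * q) q)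
    (hF₀ : D.F₀ = F0 L (M * q)) (hΦ : ∀ g, D.Φ g = PhiFull k q M g) :
    SSCoords (ssNodes' hqM hdeg hgood hr V hX hA hα hβ) D q where
  C s := (exists_coord_one hqM hdeg hgood hr hM V hX hA s).choose
  w_eq s := (exists_coord_one hqM hdeg hgood hr hM V hX hA s).choose_spec.2
  mem_F₀ s := by
    rw [hF₀]
    exact (exists_coord_one hqM hdeg hgood hr hM V hX hA s).choose_spec.1
  ord_α P := ⟨_, fun f => by rw [hDα]; exact Place.ord_restrictAlong _ hα P f⟩
  ord_β P := ⟨_, fun f => by rw [hDβ]; exact Place.ord_restrictAlong _ hβ P f⟩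
  ord_Φ s g := by
    rw [hΦ]
    show s.1.1.ord _ = q * s.1.2.ord g
    rw [ord_PhiFull, frob_fst hX s]

end Fermat.Agent.DR.S36
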