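import Fermat.Agent.DR.S36.SSMod
import Fermat.Agent.DR.S36.CountMod
import Fermat.Agent.DR.ModGal.FrobCompat
import Fermat.Agent.FrobExists

/-!
# S36-SS: the supersingular points of level `qN` (`q²N`) from the nodal model

* `swap_mem_nodes`: Frobenius exchanges the two branches; `frNode`.
* `ord_PhiFull`: the order of `Φ g`.
* `ssNodes`: the `SSNodes` structure on the nodes.
-/

set_option autoImplicit false
set_option linter.unusedSectionVars false

noncomputable section

open AlgebraicCurve ModularCurve Fermat.Agent.RR Fermat.Agent.JRED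

namespace Fermat.Agent.DR.S36

open Fermat.Agent.DR Fermat.Agent.DR.Mod Fermat.Agent.DR.ModGal
open Fermat.Agent.JRED.ESGalois Fermat.Agent.JRED.ESSemi

section Order

variable {k : Type} [Field k] [IsAlgClosed k] {M q : ℕ} [hq : Fact q.Prime] [CharP k q]

/-- `ord_P (Φ g) = q ord_{φ P} g`. -/
theorem ord_PhiFull [NeZero q] (P : Place k (modularFunctionFieldFullC k M))
    (g : modularFunctionFieldFullC k M) :
    P.ord (PhiFull k q M g) = q * (frobSemi k M q • P).ord g := by
  have h1 : PhiFull k q M g = ((frobSemi k M q)⁻¹ • g) ^ q := by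
    rw [← PhiFull_frobSemi, smul_inv_smul]
  have h2 := SemilinearAut.ord_smul (frobSemi k M q) P ((frobSemi k M q)⁻¹ • g)
  rw [smul_inv_smul] at h2
  rw [h1, ord_pow, h2]

theorem ord_frobSemi (P : Place k (modularFunctionFieldFullC k M))
    (g : modularFunctionFieldFullC k M) :
    (frobSemi k M q • P).ord (frobSemi k M q • g) = P.ord g :=
  SemilinearAut.ord_smul _ _ _

end Order

section Nodes

variable {A : ValuationSubring (AlgebraicClosure ℚ)} {k : Type} [Field k] {π : A →+* k}
  {M q : ℕ} [NeZero M] [hq : Fact q.Prime]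
  {w : laurentBaseChange (AlgebraicClosure ℚ) (modularFunctionFieldFull (M * q)) ≃ₐ[AlgebraicClosure ℚ]
      laurentBaseChange (AlgebraicClosure ℚ) (modularFunctionFieldFull (M * q))}
  [FunctionField (AlgebraicClosure ℚ) (modularFunctionFieldBar (M * q))]
  [FunctionField (AlgebraicClosure ℚ) (modularFunctionFieldBar M)]
  [FunctionField k (modularFunctionFieldFullC k M)] [IsAlgClosed k] [CharP k q]
  {S : Setup π w}
  {X : NodalDatum (AlgebraicClosure ℚ) (modularFunctionFieldBar (M * q)) k
      (modularFunctionFieldFullC k M) (modularFunctionFieldFullC k M) A π}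

theorem smul_node_mem (hX : IsModularNodal S X) {σ : AlgebraicClosure ℚ ≃ₐ[ℚ] AlgebraicClosure ℚ}
    {τ : k ≃+* k} (hτ : IsResidual π σ τ)
    {s : Place k (modularFunctionFieldFullC k M) × Place k (modularFunctionFieldFullC k M)}
    (hs : s ∈ X.nodes) : (coeffSemi M τ • s.1, coeffSemi M τ • s.2) ∈ X.nodes := by
  have i1 : ExpChar k q := ExpChar.prime hq.out
  have i2 : PerfectRing k q := inferInstance
  exact (isCompat_decomposition S hX.eq₁ hX.eq₂ hX.shift hX.complete hτ).nodes s hs

theorem swap_mem_nodes (hX : IsModularNodal S X) (hA : A.LiesOverPrime q)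
    {s : Place k (modularFunctionFieldFullC k M) × Place k (modularFunctionFieldFullC k M)}
    (hs : s ∈ X.nodes) : (s.2, s.1) ∈ X.nodes := by
  have i1 : ExpChar k q := ExpChar.prime hq.out
  have i2 : PerfectRing k q := inferInstance
  obtain ⟨σ, hσ⟩ := Fermat.Agent.FrobExists.exists_isFrobeniusAt A hq.out hA
  have h1 := smul_node_mem hX (isResidual_of_frobenius S.surj hσ (frobeniusEquiv k q)
    (fun x => rfl)) hs
  obtain ⟨h2, h3⟩ := hX.node s hs
  have h4 : coeffSemi M (frobeniusEquiv k q) • s.1 = s.2 := h3.symm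
  have h5 : coeffSemi M (frobeniusEquiv k q) • s.2 = s.1 := h2.symm
  rwa [h4, h5] at h1

/-- Frobenius on the nodes. -/
def frNode (hX : IsModularNodal S X) (hA : A.LiesOverPrime q) (s : X.nodes) : X.nodes :=
  ⟨(s.1.2, s.1.1), swap_mem_nodes hX hA s.2⟩

theorem frNode_frNode (hX : IsModularNodal S X) (hA : A.LiesOverPrime q) (s : X.nodes) :
    frNode hX hA (frNode hX hA s) = s := rfl

theorem frob_fst (hX : IsModularNodal S X) (s : X.nodes) :
    frobSemi k M q • (s.1.1) = s.1.2 := ((hX.node s.1 s.2).2).symm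

theorem frob_snd (hX : IsModularNodal S X) (s : X.nodes) :
    frobSemi k M q • (s.1.2) = s.1.1 := ((hX.node s.1 s.2).1).symm

/-- **The supersingular annuli of level `q² M`.** -/
def ssNodes (hX : IsModularNodal S X) (hA : A.LiesOverPrime q)
    (Np : X.nodes → Mono.PlacePair (redOne S) (redTwo S))
    (h₁ : ∀ s, (Np s).s₁ = s.1.1) (h₂ : ∀ s, (Np s).s₂ = s.1.2)
    (hα : (heckeAlphaBar (AlgebraicClosure ℚ) (M * q) q).toRingHom.IsIntegral)
    (hβ : (heckeBetaBar (AlgebraicClosure ℚ) (M * q) q).toRingHom.IsIntegral)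
    (hα₀ : (heckeAlphaBar (AlgebraicClosure ℚ) M q).toRingHom.IsIntegral)
    (hβ₀ : (heckeBetaBar (AlgebraicClosure ℚ) M q).toRingHom.IsIntegral)
    (r : Place (AlgebraicClosure ℚ) (modularFunctionFieldBar M) →
      Place k (modularFunctionFieldFullC k M))
    (hAnn₁ : ∀ s P', P' ∈ (Np s).Ann ↔
      r (P'.restrictAlong (heckeAlphaBar (AlgebraicClosure ℚ) M q) hα₀) = s.1.1)
    (hAnn₂ : ∀ s P', P' ∈ (Np s).Ann ↔
      r (P'.restrictAlong (heckeBetaBar (AlgebraicClosure ℚ) M q) hβ₀) = s.1.2) :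
    SSNodes (AlgebraicClosure ℚ) (modularFunctionFieldBar (M * q * q))
      (modularFunctionFieldBar (M * q)) k (modularFunctionFieldFullC k M) (redOne S) (redTwo S)
    where
  S := X.nodes
  nonempty_S := X.nodes_nonempty.coe_sort
  fr := frNode hX hA
  fr_fr := frNode_frNode hX hA
  Np := Np
  sp := fun s => s.1.1
  s₁_eq := h₁
  s₂_eq := h₂
  pα := fun P => P.restrictAlong (heckeAlphaBar (AlgebraicClosure ℚ) (M * q) q) hα
  pβ := fun P => P.restrictAlong (heckeBetaBar (AlgebraicClosure ℚ) (M * q) q) hβ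
  mem_ann := mem_ann_iff hα hβ hα₀ hβ₀ (frNode hX hA) (fun s => (Np s).Ann)
    (fun s => {Q | r Q = s.1.1}) hAnn₁ hAnn₂

end Nodes

end Fermat.Agent.DR.S36
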