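import Fermat.Agent.DR.S36.UnitAL
import Fermat.Agent.Q2.OrdSS

/-!
# Integrality of the modular unit and of `j(t^p)` over `ℤ[j(t)]`
-/

set_option autoImplicit false

noncomputable section

open IntermediateField AlgebraicCurve ModularCurve Module Polynomial
open Fermat.Agent.FunField Fermat.Agent.S28 Fermat.Agent.S28.ModPoly

namespace Fermat.Agent.DR.S36.Unit

section Rel

theorem eval_transfer {R : Type*} [CommRing R] {Ω : Type*} [Field Ω] [CharZero Ω]
    (P : ℤ[X][X]) (x y : LaurentSeries ℤ)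
    (h : eval₂ (evJ Ω (coeffMap (Int.castRingHom Ω) x)) (coeffMap (Int.castRingHom Ω) y) P = 0) :
    eval₂ (evJ R (coeffMap (Int.castRingHom R) x)) (coeffMap (Int.castRingHom R) y) P = 0 := by
  have h0 : eval₂ (evJ ℤ x) y P = 0 := by
    apply Fermat.Agent.JRED.coeffMap_injective (f := Int.castRingHom Ω) Int.cast_injective
    rw [map_zero, hom_eval₂, comp_evJ]
    exact h
  have h1 := congrArg (coeffMap (Int.castRingHom R)) h0
  rw [map_zero, hom_eval₂, comp_evJ] at h1
  exact h1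

variable (R : Type*) [CommRing R] (p : ℕ) [hp : Fact p.Prime]

theorem exists_zeta : ∃ ζ : ℂˣ, IsPrimitiveRoot ζ p := by
  have h := Complex.isPrimitiveRoot_exp p hp.out.ne_zero
  obtain ⟨ζ, hζ⟩ := h.isUnit hp.out.ne_zero
  exact ⟨ζ, by rw [← IsPrimitiveRoot.coe_units_iff, hζ]; exact h⟩

section Aux

variable {Ω : Type*} [Field Ω] [CharZero Ω] {ζ : Ωˣ} (hζ : IsPrimitiveRoot ζ p)

include hζ

theorem modPoly_rel_aux : eval₂ (evJ R (jqModC R)) (qExpand R p (jqModC R)) (modPoly p) = 0 := by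
  have h := eval_transfer (R := R) (Ω := Ω) (modPoly p) (jqModC ℤ) (qExpand ℤ p (jqModC ℤ)) (by
    apply qExpand_injective p
    rw [map_zero, hom_eval₂, comp_evJ, coeffMap_jqModC, coeffMap_qExpand, coeffMap_jqModC,
      qExpand_qExpand]
    have h1 := congrArg (eval (qExpand Ω (p * p) (jqModC Ω))) (modPoly_map_eq p Ω ζ hζ)
    rw [eval_map, eval_mul, eval_sub, eval_X, eval_C, sub_self, zero_mul] at h1
    exact h1)
  rw [coeffMap_jqModC, coeffMap_qExpand, coeffMap_jqModC] at h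
  exact h

theorem modPoly_rel_aux' :
    eval₂ (evJ R (qExpand R p (jqModC R))) (jqModC R) (modPoly p) = 0 := by
  have h := eval_transfer (R := R) (Ω := Ω) (modPoly p) (qExpand ℤ p (jqModC ℤ)) (jqModC ℤ) (by
    rw [coeffMap_jqModC, coeffMap_qExpand, coeffMap_jqModC]
    have h1 := congrArg (eval (jqModC Ω)) (modPoly_map_eq p Ω ζ hζ)
    rw [eval_map, eval_mul, eval_prod, Finset.prod_eq_zero
      (Finset.mem_range.mpr hp.out.pos) (by simp), mul_zero] at h1
    exact h1)
  rw [coeffMap_jqModC, coeffMap_qExpand, coeffMap_jqModC] at h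
  exact h

theorem deltaPoly_rel_aux : eval₂ (evJ R (jqModC R))
    ((p : LaurentSeries R) ^ 12 * qExpand R p (L R dz) * dInv R) (deltaPoly p) = 0 := by
  have h := eval_transfer (R := R) (Ω := Ω) (deltaPoly p) (jqModC ℤ)
    ((p : LaurentSeries ℤ) ^ 12 * qExpand ℤ p (L ℤ dz) * dInv ℤ) (by
    rw [map_mul, map_mul, map_pow, map_natCast, coeffMap_jqModC, coeffMap_qExpand, coeffMap_L,
      coeffMap_dInv]
    exact Fermat.Agent.JRED.DeltaRel.eval_none p hζ)
  rw [map_mul, map_mul, map_pow, map_natCast, coeffMap_jqModC, coeffMap_qExpand, coeffMap_L,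
    coeffMap_dInv] at h
  exact h

theorem deltaPoly_rel_aux' : eval₂ (evJ R (qExpand R p (jqModC R)))
    (L R dz * qExpand R p (dInv R)) (deltaPoly p) = 0 := by
  have h := eval_transfer (R := R) (Ω := Ω) (deltaPoly p) (qExpand ℤ p (jqModC ℤ))
    (L ℤ dz * qExpand ℤ p (dInv ℤ)) (by
    rw [map_mul, coeffMap_qExpand, coeffMap_qExpand, coeffMap_jqModC, coeffMap_L, coeffMap_dInv]
    exact Fermat.Agent.JRED.DeltaRel.eval_some p hζ)
  rw [map_mul, coeffMap_qExpand, coeffMap_qExpand, coeffMap_jqModC, coeffMap_L, coeffMap_dInv] at h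
  exact h

end Aux

/-- `Φ_p(j(t), j(t^p)) = 0` -/
theorem modPoly_rel : eval₂ (evJ R (jqModC R)) (qExpand R p (jqModC R)) (modPoly p) = 0 :=
  modPoly_rel_aux R p (exists_zeta p).choose_spec

/-- `Φ_p(j(t^p), j(t)) = 0` -/
theorem modPoly_rel' : eval₂ (evJ R (qExpand R p (jqModC R))) (jqModC R) (modPoly p) = 0 :=
  modPoly_rel_aux' R p (exists_zeta p).choose_spec

/-- `D_p(j(t), p^12 Δ(t^p)/Δ(t)) = 0` -/
theorem deltaPoly_rel : eval₂ (evJ R (jqModC R))
    ((p : LaurentSeries R) ^ 12 * qExpand R p (L R dz) * dInv R) (deltaPoly p) = 0 :=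
  deltaPoly_rel_aux R p (exists_zeta p).choose_spec

/-- `D_p(j(t^p), Δ(t)/Δ(t^p)) = 0` -/
theorem deltaPoly_rel' : eval₂ (evJ R (qExpand R p (jqModC R)))
    (L R dz * qExpand R p (dInv R)) (deltaPoly p) = 0 :=
  deltaPoly_rel_aux' R p (exists_zeta p).choose_spec

end Rel

section Field

variable (K : Type*) [Field K] (p : ℕ) [hp : Fact p.Prime]

omit hp in
theorem L_dz_eq : L K dz = deltaL K := rfl

omit hp in
theorem dInv_eq : dInv K = (deltaL K)⁻¹ := by
  refine eq_inv_of_mul_eq_one_right ?_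
  rw [← L_dz_eq]
  exact L_dz_mul_dInv K

theorem uL_eq : uL K p = L K dz * qExpand K p (dInv K) := by
  rw [uL, dInv_eq, map_inv₀, div_eq_mul_inv, L_dz_eq]

theorem uL_inv_eq : (p : LaurentSeries K) ^ 12 * (uL K p)⁻¹ =
    (p : LaurentSeries K) ^ 12 * qExpand K p (L K dz) * dInv K := by
  rw [uL_inv, dInv_eq, L_dz_eq, div_eq_mul_inv, mul_assoc]

end Field

section Places

/-- evaluation of integral polynomials at `x` -/
def evZ {F : Type*} [CommRing F] (x : F) : ℤ[X] →+* F := eval₂RingHom (Int.castRingHom F) x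

theorem comp_evZ {F E : Type*} [CommRing F] [CommRing E] (f : F →+* E) (x : F) :
    f.comp (evZ x) = evZ (f x) := by
  apply Polynomial.ringHom_ext
  · intro a
    simp [evZ]
  · simp [evZ]

theorem evZ_eq_evJ {K : Type*} [CommRing K] (x : LaurentSeries K) : evZ x = evJ K x := rfl

theorem mem_of_int_rel {F : Type*} [Field F] (A : ValuationSubring F) {x y : F} (hx : x ∈ A)
    {P : ℤ[X][X]} (hP : P.Monic) (h : P.eval₂ (evZ x) y = 0) : y ∈ A := by
  have h1 : evZ x = (A.subtype).comp (evZ (⟨x, hx⟩ : A)) := by rw [comp_evZ]; rfl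
  have h2 : IsIntegral A y := by
    refine ⟨P.map (evZ (⟨x, hx⟩ : A)), hP.map _, ?_⟩
    rw [eval₂_map]
    rw [h1] at h
    exact h
  obtain ⟨z, hz⟩ := IsIntegrallyClosed.isIntegral_iff.mp h2
  rw [← hz]
  exact z.2

variable {K : Type*} [Field K] {F : IntermediateField K (LaurentSeries K)}

/-- relations can be checked on `q`-expansions -/
theorem rel_of_coe {x y : F} {P : ℤ[X][X]}
    (h : P.eval₂ (evJ K (x : LaurentSeries K)) (y : LaurentSeries K) = 0) :
    P.eval₂ (evZ x) y = 0 := by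
  apply (algebraMap F (LaurentSeries K)).injective
  rw [map_zero, hom_eval₂, comp_evZ]
  exact h

variable (p : ℕ) [hp : Fact p.Prime] {x y u : F} (hx : (x : LaurentSeries K) = jqModC K)
  (hy : (y : LaurentSeries K) = qExpand K p (jqModC K)) (hu : (u : LaurentSeries K) = uL K p)
  (A : ValuationSubring F)

include hx hy in
theorem jq_mem_of_j_mem (h : x ∈ A) : y ∈ A := by
  refine mem_of_int_rel A h (modPoly_monic p) (rel_of_coe ?_)
  rw [hx, hy]
  exact modPoly_rel K p

include hx hy in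
theorem j_mem_of_jq_mem (h : y ∈ A) : x ∈ A := by
  refine mem_of_int_rel A h (modPoly_monic p) (rel_of_coe ?_)
  rw [hx, hy]
  exact modPoly_rel' K p

include hx hy in
theorem j_mem_iff_jq_mem : x ∈ A ↔ y ∈ A := ⟨jq_mem_of_j_mem p hx hy A, j_mem_of_jq_mem p hx hy A⟩

include hx hu in
theorem u_inv_mem (h : x ∈ A) : (p : F) ^ 12 * u⁻¹ ∈ A := by
  refine mem_of_int_rel A h (deltaPoly_monic p) (rel_of_coe ?_)
  have : (((p : F) ^ 12 * u⁻¹ : F) : LaurentSeries K) =
      (p : LaurentSeries K) ^ 12 * (u : LaurentSeries K)⁻¹ := rfl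
  rw [this, hx, hu, uL_inv_eq]
  exact deltaPoly_rel K p

include hy hu in
theorem u_mem_of_jq (h : y ∈ A) : u ∈ A := by
  refine mem_of_int_rel A h (deltaPoly_monic p) (rel_of_coe ?_)
  rw [hy, hu, uL_eq]
  exact deltaPoly_rel' K p

include hx hy hu in
theorem u_mem (h : x ∈ A) : u ∈ A := u_mem_of_jq p hy hu A (jq_mem_of_j_mem p hx hy A h)

end Places

section Ord

variable (L : Type) [Field L] [Algebra ℚ L] (M q : ℕ) [NeZero M] [hq : Fact q.Prime]

/-- **No zeros or poles where `j` is finite.** -/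
theorem ord_uF (v : Place L (laurentBaseChange L (modularFunctionFieldFull (M * q))))
    (hv : Fermat.Agent.JRED.jL L (M * q) ∈ v.toValuationSubring) : v.ord (uF L M q) = 0 := by
  have hu : uF L M q ∈ v.toValuationSubring := by
    refine u_mem q (coe_jL _) (y := heckeBetaBar L M q (Fermat.Agent.JRED.jL L M)) ?_
      (coe_uF L M q) _ hv
    rw [coe_heckeBetaBar, coe_jL]
  have hu' := u_inv_mem q (coe_jL _) (coe_uF L M q) v.toValuationSubring hv
  have h0 : CharZero L := algebraRat.charZero L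
  have hq0 : (q : L) ≠ 0 := Nat.cast_ne_zero.mpr hq.out.ne_zero
  have hu2 : (uF L M q)⁻¹ ∈ v.toValuationSubring := by
    have h1 := mul_mem (v.algebraMap_mem' ((q : L) ^ 12)⁻¹) hu'
    rw [map_inv₀, map_pow, map_natCast, inv_mul_cancel_left₀] at h1
    · exact h1
    · exact pow_ne_zero _ (by
        rw [← map_natCast (algebraMap L _), Ne, map_eq_zero]; exact hq0)
  have h1 := Fermat.FF.ord_nonneg_of_mem v hu
  have h2 := Fermat.FF.ord_nonneg_of_mem v hu2
  rw [Place.ord_inv] at h2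
  omega

end Ord

end Fermat.Agent.DR.S36.Unit
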