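import Fermat.Agent.DR.S36.SSInst
import Fermat.Agent.DR.S36.LLift
import Fermat.Agent.DR.S36.UnitInt
import Fermat.Agent.DR.Mod.ModMono
import Fermat.Agent.DR.Mono.Inert

/-!
# S36-SS: the annuli and their coordinates for `X₀(Mq)`

* `alpha_mem_F0`, `beta_mem_F0`, `lifts_F0`: the degeneracy maps and lifting over the inertia field;
* `NodeUnit`: the facts on the modular unit `u = Δ(z)/Δ(qz)` used here;
* `nodePair`: the place pair of a node, `ssNodes'`: the annuli of level `q² M`;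
* `exists_coords`: coordinates of width one.
-/

set_option autoImplicit false
set_option linter.unusedSectionVars false

noncomputable section

open AlgebraicCurve ModularCurve Fermat.Agent.RR Fermat.Agent.JRED

namespace Fermat.Agent.DR.S36

open Fermat.Agent.DR Fermat.Agent.DR.Mod Fermat.Agent.DR.Mod2 Fermat.Agent.DR.ModGal
open Fermat.Agent.JRED.ESGalois Fermat.Agent.JRED.ESSemi
open Fermat.Agent.DR.Nodes (regAlg mem_regAlg exists_mem_of_mem_regAlg mem_regAlg_of_mem)

section F0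

open L

variable {L : Type*} [Field L] [Algebra L (AlgebraicClosure ℚ)] {N : ℕ}

theorem mem_F0_iff_coeff {x : modularFunctionFieldBar N} : x ∈ F0 L N ↔
    ∀ n, (x : LaurentSeries (AlgebraicClosure ℚ)).coeff n ∈
      Set.range (algebraMap L (AlgebraicClosure ℚ)) := by
  constructor
  · rintro ⟨f, rfl⟩ n
    exact coeff_mem_range_of_inc f n
  · exact fun h => exists_inc_eq h

theorem alpha_mem_F0 [NeZero N] {q : ℕ} [NeZero q] {f : modularFunctionFieldBar N} (hf : f ∈ F0 L N) :
    heckeAlphaBar (AlgebraicClosure ℚ) N q f ∈ F0 L (N * q) := by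
  rw [mem_F0_iff_coeff] at hf ⊢
  intro n
  rw [coe_heckeAlphaBar]
  exact hf n

theorem beta_mem_F0 [NeZero N] {q : ℕ} [NeZero q] {f : modularFunctionFieldBar N}
    (hf : f ∈ F0 L N) : heckeBetaBar (AlgebraicClosure ℚ) N q f ∈ F0 L (N * q) := by
  rw [mem_F0_iff_coeff] at hf ⊢
  intro n
  rw [coe_heckeBetaBar]
  by_cases h : (q : ℤ) ∣ n
  · obtain ⟨m, rfl⟩ := h
    rw [qExpand_coeff_mul]
    exact hf m
  · rw [qExpand_coeff_of_not_dvd _ _ h]
    exact ⟨0, map_zero _⟩

end F0

section Nodes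

variable {A : ValuationSubring (AlgebraicClosure ℚ)} {k : Type} [Field k] {π : A →+* k}
  {M q : ℕ} [NeZero M] [hq : Fact q.Prime]
  {w : laurentBaseChange (AlgebraicClosure ℚ) (modularFunctionFieldFull (M * q)) ≃ₐ[AlgebraicClosure ℚ]
      laurentBaseChange (AlgebraicClosure ℚ) (modularFunctionFieldFull (M * q))}
  [FunctionField (AlgebraicClosure ℚ) (modularFunctionFieldBar (M * q))]
  [FunctionField (AlgebraicClosure ℚ) (modularFunctionFieldBar M)]
  [FunctionField k (modularFunctionFieldFullC k M)] [IsAlgClosed k] [CharP k q]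
  {S : Setup π w}
  {X : NodalDatum (AlgebraicClosure ℚ) (modularFunctionFieldBar (M * q)) k
      (modularFunctionFieldFullC k M) (modularFunctionFieldFullC k M) A π}

theorem mem_node_fst (hX : IsModularNodal S X) (s : X.nodes) :
    jRed k M ∈ s.1.1.toValuationSubring := by
  obtain ⟨a, -, ha, -⟩ := hX.shift
  have h1 := X.ord_x₁ s.1 s.2
  have h2 : X.x₁ ≠ 0 := fun h0 => X.transcendental₁ (h0 ▸ isAlgebraic_zero)
  have h3 : X.x₁ ∈ s.1.1.toValuationSubring := (Fermat.FF.mem_iff_ord _ h2).mpr h1.ge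
  rwa [ha, Nodes.mem_sub_algebraMap_iff] at h3

theorem regAlg_eq (hX : IsModularNodal S X) :
    regAlg (AlgebraicClosure ℚ) X.x =
      regAlg (AlgebraicClosure ℚ) (Fermat.Agent.JRED.jL (AlgebraicClosure ℚ) (M * q)) := by
  obtain ⟨a, h, -, -⟩ := hX.shift
  ext f
  rw [mem_regAlg, mem_regAlg]
  simp only [h, Nodes.mem_sub_algebraMap_iff]

variable (S) in
/-- The facts on the modular unit `u = Δ(z) / Δ(qz)` of level `qM`. -/
structure NodeUnit (F₀ : Subfield (modularFunctionFieldBar (M * q))) where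
  u : modularFunctionFieldBar (M * q)
  u₁ : modularFunctionFieldFullC k M
  u₂ : modularFunctionFieldFullC k M
  ne_zero : u ≠ 0
  ord : ∀ P : Place (AlgebraicClosure ℚ) (modularFunctionFieldBar (M * q)),
    Fermat.Agent.JRED.jL (AlgebraicClosure ℚ) (M * q) ∈ P.toValuationSubring → P.ord u = 0
  mem : u ∈ F₀
  u₁_ne : u₁ ≠ 0
  u₂_ne : u₂ ≠ 0
  red₁ : (redOne S).Red u u₁
  red₂ : (redTwo S).Red (algebraMap (AlgebraicClosure ℚ) _
    ((q : AlgebraicClosure ℚ) ^ ((12 : ℕ) : ℤ))⁻¹ * u) u₂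
  pole : ∀ P : Place k (modularFunctionFieldFullC k M), P.ord (jRed k M) < 0 → P.ord u₁ ≤ 0
  deg : Divisor.degree (polesOf (K := k) u₁) = (q - 1) * dedekindPsi M

namespace NodeUnit

variable {F₀ : Subfield (modularFunctionFieldBar (M * q))} (V : NodeUnit S F₀)

include V in
theorem mem_regAlg : V.u ∈ regAlg (AlgebraicClosure ℚ)
    (Fermat.Agent.JRED.jL (AlgebraicClosure ℚ) (M * q)) :=
  fun P hP => (Fermat.FF.mem_iff_ord P V.ne_zero).mpr (V.ord P hP).ge

include V in
theorem inv_mem_regAlg : V.u⁻¹ ∈ regAlg (AlgebraicClosure ℚ)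
    (Fermat.Agent.JRED.jL (AlgebraicClosure ℚ) (M * q)) := by
  intro P hP
  rw [Fermat.FF.mem_iff_ord P (inv_ne_zero V.ne_zero), P.ord_inv, V.ord P hP, neg_zero]

/-- the second reduction of `u` vanishes -/
theorem red₂_zero : (redTwo S).Red V.u 0 := by
  have hmem : ((q : AlgebraicClosure ℚ) ^ 12) ∈ A := pow_mem (natCast_mem A q) 12
  have h0 : π ⟨(q : AlgebraicClosure ℚ) ^ 12, hmem⟩ = 0 := by
    have : (⟨(q : AlgebraicClosure ℚ) ^ 12, hmem⟩ : A) = ((q : ℕ) : A) ^ 12 := rfl
    rw [this, map_pow, map_natCast, CharP.cast_eq_zero, zero_pow (by norm_num)]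
  have h1 := Mono.red_zero_of_mem hmem h0 V.red₂
  have hq0 : (q : AlgebraicClosure ℚ) ≠ 0 := by exact_mod_cast hq.out.ne_zero
  have e : algebraMap (AlgebraicClosure ℚ) (modularFunctionFieldBar (M * q))
      ((q : AlgebraicClosure ℚ) ^ 12) * (algebraMap (AlgebraicClosure ℚ) _
      ((q : AlgebraicClosure ℚ) ^ ((12 : ℕ) : ℤ))⁻¹ * V.u) = V.u := by
    rw [← mul_assoc, ← map_mul, zpow_natCast, mul_inv_cancel₀ (pow_ne_zero _ hq0), map_one,
      one_mul]
  rwa [e] at h1

theorem ord_pos (hX : IsModularNodal S X) (s : X.nodes) :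
    0 < s.1.1.ord V.u₁ := by
  obtain ⟨n, hn⟩ := exists_mem_of_mem_regAlg V.mem_regAlg
  exact hX.ord_pos hn V.red₁ V.u₁_ne V.red₂_zero s.2

end NodeUnit

variable {r : Place (AlgebraicClosure ℚ) (modularFunctionFieldBar M) →
    Place k (modularFunctionFieldFullC k M)}
  (hqM : ¬ q ∣ M) (hdeg : DegreeInput M k) (hgood : GoodReduction M k)
  (hr : PlaceRed (hdeg.redDatum S.surj) r)

theorem inv_ann {F₀ : Subfield (modularFunctionFieldBar (M * q))} (V : NodeUnit S F₀)
    (hX : IsModularNodal S X) (s : X.nodes) :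
    Mono.Inv ((modMono S hqM hdeg hgood hr).Ann s.1.1) V.u := by
  refine ⟨V.ne_zero, fun P hP => V.ord P ?_⟩
  have h4 := (modMono S hqM hdeg hgood hr).αx_mem (mem_node_fst hX s) hP
  rwa [show (modMono S hqM hdeg hgood hr).α (modMono S hqM hdeg hgood hr).x =
      Fermat.Agent.JRED.jL (AlgebraicClosure ℚ) (M * q) from alpha_jBar] at h4

variable (S) in
/-- The place pair of a node. -/
def nodePair (hr : PlaceRed (hdeg.redDatum S.surj) r) (s : X.nodes) : Mono.PlacePair (redOne S) (redTwo S) :=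
  (modMono S hqM hdeg hgood hr).pair s.1.1

theorem nodePair_s₁ (s : X.nodes) : (nodePair S hqM hdeg hgood hr s).s₁ = s.1.1 := rfl

theorem nodePair_s₂ (hX : IsModularNodal S X) (s : X.nodes) :
    (nodePair S hqM hdeg hgood hr s).s₂ = s.1.2 := by
  show (frobSemi k M q)⁻¹ • s.1.1 = s.1.2
  rw [inv_smul_eq_iff, frob_snd hX]

theorem nodePair_Ann (s : X.nodes)
    (P : Place (AlgebraicClosure ℚ) (modularFunctionFieldBar (M * q))) :
    P ∈ (nodePair S hqM hdeg hgood hr s).Ann ↔
      r (P.restrictAlong (heckeAlphaBar (AlgebraicClosure ℚ) M q)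
        (modMono S hqM hdeg hgood hr).integral_α) = s.1.1 := Iff.rfl

theorem nodePair_Ann' {F₀ : Subfield (modularFunctionFieldBar (M * q))} (V : NodeUnit S F₀)
    (hX : IsModularNodal S X) (hA : A.LiesOverPrime q) (s : X.nodes)
    (P : Place (AlgebraicClosure ℚ) (modularFunctionFieldBar (M * q))) :
    P ∈ (nodePair S hqM hdeg hgood hr s).Ann ↔
      r (P.restrictAlong (heckeBetaBar (AlgebraicClosure ℚ) M q)
        (modMono S hqM hdeg hgood hr).integral_β) = s.1.2 := by
  have : Fact (modMono S hqM hdeg hgood hr).q.Prime := hq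
  have : CharP k (modMono S hqM hdeg hgood hr).q := ‹CharP k q›
  have h := (modMono S hqM hdeg hgood hr).mem_Ann_iff (mem_node_fst hX s)
    (inv_ann hqM hdeg hgood hr V hX s) V.red₁ V.u₁_ne (V.ord_pos hX s)
    (Mono.arch hA S.surj) (P := P)
  rw [← frob_fst hX s]
  exact h

/-- The annuli of level `q² M`. -/
def ssNodes' {F₀ : Subfield (modularFunctionFieldBar (M * q))} (V : NodeUnit S F₀)
    (hX : IsModularNodal S X) (hA : A.LiesOverPrime q)
    (hα : (heckeAlphaBar (AlgebraicClosure ℚ) (M * q) q).toRingHom.IsIntegral)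
    (hβ : (heckeBetaBar (AlgebraicClosure ℚ) (M * q) q).toRingHom.IsIntegral) :
    SSNodes (AlgebraicClosure ℚ) (modularFunctionFieldBar (M * q * q))
      (modularFunctionFieldBar (M * q)) k (modularFunctionFieldFullC k M) (redOne S) (redTwo S) :=
  ssNodes hX hA (nodePair S hqM hdeg hgood hr) (fun _ => rfl) (nodePair_s₂ hqM hdeg hgood hr hX)
    hα hβ (modMono S hqM hdeg hgood hr).integral_α (modMono S hqM hdeg hgood hr).integral_β r
    (nodePair_Ann hqM hdeg hgood hr) (nodePair_Ann' hqM hdeg hgood hr V hX hA)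

section Inertia

open S36.L

variable {L : Type} [Field L] [Algebra L (AlgebraicClosure ℚ)] [IsInertiaField A L]

theorem lifts_F0 (hA : A.LiesOverPrime q) : (modMono S hqM hdeg hgood hr).Lifts (F0 L M) := by
  intro u hu
  obtain ⟨f, hf, hfu⟩ := exists_lift_regAlg (L := L) hq.out hA hdeg S.surj hgood
    (x := jRed L M) (xb := jRed k M) (by rw [inc_jRed]; exact redL_j π M)
    (jRed_transcendental k M) hu
  rw [inc_jRed] at hf
  exact ⟨inc L M f, hf, inc_mem_F0 f, hfu⟩

theorem exists_coord_node (V : NodeUnit S (F0 L (M * q))) (hX : IsModularNodal S X)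
    (hA : A.LiesOverPrime q) (s : X.nodes) :
    ∃ C : Mono.Coord (nodePair S hqM hdeg hgood hr s) (q : AlgebraicClosure ℚ),
      C.y ∈ F0 L (M * q) ∧ s.1.1.ord V.u₁ * C.w = 12 := by
  have i1 : Fact (modMono S hqM hdeg hgood hr).q.Prime := hq
  have i2 : CharP k (modMono S hqM hdeg hgood hr).q := ‹CharP k q›
  have i3 : Fermat.FF.IsFF1 k (modularFunctionFieldFullC k M) :=
    Descent.isFF1_of_functionField (K := k) (F := modularFunctionFieldFullC k M)
  have i4 : ExpChar k q := ExpChar.prime hq.out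
  have h := Mono.exists_coord ((modMono S hqM hdeg hgood hr).nodeData (mem_node_fst hX s)
    (inv_ann hqM hdeg hgood hr V hX s) V.red₁ V.u₁_ne (V.ord_pos hX s) (Mono.arch hA S.surj)
    (G₀ := F0 L M) (F₀ := F0 L (M * q)) (lifts_F0 hqM hdeg hgood hr hA)
    (fun z hz => alpha_mem_F0 hz) (fun z hz => beta_mem_F0 hz) (ϖ := (q : AlgebraicClosure ℚ))
    (E := 12) V.mem V.u₂_ne V.red₂) S.surj (Mono.arch hA S.surj)
    (discData_two (L := L) S hq.out hA)
  obtain ⟨C, h1, h2⟩ := h
  exact ⟨C, h1, h2⟩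

end Inertia

end Nodes

end Fermat.Agent.DR.S36
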