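import Fermat.Agent.DR.S36.PtsCtx

/-!
# `Points.U_iff`, direction `⇒`: integral functions which do not vanish at the node `s` have no
zeros on `U s`.
-/

set_option autoImplicit false
set_option linter.unusedSectionVars false

noncomputable section

open AlgebraicCurve ModularCurve Fermat.Agent.RR Fermat.Agent.JRED

namespace Fermat.Agent.DR.S36

open Fermat.Agent.DR Fermat.Agent.DR.Mod Fermat.Agent.DR.Mod2 Fermat.Agent.DR.ModGal
open Fermat.Agent.JRED.ESGalois Fermat.Agent.JRED.ESSemi Fermat.Agent.Q2.Ord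
open S36.L S36.Unit
open Fermat.Agent.Q2 (Ctx)
open Fermat.Agent.Jan.HeckeNorm (normAlong)

local notation "ℚbar" => AlgebraicClosure ℚ

attribute [local instance] Fermat.Agent.DR.S36.L.algInc

section Abs

open Classical in
/-- A nonnegative divisor with zero push-forward value at `Q` vanishes above `Q`. -/
theorem mapDomain_nonneg_zero {α β : Type*} (f : α → β) (E : α →₀ ℤ) {Q : β}
    (h0 : ∀ P, f P = Q → 0 ≤ E P) :
    0 ≤ Finsupp.mapDomain f E Q ∧
      (Finsupp.mapDomain f E Q = 0 → ∀ P, f P = Q → E P = 0) := by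
  have key : Finsupp.mapDomain f E Q = ∑ P ∈ E.support with f P = Q, E P := by
    rw [Finsupp.mapDomain, Finsupp.sum_apply, Finsupp.sum, Finset.sum_filter]
    refine Finset.sum_congr rfl fun P _ => ?_
    rw [Finsupp.single_apply]
  rw [key]
  refine ⟨Finset.sum_nonneg fun P hP => h0 P (Finset.mem_filter.mp hP).2, fun h P hP => ?_⟩
  by_contra hne
  exact hne ((Finset.sum_eq_zero_iff_of_nonneg (fun P' hP' =>
    h0 P' (Finset.mem_filter.mp hP').2)).mp h P
      (Finset.mem_filter.mpr ⟨Finsupp.mem_support_iff.mpr hne, hP⟩))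

end Abs

variable {A : ValuationSubring ℚbar} {k : Type} [Field k]
  {N q : ℕ} [NeZero N] [hq : Fact q.Prime] [hchar : CharP k q] [IsAlgClosed k]
  {π : A →+* k}
  {w₁ : laurentBaseChange ℚbar (modularFunctionFieldFull (N * q)) ≃ₐ[ℚbar]
      laurentBaseChange ℚbar (modularFunctionFieldFull (N * q))}
  {w₂ : laurentBaseChange ℚbar (modularFunctionFieldFull (N * q * q)) ≃ₐ[ℚbar]
      laurentBaseChange ℚbar (modularFunctionFieldFull (N * q * q))}
  (c : Ctx π w₁ w₂) {L : Type} [Field L] [Algebra L ℚbar] [IsInertiaField A L]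
  [FunctionField ℚbar (modularFunctionFieldBar (N * q * q))]
  [FunctionField ℚbar (modularFunctionFieldBar (N * q))]
  [FunctionField ℚbar (modularFunctionFieldBar N)]
  [FunctionField k (modularFunctionFieldFullC k N)]
  {X : NodalDatum ℚbar (modularFunctionFieldBar (N * q)) k
      (modularFunctionFieldFullC k N) (modularFunctionFieldFullC k N) A π}
  {r : Place ℚbar (modularFunctionFieldBar N) → Place k (modularFunctionFieldFullC k N)}
  (hdeg : DegreeInput N k) (hgood : GoodReduction N k)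
  (hr : PlaceRed (hdeg.redDatum c.S.surj) r) (hX : IsModularNodal c.S X)
  (hα : (heckeAlphaBar ℚbar (N * q) q).toRingHom.IsIntegral)
  (hβ : (heckeBetaBar ℚbar (N * q) q).toRingHom.IsIntegral)

/-- **No zeros on `U s`.** -/
theorem ctx_ord_eq_zero (s : (ctxNodes c L hdeg hgood hr hX hα hβ).S)
    (b : modularFunctionFieldFullC L (N * q * q)) (g : Fin 3 → modularFunctionFieldFullC k N)
    (hg : ∀ i, (c.V L).Res i b (g i)) {a : k} (ha0 : a ≠ 0)
    (ha : ∀ i, Val ((ctxNodes c L hdeg hgood hr hX hα hβ).sp s) (g i) a)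
    (hb : ∀ P ∈ (ctxNodes c L hdeg hgood hr hX hα hβ).U s,
      inc L (N * q * q) b ∈ P.toValuationSubring)
    {P : Place ℚbar (modularFunctionFieldBar (N * q * q))}
    (hP : P ∈ (ctxNodes c L hdeg hgood hr hX hα hβ).U s) :
    P.ord (inc L (N * q * q) b) = 0 := by
  have hg0 : ∀ i, g i ≠ 0 := fun i => ((ha i).ord_eq_zero ha0).1
  have hb0 : b ≠ 0 := ((c.V L).w_eq_zero 0 _ _ (hg 0) (hg0 0)).1
  have hi0 : inc L (N * q * q) b ≠ 0 := by rwa [Ne, inc_eq_zero]
  have hone : ∀ i, (c.V L).Res i ((q : modularFunctionFieldFullC L (N * q * q)) ^ (0 : ℤ) * b)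
      (g i) := fun i => by rw [zpow_zero, one_mul]; exact hg i
  have h1 := ctx_normα₁ c b 0 0 (g 0) (g 1) (hone 0) (hone 1)
  have h2 := ctx_normα₂ c b 0 (g 2) (hone 2)
  rw [mul_zero, add_zero, zpow_zero, one_mul] at h1
  rw [mul_zero, zpow_zero, one_mul] at h2
  set G := normAlong (heckeAlphaBar ℚbar (N * q) q) (inc L (N * q * q) b) with hG
  have hu1 : g 0 * g 1 ^ (q - 1) ≠ 0 := mul_ne_zero (hg0 0) (pow_ne_zero _ (hg0 1))
  have hu2 : frobR k N q (g 2) ≠ 0 := (_root_.map_ne_zero _).mpr (hg0 2)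
  have hG0 : G ≠ 0 := RedDatum.ne_zero_of_red h1 hu1
  obtain ⟨E, hE⟩ : ∃ E : Divisor ℚbar (modularFunctionFieldBar (N * q * q)),
      ∀ P, E P = P.ord (inc L (N * q * q) b) :=
    ⟨divOf (inc L (N * q * q) b), fun P => divOf_apply _ _⟩
  have hnorm : ∀ Q : Place ℚbar (modularFunctionFieldBar (N * q)),
      Finsupp.mapDomain (fun P : Place ℚbar (modularFunctionFieldBar (N * q * q)) =>
        P.restrictAlong (heckeAlphaBar ℚbar (N * q) q) hα) E Q = Q.ord G := fun Q =>
    norm_ord _ hα _ (normFormula_modular ℚbar _) hi0 hE Q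
  have hpos : ∀ Q ∈ (ctxNodes c L hdeg hgood hr hX hα hβ).Aα s,
      ∀ P : Place ℚbar (modularFunctionFieldBar (N * q * q)),
      P.restrictAlong (heckeAlphaBar ℚbar (N * q) q) hα = Q → 0 ≤ E P := by
    intro Q hQ P hPQ
    have h3 : P ∈ (ctxNodes c L hdeg hgood hr hX hα hβ).U s := by
      rw [mem_ctxU, hPQ]
      exact hQ
    rw [hE]
    exact (Fermat.FF.mem_iff_ord P hi0).mp (hb P h3)
  -- orders of the norm
  have hPF : Mono.PF ((ctxNodes c L hdeg hgood hr hX hα hβ).Np s).Ann G := by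
    intro Q hQ
    rw [Fermat.FF.mem_iff_ord Q hG0, ← hnorm Q]
    exact (mapDomain_nonneg_zero _ E (hpos Q hQ)).1
  have ho1 : ((ctxNodes c L hdeg hgood hr hX hα hβ).sp s).ord (g 0 * g 1 ^ (q - 1)) = 0 :=
    (((ha 0).mul ((ha 1).pow (q - 1))).ord_eq_zero (mul_ne_zero ha0 (pow_ne_zero _ ha0))).2
  have ho2 : ((ctxNodes c L hdeg hgood hr hX hα hβ).sq s).ord (frobR k N q (g 2)) = 0 :=
    ((ctx_sq_φ c hdeg hgood hr hX hα hβ s (g 2) a (ha 2)).ord_eq_zero (pow_ne_zero _ ha0)).2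
  have hsum : Mono.annSum ((ctxNodes c L hdeg hgood hr hX hα hβ).Np s).Ann G = 0 := by
    rw [((ctxNodes c L hdeg hgood hr hX hα hβ).Np s).norm G hG0,
      (ctxNodes c L hdeg hgood hr hX hα hβ).s₁_eq s,
      (ctxNodes c L hdeg hgood hr hX hα hβ).s₂_eq s,
      Mono.o_eq' _ c.S.surj h1 hu1, Mono.o_eq' _ c.S.surj h2 hu2]
    rw [ho1]
    exact (zero_add _).trans ho2
  have hinv := Mono.inv_of_annSum_eq_zero hG0 hPF hsum
  have hQ : P.restrictAlong (heckeAlphaBar ℚbar (N * q) q) hα ∈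
      (ctxNodes c L hdeg hgood hr hX hα hβ).Aα s := (mem_ctxU c hdeg hgood hr hX hα hβ s P).mp hP
  have h4 := hinv.2 _ hQ
  rw [← hnorm] at h4
  rw [← hE]
  exact (mapDomain_nonneg_zero _ E (hpos _ hQ)).2 h4 P rfl

/-- **`Points.U_iff`, direction `⇒`.** -/
theorem pts_U_fwd (s : (ctxNodes c L hdeg hgood hr hX hα hβ).S)
    (P : Place ℚbar (modularFunctionFieldBar (N * q * q)))
    (hP : P ∈ (ctxNodes c L hdeg hgood hr hX hα hβ).U s) :
    algebraMap (modularFunctionFieldFullC L (N * q * q)) (modularFunctionFieldBar (N * q * q))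
        (jE₁ L N q * jE₃ L N q) ∈ P.toValuationSubring ∧
    ∀ b u, (surf c L).Hol (jE₁ L N q * jE₃ L N q) b → ((surf c L).V 0).Res b u →
      ¬ Val ((ctxNodes c L hdeg hgood hr hX hα hβ).sp s) u 0 →
      P.ord (algebraMap (modularFunctionFieldFullC L (N * q * q))
        (modularFunctionFieldBar (N * q * q)) b) = 0 := by
  have hx : ∀ P ∈ (ctxNodes c L hdeg hgood hr hX hα hβ).U s,
      algebraMap (modularFunctionFieldFullC L (N * q * q)) (modularFunctionFieldBar (N * q * q))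
        (jE₁ L N q * jE₃ L N q) ∈ P.toValuationSubring := by
    intro P hP
    have h1 := jE_mem_of_mem_U c hdeg hgood hr hX hα hβ s hP
    rw [← inc_chart L N q] at h1
    exact h1
  refine ⟨hx P hP, fun b u hb hu hu0 => ?_⟩
  obtain ⟨a, ha⟩ := pts_glue c hdeg hgood hr hX hα hβ s b hb
  choose g hg using fun i => (c.comp L i).exists_res (hb.1 i)
  have ha0 : a ≠ 0 := by
    rintro rfl
    exact hu0 (ha 0 u hu)
  exact ctx_ord_eq_zero c hdeg hgood hr hX hα hβ s b g hg ha0 (fun i => ha i _ (hg i))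
    (fun P hP => hb.2 P (hx P hP)) hP

end Fermat.Agent.DR.S36
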