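import Fermat.Agent.JRED.GenusWrap
import Fermat.Agent.FunField.Quot
import Fermat.Agent.DR.Mod.SetupExists

/-!
# The modular unit `u = Δ(t)/Δ(t^q)` of `X₀(Mq)` and its image under the Atkin-Lehner involution
-/

set_option autoImplicit false

noncomputable section

open IntermediateField AlgebraicCurve ModularCurve Module
open Fermat.Agent.JRED.SeparableTheta Fermat.Agent.JRED.GenusBound Fermat.Agent.FunField

namespace Fermat.Agent.DR.S36.Unit

section Abstract

variable {K F E : Type*} [Field K] [Field F] [Algebra K F] [Field E] [Algebra F E] [Algebra K E]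
  [IsScalarTower K F E]

/-- `D / D t` as a derivation of `F`. -/
theorem exists_derDiv (D : Derivation K F E) (t : F) [Algebra.IsSeparable K⟮t⟯ F] (ht : D t ≠ 0) :
    ∃ δ : Derivation K F F, δ t = 1 ∧ ∀ x, D x = algebraMap F E (δ x) * D t := by
  have h1 : ∀ x, ∃ f : F, D x = algebraMap F E f * D t := fun x => by
    obtain ⟨f, hf⟩ := exists_smul_eq D t x
    exact ⟨f, by rw [hf, Algebra.smul_def]⟩
  choose f hf using h1
  have hinj : ∀ a b : F, algebraMap F E a * D t = algebraMap F E b * D t → a = b := fun a b h =>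
    (algebraMap F E).injective (mul_right_cancel₀ ht h)
  refine ⟨{ toFun := f
            map_add' := fun a b => hinj _ _ ?_
            map_smul' := fun c a => hinj _ _ ?_
            map_one_eq_zero' := hinj _ _ ?_
            leibniz' := fun a b => hinj _ _ ?_ }, ?_, hf⟩
  · rw [← hf, map_add, map_add, add_mul, ← hf, ← hf]
  · rw [← hf, D.map_smul, RingHom.id_apply, hf a, Algebra.smul_def c (f a), map_mul,
      ← IsScalarTower.algebraMap_apply, Algebra.smul_def, mul_assoc]
  · show algebraMap F E (f 1) * D t = algebraMap F E 0 * D t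
    rw [← hf, map_zero, zero_mul, D.map_one_eq_zero]
  · show algebraMap F E (f (a * b)) * D t = algebraMap F E (a • f b + b • f a) * D t
    rw [← hf, D.leibniz, hf a, hf b, Algebra.smul_def, Algebra.smul_def, smul_eq_mul, smul_eq_mul,
      map_add, map_mul, map_mul]
    ring
  · show f t = 1
    apply hinj
    rw [← hf, map_one, one_mul]

/-- If the automorphism `w` exchanges `x` and `y` then `w (dy/dx) = (dy/dx)⁻¹`. -/
theorem der_symm (δ : Derivation K F F) {x y : F} [Algebra.IsSeparable K⟮x⟯ F] (hx : δ x = 1)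
    (w : F ≃ₐ[K] F) (hxy : w x = y) (hyx : w y = x) : w (δ y) * δ y = 1 := by
  -- the derivation `w⁻¹ δ w`
  let D' : Derivation K F F :=
    { toFun := fun z => w.symm (δ (w z))
      map_add' := fun a b => by rw [map_add, map_add, map_add]
      map_smul' := fun c a => by rw [map_smul, δ.map_smul, map_smul, RingHom.id_apply]
      map_one_eq_zero' := by
        show w.symm (δ (w 1)) = 0
        rw [map_one, δ.map_one_eq_zero, map_zero]
      leibniz' := fun a b => by
        show w.symm (δ (w (a * b))) = a • w.symm (δ (w b)) + b • w.symm (δ (w a))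
        rw [map_mul, δ.leibniz, map_add, smul_eq_mul, smul_eq_mul, map_mul, map_mul,
          AlgEquiv.symm_apply_apply, AlgEquiv.symm_apply_apply, smul_eq_mul, smul_eq_mul] }
  have hD : ∀ z, D' z = w.symm (δ (w z)) := fun z => rfl
  have hE : D' - (D' x) • δ = 0 := by
    refine derivation_eq_zero _ (t := x) ?_
    show D' x - (D' x) • δ x = 0
    rw [hx, smul_eq_mul, mul_one, sub_self]
  have h1 : D' y - (D' x) * δ y = 0 := by
    have := congrArg (fun E : Derivation K F F => E y) hE
    exact this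
  rw [hD, hD, hyx, hxy, hx, map_one, sub_eq_zero] at h1
  have h2 := congrArg w h1
  rw [map_one, map_mul, AlgEquiv.apply_symm_apply] at h2
  rw [mul_comm, ← h2]

end Abstract

section Def

variable (L : Type*) [Field L]

/-- `Δ(t)/Δ(t^q)` -/
def uL (q : ℕ) [NeZero q] : LaurentSeries L := deltaL L / qExpand L q (deltaL L)

variable (q : ℕ) [NeZero q]

theorem qExpand_deltaL_ne_zero : qExpand L q (deltaL L) ≠ 0 :=
  (map_ne_zero (qExpand L q)).mpr (deltaL_ne_zero L)

theorem uL_ne_zero : uL L q ≠ 0 := div_ne_zero (deltaL_ne_zero L) (qExpand_deltaL_ne_zero L q)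

theorem uL_inv : (uL L q)⁻¹ = qExpand L q (deltaL L) / deltaL L := inv_div _ _

variable {L} in
theorem coeffMap_uL {L' : Type*} [Field L'] (f : L →+* L') : coeffMap f (uL L q) = uL L' q := by
  rw [uL, map_div₀, coeffMap_qExpand, coeffMap_deltaL, uL]

theorem uL_mem_fullC [CharZero L] (M : ℕ) [NeZero M] :
    uL L q ∈ modularFunctionFieldFullC L (M * q) := by
  have h := deltaRatio_mem L q
  rw [← uL_inv] at h
  have h2 : uL L q ∈ IntermediateField.adjoin L {jqModC L, qExpand L q (jqModC L)} := by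
    have := inv_mem h
    rwa [inv_inv] at this
  refine (IntermediateField.adjoin_le_iff.mpr ?_ : _ ≤ modularFunctionFieldFullC L (M * q)) h2
  rintro _ (rfl | rfl)
  · exact jqModC_mem_full L (M * q)
  · exact jqModCd_mem_full L (M * q) (dvd_mul_left q M)

end Def

section AL

variable (L : Type) [Field L] [Algebra ℚ L] (M q : ℕ) [NeZero M] [NeZero q]

theorem uL_mem : uL L q ∈ laurentBaseChange L (modularFunctionFieldFull (M * q)) := by
  have : CharZero L := algebraRat.charZero L
  rw [Fermat.Agent.MFF.laurentBaseChange_full]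
  exact uL_mem_fullC L q M

/-- The modular unit as a function on `X₀(Mq)`. -/
def uF : laurentBaseChange L (modularFunctionFieldFull (M * q)) := ⟨uL L q, uL_mem L M q⟩

theorem coe_uF : (uF L M q : LaurentSeries L) = uL L q := rfl

theorem uF_ne_zero : uF L M q ≠ 0 := fun h => uL_ne_zero L q (congrArg Subtype.val h)

variable {L M q}

theorem coe_jL (N : ℕ) [NeZero N] : (Fermat.Agent.JRED.jL L N : LaurentSeries L) = jqModC L := by
  change coeffMap _ (jqModC ℚ) = _
  rw [coeffMap_jqModC]

theorem isSeparable_jL (N : ℕ) [NeZero N] : Algebra.IsSeparable L⟮Fermat.Agent.JRED.jL L N⟯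
    (laurentBaseChange L (modularFunctionFieldFull N)) := by
  have : CharZero L := algebraRat.charZero L
  have := (Fermat.Agent.DR.Mod.finrank_jL L N).1
  infer_instance

theorem aux_ne_zero {L : Type*} [Field L] [CharZero L] {F : IntermediateField L (LaurentSeries L)}
    {x : F} (hx : (x : LaurentSeries L) = jqModC L) : x ≠ 0 ∧ x - 1728 ≠ 0 := by
  constructor
  · rintro rfl
    exact jqModC_ne_zero' (hx.symm.trans rfl)
  · intro h
    have h1 : ((x - 1728 : F) : LaurentSeries L) = 0 := by rw [h]; rfl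
    have h2 : (x : LaurentSeries L) - 1728 = 0 := h1
    rw [hx] at h2
    exact jqModC_sub_ne_zero L h2

theorem mul_w_aux {L : Type*} [Field L] [CharZero L] {F : IntermediateField L (LaurentSeries L)}
    (q : ℕ) [NeZero q] {x y u : F} (hxc : (x : LaurentSeries L) = jqModC L)
    (hyc : (y : LaurentSeries L) = qExpand L q (jqModC L)) (huc : (u : LaurentSeries L) = uL L q)
    [Algebra.IsSeparable L⟮x⟯ F] (w : F ≃ₐ[L] F) (hwx : w x = y) (hwy : w y = x) :
    u * w u = (q : F) ^ 12 := by
  have hθ : thetaDer F x ≠ 0 := by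
    rw [thetaDer_apply, hxc]
    exact thetaD_jqModC_ne_zero L
  obtain ⟨δ, hδx, hδ⟩ := exists_derDiv (thetaDer F) x hθ
  have h1 := der_symm δ hδx w hwx hwy
  obtain ⟨hx0, hx1⟩ := aux_ne_zero hxc
  have hy0 : y ≠ 0 := by rw [← hwx]; exact (map_ne_zero w).mpr hx0
  have hy1 : y - 1728 ≠ 0 := by
    have : y - 1728 = w (x - 1728) := by rw [map_sub, hwx, map_ofNat]
    rw [this]; exact (map_ne_zero w).mpr hx1
  -- `δ y ^ 6 = q ^ 6 ...`
  have h2 : (δ y) ^ 6 * (x ^ 4 * (x - 1728) ^ 3) * u =
      (q : F) ^ 6 * (y ^ 4 * (y - 1728) ^ 3) := by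
    apply Subtype.ext
    show ((δ y : F) : LaurentSeries L) ^ 6 * ((x : LaurentSeries L) ^ 4 *
      ((x : LaurentSeries L) - 1728) ^ 3) * (u : LaurentSeries L) = (q : LaurentSeries L) ^ 6 *
      ((y : LaurentSeries L) ^ 4 * ((y : LaurentSeries L) - 1728) ^ 3)
    have h3 : thetaD L (y : LaurentSeries L) = ((δ y : F) : LaurentSeries L) *
      thetaD L (x : LaurentSeries L) := hδ y
    have h4 := qExpand_deltaL L q
    rw [← hyc, h3, hxc, mul_pow, thetaD_jqModC_pow] at h4
    have hD := qExpand_deltaL_ne_zero L q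
    have hD' := deltaL_ne_zero L
    rw [hxc, huc, uL, mul_div_assoc', div_eq_iff hD]
    linear_combination h4
  have h3 := congrArg w h2
  simp only [map_mul, map_pow, map_sub, map_ofNat, map_natCast, hwx, hwy] at h3
  have h4 : ((δ y) ^ 6 * (x ^ 4 * (x - 1728) ^ 3) * u) *
      ((w (δ y)) ^ 6 * (y ^ 4 * (y - 1728) ^ 3) * w u) =
      ((q : F) ^ 6 * (y ^ 4 * (y - 1728) ^ 3)) * ((q : F) ^ 6 * (x ^ 4 * (x - 1728) ^ 3)) := by
    rw [h2, h3]
  have h5 : (δ y) ^ 6 * (w (δ y)) ^ 6 = 1 := by
    rw [← mul_pow, mul_comm, h1, one_pow]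
  have h6 : (u * w u) * ((x ^ 4 * (x - 1728) ^ 3) * (y ^ 4 * (y - 1728) ^ 3)) =
      (q : F) ^ 12 * ((x ^ 4 * (x - 1728) ^ 3) * (y ^ 4 * (y - 1728) ^ 3)) := by
    linear_combination h4 - (u * w u) *
      ((x ^ 4 * (x - 1728) ^ 3) * (y ^ 4 * (y - 1728) ^ 3)) * h5
  exact mul_right_cancel₀ (mul_ne_zero (mul_ne_zero (pow_ne_zero _ hx0) (pow_ne_zero _ hx1))
    (mul_ne_zero (pow_ne_zero _ hy0) (pow_ne_zero _ hy1))) h6

open Fermat.Agent.DR.Mod in
/-- **`w u = q^12 / u`** for the Atkin-Lehner automorphism `w` at `q`. -/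
theorem uF_mul_w {w : laurentBaseChange L (modularFunctionFieldFull (M * q)) ≃ₐ[L]
      laurentBaseChange L (modularFunctionFieldFull (M * q))} (hw : IsAL w) :
    uF L M q * w (uF L M q) = (q : laurentBaseChange L (modularFunctionFieldFull (M * q))) ^ 12 := by
  have h0 : CharZero L := algebraRat.charZero L
  have := isSeparable_jL (L := L) (M * q)
  refine mul_w_aux q (coe_jL _) (y := heckeBetaBar L M q (Fermat.Agent.JRED.jL L M)) ?_
    (coe_uF L M q) w ?_ ?_
  · rw [coe_heckeBetaBar, coe_jL]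
  · rw [← alpha_jL, hw.alpha]
  · rw [hw.beta, alpha_jL]

open Fermat.Agent.DR.Mod in
theorem w_uF {w : laurentBaseChange L (modularFunctionFieldFull (M * q)) ≃ₐ[L]
      laurentBaseChange L (modularFunctionFieldFull (M * q))} (hw : IsAL w) :
    w (uF L M q) =
      (q : laurentBaseChange L (modularFunctionFieldFull (M * q))) ^ 12 * (uF L M q)⁻¹ := by
  rw [eq_mul_inv_iff_mul_eq₀ (uF_ne_zero L M q)]
  exact (mul_comm _ _).trans (uF_mul_w hw)

end AL

end Fermat.Agent.DR.S36.Unit
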